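import Fermat.Agent.LanglandsTunnell.Local.RamifiedPrimes

/-!
# The places over the bad primes

An unramified prime of `M` over a bad prime splits completely over `E`; only `2` can be bad and
ramified, and then it has a single prime of `M` over it. See `unique_place_of_isBad_ram`.
-/

set_option autoImplicit false
set_option maxSynthPendingDepth 3

noncomputable section

namespace FLTAgent.LanglandsTunnell.Local

open FLTAgent.LanglandsTunnell FLTAgent.LanglandsTunnell.Isolation NumberField Matrix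
open FLTAgent.LanglandsTunnell.CFT (PlaceOver)
open FLTAgent.Density FLTAgent.ExtVanishing
open scoped Pointwise

variable {D : Datum}

theorem sq_detNegOne_entries : ∀ a b c d : ZMod 3, a * d - b * c = -1 →
    ((!![a, b; c, d] : Matrix (Fin 2) (Fin 2) (ZMod 3)) * !![a, b; c, d]).trace = 0 ∨
      (!![a, b; c, d] : Matrix (Fin 2) (Fin 2) (ZMod 3)) * !![a, b; c, d] = 1 ∨
      (!![a, b; c, d] : Matrix (Fin 2) (Fin 2) (ZMod 3)) * !![a, b; c, d] = -1 := by
  decide +kernel

set_option synthInstance.maxSize 1000 in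
theorem commute_entries : ∀ e f k l : ZMod 3, e * l - f * k = 1 →
    ∀ a b c d : ZMod 3, a * d - b * c = 1 → a + d = 0 →
      (!![e, f; k, l] : Matrix (Fin 2) (Fin 2) (ZMod 3)) * !![a, b; c, d] * !![l, -f; -k, e] *
          !![a, b; c, d] =
        !![a, b; c, d] *
          ((!![e, f; k, l] : Matrix (Fin 2) (Fin 2) (ZMod 3)) * !![a, b; c, d] *
            !![l, -f; -k, e]) →
      e + l = 0 ∨ (!![e, f; k, l] : Matrix (Fin 2) (Fin 2) (ZMod 3)) = 1 ∨
        (!![e, f; k, l] : Matrix (Fin 2) (Fin 2) (ZMod 3)) = -1 := by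
  decide +kernel

/-- The square of an element of determinant `-1` lies in the quaternion group. -/
theorem inQ8_mul_self {g : GL (Fin 2) (ZMod 3)} (hg : g.1.det = -1) : InQ8 (g * g) := by
  refine ⟨by rw [Units.val_mul, det_mul, hg, neg_one_mul, neg_neg], ?_⟩
  rw [Units.val_mul, eta_fin_two g.1]
  rw [det_fin_two] at hg
  exact sq_detNegOne_entries _ _ _ _ hg

/-- An element of determinant one moving an element of order `4` to one commuting with it lies in
the quaternion group. -/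
theorem inQ8_of_commute {g x : GL (Fin 2) (ZMod 3)} (hg : g.1.det = 1) (hx : x.1.det = 1)
    (ht : x.1.trace = 0) (h : Commute (g * x * g⁻¹) x) : InQ8 g := by
  refine ⟨hg, ?_⟩
  have hinv : (g⁻¹).1 = g.1.adjugate :=
    Units.inv_eq_of_mul_eq_one_right (by rw [mul_adjugate, hg, one_smul])
  have h' := congrArg Units.val h.eq
  simp only [Units.val_mul] at h'
  rw [hinv, adjugate_fin_two, eta_fin_two g.1, eta_fin_two x.1] at h'
  simp only [of_apply, cons_val', cons_val_zero, cons_val_one, cons_val_fin_one] at h'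
  rw [det_fin_two] at hg hx
  rw [trace_fin_two] at ht ⊢
  have := commute_entries _ _ _ _ hg _ _ _ _ hx ht h'
  rwa [← eta_fin_two g.1] at this

theorem mul_self_mem_galM {g : GQ} (hg : (D.ρ g).1.det = -1) : g * g ∈ D.galM :=
  (mem_galM D).mpr (by rw [map_mul]; exact inQ8_mul_self hg)

/-- At every place over a bad prime some inertia element in the group of `M` acts nontrivially. -/
theorem exists_inertia_galM_of_isBad {q : ℕ} (hb : D.IsBad q) {A : ValuationSubring QB}
    (hA : A.LiesOverPrime q) :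
    ∃ i ∈ A.inertiaSubgroupIn ℚ, i ∈ D.galM ∧ D.ρ i ≠ 1 := by
  obtain ⟨hq, -, B, hB, j, hj, hjM, hne⟩ := hb
  obtain ⟨τ, rfl⟩ := Density.exists_smul_eq_of_liesOverPrime hq hB hA
  refine ⟨τ * j * τ⁻¹, mem_inertiaSubgroupIn_smul hj τ, ?_, fun h => hne ?_⟩
  · rw [mem_galM, map_mul, map_mul, map_inv]
    exact inQ8_conj ((mem_galM D).mp hjM)
  · rwa [map_mul, map_mul, map_inv, conj_eq_one_iff] at h

/-- At an odd bad prime inertia is commutative and contains an element of trace zero. -/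
theorem exists_trace_zero_of_isBad {q : ℕ} (hb : D.IsBad q) (h2 : q ≠ 2)
    {A : ValuationSubring QB} (hA : A.LiesOverPrime q) :
    ∃ x ∈ A.inertiaSubgroupIn ℚ, (D.ρ x).1.trace = 0 ∧
      ∀ i ∈ A.inertiaSubgroupIn ℚ, Commute (D.ρ i) (D.ρ x) := by
  obtain ⟨j, hj, hjM, hj1⟩ := exists_inertia_galM_of_isBad hb hA
  have hnu : ¬ ∀ i ∈ A.inertiaSubgroupIn ℚ,
      ((D.ρ i).1 - 1) * ((D.ρ i).1 - 1) = 0 := fun hu => by
    obtain ⟨hd, h8⟩ := (mem_galM D).mp hjM
    have h0 : ((D.ρ j).1 - 1).det = 0 := mul_self_eq_zero.mp (by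
      rw [← det_mul, hu j hj, det_zero])
    rw [eta_fin_two (D.ρ j).1] at hd h8 h0
    rw [det_fin_two_of] at hd
    rw [trace_fin_two_of] at h8
    exact hj1 (Units.ext (by
      rw [eta_fin_two (D.ρ j).1]
      exact unipotent_q8 _ _ _ _ hd h8 h0))
  obtain ⟨hcyc, x, hx, htx⟩ := (D.odd_inertia q hb.1 h2 hb.2.1 A hA).resolve_left hnu
  refine ⟨x, hx, htx, fun i hi => ?_⟩
  let := hcyc.commGroup
  exact congrArg Subtype.val (mul_comm
    (⟨D.ρ i, i, hi, rfl⟩ : (A.inertiaSubgroupIn ℚ).map D.ρ) ⟨D.ρ x, x, hx, rfl⟩)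

theorem exists_galE_notMem_galM : ∃ g ∈ D.galE, g ∉ D.galM := by
  obtain ⟨g, hg⟩ := D.surjective
    (GeneralLinearGroup.mkOfDetNeZero !![1, 1; 0, 1] (by rw [det_fin_two_of]; decide))
  refine ⟨g, ?_, ?_⟩
  · rw [mem_galE, hg]
    show (!![1, 1; 0, 1] : Matrix (Fin 2) (Fin 2) (ZMod 3)).det = 1
    rw [det_fin_two_of]
    decide
  · rw [mem_galM, hg]
    rintro ⟨-, h⟩
    revert h
    show ¬ ((!![1, 1; 0, 1] : Matrix (Fin 2) (Fin 2) (ZMod 3)).trace = 0 ∨
      (!![1, 1; 0, 1] : Matrix (Fin 2) (Fin 2) (ZMod 3)) = 1 ∨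
      (!![1, 1; 0, 1] : Matrix (Fin 2) (Fin 2) (ZMod 3)) = -1)
    decide +kernel

/-- `M/E` has a nontrivial automorphism. -/
theorem exists_autOverE (D : Datum) :
    ∃ σ : D.M ≃ₐ[ℚ] D.M, σ ≠ AlgEquiv.refl ∧ ∀ x, σ (D.incl x) = D.incl x := by
  obtain ⟨g, hgE, hgM⟩ := exists_galE_notMem_galM (D := D)
  obtain ⟨τ, hτ⟩ := exists_restrict hgE
  refine ⟨τ.restrictScalars ℚ, fun h => hgM ((eq_one_iff_mem_galM hτ).mp
    (AlgEquiv.ext fun x => DFunLike.congr_fun h x)), fun x => τ.commutes x⟩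

/-- At a ramified prime some inertia element over `E` lies outside the group of `M`. -/
theorem exists_inertia_of_isRamPrime {w : Ideal (𝓞 D.M)} [w.IsPrime] (hw : w ≠ ⊥)
    (hr : IsRamPrime D w) {A : ValuationSubring QB} (hA : PlaceOver A w) {q : ℕ} (hq : q.Prime)
    (hqw : (q : 𝓞 D.M) ∈ w) :
    ∃ i ∈ A.inertiaSubgroupIn ℚ, i ∈ D.galE ∧ i ∉ D.galM := by
  obtain ⟨σ, hne, hfix⟩ := exists_autOverE D
  exact exists_inertia_notMem_galM hne hfix hw hr hA hq hqw

/-- Only `2` can be bad and ramified. -/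
theorem eq_two_of_isBad_ram {p : Nat.Primes} (hb : D.IsBad p) (hp : p ∈ ramPrimes D) :
    (p : ℕ) = 2 := by
  by_contra h2
  obtain ⟨w, hw, hpw, hr⟩ := mem_ramPrimes.mp hp
  have hw0 := ne_bot_of_natCast_mem p.2 hpw
  obtain ⟨-, A, -, -, -, hA⟩ := LanglandsTunnell.CFT.exists_placeOver w hw0
  obtain ⟨i, hi, hiE, hiM⟩ := exists_inertia_of_isRamPrime hw0 hr hA p.2 hpw
  have hAp := hA.liesOverPrime hpw
  obtain ⟨x, hx, htx, hcomm⟩ := exists_trace_zero_of_isBad hb h2 hAp
  refine hiM ((mem_galM D).mpr (inQ8_of_commute ((mem_galE D).mp hiE)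
    ((mem_galE D).mp (inertia_le_galE D p.2 hb.2.1 hAp hx)) htx ?_))
  rw [show D.ρ i * D.ρ x * (D.ρ i)⁻¹ = D.ρ x from by
    rw [(hcomm i hi).eq, mul_inv_cancel_right]]

section Two

variable {A : ValuationSubring QB} (hA : A.LiesOverPrime 2)

include hA

theorem det_frobenius_two {φ : GQ} (hφ : A.IsFrobeniusAt φ 2) : (D.ρ φ).1.det = -1 := by
  rw [det_of_isFrobeniusAt D Nat.prime_two (by norm_num) hA hφ]
  decide

/-- When inertia at `2` over `E` lies in the group of `M`, so do the Frobenius elements of `E`. -/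
theorem mem_galM_of_frobenius_two (htriv : A.inertiaSubgroupIn ℚ ≤ D.galM) {t : GQ} {j : ℕ}
    (ht : A.IsFrobeniusAt t (2 ^ j)) (htE : t ∈ D.galE) : t ∈ D.galM := by
  obtain ⟨φ, hφ⟩ := Density.exists_isFrobeniusAt A Nat.prime_two hA
  have hdet := det_of_isFrobeniusAt D Nat.prime_two (by norm_num) hA ht
  rw [(mem_galE D).mp htE, Nat.cast_pow, show ((2 : ℕ) : ZMod 3) = -1 by decide] at hdet
  obtain ⟨n, rfl⟩ := (neg_one_pow_eq_one_iff_even (R := ZMod 3) (by decide)).mp hdet.symm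
  have hI := htriv (inv_mul_mem_inertiaSubgroupIn
    (LanglandsTunnell.CFT.isFrobeniusAt_pow hφ (n + n)) ht)
  have hpow : φ ^ (n + n) ∈ D.galM := by
    rw [← two_mul, pow_mul, pow_two]
    exact pow_mem (mul_self_mem_galM (det_frobenius_two hA hφ)) n
  simpa using mul_mem hpow hI

end Two

section Split

variable {σ : D.M ≃ₐ[ℚ] D.M} (hne : σ ≠ AlgEquiv.refl) (hfix : ∀ x, σ (D.incl x) = D.incl x)

include hne hfix in
/-- An unramified prime over a bad prime is moved by the automorphism. -/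
theorem map_ne_of_isBad {w : Ideal (𝓞 D.M)} [w.IsPrime] {q : ℕ} (hb : D.IsBad q)
    (hq : (q : 𝓞 D.M) ∈ w) (hu : ¬ IsRamPrime D w) :
    w.map (RingOfIntegers.mapRingHom σ.toRingEquiv.toRingHom) ≠ w := by
  intro hstab
  have hw0 := ne_bot_of_natCast_mem hb.1 hq
  obtain ⟨-, A, -, -, -, hA⟩ := LanglandsTunnell.CFT.exists_placeOver w hw0
  have hAq := hA.liesOverPrime hq
  have htriv : A.inertiaSubgroupIn ℚ ≤ D.galM := fun i hi =>
    mem_galM_of_not_isRam hne hfix hw0 hu hA hi (inertia_le_galE D hb.1 hb.2.1 hAq hi)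
  set τ := overE hfix
  have hτw : ∀ y : 𝓞 D.M, y ∈ w → τ • y ∈ w := by
    intro y hy
    have := Ideal.mem_map_of_mem (RingOfIntegers.mapRingHom σ.toRingEquiv.toRingHom) hy
    rw [hstab] at this
    exact this
  refine overE_ne_one hne hfix ?_
  by_cases h2 : q = 2
  · subst h2
    have := under_isPrime D w
    have hv0 := under_ne_bot D hw0
    have hAv : PlaceOver A (D.under w) := by
      rw [under_eq]
      exact hA.under (val_incl D)
    obtain ⟨r, hr, -, j, hj1, hN, hlies⟩ :=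
      LanglandsTunnell.CFT.PlaceOver.absNorm_eq_pow (A := A) hv0
    obtain rfl : r = 2 := by
      by_contra hne2
      exact natCast_notMem_nonunits Nat.prime_two hAq
        (fun h => hne2 ((Nat.prime_dvd_prime_iff_eq Nat.prime_two hr).mp h).symm) (hlies hAv)
    obtain ⟨t, htE, ht⟩ := LanglandsTunnell.CFT.exists_frobenius_over hv0 hAv
    rw [fixingSubgroup_E] at htE
    have htM : t ∈ D.galM := mem_galM_of_frobenius_two hAq htriv (hN ▸ ht) htE
    have hle := absNorm_le_of_frob D hw0 hA htM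
      (hN ▸ Nat.one_lt_two_pow (by omega)) ht
    have : Finite (𝓞 D.M ⧸ w) := Ideal.finiteQuotientOfFreeOfNeBot w hw0
    let f : 𝓞 D.E ⧸ D.under w →+* 𝓞 D.M ⧸ w :=
      Ideal.quotientMap w (RingOfIntegers.mapRingHom D.incl) le_rfl
    have hf : Function.Injective f := Ideal.quotientMap_injective
    have hbij : Function.Bijective f := hf.bijective_of_nat_card_le (by
      simpa [Ideal.absNorm_apply, Submodule.cardQuot_apply] using hle)
    refine Subgroup.mem_bot.mp ((inertia_eq_bot_iff hne hfix hw0).mpr hu ▸ ?_)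
    intro y
    obtain ⟨e, he⟩ := hbij.2 (Ideal.Quotient.mk w y)
    obtain ⟨e, rfl⟩ := Ideal.Quotient.mk_surjective e
    have hye : y - RingOfIntegers.mapRingHom D.incl e ∈ w := Ideal.Quotient.eq.mp he.symm
    have hfe : τ • RingOfIntegers.mapRingHom D.incl e = RingOfIntegers.mapRingHom D.incl e :=
      RingOfIntegers.ext (τ.commutes _)
    show τ • y - y ∈ w
    have h3 := sub_mem (hτw _ hye) hye
    rw [smul_sub, hfe, sub_sub_sub_cancel_right] at h3
    exact h3
  · obtain ⟨g, hgA, hgE, hg⟩ := exists_decomposition_ext hw0 hA τ fun y => by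
      refine ⟨fun h => ?_, hτw y⟩
      have h3 := hτw _ (hτw _ h)
      rwa [← mul_smul, ← mul_smul, show τ * τ * τ = 1 from
        (by rw [← pow_two, ← pow_succ]; exact overE_cube hne hfix), one_smul] at h3
    obtain ⟨x, hx, htx, hcomm⟩ := exists_trace_zero_of_isBad hb h2 hAq
    have hgx := mem_inertiaSubgroupIn_smul hx g
    rw [MulAction.mem_stabilizer_iff.mp hgA] at hgx
    have hc := hcomm _ hgx
    rw [map_mul, map_mul, map_inv] at hc
    exact (eq_one_iff_mem_galM hg).mpr ((mem_galM D).mpr (inQ8_of_commute ((mem_galE D).mp hgE)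
      ((mem_galE D).mp (inertia_le_galE D hb.1 hb.2.1 hAq hx)) htx hc))

end Split

/-- If `2` ramifies in `M/E` there is exactly one prime of `M` over it. -/
theorem unique_place_two {w u : Ideal (𝓞 D.M)} [w.IsPrime] [u.IsPrime]
    (hw : ((2 : ℕ) : 𝓞 D.M) ∈ w) (hr : IsRamPrime D w) (hu : ((2 : ℕ) : 𝓞 D.M) ∈ u) : u = w := by
  have hw0 := ne_bot_of_natCast_mem Nat.prime_two hw
  have hu0 := ne_bot_of_natCast_mem Nat.prime_two hu
  obtain ⟨-, A, -, -, -, hA⟩ := LanglandsTunnell.CFT.exists_placeOver w hw0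
  obtain ⟨-, B, -, -, -, hB⟩ := LanglandsTunnell.CFT.exists_placeOver u hu0
  have hA2 := hA.liesOverPrime hw
  obtain ⟨i, hi, hiE, hiM⟩ := exists_inertia_of_isRamPrime hw0 hr hA Nat.prime_two hw
  have hiA : i • A = A :=
    MulAction.mem_stabilizer_iff.mp (inertiaSubgroupIn_le_decompositionSubgroup A hi)
  obtain ⟨φ, hφ⟩ := Density.exists_isFrobeniusAt A Nat.prime_two hA2
  have hφA : φ • A = A := MulAction.mem_stabilizer_iff.mp (isFrobeniusAt_iff.1 hφ).1
  obtain ⟨h, hhA⟩ := Density.exists_smul_eq_of_liesOverPrime Nat.prime_two hA2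
    (hB.liesOverPrime hu)
  obtain ⟨h', hh', hhA'⟩ : ∃ h' ∈ D.galE, h' • A = B := by
    have hcase : ∀ a : ZMod 3, a ≠ 0 → a = 1 ∨ a = -1 := by decide
    rcases hcase _ (D.ρ h).det_ne_zero with hd | hd
    · exact ⟨h, (mem_galE D).mpr hd, hhA⟩
    · exact ⟨h * φ, (mem_galE D).mpr (by
        rw [map_mul, Units.val_mul, det_mul, hd, det_frobenius_two hA2 hφ, neg_one_mul, neg_neg]),
        by rw [mul_smul, hφA, hhA]⟩
  have key : ∀ m ∈ D.galM, m • A = B → u = w := fun m hm hmA => by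
    have := hA.smul (g := m) (by rw [fixingSubgroup_M]; exact hm)
    rw [hmA] at this
    exact eq_of_placeOver D hB this
  rcases mem_galM_cosets D hiE hiM hh' with h1 | h1 | h1
  · exact key _ h1 hhA'
  · exact key _ h1 (by rw [mul_smul, hiA, hhA'])
  · exact key _ h1 (by rw [mul_smul, mul_smul, hiA, hiA, hhA'])

/-- A bad ramified prime is `2`, with a single prime of `M` over it, ramified. -/
theorem unique_place_of_isBad_ram {p : Nat.Primes} (hb : D.IsBad p) (hp : p ∈ ramPrimes D)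
    {u : Ideal (𝓞 D.M)} [u.IsPrime] (hu : ((p : ℕ) : 𝓞 D.M) ∈ u) :
    IsRamPrime D u ∧ ∀ w : Ideal (𝓞 D.M), w.IsPrime → ((p : ℕ) : 𝓞 D.M) ∈ w → w = u := by
  obtain ⟨w₀, hw₀, hpw₀, hr⟩ := mem_ramPrimes.mp hp
  rw [eq_two_of_isBad_ram hb hp] at hpw₀ hu ⊢
  have e := unique_place_two hpw₀ hr hu
  exact ⟨e ▸ hr, fun w hw hwp => haveI := hw; (unique_place_two hpw₀ hr hwp).trans e.symm⟩

/-- Elements of order dividing eight and determinant one lie in the quaternion group. -/
theorem inQ8_of_pow_eight : ∀ a b c d : ZMod 3, a * d - b * c = 1 →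
    (!![a, b; c, d] : Matrix (Fin 2) (Fin 2) (ZMod 3)) ^ 8 = 1 →
    a + d = 0 ∨ (!![a, b; c, d] : Matrix (Fin 2) (Fin 2) (ZMod 3)) = 1 ∨
      (!![a, b; c, d] : Matrix (Fin 2) (Fin 2) (ZMod 3)) = -1 := by
  decide +kernel

end FLTAgent.LanglandsTunnell.Local
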