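import Fermat.Agent.LanglandsTunnell.Local.UnitMatch

/-!
# Matching at a ramified place

Hilbert 90 for the centre (`exists_scalar_h90`) and the matching of fixed cosets at a ramified
place (`exists_bijOn_ramified`).
-/

set_option autoImplicit false

noncomputable section

namespace FLTAgent.LanglandsTunnell.Local

open Matrix

namespace LocalCubic

variable {OE LE OM LM : Type*} [CommRing OE] [CommRing LE] [CommRing OM] [CommRing LM]
  (S : LocalCubic OE LE OM LM)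

theorem ι_injective : Function.Injective S.ι := fun x y hxy => by
  have h : x.1.map S.j = y.1.map S.j := congrArg Units.val hxy
  exact Units.ext (Matrix.ext fun i j => S.j_inj (congrFun (congrFun h i) j))

theorem exists_j_eq_nrm (u : LMˣ) : ∃ a : LEˣ, Units.map S.j.toMonoidHom a = S.nrm u := by
  obtain ⟨a, ha⟩ := S.fixed _ (S.σ_nrm u)
  obtain ⟨a', ha'⟩ := S.fixed ((S.nrm u)⁻¹ : LMˣ).1 (by
    have h1 := congrArg S.σ (S.nrm u).mul_inv
    rw [map_mul, σ_nrm, map_one] at h1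
    exact (S.nrm u).isUnit.mul_left_cancel (h1.trans (S.nrm u).mul_inv.symm))
  have h2 : a * a' = 1 := S.j_inj (by rw [map_mul, ha, ha', Units.mul_inv, map_one])
  exact ⟨⟨a, a', h2, by rw [mul_comm]; exact h2⟩, Units.ext ha⟩

theorem nrm_j (c : LEˣ) :
    S.nrm (Units.map S.j.toMonoidHom c) = Units.map S.j.toMonoidHom c ^ 3 := Units.ext (by
  simp [nrm, S.σ_j, pow_succ])

theorem nrm_inv (u : LMˣ) : S.nrm u⁻¹ = (S.nrm u)⁻¹ := by
  rw [eq_inv_iff_mul_eq_one, ← nrm_mul, inv_mul_cancel]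
  simp [nrm]

/-- Hilbert 90 for the centre. -/
theorem exists_scalar_h90 [Finite (MaximalSpectrum LM)] {u : LMˣ} (hu : S.nrm u = 1) :
    ∃ x : LMˣ, Units.map S.σ.toMonoidHom x = u * x := by
  let k : Matrix Unit Unit LM := Matrix.of fun _ _ => ((u⁻¹ : LMˣ) : LM)
  obtain ⟨b, hb, hkb⟩ := exists_twistSum_isUnit S.dual S.σ_three (k := k) (by
    refine Matrix.ext fun i j => ?_
    have h : S.nrm u⁻¹ = 1 := by rw [nrm_inv, hu, inv_one]
    have := congrArg Units.val h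
    simpa [k, Matrix.mul_apply, Matrix.one_apply, nrm] using this)
  rw [Matrix.det_unique] at hb
  refine ⟨hb.unit, ?_⟩
  have h := congrFun (congrFun hkb ()) ()
  simp only [Matrix.mul_apply, Fintype.univ_unit, Finset.sum_singleton, Matrix.map_apply, k,
    Matrix.of_apply] at h
  refine Units.ext ?_
  rw [Units.val_mul]
  show S.σ (b () ()) = (u : LM) * b () ()
  conv_rhs => rw [← h, ← mul_assoc, Units.mul_inv, one_mul]
  rfl

/-- The entries of `ι y`. -/
private theorem ι_val_eq_map {y : GL (Fin 2) LE} {Yy : Matrix (Fin 2) (Fin 2) OE}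
    (h : Yy.map S.φE = y.1) : (S.ι y).1 = (Yy.map S.jO).map S.φM := by
  rw [ι_val, ← h]
  ext i j
  simp [S.comm_j]

/-- A central element is a scalar. -/
private theorem exists_scalar_of_mem_center {z : GL (Fin 2) LM}
    (hz : z ∈ Subgroup.center (GL (Fin 2) LM)) :
    ∃ u : LMˣ, GeneralLinearGroup.scalar (Fin 2) u = z := by
  simp only [Matrix.GeneralLinearGroup.center_eq_range_scalar] at hz
  exact hz

/-- The cubes are the level `N` among elements with norm determinant. -/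
private theorem mem_cubeSetC_iff {n₁ N : OE}
    (hsurj : ∀ k ∈ congrGroup S.φE N, ∃ y ∈ congrGroup S.φE n₁, y ^ 3 = k)
    (hcube : ∀ y ∈ congrGroup S.φE n₁, y ^ 3 ∈ congrGroup S.φE N)
    {δ : GL (Fin 2) LM} {γ : GL (Fin 2) LE} (hN : tnorm S.θ δ = S.ι γ) (h : GL (Fin 2) LE) :
    h⁻¹ * γ * h ∈ cubeSetC S.θ S.ι (Subgroup.center (GL (Fin 2) LM))
        (congrGroup S.φE n₁ : Set (GL (Fin 2) LE)) ↔ h⁻¹ * γ * h ∈ levelK S.φE N := by
  constructor
  · rintro ⟨z, hz, y, hy, e⟩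
    obtain ⟨u, rfl⟩ := exists_scalar_of_mem_center hz
    obtain ⟨a, ha⟩ := S.exists_j_eq_nrm u
    rw [tnorm_scalar, ← ha, ← ι_scalar, ← map_mul] at e
    rw [S.ι_injective e]
    exact mem_levelK.mpr ⟨a, _, hcube y hy, rfl⟩
  · intro hh
    obtain ⟨c, k, hk, hck⟩ := mem_levelK.mp hh
    obtain ⟨y, hy, rfl⟩ := hsurj k hk
    set jc := Units.map S.j.toMonoidHom c
    set jd := Units.map S.j.toMonoidHom y.det
    refine ⟨_, scalar_mem_center (jc * jd * δ.det⁻¹), y, hy, ?_⟩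
    have hdet : S.nrm δ.det = jc ^ 2 * jd ^ 3 := by
      rw [← det_tnorm, hN, det_ι]
      have := congrArg GeneralLinearGroup.det hck
      simp only [map_mul, map_inv, det_scalar', inv_mul_cancel_comm, map_pow] at this
      rw [this, map_mul, map_pow, map_pow]
    rw [hck, map_mul, ι_scalar, tnorm_scalar, nrm_mul, nrm_mul, nrm_inv, nrm_j, nrm_j, hdet]
    congr 2
    refine Additive.ofMul.injective ?_
    simp only [jc, ofMul_mul, ofMul_inv, ofMul_pow]
    abel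

/-- If either fixed set is nonempty, `γ` is conjugate to a norm scalar times a cube. -/
private theorem exists_conj_eq_cube {K : Subgroup (GL (Fin 2) LM)} {Y : Set (GL (Fin 2) LE)}
    {δ : GL (Fin 2) LM} {γ : GL (Fin 2) LE} (hN : tnorm S.θ δ = S.ι γ)
    (hne : (∃ h : GL (Fin 2) LE, h⁻¹ * γ * h ∈
        cubeSetC S.θ S.ι (Subgroup.center (GL (Fin 2) LM)) Y) ∨
      ∃ g : GL (Fin 2) LM, g⁻¹ * δ * S.θ g ∈
        twistedSetC S.θ S.ι K (Subgroup.center (GL (Fin 2) LM)) Y) :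
    ∃ (u : LMˣ) (g : GL (Fin 2) LM) (y : GL (Fin 2) LE), y ∈ Y ∧
      g⁻¹ * S.ι γ * g = GeneralLinearGroup.scalar (Fin 2) (S.nrm u) * S.ι (y ^ 3) := by
  rcases hne with ⟨h, z, hz, y, hy, e⟩ | ⟨g, k, hk, z, hz, y, hy, e⟩
  · obtain ⟨u, rfl⟩ := exists_scalar_of_mem_center hz
    refine ⟨u, S.ι h, y, hy, ?_⟩
    rw [← tnorm_scalar, ← e, map_mul, map_mul, map_inv]
  · obtain ⟨u, rfl⟩ := exists_scalar_of_mem_center hz
    refine ⟨u, g * k, y, hy, ?_⟩
    have hw : (g * k)⁻¹ * δ * S.θ (g * k) = GeneralLinearGroup.scalar (Fin 2) u * S.ι y := by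
      rw [map_mul, show (g * k)⁻¹ * δ * (S.θ g * S.θ k) = k⁻¹ * (g⁻¹ * δ * S.θ g) * S.θ k by
        group, e]
      group
    rw [← hN, ← tnorm_twist S.θ_three, hw, tnorm_scalar_mul]
    congr 1
    simp only [tnorm, θ_ι, map_mul, pow_succ, pow_zero, one_mul]

/-- A conjugate `P` of `y` cubing to a scalar multiple of `γ` is a fixed polynomial in `γ`. -/
private theorem θ_conj_and_mem_adjoin {n₁ : OE} (hdeep : IsDeep S.φM (S.jO n₁))
    {γ : GL (Fin 2) LE} {u : LMˣ} {g : GL (Fin 2) LM} {y : GL (Fin 2) LE}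
    (hy : y ∈ congrGroup S.φE n₁)
    (hgy : g⁻¹ * S.ι γ * g = GeneralLinearGroup.scalar (Fin 2) (S.nrm u) * S.ι (y ^ 3)) :
    (GeneralLinearGroup.scalar (Fin 2) (S.nrm u))⁻¹ * S.ι γ = (g * S.ι y * g⁻¹) ^ 3 ∧
      S.θ (g * S.ι y * g⁻¹) = g * S.ι y * g⁻¹ ∧
      (g * S.ι y * g⁻¹).1 ∈ Algebra.adjoin LM {(S.ι γ).1} := by
  obtain ⟨Yy, hYy, hYmap⟩ := (mem_congrGroup.mp hy).1
  set P := g * S.ι y * g⁻¹ with hP
  set γ' := (GeneralLinearGroup.scalar (Fin 2) (S.nrm u))⁻¹ * S.ι γ with hγ'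
  have hP3 : γ' = P ^ 3 := by
    rw [hγ', inv_mul_eq_iff_eq_mul, hP]
    have h := Subgroup.mem_center_iff.mp (scalar_mem_center (L := LM) (S.nrm u))
    calc S.ι γ = g * (g⁻¹ * S.ι γ * g) * g⁻¹ := by group
      _ = g * GeneralLinearGroup.scalar (Fin 2) (S.nrm u) * S.ι (y ^ 3) * g⁻¹ := by
        rw [hgy]; group
      _ = _ := by
        rw [h g, map_pow]
        simp only [pow_succ, pow_zero, one_mul]
        group
  obtain ⟨τ, hτ⟩ := hYy.exists_trace
  obtain ⟨dd, hdd⟩ := hYy.exists_det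
  set T : LM := S.φM (S.jO Yy.trace)
  set D : LM := S.φM (S.jO Yy.det)
  have hιy : (S.ι y).1 = (Yy.map S.jO).map S.φM := S.ι_val_eq_map hYmap
  have hTP : P.1.trace = T := by
    rw [hP, Units.val_mul, Units.val_mul, Matrix.trace_mul_cycle, Units.inv_mul, Matrix.one_mul,
      hιy, trace_map', trace_map']
  have hDP : P.1.det = D := by
    rw [hP, Units.val_mul, Units.val_mul, Matrix.det_mul, Matrix.det_mul, mul_right_comm,
      ← Matrix.det_mul, Units.mul_inv, Matrix.det_one, one_mul, hιy, det_map', det_map']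
  obtain ⟨x3, hx3⟩ : ∃ x : OE, Yy.trace ^ 2 - Yy.det = 3 + n₁ * x :=
    ⟨4 * τ + n₁ * τ ^ 2 - dd, by rw [hτ, hdd]; ring⟩
  have hr : IsUnit (T ^ 2 - D) := by
    simp only [T, D, ← map_pow, ← map_sub, hx3, map_add, map_mul, map_ofNat]
    have := hdeep.three (S.jO x3)
    simpa [map_add, map_mul, map_ofNat] using this
  have hPval : P.1 = ((hr.unit⁻¹ : LMˣ) : LM) •
      (γ'.1 + (T * D) • (1 : Matrix (Fin 2) (Fin 2) LM)) := by
    rw [hP3, Units.val_pow_eq_pow_val, cube_eq, hTP, hDP, sub_add_cancel, smul_smul,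
      IsUnit.val_inv_mul, one_smul]
  refine ⟨hP3, Units.ext ?_, ?_⟩
  · rw [θ_val, hPval]
    have hσr : S.σ ((hr.unit⁻¹ : LMˣ) : LM) = ((hr.unit⁻¹ : LMˣ) : LM) := by
      have hfix : S.σ (T ^ 2 - D) = T ^ 2 - D := by simp [T, D, S.comm_j, S.σ_j]
      have h1 := congrArg S.σ hr.mul_val_inv
      rw [map_mul, hfix, map_one] at h1
      exact hr.mul_left_cancel (h1.trans hr.mul_val_inv.symm)
    have hσγ : γ'.1.map S.σ = γ'.1 := by
      rw [← θ_val]
      congr 1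
      rw [hγ', map_mul, map_inv, θ_scalar, θ_ι]
      congr 3
      exact Units.ext (S.σ_nrm u)
    have hσTD : S.σ (T * D) = T * D := by simp [T, D, S.comm_j, S.σ_j]
    conv_rhs => rw [← hσγ]
    refine Matrix.ext fun i j => ?_
    simp only [Matrix.map_apply, Matrix.smul_apply, Matrix.add_apply, smul_eq_mul, map_mul,
      map_add, hσr, hσTD, Matrix.one_apply, apply_ite S.σ, map_one, map_zero]
  · rw [hPval]
    refine Subalgebra.smul_mem _ (add_mem ?_ (Subalgebra.smul_mem _ (one_mem _) _)) _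
    rw [hγ', ← map_inv, Units.val_mul]
    exact mul_mem (Subalgebra.algebraMap_mem (Algebra.adjoin LM {(S.ι γ).1}) _)
      (Algebra.self_mem_adjoin_singleton _ _)

/-- Two conjugates of deep elements with proportional cubes are proportional. -/
private theorem exists_scalar_conj_eq [IsArtinianRing LM] {n₁ : OE}
    (hdeep : IsDeep S.φM (S.jO n₁)) {γ : GL (Fin 2) LE} {u u' : LMˣ} {g g' : GL (Fin 2) LM}
    {y y' : GL (Fin 2) LE} (hy : y ∈ congrGroup S.φE n₁) (hy' : y' ∈ congrGroup S.φE n₁)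
    (hgy : g⁻¹ * S.ι γ * g = GeneralLinearGroup.scalar (Fin 2) (S.nrm u) * S.ι (y ^ 3))
    (hgy' : g'⁻¹ * S.ι γ * g' = GeneralLinearGroup.scalar (Fin 2) (S.nrm u') * S.ι (y' ^ 3)) :
    ∃ m : LMˣ, g'⁻¹ * g * S.ι y * (g'⁻¹ * g)⁻¹
      = GeneralLinearGroup.scalar (Fin 2) m * S.ι y' := by
  obtain ⟨Yy, hYy, hYmap⟩ := (mem_congrGroup.mp hy).1
  obtain ⟨Y', hY', hY'map⟩ := (mem_congrGroup.mp hy').1
  have hjO : ∀ X : Matrix (Fin 2) (Fin 2) OE, IsCongrOne n₁ X →
      IsCongrOne (S.jO n₁) (X.map S.jO) := by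
    rintro _ ⟨W, rfl⟩
    exact ⟨W.map S.jO, Matrix.ext fun i j => by
      simp [Matrix.one_apply, apply_ite S.jO, map_add, map_mul]⟩
  have hy3 : g'⁻¹ * g * S.ι (y ^ 3) * (g'⁻¹ * g)⁻¹
      = GeneralLinearGroup.scalar (Fin 2) ((S.nrm u)⁻¹ * S.nrm u') * S.ι (y' ^ 3) := by
    have e : S.ι (y ^ 3) = (GeneralLinearGroup.scalar (Fin 2) (S.nrm u))⁻¹ *
        (g⁻¹ * S.ι γ * g) := by rw [hgy]; group
    rw [map_mul, map_inv, mul_assoc _ _ (S.ι (y' ^ 3)), ← hgy', e]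
    have h := Subgroup.mem_center_iff.mp (scalar_mem_center (L := LM) (S.nrm u)⁻¹)
    rw [← map_inv, ← mul_assoc (g'⁻¹ * g) (GeneralLinearGroup.scalar (Fin 2) (S.nrm u)⁻¹),
      h (g'⁻¹ * g)]
    group
  have hval : (g'⁻¹ * g).1 * ((Yy.map S.jO).map S.φM) ^ 3 * ((g'⁻¹ * g)⁻¹).1
      = (((S.nrm u)⁻¹ * S.nrm u' : LMˣ) : LM) • ((Y'.map S.jO).map S.φM) ^ 3 := by
    rw [← S.ι_val_eq_map hYmap, ← S.ι_val_eq_map hY'map, Algebra.smul_def,
      ← Units.val_pow_eq_pow_val, ← Units.val_pow_eq_pow_val, ← map_pow, ← map_pow]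
    exact congrArg Units.val hy3
  obtain ⟨m, -, hm⟩ := exists_eq_smul_of_cube hdeep (hjO _ hYy) (hjO _ hY')
    (g := (g'⁻¹ * g).1) (g' := ((g'⁻¹ * g)⁻¹).1) (Units.mul_inv _) hval
  refine ⟨m, Units.ext ?_⟩
  rw [Units.val_mul, Units.val_mul, S.ι_val_eq_map hYmap, hm, Algebra.smul_def, Units.val_mul,
    S.ι_val_eq_map hY'map]
  rfl

/-- A central element of twisted norm one is a twisted coboundary in the centre. -/
private theorem exists_center_h90 [Finite (MaximalSpectrum LM)] {z : GL (Fin 2) LM}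
    (hz : z ∈ Subgroup.center (GL (Fin 2) LM)) (h1 : tnorm S.θ z = 1) :
    ∃ x ∈ Subgroup.center (GL (Fin 2) LM), S.θ x = z * x := by
  obtain ⟨w, rfl⟩ := exists_scalar_of_mem_center hz
  rw [tnorm_scalar] at h1
  obtain ⟨x, hx⟩ := S.exists_scalar_h90 (u := w) (Units.ext (by
    have h2 : (GeneralLinearGroup.scalar (Fin 2) (S.nrm w)).1
        = (1 : Matrix (Fin 2) (Fin 2) LM) := congrArg Units.val h1
    have := congrFun (congrFun h2 0) 0
    simpa [GeneralLinearGroup.coe_scalar] using this))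
  exact ⟨_, scalar_mem_center x, by rw [θ_scalar, hx, map_mul]⟩

/-- **Matching at a ramified place.** -/
theorem exists_bijOn_ramified [IsArtinianRing LM] {n₀ n₁ N : OE} (hn₀ : IsUnit (S.φE n₀))
    (hn₀' : IsUnit n₀ ∨ ∀ x : OM, IsUnit (1 + S.jO n₀ * x))
    (hdeep : IsDeep S.φM (S.jO n₁))
    (hsurj : ∀ k ∈ congrGroup S.φE N, ∃ y ∈ congrGroup S.φE n₁, y ^ 3 = k)
    (hcube : ∀ y ∈ congrGroup S.φE n₁, y ^ 3 ∈ congrGroup S.φE N)
    {δ : GL (Fin 2) LM} {γ : GL (Fin 2) LE}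
    (hδ : δ.1 ∈ Algebra.adjoin LM {(S.ι γ).1}) (hN : tnorm S.θ δ = S.ι γ) :
    ∃ b : GL (Fin 2) LM, b.1 ∈ Algebra.adjoin LM {(S.ι γ).1} ∧
      Set.BijOn (shiftMap S.ι (levelK S.φM (S.jO n₀)) b)
        (conjFix ((levelK S.φM (S.jO n₀)).comap S.ι) γ (levelK S.φE N))
        (twFix S.θ (levelK S.φM (S.jO n₀)) δ
          (twistedSetC S.θ S.ι (levelK S.φM (S.jO n₀)) (Subgroup.center _)
            (congrGroup S.φE n₁ : Set (GL (Fin 2) LE)))) := by
  set K := levelK S.φM (S.jO n₀)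
  set Z := Subgroup.center (GL (Fin 2) LM)
  set Y : Set (GL (Fin 2) LE) := (congrGroup S.φE n₁ : Set (GL (Fin 2) LE))
  have hconj : conjFix (K.comap S.ι) γ (levelK S.φE N)
      = conjFix (K.comap S.ι) γ (cubeSetC S.θ S.ι Z Y) :=
    Set.ext fun u => forall₂_congr fun h _ => (S.mem_cubeSetC_iff hsurj hcube hN h).symm
  rw [hconj]
  by_cases hne : (∃ h : GL (Fin 2) LE, h⁻¹ * γ * h ∈ cubeSetC S.θ S.ι Z Y) ∨
      ∃ g : GL (Fin 2) LM, g⁻¹ * δ * S.θ g ∈ twistedSetC S.θ S.ι K Z Y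
  swap
  · push Not at hne
    refine ⟨1, one_mem _, fun u hu => ?_, fun u hu => ?_, fun v hv => ?_⟩
    · induction u using QuotientGroup.induction_on with
      | H h => exact (hne.1 h (hu h rfl)).elim
    · induction u using QuotientGroup.induction_on with
      | H h => exact (hne.1 h (hu h rfl)).elim
    · induction v using QuotientGroup.induction_on with
      | H g => exact (hne.2 g (hv g rfl)).elim
  obtain ⟨u, g, y, hy, hgy⟩ := S.exists_conj_eq_cube hN hne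
  -- `P = g y g⁻¹` is a polynomial in `γ`
  obtain ⟨hP3, hθP, hPA⟩ := S.θ_conj_and_mem_adjoin hdeep hy hgy
  set t := GeneralLinearGroup.scalar (Fin 2) u * (g * S.ι y * g⁻¹) with ht
  have hNt : tnorm S.θ t = S.ι γ := by
    rw [ht, tnorm_scalar_mul, tnorm, hθP, hθP, ← pow_two, ← pow_succ, ← hP3]
    group
  have htA : t.1 ∈ Algebra.adjoin LM {(S.ι γ).1} := by
    rw [ht, Units.val_mul]
    exact mul_mem (Subalgebra.algebraMap_mem (Algebra.adjoin LM {(S.ι γ).1}) (u : LM)) hPA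
  obtain ⟨b, hbmem, hb⟩ := S.exists_twist_eq γ hδ htA (hN.trans hNt.symm)
  refine ⟨b, hbmem, bijOn_shiftMap_centre Z le_rfl (fun z hz => ?_) (le_sup_right) S.θ_three S.θ_ι
    (fun g hg => S.exists_ι hg) (fun z hz h1 => S.exists_center_h90 hz h1) ?_ hb hNt ?_⟩
  · obtain ⟨w, rfl⟩ := exists_scalar_of_mem_center hz
    rw [θ_scalar]; exact scalar_mem_center _
  · intro k hk x hx
    exact conj_mem_levelK (levelK_le_one _ ((S.comap_levelK n₀ hn₀ hn₀').le hk)) hx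
  · intro g' y' hy' z hz hg'
    obtain ⟨u', rfl⟩ := exists_scalar_of_mem_center hz
    rw [tnorm_scalar] at hg'
    obtain ⟨m, hm⟩ := S.exists_scalar_conj_eq hdeep hy hy' hgy hg'
    refine ⟨_, scalar_mem_center (u * m), ?_⟩
    rw [ht, conj_scalar, map_mul, mul_assoc (GeneralLinearGroup.scalar (Fin 2) u), ← hm]
    group

end LocalCubic

end FLTAgent.LanglandsTunnell.Local
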