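import Fermat.Agent.LanglandsTunnell.Local.LocalRing
import Fermat.Agent.LanglandsTunnell.Local.RamifiedMatch

/-!
# The component at `p` of a cubic extension of number fields

Functoriality of the components (`mapOp`, `autOp`); `CubicData.localCubic` is the local setting at
`p` of a cyclic cubic extension, and trivial inertia gives a dual system
(`hasDualSystem_autOp`).
-/

set_option autoImplicit false

noncomputable section

namespace FLTAgent.LanglandsTunnell.Local

open scoped TensorProduct
open NumberField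

variable {F F' : Type} [Field F] [Field F'] {p : ℕ} [Fact p.Prime]

/-- Functoriality of the component. -/
def mapLp (f : F →+* F') : Lp F p →+* Lp F' p :=
  (Algebra.TensorProduct.map f.toIntAlgHom (AlgHom.id ℤ ℤ_[p])).toRingHom

/-- Functoriality of the integral part. -/
def mapOp (f : F →+* F') : Op F p →+* Op F' p :=
  (Algebra.TensorProduct.map (RingOfIntegers.mapRingHom f).toIntAlgHom
    (AlgHom.id ℤ ℤ_[p])).toRingHom

theorem mapLp_tmul (f : F →+* F') (x : F) (z : ℤ_[p]) :
    mapLp f (x ⊗ₜ[ℤ] z) = f x ⊗ₜ[ℤ] z := rfl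

theorem mapOp_tmul (f : F →+* F') (x : 𝓞 F) (z : ℤ_[p]) :
    mapOp f (x ⊗ₜ[ℤ] z) = RingOfIntegers.mapRingHom f x ⊗ₜ[ℤ] z := rfl

theorem φp_mapOp (f : F →+* F') (o : Op F p) : φp F' p (mapOp f o) = mapLp f (φp F p o) := by
  induction o using TensorProduct.induction_on with
  | zero => simp
  | tmul a z => rfl
  | add x y hx hy => simp only [map_add, hx, hy]

theorem mapLp_injective (f : F →+* F') : Function.Injective (mapLp (p := p) f) :=
  Module.Flat.rTensor_preserves_injective_linearMap (f.toIntAlgHom.toLinearMap) f.injective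

/-- An automorphism of the component. -/
def autLp (s : F ≃+* F) : Lp F p ≃+* Lp F p :=
  RingEquiv.ofRingHom (mapLp s.toRingHom) (mapLp s.symm.toRingHom)
    (by
      refine RingHom.ext fun x => ?_
      induction x using TensorProduct.induction_on with
      | zero => simp
      | tmul a z => simp [mapLp_tmul]
      | add x y hx hy => simp only [map_add] at hx hy ⊢; rw [hx, hy])
    (by
      refine RingHom.ext fun x => ?_
      induction x using TensorProduct.induction_on with
      | zero => simp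
      | tmul a z => simp [mapLp_tmul]
      | add x y hx hy => simp only [map_add] at hx hy ⊢; rw [hx, hy])

/-- An automorphism of the integral part. -/
def autOp (s : F ≃+* F) : Op F p ≃+* Op F p :=
  RingEquiv.ofRingHom (mapOp s.toRingHom) (mapOp s.symm.toRingHom)
    (by
      refine RingHom.ext fun x => φp_injective ?_
      simp only [RingHom.comp_apply, φp_mapOp, RingHom.id_apply]
      exact (autLp (p := p) s).apply_symm_apply _)
    (by
      refine RingHom.ext fun x => φp_injective ?_
      simp only [RingHom.comp_apply, φp_mapOp, RingHom.id_apply]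
      exact (autLp (p := p) s).symm_apply_apply _)

theorem autLp_apply (s : F ≃+* F) (x : Lp F p) : autLp s x = mapLp s.toRingHom x := rfl

theorem autOp_apply (s : F ≃+* F) (x : Op F p) : autOp s x = mapOp s.toRingHom x := rfl

variable {E M : Type} [Field E] [Field M] [NumberField E] [NumberField M]

/-- The algebraic data of a cyclic cubic extension. -/
structure CubicData (f : E →+* M) (s : M ≃+* M) : Prop where
  cube : ∀ x, s (s (s x)) = x
  map : ∀ x, s (f x) = f x
  fixed : ∀ x, s x = x → ∃ e, f e = x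
  ne_id : ∃ x, s x ≠ x

variable {f : E →+* M} {s : M ≃+* M}

omit [NumberField E] [NumberField M] in
theorem CubicData.ne_sq (h : CubicData f s) : ∃ x, s (s x) ≠ x := by
  obtain ⟨x, hx⟩ := h.ne_id
  exact ⟨x, fun hh => hx (by have := h.cube x; rwa [hh] at this)⟩

omit [NumberField E] [NumberField M] in
theorem CubicData.dual (h : CubicData f s) : HasDualSystem (s : M →+* M) := by
  refine hasDualSystem_of_span _ ?_ ?_
  · obtain ⟨x, hx⟩ := h.ne_id
    exact Ideal.eq_top_of_isUnit_mem _ (Ideal.subset_span ⟨x, rfl⟩)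
      (isUnit_iff_ne_zero.mpr (sub_ne_zero.mpr (Ne.symm hx)))
  · obtain ⟨x, hx⟩ := h.ne_sq
    exact Ideal.eq_top_of_isUnit_mem _ (Ideal.subset_span ⟨x, rfl⟩)
      (isUnit_iff_ne_zero.mpr (sub_ne_zero.mpr (Ne.symm hx)))

omit [NumberField E] [NumberField M] in
theorem CubicData.autLp_cube (h : CubicData f s) (x : Lp M p) :
    autLp s (autLp s (autLp s x)) = x := by
  induction x using TensorProduct.induction_on with
  | zero => simp
  | tmul a z => simp [autLp_apply, mapLp_tmul, h.cube]
  | add x y hx hy => simp only [map_add, hx, hy]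

omit [NumberField E] [NumberField M] in
theorem CubicData.autLp_map (h : CubicData f s) (x : Lp E p) :
    autLp s (mapLp f x) = mapLp f x := by
  induction x using TensorProduct.induction_on with
  | zero => simp
  | tmul a z => simp [autLp_apply, mapLp_tmul, h.map]
  | add x y hx hy => simp only [map_add, hx, hy]

omit [NumberField E] [NumberField M] in
theorem CubicData.dualLp (h : CubicData f s) :
    HasDualSystem ((autLp s : Lp M p ≃+* Lp M p) : Lp M p →+* Lp M p) :=
  h.dual.map Algebra.TensorProduct.includeLeftRingHom _ fun _ => rfl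

omit [NumberField E] in
theorem CubicData.fixedLp (h : CubicData f s) (x : Lp M p) (hx : autLp s x = x) :
    ∃ a, mapLp f a = x := by
  obtain ⟨c, hc⟩ := exists_trace_eq_one (A := M) (σ := (s : M →+* M)) h.dual h.cube
  have key : ∀ y : Lp M p, ∃ a, mapLp f a = y + autLp s y + autLp s (autLp s y) := by
    intro y
    induction y using TensorProduct.induction_on with
    | zero => exact ⟨0, by simp⟩
    | tmul m z =>
      obtain ⟨e, he⟩ := h.fixed (m + s m + s (s m)) (by rw [map_add, map_add, h.cube]; ring)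
      exact ⟨e ⊗ₜ z, by simp [autLp_apply, mapLp_tmul, he, TensorProduct.add_tmul]⟩
    | add y y' hy hy' =>
      obtain ⟨a, ha⟩ := hy
      obtain ⟨b, hb⟩ := hy'
      exact ⟨a + b, by rw [map_add, ha, hb]; simp only [map_add]; abel⟩
  obtain ⟨a, ha⟩ := key ((c ⊗ₜ[ℤ] (1 : ℤ_[p])) * x)
  refine ⟨a, ?_⟩
  rw [ha, map_mul, map_mul, hx, hx, ← add_mul, ← add_mul, autLp_apply, autLp_apply, mapLp_tmul,
    mapLp_tmul, ← TensorProduct.add_tmul, ← TensorProduct.add_tmul]
  rw [show c + s.toRingHom c + s.toRingHom (s.toRingHom c) = 1 from hc]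
  exact one_mul x

theorem φp_dvd_descend (f : E →+* M) (k : ℕ) (o : Op E p)
    (hd : (p : Op M p) ^ k ∣ mapOp f o) : (p : Op E p) ^ k ∣ o := by
  obtain ⟨a, r, hr⟩ := exists_sub_tmul_one k o
  have h1 : (p : Op M p) ^ k ∣ RingOfIntegers.mapRingHom f a ⊗ₜ[ℤ] (1 : ℤ_[p]) := by
    rw [hr, map_add, map_mul, map_pow, map_natCast, mapOp_tmul] at hd
    exact (dvd_add_left (dvd_mul_right _ _)).mp hd
  obtain ⟨b, hb⟩ := (pow_dvd_tmul_one_iff k _).mp h1
  have hp : ((p : E) ^ k) ≠ 0 := pow_ne_zero _ (Nat.cast_ne_zero.mpr (NeZero.ne p))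
  have hint : IsIntegral ℤ ((a : E) / (p : E) ^ k) := by
    refine (isIntegral_algHom_iff f.toIntAlgHom f.injective).mp ?_
    have : f.toIntAlgHom ((a : E) / (p : E) ^ k) = (b : M) := by
      show f _ = _
      rw [map_div₀, map_pow, map_natCast, div_eq_iff (pow_ne_zero _
        (Nat.cast_ne_zero.mpr (NeZero.ne p)))]
      have := congrArg (fun z : 𝓞 M => (z : M)) hb
      push_cast at this
      rw [mul_comm]
      exact this
    rw [this]
    exact b.2
  have h2 : (p : 𝓞 E) ^ k ∣ a := ⟨⟨_, hint⟩, RingOfIntegers.ext (by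
    change (a : E) = (((p : 𝓞 E) ^ k : 𝓞 E) : E) * ((a : E) / (p : E) ^ k)
    push_cast
    field_simp)⟩
  rw [hr]
  exact dvd_add ((pow_dvd_tmul_one_iff k a).mpr h2) (dvd_mul_right _ _)

theorem CubicData.fixedOp (h : CubicData f s) (x : Op M p) (hx : autOp s x = x) :
    ∃ a, mapOp f a = x := by
  obtain ⟨y, hy⟩ := h.fixedLp (φp M p x) (by
    rw [autLp_apply, ← φp_mapOp, ← autOp_apply, hx])
  obtain ⟨k, o, ho⟩ := exists_pow_mul_eq_φp y
  have h1 : mapOp f o = (p : Op M p) ^ k * x := φp_injective (by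
    rw [φp_mapOp, ← ho, map_mul, map_pow, map_natCast, hy, map_mul, map_pow, map_natCast])
  obtain ⟨r, rfl⟩ := φp_dvd_descend f k o ⟨x, h1⟩
  refine ⟨r, φp_injective ?_⟩
  refine ((isUnit_natCast_Lp (F := M) (p := p) (NeZero.ne p)).pow k).mul_left_cancel ?_
  have := congrArg (φp M p) h1
  simpa [map_mul, map_pow, map_natCast] using this

variable (p) in
/-- The local setting at `p`. -/
def CubicData.localCubic (h : CubicData f s) :
    LocalCubic (Op E p) (Lp E p) (Op M p) (Lp M p) where
  φE := φp E p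
  φM := φp M p
  j := mapLp f
  jO := mapOp f
  σ := autLp s
  σO := autOp s
  φE_inj := φp_injective
  φM_inj := φp_injective
  j_inj := mapLp_injective f
  comm_j := φp_mapOp f
  comm_σ := φp_mapOp s.toRingHom
  σ_three := h.autLp_cube
  σ_j := h.autLp_map
  fixed := h.fixedLp
  fixedO := h.fixedOp
  dual := h.dualLp
  sqClosed := φp_sqClosed

/-- Trivial inertia above `p` gives a dual system on the integral part. -/
theorem hasDualSystem_autOp (s : M ≃+* M)
    (h₁ : ∀ w : Ideal (𝓞 M), w.IsPrime → (p : 𝓞 M) ∈ w →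
      ∃ a : 𝓞 M, a - RingOfIntegers.mapRingHom s.toRingHom a ∉ w)
    (h₂ : ∀ w : Ideal (𝓞 M), w.IsPrime → (p : 𝓞 M) ∈ w →
      ∃ a : 𝓞 M, a - RingOfIntegers.mapRingHom s.toRingHom
        (RingOfIntegers.mapRingHom s.toRingHom a) ∉ w) :
    HasDualSystem ((autOp s : Op M p ≃+* Op M p) : Op M p →+* Op M p) := by
  set g : 𝓞 M →+* Op M p := Algebra.TensorProduct.includeLeftRingHom
  have key : ∀ τ : 𝓞 M → 𝓞 M, ∀ τ' : Op M p → Op M p, (∀ a, τ' (g a) = g (τ a)) →
      (∀ w : Ideal (𝓞 M), w.IsPrime → (p : 𝓞 M) ∈ w → ∃ a : 𝓞 M, a - τ a ∉ w) →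
      Ideal.span (Set.range fun a : Op M p => a - τ' a) = ⊤ := by
    intro τ τ' hτ h
    set I := Ideal.span (Set.range fun a : 𝓞 M => a - τ a)
    have hI : I ⊔ Ideal.span {(p : 𝓞 M)} = ⊤ := by
      by_contra hne
      obtain ⟨w, hw, hle⟩ := Ideal.exists_le_maximal _ hne
      obtain ⟨a, ha⟩ := h w hw.isPrime (hle (Ideal.mem_sup_right (Ideal.mem_span_singleton_self _)))
      exact ha (hle (Ideal.mem_sup_left (Ideal.subset_span ⟨a, rfl⟩)))
    obtain ⟨i, hi, j, hj, hij⟩ := Submodule.mem_sup.mp ((Ideal.eq_top_iff_one _).mp hI)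
    obtain ⟨d, rfl⟩ := Ideal.mem_span_singleton.mp hj
    have hu : IsUnit (g i) := by
      have : g i = 1 + (p : Op M p) * -g d := by
        have := congrArg g hij
        rw [map_add, map_mul, map_natCast, map_one] at this
        linear_combination this
      rw [this]
      exact isPComplete_op.isUnit_one_add _
    refine Ideal.eq_top_of_isUnit_mem _ ?_ hu
    have : I.map g ≤ Ideal.span (Set.range fun a : Op M p => a - τ' a) := by
      rw [Ideal.map_span, Ideal.span_le]
      rintro _ ⟨_, ⟨a, rfl⟩, rfl⟩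
      exact Ideal.subset_span ⟨g a, by simp only [map_sub, hτ]⟩
    exact this (Ideal.mem_map_of_mem g hi)
  refine hasDualSystem_of_span _ ?_ ?_
  · exact key _ _ (fun a => rfl) h₁
  · exact key (fun a => RingOfIntegers.mapRingHom s.toRingHom
      (RingOfIntegers.mapRingHom s.toRingHom a)) _ (fun a => rfl) h₂

end FLTAgent.LanglandsTunnell.Local
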