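import Fermat.Agent.LanglandsTunnell.Isolation.Galois
import Fermat.Agent.LanglandsTunnell.CFT.LocalInput
import Fermat.Agent.LanglandsTunnell.Local.LocalInstance
import Mathlib.NumberTheory.RamificationInertia.Galois
import Mathlib.RingTheory.DedekindDomain.Different

/-!
# The primes ramified in the cubic extension of the datum

Inertia of `M/E` at every prime, and the consequences of the local shapes of the datum at `3`.
-/

set_option autoImplicit false
set_option maxSynthPendingDepth 3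

noncomputable section

namespace FLTAgent.LanglandsTunnell.Local

open FLTAgent.LanglandsTunnell FLTAgent.LanglandsTunnell.Isolation NumberField Matrix
open FLTAgent.LanglandsTunnell.CFT (PlaceOver)
open FLTAgent.Density FLTAgent.ExtVanishing
open scoped Pointwise

variable {D : Datum}

variable (D) in
/-- `w` is ramified over `E`. -/
def IsRamPrime (w : Ideal (𝓞 D.M)) : Prop :=
  Ideal.map (RingOfIntegers.mapRingHom D.incl) (D.under w) ≤ w ^ 2

variable (D) in
/-- Some prime over `p` is ramified over `E`. -/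
def IsRamAt (p : Nat.Primes) : Prop :=
  ∃ w : Ideal (𝓞 D.M), w.IsPrime ∧ ((p : ℕ) : 𝓞 D.M) ∈ w ∧ IsRamPrime D w

theorem ne_bot_of_natCast_mem {w : Ideal (𝓞 D.M)} {p : ℕ} (hp : p.Prime)
    (h : (p : 𝓞 D.M) ∈ w) : w ≠ ⊥ := by
  rintro rfl
  exact hp.ne_zero (Nat.cast_eq_zero.mp (Ideal.mem_bot.mp h))

/-! ### The automorphism group -/

section Aut

variable {σ : D.M ≃ₐ[ℚ] D.M}

/-- `σ` over `E`. -/
def overE (hfix : ∀ x, σ (D.incl x) = D.incl x) : D.M ≃ₐ[D.E] D.M :=
  AlgEquiv.ofRingEquiv (f := σ.toRingEquiv) hfix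

variable (hne : σ ≠ AlgEquiv.refl) (hfix : ∀ x, σ (D.incl x) = D.incl x)

include hne in
theorem overE_ne_one : overE hfix ≠ 1 := fun h =>
  hne (AlgEquiv.ext fun x => DFunLike.congr_fun h x)

include hne in
theorem zpowers_overE :
    Nat.card (Subgroup.zpowers (overE hfix)) = 3 ∧
      IntermediateField.fixedField (Subgroup.zpowers (overE hfix)) = ⊥ := by
  have : FiniteDimensional D.E D.M := Module.Finite.of_restrictScalars_finite ℚ D.E D.M
  set F := IntermediateField.fixedField (Subgroup.zpowers (overE hfix)) with hF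
  have h := Module.finrank_mul_finrank D.E F D.M
  rw [finrank_EM, IntermediateField.finrank_fixedField_eq_card] at h
  have h1 : Nat.card (Subgroup.zpowers (overE hfix)) ≠ 1 := by
    rw [Nat.card_zpowers, Ne, orderOf_eq_one_iff]
    exact overE_ne_one hne hfix
  rcases Nat.prime_three.eq_one_or_self_of_dvd _ (Dvd.intro_left _ h) with h3 | h3
  · exact absurd h3 h1
  refine ⟨h3, IntermediateField.finrank_eq_one_iff.mp ?_⟩
  rw [h3] at h
  omega

include hne hfix in
theorem isGalois_EM : IsGalois D.E D.M := by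
  have : FiniteDimensional D.E D.M := Module.Finite.of_restrictScalars_finite ℚ D.E D.M
  refine IsGalois.of_fixedField_eq_bot _ _ (le_bot_iff.mp ?_)
  rw [← (zpowers_overE hne hfix).2]
  exact fun x hx g => hx ⟨g, Subgroup.mem_top _⟩

include hne in
theorem overE_cube : overE hfix ^ 3 = 1 := by
  rw [← (zpowers_overE hne hfix).1, Nat.card_zpowers, pow_orderOf_eq_one]

include hne in
theorem overE_sq_ne_one : overE hfix ^ 2 ≠ 1 := fun h => overE_ne_one hne hfix (by
  have h3 := overE_cube hne hfix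
  rwa [pow_succ, h, one_mul] at h3)

include hne hfix in
/-- The algebraic data of the cubic extension. -/
theorem cubicData : CubicData D.incl σ.toRingEquiv where
  cube x := DFunLike.congr_fun (overE_cube hne hfix) x
  map := hfix
  fixed x hx := by
    have hmem : x ∈ IntermediateField.fixedField (Subgroup.zpowers (overE hfix)) := by
      rintro ⟨g, hg⟩
      have hle : Subgroup.zpowers (overE hfix) ≤ MulAction.stabilizer (D.M ≃ₐ[D.E] D.M) x :=
        Subgroup.zpowers_le.mpr (MulAction.mem_stabilizer_iff.mpr hx)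
      exact MulAction.mem_stabilizer_iff.mp (hle hg)
    rw [(zpowers_overE hne hfix).2, IntermediateField.mem_bot] at hmem
    exact hmem
  ne_id := by
    by_contra h
    push Not at h
    exact hne (AlgEquiv.ext h)

end Aut

/-! ### Restriction to `M` -/

theorem apply_mem_M (i : GQ) (x : D.M) : i (x : QB) ∈ D.M := by
  refine (IntermediateField.mem_fixedField_iff _ _).mpr fun m hm => ?_
  have hm' : i⁻¹ * m * i ∈ D.M.fixingSubgroup := by
    rw [fixingSubgroup_M, mem_galM] at *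
    rw [map_mul, map_mul, map_inv]
    simpa using inQ8_conj (x := (D.ρ i)⁻¹) hm
  have h := (IntermediateField.mem_fixingSubgroup_iff _ _).mp hm' (x : QB) x.2
  rw [AlgEquiv.mul_apply, AlgEquiv.mul_apply] at h
  have h2 := congrArg i h
  rwa [show i (i⁻¹ (m (i (x : QB)))) = m (i (x : QB)) from i.apply_symm_apply _] at h2

theorem exists_restrict {i : GQ} (hi : i ∈ D.galE) :
    ∃ τ : D.M ≃ₐ[D.E] D.M, ∀ x : D.M, i (x : QB) = ((τ x : D.M) : QB) := by
  have : FiniteDimensional D.E D.M := Module.Finite.of_restrictScalars_finite ℚ D.E D.M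
  let f : D.M →ₐ[D.E] D.M :=
    { toFun := fun x => ⟨i (x : QB), apply_mem_M i x⟩
      map_one' := Subtype.ext (map_one i)
      map_mul' := fun x y => Subtype.ext (map_mul i (x : QB) (y : QB))
      map_zero' := Subtype.ext (map_zero i)
      map_add' := fun x y => Subtype.ext (map_add i (x : QB) (y : QB))
      commutes' := fun e => Subtype.ext (by
        show i ((e : QB)) = (e : QB)
        exact ((fixingSubgroup_E D).symm ▸ hi : i ∈ D.E.fixingSubgroup) e) }
  exact ⟨AlgEquiv.ofBijective f f.bijective, fun x => rfl⟩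

theorem eq_one_iff_mem_galM {i : GQ} {τ : D.M ≃ₐ[D.E] D.M}
    (h : ∀ x : D.M, i (x : QB) = ((τ x : D.M) : QB)) : τ = 1 ↔ i ∈ D.galM := by
  rw [← fixingSubgroup_M, IntermediateField.mem_fixingSubgroup_iff]
  constructor
  · rintro rfl x hx
    exact h ⟨x, hx⟩
  · exact fun hi => AlgEquiv.ext fun x => Subtype.ext ((h x).symm.trans (hi _ x.2))

theorem smul_val (τ : D.M ≃ₐ[D.E] D.M) (y : 𝓞 D.M) :
    ((τ • y : 𝓞 D.M) : D.M) = τ (y : D.M) := rfl

/-- An automorphism stabilising `w` extends to the decomposition group of a place over `w`. -/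
theorem exists_decomposition_ext {w : Ideal (𝓞 D.M)} [w.IsPrime] (hw : w ≠ ⊥)
    {A : ValuationSubring QB} (hA : PlaceOver A w) (τ : D.M ≃ₐ[D.E] D.M)
    (hτ : ∀ y : 𝓞 D.M, τ • y ∈ w ↔ y ∈ w) :
    ∃ g ∈ A.decompositionSubgroup ℚ, g ∈ D.galE ∧ ∀ x : D.M, g (x : QB) = ((τ x : D.M) : QB) := by
  have := WeightOneWiring.isGalois_QB
  set g₀ : GQ := AlgEquiv.liftNormal (τ.restrictScalars ℚ) QB
  have hg₀ : ∀ x : D.M, g₀ (x : QB) = ((τ x : D.M) : QB) := fun x =>
    AlgEquiv.liftNormal_commutes (τ.restrictScalars ℚ) QB x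
  have hg₀E : g₀ ∈ D.galE := by
    rw [← fixingSubgroup_E, IntermediateField.mem_fixingSubgroup_iff]
    intro x hx
    have := hg₀ (D.incl ⟨x, hx⟩)
    rw [show τ (D.incl ⟨x, hx⟩) = D.incl ⟨x, hx⟩ from τ.commutes _] at this
    exact this
  have hgA : PlaceOver (g₀ • A) w := by
    intro y
    have e : ((y : D.M) : QB) = g₀ (((τ⁻¹ • y : 𝓞 D.M) : D.M) : QB) := by
      rw [hg₀, smul_val]
      exact congrArg Subtype.val (τ.apply_symm_apply _).symm
    rw [e, apply_mem_smul_nonunits_iff, ← hA, ← hτ (τ⁻¹ • y), smul_inv_smul]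
  obtain ⟨h, hh, hhA⟩ := LanglandsTunnell.CFT.exists_smul_eq_of_placeOver hw hgA hA
  refine ⟨h * g₀, MulAction.mem_stabilizer_iff.mpr (by rw [mul_smul, hhA]), ?_, fun x => ?_⟩
  · rw [fixingSubgroup_M] at hh
    exact mul_mem (D.galM_le_galE hh) hg₀E
  · rw [AlgEquiv.mul_apply, hg₀]
    exact (IntermediateField.mem_fixingSubgroup_iff _ _).mp hh _ (τ x).2

/-! ### Inertia -/

section Inertia

variable {σ : D.M ≃ₐ[ℚ] D.M} (hne : σ ≠ AlgEquiv.refl) (hfix : ∀ x, σ (D.incl x) = D.incl x)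
  {w : Ideal (𝓞 D.M)} [w.IsPrime] (hw : w ≠ ⊥)

include hne hfix hw in
theorem inertia_eq_bot_iff :
    w.inertia (D.M ≃ₐ[D.E] D.M) = ⊥ ↔ ¬ IsRamPrime D w := by
  have := isGalois_EM hne hfix
  have := under_isPrime D w
  have hv : D.under w ≠ ⊥ := under_ne_bot D hw
  have : (D.under w).IsMaximal := (inferInstance : (D.under w).IsPrime).isMaximal hv
  have : w.LiesOver (D.under w) := ⟨rfl⟩
  have : Finite (𝓞 D.E ⧸ D.under w) := Ideal.finiteQuotientOfFreeOfNeBot _ hv
  have e : Nat.card (w.inertia (D.M ≃ₐ[D.E] D.M)) = (D.under w).ramificationIdx' w := by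
    rw [Ideal.card_inertia_eq_ramificationIdxIn (G := D.M ≃ₐ[D.E] D.M) (D.under w) w,
      Ideal.ramificationIdxIn_eq_ramificationIdx (D.under w) w (D.M ≃ₐ[D.E] D.M),
      Ideal.ramificationIdx'_eq_ramificationIdx _ _ hv]
  have hle : Ideal.map (algebraMap (𝓞 D.E) (𝓞 D.M)) (D.under w) ≤ w := Ideal.map_comap_le
  rw [← Subgroup.card_eq_one, e, ← not_iff_not, not_not]
  exact Ideal.ramificationIdx'_ne_one_iff hle

include hne hfix hw in
/-- At an unramified prime inertia acts trivially on `M`. -/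
theorem mem_galM_of_not_isRam (hu : ¬ IsRamPrime D w) {A : ValuationSubring QB}
    (hA : PlaceOver A w) {i : GQ} (hi : i ∈ A.inertiaSubgroupIn ℚ) (hiE : i ∈ D.galE) :
    i ∈ D.galM := by
  obtain ⟨τ, hτ⟩ := exists_restrict hiE
  refine (eq_one_iff_mem_galM hτ).mp (Subgroup.mem_bot.mp ?_)
  rw [← (inertia_eq_bot_iff hne hfix hw).mpr hu]
  intro y
  rw [Submodule.mem_toAddSubgroup, hA]
  have h := (mem_inertiaSubgroupIn_iff.mp hi).2 ((y : D.M) : QB)
    (mem_of_isIntegral A ((y.isIntegral_coe).map (D.M.val.restrictScalars ℤ)))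
  rw [hτ] at h
  exact h

include hne hfix hw in
/-- At a ramified prime some inertia element over `E` moves `M`. -/
theorem exists_inertia_notMem_galM (hr : IsRamPrime D w) {A : ValuationSubring QB}
    (hA : PlaceOver A w) {q : ℕ} (hq : q.Prime) (hqw : (q : 𝓞 D.M) ∈ w) :
    ∃ i ∈ A.inertiaSubgroupIn ℚ, i ∈ D.galE ∧ i ∉ D.galM := by
  have hb : ¬ w.inertia (D.M ≃ₐ[D.E] D.M) = ⊥ := fun h => (inertia_eq_bot_iff hne hfix hw).mp h hr
  rw [Subgroup.eq_bot_iff_forall] at hb
  push Not at hb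
  obtain ⟨τ, hτ, hτ1⟩ := hb
  have hτ' : ∀ y : 𝓞 D.M, τ • y - y ∈ w := hτ
  obtain ⟨g, hgA, hgE, hg⟩ := exists_decomposition_ext hw hA τ fun y => by
    constructor
    · intro h; simpa using sub_mem h (hτ' y)
    · intro h; simpa using add_mem (hτ' y) h
  obtain ⟨m, hm, hmi⟩ := ExtVanishing.exists_inv_mul_mem_inertia (F := D.M) hq
    (hA.liesOverPrime hqw) hgA fun y => by
      rw [mem_primeBelow]
      show g ((y : D.M) : QB) - ((y : D.M) : QB) ∈ A.nonunits
      rw [hg]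
      exact (hA _).mp (hτ' y)
  rw [fixingSubgroup_M] at hm
  refine ⟨_, hmi, mul_mem (inv_mem (D.galM_le_galE hm)) hgE, fun h => hτ1 ?_⟩
  exact (eq_one_iff_mem_galM hg).mpr (by simpa using mul_mem hm h)

include hne hfix hw in
/-- The hypotheses of `hasDualSystem_autOp`. -/
theorem exists_sub_notMem (hu : ¬ IsRamPrime D w) :
    (∃ a : 𝓞 D.M, a - RingOfIntegers.mapRingHom σ.toRingEquiv.toRingHom a ∉ w) ∧
      ∃ a : 𝓞 D.M, a - RingOfIntegers.mapRingHom σ.toRingEquiv.toRingHom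
        (RingOfIntegers.mapRingHom σ.toRingEquiv.toRingHom a) ∉ w := by
  have key : ∀ τ : D.M ≃ₐ[D.E] D.M, τ ≠ 1 → ∃ a : 𝓞 D.M, a - τ • a ∉ w := by
    intro τ hτ
    by_contra h
    push Not at h
    refine hτ (Subgroup.mem_bot.mp ?_)
    rw [← (inertia_eq_bot_iff hne hfix hw).mpr hu]
    intro y
    have := neg_mem (h y)
    rw [neg_sub] at this
    exact this
  refine ⟨?_, ?_⟩
  · obtain ⟨a, ha⟩ := key _ (overE_ne_one hne hfix)
    exact ⟨a, ha⟩
  · obtain ⟨a, ha⟩ := key _ (overE_sq_ne_one hne hfix)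
    exact ⟨a, ha⟩

end Inertia

/-! ### The shapes at `3` -/

variable (D) in
/-- The determinant of a Frobenius element at a place away from `3`. -/
theorem det_of_isFrobeniusAt {q : ℕ} (hq : q.Prime) (h3 : q ≠ 3) {A : ValuationSubring QB}
    (hA : A.LiesOverPrime q) {g : GQ} {N : ℕ} (hg : A.IsFrobeniusAt g N) :
    (D.ρ g).1.det = (N : ZMod 3) := by
  have : NeZero (3 : QB) := ⟨three_ne_zero⟩
  obtain ⟨ζ, hζ⟩ := HasEnoughRootsOfUnity.exists_primitiveRoot QB 3
  have h := LanglandsTunnell.CFT.apply_root_of_unity hg (natCast_notMem_nonunits hq hA fun h =>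
    h3 ((Nat.prime_dvd_prime_iff_eq hq Nat.prime_three).mp h)) hζ.pow_eq_one
  rw [TWPrimes.cyclo_spec 3 g hζ.pow_eq_one] at h
  have e : Matrix.GeneralLinearGroup.det (D.ρ g) = TWPrimes.cyclo 3 g := D.det g
  rw [pow_eq_pow_mod N hζ.pow_eq_one] at h
  have h2 := hζ.pow_inj (ZMod.val_lt _) (Nat.mod_lt _ (by norm_num)) h
  rw [← Matrix.GeneralLinearGroup.val_det_apply, e, ← ZMod.natCast_zmod_val
    ((TWPrimes.cyclo 3 g : (ZMod 3)ˣ) : ZMod 3), h2, ZMod.natCast_mod]

variable (D) in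
/-- Inertia away from `3` fixes `E`. -/
theorem inertia_le_galE {q : ℕ} (hq : q.Prime) (h3 : q ≠ 3) {A : ValuationSubring QB}
    (hA : A.LiesOverPrime q) : A.inertiaSubgroupIn ℚ ≤ D.galE := fun i hi => by
  obtain ⟨hd, hc⟩ := mem_inertiaSubgroupIn_iff.mp hi
  have hfrob : A.IsFrobeniusAt i 1 := isFrobeniusAt_iff.mpr ⟨hd, fun x hx => by
    rw [pow_one]; exact hc x hx⟩
  rw [mem_galE, det_of_isFrobeniusAt D hq h3 hA hfrob, Nat.cast_one]

variable (D) in
/-- Inertia at `3` contains an element outside `Gal(QB/E)`. -/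
theorem exists_inertia_notMem_galE {A : ValuationSubring QB} (hA : A.LiesOverPrime 3) :
    ∃ i ∈ A.inertiaSubgroupIn ℚ, i ∉ D.galE := by
  by_contra hc
  push Not at hc
  have hall : ∀ q : ℕ, q.Prime → ∀ B : ValuationSubring QB, B.LiesOverPrime q →
      B.inertiaSubgroupIn ℚ ≤ D.galE := by
    intro q hq B hB i hi
    rw [mem_galE]
    by_cases h3 : q = 3
    · subst h3
      obtain ⟨τ, rfl⟩ := Density.exists_smul_eq_of_liesOverPrime hq hA hB
      have h := mem_inertiaSubgroupIn_smul hi τ⁻¹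
      rw [inv_smul_smul] at h
      have h' := (mem_galE D).mp (hc _ h)
      simp only [map_mul, map_inv, inv_inv, Units.val_mul, det_mul] at h'
      rwa [mul_right_comm, ← det_mul, (D.ρ τ).inv_mul, det_one, one_mul] at h'
    · exact (mem_galE D).mp (inertia_le_galE D hq h3 hB hi)
  have hopen : IsOpen (D.galE : Set GQ) := by
    rw [← fixingSubgroup_E]
    exact D.E.fixingSubgroup_isOpen
  have htop := ECReduction.eq_top_of_inertia_le D.galE hopen hall
  have := WeightOneWiring.galE_index D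
  rw [htop, Subgroup.index_top] at this
  omega

/-- Conjugate places have inertia images of equal cardinality. -/
theorem card_inertia_image_le {A B : ValuationSubring QB} {τ : GQ} (hτ : τ • A = B) :
    Nat.card ((B.inertiaSubgroupIn ℚ).map D.ρ) ≤ Nat.card ((A.inertiaSubgroupIn ℚ).map D.ρ) := by
  refine le_trans (Subgroup.card_le_of_le (K := ((A.inertiaSubgroupIn ℚ).map D.ρ).map
    (MulAut.conj (D.ρ τ)).toMonoidHom) ?_)
    (le_of_eq (Subgroup.card_map_of_injective (MulAut.conj (D.ρ τ)).injective))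
  rintro _ ⟨i, hi, rfl⟩
  have h := mem_inertiaSubgroupIn_smul hi τ⁻¹
  rw [← hτ, inv_smul_smul, inv_inv] at h
  exact ⟨D.ρ (τ⁻¹ * i * τ), ⟨_, h, rfl⟩, by simp [MulAut.conj_apply, map_mul, map_inv, mul_assoc]⟩

theorem two_lt_card_of_not_split (hns : ¬ D.SplitAtThree) {A : ValuationSubring QB}
    (hA : A.LiesOverPrime 3) : 2 < Nat.card ((A.inertiaSubgroupIn ℚ).map D.ρ) := by
  simp only [Datum.SplitAtThree, not_forall, not_le] at hns
  obtain ⟨B, hB, h⟩ := hns
  obtain ⟨τ, hτ⟩ := Density.exists_smul_eq_of_liesOverPrime Nat.prime_three hA hB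
  exact h.trans_le (card_inertia_image_le hτ)

variable (D) in
theorem lineShape_of_split (hs : D.SplitAtThree) (A : ValuationSubring QB)
    (hA : A.LiesOverPrime 3) : LineShape D.ρ A := by
  refine (D.three A hA).resolve_right fun h => ?_
  have := hs A hA
  rw [h.2] at this
  omega

theorem unipotent_q8 : ∀ a b c d : ZMod 3, a * d - b * c = 1 →
    (a + d = 0 ∨ (!![a, b; c, d] : Matrix (Fin 2) (Fin 2) (ZMod 3)) = 1 ∨
      (!![a, b; c, d] : Matrix (Fin 2) (Fin 2) (ZMod 3)) = -1) →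
    (!![a, b; c, d] - 1 : Matrix (Fin 2) (Fin 2) (ZMod 3)).det = 0 →
    (!![a, b; c, d] : Matrix (Fin 2) (Fin 2) (ZMod 3)) = 1 := by
  decide +kernel

theorem pow_eq_self_or_cube : ∀ a b c d : ZMod 3,
    (!![a, b; c, d] : Matrix (Fin 2) (Fin 2) (ZMod 3)) ^ 8 = 1 →
    (!![a, b; c, d] : Matrix (Fin 2) (Fin 2) (ZMod 3)) ^ 4 ≠ 1 →
    (a * d - b * c = -1 ∧ a + d ≠ 0) ∧ ∀ n : Fin 8,
      ((!![a, b; c, d] : Matrix (Fin 2) (Fin 2) (ZMod 3)) ^ (n : ℕ)).det =
        (!![a, b; c, d] : Matrix (Fin 2) (Fin 2) (ZMod 3)).det →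
      ((!![a, b; c, d] : Matrix (Fin 2) (Fin 2) (ZMod 3)) ^ (n : ℕ)).trace =
        (!![a, b; c, d] : Matrix (Fin 2) (Fin 2) (ZMod 3)).trace →
      (!![a, b; c, d] : Matrix (Fin 2) (Fin 2) (ZMod 3)) ^ (n : ℕ) = !![a, b; c, d] ∨
        (!![a, b; c, d] : Matrix (Fin 2) (Fin 2) (ZMod 3)) ^ (n : ℕ) =
          !![a, b; c, d] * !![a, b; c, d] * !![a, b; c, d] := by
  decide +kernel

theorem normaliser_q8 : ∀ e f k l : ZMod 3, e * l - f * k = 1 →
    ∀ a b c d : ZMod 3, a * d - b * c = -1 → a + d ≠ 0 →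
      ((!![e, f; k, l] : Matrix (Fin 2) (Fin 2) (ZMod 3)) * !![a, b; c, d] =
          !![a, b; c, d] * !![e, f; k, l] ∨
        (!![e, f; k, l] : Matrix (Fin 2) (Fin 2) (ZMod 3)) * !![a, b; c, d] =
          !![a, b; c, d] * !![a, b; c, d] * !![a, b; c, d] * !![e, f; k, l]) →
      e + l = 0 ∨ (!![e, f; k, l] : Matrix (Fin 2) (Fin 2) (ZMod 3)) = 1 ∨
        (!![e, f; k, l] : Matrix (Fin 2) (Fin 2) (ZMod 3)) = -1 := by
  decide +kernel

/-- An element of determinant one normalising a cyclic subgroup of order eight lies in the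
quaternion group. -/
theorem inQ8_of_normalises {H : Subgroup (GL (Fin 2) (ZMod 3))} [IsCyclic H]
    (hH : Nat.card H = 8) {g : GL (Fin 2) (ZMod 3)} (hg : g.1.det = 1)
    (hn : ∀ x ∈ H, g * x * g⁻¹ ∈ H) : InQ8 g := by
  obtain ⟨⟨x, hx⟩, hgen⟩ := IsCyclic.exists_generator (α := H)
  have hord : orderOf x = 8 := by
    rw [← hH, ← orderOf_eq_card_of_forall_mem_zpowers hgen, ← Subgroup.orderOf_coe]
  have h8 : x.1 ^ 8 = 1 := by
    rw [← Units.val_pow_eq_pow_val, ← hord, pow_orderOf_eq_one, Units.val_one]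
  have h4 : x.1 ^ 4 ≠ 1 := fun h => by
    have := orderOf_dvd_of_pow_eq_one (x := x) (n := 4) (Units.ext (by
      rw [Units.val_pow_eq_pow_val, h, Units.val_one]))
    rw [hord] at this
    norm_num at this
  obtain ⟨m, hm⟩ := Subgroup.mem_zpowers_iff.mp (hgen ⟨_, hn x hx⟩)
  have hm' : x ^ m = g * x * g⁻¹ := congrArg Subtype.val hm
  obtain ⟨n, hn'⟩ : ∃ n : Fin 8, g * x * g⁻¹ = x ^ (n : ℕ) := by
    have h1 := Int.emod_nonneg m (b := 8) (by norm_num)
    have h2 := Int.emod_lt_of_pos m (b := 8) (by norm_num)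
    refine ⟨⟨(m % 8).toNat, by omega⟩, ?_⟩
    rw [← hm', ← zpow_natCast, Int.toNat_of_nonneg h1, ← zpow_mod_orderOf x m, hord]
    norm_num
  have hv : g.1 * x.1 * (g⁻¹).1 = x.1 ^ (n : ℕ) := by
    rw [← Units.val_mul, ← Units.val_mul, hn', Units.val_pow_eq_pow_val]
  have hdet : (x.1 ^ (n : ℕ)).det = x.1.det := by
    rw [← hv, det_mul, det_mul, mul_right_comm, ← det_mul, g.mul_inv, det_one, one_mul]
  have htr : (x.1 ^ (n : ℕ)).trace = x.1.trace := by
    rw [← hv, trace_mul_cycle, g.inv_mul, Matrix.one_mul]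
  have hcomm : g.1 * x.1 = x.1 ^ (n : ℕ) * g.1 := by
    rw [← hv, Matrix.mul_assoc (g.1 * x.1), g.inv_mul, Matrix.mul_one]
  rw [eta_fin_two x.1] at h8 h4 hdet htr hcomm
  obtain ⟨⟨hxd, hxt⟩, hn2⟩ := pow_eq_self_or_cube _ _ _ _ h8 h4
  refine ⟨hg, ?_⟩
  rw [eta_fin_two g.1] at hcomm hg ⊢
  rw [det_fin_two_of] at hg
  rw [trace_fin_two_of]
  refine normaliser_q8 _ _ _ _ hg _ _ _ _ hxd hxt ?_
  rcases hn2 n hdet htr with h | h <;> rw [h] at hcomm
  exacts [Or.inl hcomm, Or.inr hcomm]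

section Three

variable {σ : D.M ≃ₐ[ℚ] D.M} (hne : σ ≠ AlgEquiv.refl) (hfix : ∀ x, σ (D.incl x) = D.incl x)

include hne hfix in
/-- Split at `3`: unramified over `E`. -/
theorem not_isRamPrime_of_split (hs : D.SplitAtThree) {w : Ideal (𝓞 D.M)} [w.IsPrime]
    (hw : (3 : 𝓞 D.M) ∈ w) : ¬ IsRamPrime D w := by
  classical
  intro hr
  have hw' : ((3 : ℕ) : 𝓞 D.M) ∈ w := by exact_mod_cast hw
  have hw0 := ne_bot_of_natCast_mem Nat.prime_three hw'
  obtain ⟨-, A, -, -, -, hA⟩ := LanglandsTunnell.CFT.exists_placeOver w hw0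
  obtain ⟨i, hi, hiE, hiM⟩ :=
    exists_inertia_notMem_galM hne hfix hw0 hr hA Nat.prime_three hw'
  have hA3 := hA.liesOverPrime hw'
  obtain ⟨j, hj, hjE⟩ := exists_inertia_notMem_galE D hA3
  rw [mem_galE] at hiE hjE
  have h1 : D.ρ i ≠ 1 := fun h => hiM ((mem_galM D).mpr ⟨hiE, by simp [h]⟩)
  have h2 : D.ρ j ≠ 1 := fun h => hjE (by simp [h])
  have h3 : D.ρ i ≠ D.ρ j := fun h => hjE (h ▸ hiE)
  have hsub : ({1, D.ρ i, D.ρ j} : Set (GL (Fin 2) (ZMod 3))) ⊆
      ((A.inertiaSubgroupIn ℚ).map D.ρ : Subgroup (GL (Fin 2) (ZMod 3))) := by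
    rintro x (rfl | rfl | rfl)
    exacts [one_mem _, ⟨i, hi, rfl⟩, ⟨j, hj, rfl⟩]
  have hc := Set.ncard_le_ncard hsub (Set.toFinite _)
  rw [Set.ncard_insert_of_notMem (by
    rintro (h | h)
    exacts [h1 h.symm, h2 h.symm]) (Set.toFinite _), Set.ncard_pair h3] at hc
  have := hs A hA3
  rw [← Nat.card_coe_set_eq] at hc
  exact absurd (hc.trans this) (by norm_num)

include hne hfix in
/-- Not split and unramified: every prime over `3` splits completely. -/
theorem map_ne_of_not_split (hns : ¬ D.SplitAtThree) {w : Ideal (𝓞 D.M)} [w.IsPrime]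
    (hw : (3 : 𝓞 D.M) ∈ w) (hu : ¬ IsRamPrime D w) :
    w.map (RingOfIntegers.mapRingHom σ.toRingEquiv.toRingHom) ≠ w := by
  intro hstab
  have hw' : ((3 : ℕ) : 𝓞 D.M) ∈ w := by exact_mod_cast hw
  have hw0 := ne_bot_of_natCast_mem Nat.prime_three hw'
  obtain ⟨-, A, -, -, -, hA⟩ := LanglandsTunnell.CFT.exists_placeOver w hw0
  have hA3 := hA.liesOverPrime hw'
  have htriv : ∀ i ∈ A.inertiaSubgroupIn ℚ, i ∈ D.galE → i ∈ D.galM := fun i hi hiE =>
    mem_galM_of_not_isRam hne hfix hw0 hu hA hi hiE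
  have hss : SupersingularShape D.ρ A := by
    refine (D.three A hA3).resolve_left fun hline => ?_
    have hle : Nat.card ((A.inertiaSubgroupIn ℚ).map D.ρ) ≤ 2 := by
      let f : (A.inertiaSubgroupIn ℚ).map D.ρ → (ZMod 3)ˣ :=
        fun x => Matrix.GeneralLinearGroup.det x.1
      refine (Nat.card_le_card_of_injective f ?_).trans
        (by rw [Nat.card_eq_fintype_card]; decide +kernel)
      rintro ⟨_, i, hi, rfl⟩ ⟨_, j, hj, rfl⟩ h
      refine Subtype.ext ?_
      have hij : i⁻¹ * j ∈ A.inertiaSubgroupIn ℚ := mul_mem (inv_mem hi) hj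
      have hE : i⁻¹ * j ∈ D.galE := by
        simp only [Datum.galE, MonoidHom.mem_ker, MonoidHom.comp_apply, map_mul, map_inv]
        rw [show Matrix.GeneralLinearGroup.det (D.ρ i) = Matrix.GeneralLinearGroup.det (D.ρ j)
          from h, inv_mul_cancel]
      obtain ⟨hd, h8⟩ := (mem_galM D).mp (htriv _ hij hE)
      have hl := hline _ hij
      rw [eta_fin_two (D.ρ (i⁻¹ * j)).1] at hd h8 hl
      rw [det_fin_two_of] at hd
      rw [trace_fin_two_of] at h8
      have e1 : D.ρ (i⁻¹ * j) = 1 := Units.ext (by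
        rw [eta_fin_two (D.ρ (i⁻¹ * j)).1]
        exact unipotent_q8 _ _ _ _ hd h8 hl)
      rwa [map_mul, map_inv, inv_mul_eq_one] at e1
    exact absurd hle (not_le.mpr (two_lt_card_of_not_split hns hA3))
  set τ := overE hfix
  have hτw : ∀ y : 𝓞 D.M, y ∈ w → τ • y ∈ w := by
    intro y hy
    have := Ideal.mem_map_of_mem (RingOfIntegers.mapRingHom σ.toRingEquiv.toRingHom) hy
    rw [hstab] at this
    exact this
  obtain ⟨g, hgA, hgE, hg⟩ := exists_decomposition_ext hw0 hA τ fun y => by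
    refine ⟨fun h => ?_, hτw y⟩
    have h2 := hτw _ (hτw _ h)
    rwa [← mul_smul, ← mul_smul, show τ * τ * τ = 1 from
      (by rw [← pow_two, ← pow_succ]; exact overE_cube hne hfix), one_smul] at h2
  obtain ⟨hcyc, hcard⟩ := hss
  have := hcyc
  have hq8 : InQ8 (D.ρ g) := by
    refine inQ8_of_normalises hcard ((mem_galE D).mp hgE) ?_
    rintro _ ⟨i, hi, rfl⟩
    have h := mem_inertiaSubgroupIn_smul hi g
    rw [MulAction.mem_stabilizer_iff.mp hgA] at h
    exact ⟨_, h, by rw [map_mul, map_mul, map_inv]⟩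
  exact overE_ne_one hne hfix ((eq_one_iff_mem_galM hg).mpr ((mem_galM D).mpr hq8))

end Three

/-! ### Finiteness -/

variable (D) in
theorem finite_isRamAt : {p : Nat.Primes | IsRamAt D p}.Finite := by
  have hd : differentIdeal ℤ (𝓞 D.M) ≠ ⊥ := differentIdeal_ne_bot
  have hS : {w : Ideal (𝓞 D.M) | w ∣ differentIdeal ℤ (𝓞 D.M)}.Finite := by
    have := UniqueFactorizationMonoid.fintypeSubtypeDvd (differentIdeal ℤ (𝓞 D.M)) hd
    exact Set.finite_coe_iff.mp (Finite.of_fintype {w // w ∣ differentIdeal ℤ (𝓞 D.M)})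
  refine Set.Finite.subset (hS.biUnion fun w _ => (?_ :
    {p : Nat.Primes | w.IsPrime ∧ ((p : ℕ) : 𝓞 D.M) ∈ w}.Finite)) fun p ⟨w, hw, hp, hr⟩ => ?_
  · refine Set.Subsingleton.finite fun p ⟨hw, hp⟩ q ⟨_, hq⟩ => ?_
    by_contra hne
    have hcop : Nat.Coprime (p : ℕ) q :=
      (Nat.coprime_primes p.2 q.2).mpr fun h => hne (Subtype.ext h)
    obtain ⟨u, v, huv⟩ := Int.isCoprime_iff_nat_coprime.mpr (by simpa using hcop :
      Nat.Coprime (Int.natAbs (p : ℕ)) (Int.natAbs (q : ℕ)))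
    refine hw.ne_top ((Ideal.eq_top_iff_one _).mpr ?_)
    have h1 := congrArg (Int.cast (R := 𝓞 D.M)) huv
    push_cast at h1
    rw [← h1]
    exact add_mem (w.mul_mem_left _ hp) (w.mul_mem_left _ hq)
  · refine Set.mem_iUnion₂.mpr ⟨w, ?_, hw, hp⟩
    have := hw
    have : (Ideal.span {((p : ℕ) : ℤ)}).IsMaximal :=
      PrincipalIdealRing.isMaximal_of_irreducible (Nat.prime_iff_prime_int.mp p.2).irreducible
    have h0 : (Ideal.span {((p : ℕ) : ℤ)}) ≠ ⊥ := by
      rw [Ne, Ideal.span_singleton_eq_bot]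
      exact_mod_cast p.2.ne_zero
    have hdvd : w ^ 2 ∣ (Ideal.span {((p : ℕ) : ℤ)}).map (algebraMap ℤ (𝓞 D.M)) := by
      refine Ideal.dvd_iff_le.mpr (le_trans ?_ hr)
      rw [Ideal.map_span, Set.image_singleton, Ideal.span_singleton_le_iff_mem, map_natCast]
      have := Ideal.mem_map_of_mem (RingOfIntegers.mapRingHom D.incl)
        ((natCast_mem_under D (p : ℕ)).mpr hp)
      rwa [map_natCast] at this
    have := pow_sub_one_dvd_differentIdeal ℤ w 2 h0 hdvd
    simpa using this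

variable (D) in
/-- The ramified set. -/
def ramPrimes : Finset Nat.Primes := (finite_isRamAt D).toFinset

theorem mem_ramPrimes {p : Nat.Primes} : p ∈ ramPrimes D ↔ IsRamAt D p := by
  simp [ramPrimes]

end FLTAgent.LanglandsTunnell.Local
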