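import Fermat.Agent.LanglandsTunnell.Local.FixedPoints
import Mathlib.GroupTheory.Subgroup.Center

/-!
# The ramified test set with centre

`twistedSetC` and `cubeSetC` are the test sets with centre; `bijOn_shiftMap_centre` matches their
fixed cosets.
-/

set_option autoImplicit false

noncomputable section

namespace FLTAgent.LanglandsTunnell.Local

variable {G H : Type*} [Group G] [Group H] {θ : G ≃* G} {ι : H →* G} {K : Subgroup G}

/-- `{k z y θ(k)⁻¹}` with `z` in `Z`. -/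
def twistedSetC (θ : G ≃* G) (ι : H →* G) (K Z : Subgroup G) (Y : Set H) : Set G :=
  {x | ∃ k ∈ K, ∃ z ∈ Z, ∃ y ∈ Y, x = k * z * ι y * (θ k)⁻¹}

/-- The cubes, times norms from `Z`. -/
def cubeSetC (θ : G ≃* G) (ι : H →* G) (Z : Subgroup G) (Y : Set H) : Set H :=
  {h | ∃ z ∈ Z, ∃ y ∈ Y, ι h = tnorm θ z * ι (y ^ 3)}

theorem isTwInvariant_twistedSetC (Z : Subgroup G) (Y : Set H) :
    IsTwInvariant θ K (twistedSetC θ ι K Z Y) := by
  rintro k hk _ ⟨l, hl, z, hz, y, hy, rfl⟩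
  refine ⟨k⁻¹ * l, K.mul_mem (K.inv_mem hk) hl, z, hz, y, hy, ?_⟩
  rw [map_mul, map_inv]
  group

/-- The test function at a ramified place, modulo the centre. -/
theorem bijOn_shiftMap_centre (Z : Subgroup G) (hZc : Z ≤ Subgroup.center G)
    (hZθ : ∀ z ∈ Z, θ z ∈ Z) (hZK : Z ≤ K) (hθ : ∀ g, θ (θ (θ g)) = g) (hι : ∀ h, θ (ι h) = ι h)
    (hfix : ∀ g, θ g = g → ∃ h, ι h = g)
    (hH90 : ∀ z ∈ Z, tnorm θ z = 1 → ∃ x ∈ Z, θ x = z * x)
    {Y : Set H} (hY : IsConjInvariant (K.comap ι) Y) {δ b t : G} {γ : H}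
    (hb : b⁻¹ * δ * θ b = t) (hN : tnorm θ t = ι γ)
    (key : ∀ g : G, ∀ y ∈ Y, ∀ z ∈ Z, g⁻¹ * ι γ * g = tnorm θ z * ι (y ^ 3) →
      ∃ m ∈ Z, g⁻¹ * t * g = m * ι y) :
    Set.BijOn (shiftMap ι K b) (conjFix (K.comap ι) γ (cubeSetC θ ι Z Y))
      (twFix θ K δ (twistedSetC θ ι K Z Y)) := by
  have comm : ∀ z ∈ Z, ∀ g : G, z * g = g * z := fun z hz g =>
    (Subgroup.mem_center_iff.mp (hZc hz) g).symm
  have hNZ : ∀ z ∈ Z, tnorm θ z ∈ Z := fun z hz =>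
    Z.mul_mem (Z.mul_mem hz (hZθ z hz)) (hZθ _ (hZθ z hz))
  refine bijOn_shiftMap (isTwInvariant_twistedSetC Z Y) ?_ hι hb ?_ ?_
  · rintro k hk _ ⟨z, hz, y, hy, e⟩
    refine ⟨z, hz, k⁻¹ * y * k, hY k hk y hy, ?_⟩
    rw [map_mul, map_mul, map_inv, e, ← mul_assoc (ι k)⁻¹, ← comm _ (hNZ z hz) (ι k)⁻¹]
    simp only [pow_succ, pow_zero, one_mul, map_mul, map_inv]
    group
  · rintro h ⟨z, hz, y, hy, e⟩
    rw [map_mul, map_mul, map_inv] at e
    obtain ⟨m, hm, he⟩ := key (ι h) y hy z hz e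
    exact ⟨1, K.one_mem, m, hm, y, hy, by rw [he]; simp⟩
  · rintro g ⟨k, hk, z, hz, y, hy, hg⟩
    set w := g * k with hw
    have hw' : w⁻¹ * t * θ w = z * ι y := by
      have : w⁻¹ * t * θ w = k⁻¹ * (g⁻¹ * t * θ g) * θ k := by
        rw [hw, map_mul]; group
      rw [this, hg]
      group
    have htn : ∀ a ∈ Z, ∀ u : H, tnorm θ (a * ι u) = tnorm θ a * ι (u ^ 3) := fun a ha u => by
      simp only [tnorm, map_mul, hι, pow_succ, pow_zero, one_mul]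
      rw [show a * ι u * (θ a * ι u) * (θ (θ a) * ι u)
        = a * (ι u * θ a) * (ι u * θ (θ a)) * ι u by group,
        ← comm _ (hZθ a ha) (ι u), ← comm _ (hZθ _ (hZθ a ha)) (ι u)]
      rw [show a * (θ a * ι u) * (θ (θ a) * ι u) * ι u
        = a * θ a * (ι u * θ (θ a)) * ι u * ι u by group, ← comm _ (hZθ _ (hZθ a ha)) (ι u)]
      group
    have hγ : w⁻¹ * ι γ * w = tnorm θ z * ι (y ^ 3) := by
      rw [← hN, ← tnorm_twist hθ, hw', htn z hz]
    obtain ⟨m, hm, he⟩ := key w y hy z hz hγ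
    set z₁ := m⁻¹ * z with hz₁
    have hz₁Z : z₁ ∈ Z := Z.mul_mem (Z.inv_mem hm) hz
    have hθw : θ w = w * z₁ := by
      have h2 : (w⁻¹ * t * w) * (w⁻¹ * θ w) = z * ι y := by rw [← hw']; group
      rw [he] at h2
      calc θ w = w * ((m * ι y)⁻¹ * (m * ι y * (w⁻¹ * θ w))) := by group
        _ = w * ((m * ι y)⁻¹ * (z * ι y)) := by rw [h2]
        _ = w * z₁ := by
          rw [comm z hz (ι y), hz₁, mul_inv_rev, mul_assoc (ι y)⁻¹, ← mul_assoc m⁻¹,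
            comm _ (Z.inv_mem hm) (ι y)]
          group
    have hN1 : tnorm θ z₁ = 1 := by
      have : w * tnorm θ z₁ = w * 1 := by
        rw [mul_one]
        conv_rhs => rw [← hθ w, hθw, map_mul, hθw, map_mul, map_mul, hθw]
        simp only [tnorm, mul_assoc]
      exact mul_left_cancel this
    obtain ⟨x, hx, hθx⟩ := hH90 z₁ hz₁Z hN1
    obtain ⟨h, hh⟩ := hfix (w * x⁻¹) (by
      rw [map_mul, map_inv, hθw, hθx, comm z₁ hz₁Z x, mul_inv_rev]
      group)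
    refine ⟨h, ?_, z, hz, y, hy, ?_⟩
    · rw [hh, hw, show (g * k * x⁻¹)⁻¹ * g = x * k⁻¹ by group]
      exact K.mul_mem (hZK hx) (K.inv_mem hk)
    · rw [map_mul, map_mul, map_inv, hh, mul_inv_rev, inv_inv,
        show x * w⁻¹ * ι γ * (w * x⁻¹) = x * (w⁻¹ * ι γ * w) * x⁻¹ by group, hγ, comm x hx]
      group

end FLTAgent.LanglandsTunnell.Local
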