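import Fermat.Agent.LanglandsTunnell.Local.CubeRoot
import Fermat.Agent.LanglandsTunnell.Local.TwistedCentre

/-!
# Congruence levels in `GL(2)` and the local setting of a cubic extension

The principal congruence subgroup `congrGroup` and its product with the centre `levelK`, with
their behaviour under conjugation and determinants.
-/

set_option autoImplicit false

noncomputable section

namespace FLTAgent.LanglandsTunnell.Local

open Matrix

section Levels

variable {O L : Type*} [CommRing O] [CommRing L] (φ : O →+* L)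

/-- The entries come from `O` and are congruent to `1` modulo `N`. -/
def InCongr (N : O) (g : Matrix (Fin 2) (Fin 2) L) : Prop :=
  ∃ Y : Matrix (Fin 2) (Fin 2) O, IsCongrOne N Y ∧ Y.map φ = g

theorem IsCongrOne.mul' {N : O} {Y Y' : Matrix (Fin 2) (Fin 2) O} (h : IsCongrOne N Y)
    (h' : IsCongrOne N Y') : IsCongrOne N (Y * Y') := by
  obtain ⟨X, rfl⟩ := h
  obtain ⟨X', rfl⟩ := h'
  refine ⟨X + X' + N • (X * X'), ?_⟩
  simp only [Matrix.mul_add, Matrix.add_mul, Matrix.mul_one, Matrix.one_mul, smul_add,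
    Matrix.mul_smul, Matrix.smul_mul]
  abel

theorem isCongrOne_of_isUnit {N : O} (hN : IsUnit N) (Y : Matrix (Fin 2) (Fin 2) O) :
    IsCongrOne N Y :=
  ⟨(↑hN.unit⁻¹ : O) • (Y - 1), by rw [smul_smul, IsUnit.mul_val_inv, one_smul]; abel⟩

/-- The principal congruence subgroup of level `N`. -/
def congrGroup (N : O) : Subgroup (GL (Fin 2) L) where
  carrier := {g | InCongr φ N g.1 ∧ InCongr φ N (g⁻¹).1}
  one_mem' := by
    have h : InCongr φ N (1 : Matrix (Fin 2) (Fin 2) L) :=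
      ⟨1, ⟨0, by simp⟩, by ext i j; simp [Matrix.one_apply, apply_ite φ]⟩
    simpa using And.intro h h
  mul_mem' {a b} := by
    have key : ∀ x y : Matrix (Fin 2) (Fin 2) L, InCongr φ N x → InCongr φ N y →
        InCongr φ N (x * y) := by
      rintro _ _ ⟨Y, hY, rfl⟩ ⟨Y', hY', rfl⟩
      exact ⟨Y * Y', hY.mul' hY', by rw [Matrix.map_mul]⟩
    exact fun ha hb => ⟨key _ _ ha.1 hb.1, by rw [_root_.mul_inv_rev]; exact key _ _ hb.2 ha.2⟩
  inv_mem' {a} ha := ⟨ha.2, by rw [inv_inv]; exact ha.1⟩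

variable {φ}

theorem mem_congrGroup {N : O} {g : GL (Fin 2) L} :
    g ∈ congrGroup φ N ↔ InCongr φ N g.1 ∧ InCongr φ N (g⁻¹).1 := Iff.rfl

/-- An invertible congruent matrix lies in the congruence subgroup. -/
theorem mem_congrGroup_of_isUnit {N : O} {g : GL (Fin 2) L} {Y : Matrix (Fin 2) (Fin 2) O}
    (hY : IsCongrOne N Y) (hu : IsUnit Y) (h : Y.map φ = g.1) : g ∈ congrGroup φ N := by
  obtain ⟨u, rfl⟩ := hu
  refine ⟨⟨u, hY, h⟩, ⟨(↑u⁻¹ : Matrix (Fin 2) (Fin 2) O), ?_, ?_⟩⟩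
  · obtain ⟨X, hX⟩ := hY
    refine ⟨-((↑u⁻¹ : Matrix (Fin 2) (Fin 2) O) * X), ?_⟩
    have := u.inv_mul
    rw [hX, Matrix.mul_add, Matrix.mul_one, Matrix.mul_smul] at this
    rw [smul_neg, ← sub_eq_add_neg]
    exact eq_sub_of_add_eq this
  · refine left_inv_eq_right_inv (a := g.1) ?_ g.mul_inv
    rw [← h, ← Matrix.map_mul, u.inv_mul]
    ext i j
    simp [Matrix.one_apply, apply_ite φ]

theorem exists_units_of_mem_congrGroup (hφ : Function.Injective φ) {N : O} {g : GL (Fin 2) L}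
    (hg : g ∈ congrGroup φ N) :
    ∃ k : GL (Fin 2) O, IsCongrOne N k.1 ∧ Matrix.GeneralLinearGroup.map φ k = g := by
  obtain ⟨⟨Y, hY, h⟩, ⟨Y', -, h'⟩⟩ := hg
  have inj : Function.Injective (fun X : Matrix (Fin 2) (Fin 2) O => X.map φ) :=
    fun a b hab => Matrix.ext fun i j => hφ (congrFun (congrFun hab i) j)
  have h1 : ∀ X Z : Matrix (Fin 2) (Fin 2) O, X.map φ * Z.map φ = 1 → X * Z = 1 :=
    fun X Z hXZ => inj (by
      show (X * Z).map φ = (1 : Matrix (Fin 2) (Fin 2) O).map φ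
      rw [Matrix.map_mul, hXZ]
      ext i j
      simp [Matrix.one_apply, apply_ite φ])
  refine ⟨⟨Y, Y', h1 _ _ ?_, h1 _ _ ?_⟩, hY, Units.ext h⟩ <;> rw [h, h']
  exacts [g.mul_inv, g.inv_mul]

theorem map_mem_congrGroup {N : O} {k : GL (Fin 2) O} (hk : IsCongrOne N k.1) :
    Matrix.GeneralLinearGroup.map φ k ∈ congrGroup φ N :=
  mem_congrGroup_of_isUnit hk k.isUnit rfl

theorem congrGroup_le_one (N : O) : congrGroup φ N ≤ congrGroup φ 1 := fun _ hg =>
  ⟨hg.1.imp fun Y h => ⟨isCongrOne_of_isUnit isUnit_one Y, h.2⟩,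
    hg.2.imp fun Y h => ⟨isCongrOne_of_isUnit isUnit_one Y, h.2⟩⟩

theorem conj_mem_congrGroup {N : O} {k x : GL (Fin 2) L} (hk : k ∈ congrGroup φ 1)
    (hx : x ∈ congrGroup φ N) : k⁻¹ * x * k ∈ congrGroup φ N := by
  have key : ∀ x : GL (Fin 2) L, InCongr φ N x.1 → InCongr φ N (k⁻¹ * x * k).1 := fun x hx => by
    obtain ⟨⟨Y, -, hY⟩, ⟨Y', -, hY'⟩⟩ := hk
    obtain ⟨Z, ⟨X, rfl⟩, hZ⟩ := hx
    refine ⟨1 + N • (Y' * X * Y), ⟨_, rfl⟩, ?_⟩
    simp only [Units.val_mul, ← hY, ← hY', ← hZ]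
    simp only [← RingHom.mapMatrix_apply, map_add, map_one, Matrix.mul_add, Matrix.mul_one,
      Matrix.add_mul]
    have : φ.mapMatrix Y' * φ.mapMatrix Y = 1 := by
      simp only [RingHom.mapMatrix_apply, hY, hY']
      exact k.inv_mul
    rw [this]
    simp only [RingHom.mapMatrix_apply]
    rw [← Matrix.map_mul, ← Matrix.map_mul]
    congr 2
    rw [Matrix.mul_smul, Matrix.smul_mul]
  refine ⟨key x hx.1, ?_⟩
  rw [show (k⁻¹ * x * k)⁻¹ = k⁻¹ * x⁻¹ * k by group]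
  exact key _ hx.2

variable (φ) in
/-- The congruence subgroup times the centre. -/
def levelK (N : O) : Subgroup (GL (Fin 2) L) :=
  congrGroup φ N ⊔ Subgroup.center (GL (Fin 2) L)

theorem scalar_mem_center (u : Lˣ) :
    Matrix.GeneralLinearGroup.scalar (Fin 2) u ∈ Subgroup.center (GL (Fin 2) L) := by
  rw [Matrix.GeneralLinearGroup.center_eq_range_scalar]; exact ⟨u, rfl⟩

theorem mem_levelK {N : O} {g : GL (Fin 2) L} :
    g ∈ levelK φ N ↔ ∃ u : Lˣ, ∃ k ∈ congrGroup φ N,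
      g = Matrix.GeneralLinearGroup.scalar (Fin 2) u * k := by
  rw [levelK, Subgroup.mem_sup_of_normal_right]
  constructor
  · rintro ⟨k, hk, z, hz, rfl⟩
    rw [Matrix.GeneralLinearGroup.center_eq_range_scalar] at hz
    obtain ⟨u, rfl⟩ := hz
    exact ⟨u, k, hk, (Matrix.GeneralLinearGroup.scalar_commute u k).symm⟩
  · rintro ⟨u, k, hk, rfl⟩
    exact ⟨k, hk, _, scalar_mem_center u, (Matrix.GeneralLinearGroup.scalar_commute u k).symm⟩

theorem conj_mem_levelK {N : O} {k x : GL (Fin 2) L} (hk : k ∈ levelK φ 1)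
    (hx : x ∈ congrGroup φ N) : k⁻¹ * x * k ∈ congrGroup φ N := by
  obtain ⟨u, l, hl, rfl⟩ := mem_levelK.mp hk
  have hu := Subgroup.mem_center_iff.mp (scalar_mem_center (L := L) u)
  rw [_root_.mul_inv_rev, show l⁻¹ * (GeneralLinearGroup.scalar (Fin 2) u)⁻¹ * x *
    (GeneralLinearGroup.scalar (Fin 2) u * l) = l⁻¹ * ((GeneralLinearGroup.scalar (Fin 2) u)⁻¹ *
      (x * GeneralLinearGroup.scalar (Fin 2) u)) * l by group, hu x]
  simpa using conj_mem_congrGroup hl hx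

theorem levelK_le_one (N : O) : levelK φ N ≤ levelK φ 1 :=
  sup_le_sup_right (congrGroup_le_one N) _

theorem det_mem_of_mem_congrGroup (hφ : Function.Injective φ) {N : O} {g : GL (Fin 2) L}
    (hg : g ∈ congrGroup φ N) : ∃ d : Oˣ, Units.map φ.toMonoidHom d = g.det := by
  obtain ⟨k, -, rfl⟩ := exists_units_of_mem_congrGroup hφ hg
  exact ⟨k.det, Units.ext (det_map' k.1).symm⟩

end Levels

end FLTAgent.LanglandsTunnell.Local
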