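import Fermat.Agent.LanglandsTunnell.Local.Descent

/-!
# Contractions in `p`-adically complete rings, and norms of units

The norm of a freely acting automorphism of order three is onto on fixed units, for a finite ring
and for a `p`-adically complete ring with finite reduction. See `IsPComplete` and `exists_norm_eq`.
-/

set_option autoImplicit false

noncomputable section

namespace FLTAgent.LanglandsTunnell.Local

variable {A : Type*} [CommRing A]

/-- `A` is `p`-adically separated and complete. -/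
structure IsPComplete (p : A) : Prop where
  haus : ∀ x : A, (∀ n : ℕ, p ^ n ∣ x) → x = 0
  prec : ∀ f : ℕ → A, (∀ n, p ^ n ∣ f (n + 1) - f n) → ∃ L, ∀ n, p ^ n ∣ L - f n

/-- A finite torsion free `ℤ_p`-algebra is `p`-adically complete. -/
theorem isPComplete_padic (p : ℕ) [Fact p.Prime] [Algebra ℤ_[p] A] [Module.Finite ℤ_[p] A]
    [Module.IsTorsionFree ℤ_[p] A] : IsPComplete ((p : A)) := by
  have : Module.Free ℤ_[p] A := inferInstance
  let b := Module.Free.chooseBasis ℤ_[p] A
  have hdvd : ∀ (x : A) (n : ℕ), (p : A) ^ n ∣ x ↔ ∀ i, (p : ℤ_[p]) ^ n ∣ b.repr x i := by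
    intro x n
    constructor
    · rintro ⟨y, rfl⟩ i
      refine ⟨b.repr y i, ?_⟩
      rw [show (p : A) ^ n * y = ((p : ℤ_[p]) ^ n) • y by simp [Algebra.smul_def]]
      simp
    · intro h
      choose y hy using h
      refine ⟨b.equivFun.symm y, ?_⟩
      rw [show (p : A) ^ n * b.equivFun.symm y = ((p : ℤ_[p]) ^ n) • b.equivFun.symm y by
        simp [Algebra.smul_def], ← map_smul, LinearEquiv.eq_symm_apply]
      funext i
      simp [Module.Basis.equivFun_apply, hy i]
  have hspan : ∀ (x : ℤ_[p]) (n : ℕ), (p : ℤ_[p]) ^ n ∣ x ↔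
      x ≡ 0 [SMOD ((IsLocalRing.maximalIdeal ℤ_[p]) ^ n • ⊤ : Submodule ℤ_[p] ℤ_[p])] := by
    intro x n
    rw [SModEq.zero, smul_eq_mul, Ideal.mul_top, PadicInt.maximalIdeal_eq_span_p,
      Ideal.span_singleton_pow, Ideal.mem_span_singleton]
  refine ⟨fun x hx => ?_, fun f hf => ?_⟩
  · refine b.repr.injective (Finsupp.ext fun i => ?_)
    rw [map_zero, Finsupp.zero_apply]
    exact IsHausdorff.haus inferInstance _ fun n => (hspan _ n).mp ((hdvd x n).mp (hx n) i)
  · have hg : ∀ i {m n : ℕ}, m ≤ n → b.repr (f m) i ≡ b.repr (f n) i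
        [SMOD ((IsLocalRing.maximalIdeal ℤ_[p]) ^ m • ⊤ : Submodule ℤ_[p] ℤ_[p])] := by
      intro i m n hmn
      induction n, hmn using Nat.le_induction with
      | base => rfl
      | succ n hmn ih =>
        refine ih.trans (SModEq.sub_mem.mpr ?_)
        have := (hdvd _ m).mp ((pow_dvd_pow _ hmn).trans (hf n)) i
        rw [map_sub, Finsupp.sub_apply] at this
        rw [smul_eq_mul, Ideal.mul_top, PadicInt.maximalIdeal_eq_span_p,
          Ideal.span_singleton_pow, Ideal.mem_span_singleton, ← neg_sub]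
        exact dvd_neg.mpr this
    choose L hL using fun i => IsPrecomplete.prec
      (I := IsLocalRing.maximalIdeal ℤ_[p]) (M := ℤ_[p]) inferInstance
        (f := fun n => b.repr (f n) i)
      (hg i)
    refine ⟨b.equivFun.symm L, fun n => (hdvd _ n).mpr fun i => ?_⟩
    have := SModEq.sub_mem.mp (hL i n)
    rw [smul_eq_mul, Ideal.mul_top, PadicInt.maximalIdeal_eq_span_p,
      Ideal.span_singleton_pow, Ideal.mem_span_singleton] at this
    rw [map_sub, Finsupp.sub_apply, ← neg_sub]
    refine dvd_neg.mpr ?_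
    simpa [Module.Basis.equivFun_symm_apply, Finsupp.single_apply] using this

namespace IsPComplete

variable {p : A} (hA : IsPComplete p)
include hA

/-- A contraction has exactly one fixed point. -/
theorem existsUnique_fixedPoint (φ : A → A) (hφ : ∀ x y, ∃ d, φ x - φ y = p * d * (x - y)) :
    ∃! x, φ x = x := by
  have step : ∀ n (x y : A), p ^ n ∣ x - y → p ^ (n + 1) ∣ φ x - φ y := fun n x y h => by
    obtain ⟨d, hd⟩ := hφ x y
    rw [hd, pow_succ']
    exact mul_dvd_mul (dvd_mul_right p d) h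
  have hf : ∀ n, p ^ n ∣ φ^[n + 1] 0 - φ^[n] 0 := by
    intro n
    induction n with
    | zero => simp
    | succ n ih =>
      rw [Function.iterate_succ_apply' φ (n + 1)]
      conv => rhs; arg 2; rw [Function.iterate_succ_apply']
      exact step n _ _ ih
  obtain ⟨L, hL⟩ := hA.prec (fun n => φ^[n] 0) hf
  refine ⟨L, sub_eq_zero.mp (hA.haus _ fun n => ?_), fun y hy => sub_eq_zero.mp (hA.haus _ ?_)⟩
  · have h1 : p ^ (n + 1) ∣ φ L - φ^[n + 1] 0 := by
      rw [Function.iterate_succ_apply']
      exact step n _ _ (hL n)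
    have h2 := hL (n + 1)
    rw [show φ L - L = (φ L - φ^[n + 1] 0) - (L - φ^[n + 1] 0) by ring]
    exact (pow_dvd_pow p n.le_succ).trans (dvd_sub h1 h2)
  · intro n
    induction n with
    | zero => simp
    | succ n ih =>
      have hLL : φ L = L := sub_eq_zero.mp (hA.haus _ fun k => by
        have h1 : p ^ (k + 1) ∣ φ L - φ^[k + 1] 0 := by
          rw [Function.iterate_succ_apply']
          exact step k _ _ (hL k)
        rw [show φ L - L = (φ L - φ^[k + 1] 0) - (L - φ^[k + 1] 0) by ring]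
        exact (pow_dvd_pow p k.le_succ).trans (dvd_sub h1 (hL (k + 1))))
      have := step n _ _ ih
      rwa [hy, hLL] at this

/-- One plus a multiple of `p` is a unit. -/
theorem isUnit_one_add (a : A) : IsUnit (1 + p * a) := by
  obtain ⟨x, hx, -⟩ := hA.existsUnique_fixedPoint (fun x => 1 - p * a * x)
    fun x y => ⟨-a, by ring⟩
  exact IsUnit.of_mul_eq_one x (by linear_combination (-1 : A) * hx)

/-- An element whose reduction is a unit is a unit. -/
theorem isUnit_of_mk {x : A} (h : IsUnit (Ideal.Quotient.mk (Ideal.span {p}) x)) : IsUnit x := by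
  obtain ⟨y, hy⟩ := Ideal.Quotient.mk_surjective (↑h.unit⁻¹ : A ⧸ Ideal.span {p})
  have h1 : Ideal.Quotient.mk (Ideal.span {p}) (x * y - 1) = 0 := by
    rw [map_sub, map_mul, hy, map_one, IsUnit.mul_val_inv, sub_self]
  obtain ⟨d, hd⟩ := Ideal.mem_span_singleton.mp (Ideal.Quotient.eq_zero_iff_mem.mp h1)
  refine isUnit_of_mul_isUnit_left (y := y) ?_
  rw [show x * y = 1 + p * d by linear_combination hd]
  exact hA.isUnit_one_add d

theorem le_jacobson : Ideal.span {p} ≤ (⊥ : Ideal A).jacobson := by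
  rw [Ideal.span_singleton_le_iff_mem, Ideal.mem_jacobson_bot]
  intro y
  rw [add_comm]
  exact hA.isUnit_one_add y

theorem finite_maximalSpectrum [Finite (A ⧸ Ideal.span {p})] : Finite (MaximalSpectrum A) := by
  refine Finite.of_injective (fun m : MaximalSpectrum A =>
    (Ideal.Quotient.mk (Ideal.span {p})) '' (m.asIdeal : Set A)) fun m n h => ?_
  have hle : ∀ m : MaximalSpectrum A, Ideal.span {p} ≤ m.asIdeal := fun m =>
    hA.le_jacobson.trans (sInf_le ⟨bot_le, m.isMaximal⟩)
  refine MaximalSpectrum.ext (m.isMaximal.eq_of_le n.isMaximal.ne_top fun x hx => ?_)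
  obtain ⟨y, hy, hxy⟩ : Ideal.Quotient.mk (Ideal.span {p}) x ∈
      (Ideal.Quotient.mk (Ideal.span {p})) '' (n.asIdeal : Set A) := by
    simp only at h
    rw [← h]
    exact Set.mem_image_of_mem _ hx
  have := n.asIdeal.sub_mem hy (hle n (Ideal.Quotient.eq.mp hxy))
  simpa using this

end IsPComplete

/-! ### Traces and norms -/

variable {σ : A →+* A}

/-- The trace takes the value one. -/
theorem exists_trace_eq_one (hd : HasDualSystem σ) (hσ : ∀ a, σ (σ (σ a)) = a) :
    ∃ c : A, c + σ c + σ (σ c) = 1 := by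
  classical
  obtain ⟨ι, _, e, f, h1, h2, h3⟩ := hd
  let T : ι → A := fun i => f i + σ (f i) + σ (σ (f i))
  have hT : ∀ i, σ (T i) = T i := fun i => by simp only [T, map_add, hσ]; ring
  have hsum : ∑ i, T i * e i = 1 := by
    have h2' : ∑ i, e i * σ (σ (f i)) = 0 := by
      have := congrArg (fun x => σ (σ x)) h2
      simpa [map_sum, map_mul, hσ] using this
    have h3' : ∑ i, e i * σ (f i) = 0 := by
      have := congrArg σ h3
      simpa [map_sum, map_mul, hσ] using this
    simp only [T, add_mul, Finset.sum_add_distrib]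
    rw [show ∑ i, f i * e i = 1 by simpa [mul_comm] using h1,
      show ∑ i, σ (f i) * e i = 0 by simpa [mul_comm] using h3',
      show ∑ i, σ (σ (f i)) * e i = 0 by simpa [mul_comm] using h2']
    simp
  suffices ∀ s : Finset ι, ∃ z, (∑ i ∈ s, T i * e i) * σ (∑ i ∈ s, T i * e i) *
      σ (σ (∑ i ∈ s, T i * e i)) = z + σ z + σ (σ z) by
    obtain ⟨z, hz⟩ := this Finset.univ
    rw [hsum, map_one, map_one, one_mul, one_mul] at hz
    exact ⟨z, hz.symm⟩
  intro s
  induction s using Finset.induction with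
  | empty => exact ⟨0, by simp⟩
  | @insert i s hi ih =>
    obtain ⟨z, hz⟩ := ih
    rw [Finset.sum_insert hi]
    set v := ∑ i ∈ s, T i * e i
    set u := T i * e i
    refine ⟨f i * (T i * T i * (e i * σ (e i) * σ (σ (e i)))) + z +
      (u * σ v * σ (σ v) + u * σ u * σ (σ v)), ?_⟩
    have hu : u * σ u * σ (σ u) = T i * (T i * T i * (e i * σ (e i) * σ (σ (e i)))) := by
      simp only [u, map_mul, hT]; ring
    simp only [map_add, map_mul, hσ, hT]
    simp only [T] at hu ⊢
    linear_combination hz + hu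

/-- In a finite ring every fixed unit is a norm. -/
theorem exists_norm_eq_of_finite [Finite A] (hd : HasDualSystem σ) (hσ : ∀ a, σ (σ (σ a)) = a)
    {e : Aˣ} (he : σ e = e) : ∃ y : A, IsUnit y ∧ y * σ y * σ (σ y) = e := by
  classical
  let s : Aˣ →* Aˣ := Units.map σ.toMonoidHom
  let N : Aˣ →* Aˣ := MonoidHom.id Aˣ * s * s.comp s
  let Q : Aˣ →* Aˣ := MonoidHom.id Aˣ / s
  have hs3 : ∀ u, s (s (s u)) = u := fun u => Units.ext (hσ u)
  have hker : N.ker = Q.range := by
    ext u
    constructor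
    · intro hu
      let k : Matrix Unit Unit A := Matrix.of fun _ _ => (u : A)
      obtain ⟨b, hb, hkb⟩ := exists_twistSum_isUnit hd hσ (k := k) (by
        ext i j
        have := congrArg Units.val (MonoidHom.mem_ker.mp hu)
        simpa [k, Matrix.mul_apply, N, s] using this)
      rw [Matrix.det_unique] at hb
      refine ⟨hb.unit, div_eq_iff_eq_mul.mpr (Units.ext ?_)⟩
      have := congrFun (congrFun hkb ()) ()
      simpa [k, Matrix.mul_apply, s] using this.symm
    · rintro ⟨b, rfl⟩
      simp only [MonoidHom.mem_ker, N, Q, MonoidHom.mul_apply, MonoidHom.div_apply,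
        MonoidHom.id_apply, MonoidHom.comp_apply, map_div, hs3]
      rw [div_eq_one, mul_rotate]
  have hfix : ∀ u : Aˣ, u ∈ Q.ker ↔ s u = u := fun u => by
    rw [MonoidHom.mem_ker]
    exact div_eq_one.trans eq_comm
  have hle : N.range ≤ Q.ker := by
    rintro _ ⟨u, rfl⟩
    rw [hfix]
    simp only [N, MonoidHom.mul_apply, MonoidHom.id_apply, MonoidHom.comp_apply, map_mul, hs3]
    rw [mul_comm _ u, mul_assoc]
  have hcard : Nat.card Q.ker ≤ Nat.card N.range := by
    have h1 := Subgroup.card_eq_card_quotient_mul_card_subgroup N.ker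
    have h2 := Subgroup.card_eq_card_quotient_mul_card_subgroup Q.ker
    rw [Nat.card_congr (QuotientGroup.quotientKerEquivRange N).toEquiv, hker] at h1
    rw [Nat.card_congr (QuotientGroup.quotientKerEquivRange Q).toEquiv] at h2
    have hpos : 0 < Nat.card Q.range := Nat.card_pos
    nlinarith
  obtain ⟨y, hy⟩ : e ∈ N.range := Subgroup.eq_of_le_of_card_ge hle hcard ▸ (hfix e).mpr
    (Units.ext he)
  exact ⟨y, y.isUnit, by simpa [N, s] using congrArg Units.val hy⟩

/-- In a complete ring with finite reduction every fixed unit is a norm. -/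
theorem exists_norm_eq {p : A} (hA : IsPComplete p) [Finite (A ⧸ Ideal.span {p})]
    (hreg : ∀ x, p * x = 0 → x = 0) (hp : σ p = p) (hd : HasDualSystem σ)
    (hσ : ∀ a, σ (σ (σ a)) = a) {e : Aˣ} (he : σ e = e) :
    ∃ y : A, IsUnit y ∧ y * σ y * σ (σ y) = e := by
  set I : Ideal A := Ideal.span {p}
  have hI : I ≤ I.comap σ := by
    rw [Ideal.span_singleton_le_iff_mem, Ideal.mem_comap, hp]
    exact Ideal.mem_span_singleton_self p
  let τ : A ⧸ I →+* A ⧸ I := Ideal.quotientMap I σ hI
  have hτ : ∀ a, τ (Ideal.Quotient.mk I a) = Ideal.Quotient.mk I (σ a) := fun a =>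
    Ideal.quotientMap_mk
  obtain ⟨ybar, hybar, hy⟩ := exists_norm_eq_of_finite
    (hd.map (Ideal.Quotient.mk I) τ fun a => (hτ a).symm)
    (fun a => by obtain ⟨a, rfl⟩ := Ideal.Quotient.mk_surjective a; simp [hτ, hσ])
    (e := Units.map (Ideal.Quotient.mk I).toMonoidHom e) (by simp [hτ, he])
  obtain ⟨y₀, rfl⟩ := Ideal.Quotient.mk_surjective ybar
  have hy₀ : IsUnit y₀ := hA.isUnit_of_mk hybar
  -- the quotient is fixed and is `1 + p a` with `a` fixed
  obtain ⟨c, hc⟩ := exists_trace_eq_one hd hσ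
  set n₀ := y₀ * σ y₀ * σ (σ y₀)
  have hn₀ : IsUnit n₀ := (hy₀.mul (hy₀.map σ)).mul ((hy₀.map σ).map σ)
  obtain ⟨a, ha⟩ : p ∣ (e : A) * ↑hn₀.unit⁻¹ - 1 := by
    rw [← Ideal.mem_span_singleton, ← Ideal.Quotient.eq_zero_iff_mem]
    have hy' : Ideal.Quotient.mk I n₀ = Ideal.Quotient.mk I e := by
      simpa [n₀, hτ] using hy
    rw [map_sub, map_mul, ← hy', ← map_mul, IsUnit.mul_val_inv, sub_self]
  have haσ : σ a = a := by
    have hn : σ n₀ = n₀ := by simp only [n₀, map_mul, hσ]; ring
    have hinv : σ ↑hn₀.unit⁻¹ = (↑hn₀.unit⁻¹ : A) := by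
      have h := congrArg σ hn₀.mul_val_inv
      rw [map_mul, hn, map_one] at h
      exact hn₀.mul_left_cancel (h.trans hn₀.mul_val_inv.symm)
    have := congrArg σ ha
    rw [map_sub, map_mul, map_mul, he, hinv, map_one, ha, hp] at this
    exact (sub_eq_zero.mp (hreg _ (by linear_combination this))).symm
  -- Newton contraction for `N (1 + p c u) = 1 + p a`
  let S₂ := c * σ c + σ c * σ (σ c) + c * σ (σ c)
  let N₃ := c * σ c * σ (σ c)
  let φ : A → A := fun u => a - p * S₂ * u ^ 2 - p ^ 2 * N₃ * u ^ 3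
  obtain ⟨u, hu, huniq⟩ := hA.existsUnique_fixedPoint φ fun x y =>
    ⟨-S₂ * (x + y) - p * N₃ * (x ^ 2 + x * y + y ^ 2), by simp only [φ]; ring⟩
  have huσ : σ u = u := huniq _ (by
    have := congrArg σ hu
    have hS : σ S₂ = S₂ := by simp only [S₂, map_add, map_mul, hσ]; ring
    have hN : σ N₃ = N₃ := by simp only [N₃, map_mul, hσ]; ring
    simpa [φ, map_sub, map_mul, map_pow, hp, haσ, hS, hN] using this)
  refine ⟨y₀ * (1 + p * (c * u)), hy₀.mul (hA.isUnit_one_add _), ?_⟩
  have he' : (e : A) = n₀ * (1 + p * a) := by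
    have h := IsUnit.mul_val_inv hn₀
    linear_combination n₀ * ha - (e : A) * h
  simp only [φ, S₂, N₃] at hu
  simp only [map_mul, map_add, map_one, hp, huσ]
  rw [he']
  simp only [n₀]
  linear_combination (n₀ * p * u) * hc - (n₀ * p) * hu

end FLTAgent.LanglandsTunnell.Local
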