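import Fermat.Agent.LanglandsTunnell.Basic
import Fermat.Agent.LanglandsTunnell.Local.Adic
import Fermat.Agent.LanglandsTunnell.Geom.FiniteAdeles

/-!
# The component `F ⊗ ℤ_p` and its integral part

The component `Lp F p = F ⊗ ℤ_p` and its integral part `Op F p`, finite and `p`-adically
complete, with coordinates `opCoord` and the inclusion `φp`.
-/

set_option autoImplicit false

noncomputable section

namespace FLTAgent.LanglandsTunnell.Local

open scoped TensorProduct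
open NumberField

variable (F : Type) [Field F] (p : ℕ) [Fact p.Prime]

/-- The component at `p`. -/
abbrev Lp : Type := F ⊗[ℤ] ℤ_[p]

/-- Its integral part. -/
abbrev Op : Type := 𝓞 F ⊗[ℤ] ℤ_[p]

instance algebraOp : Algebra ℤ_[p] (Op F p) := Algebra.TensorProduct.rightAlgebra

/-- The inclusion of the integral part. -/
def φp : Op F p →+* Lp F p :=
  (Algebra.TensorProduct.map ((algebraMap (𝓞 F) F).toIntAlgHom) (AlgHom.id ℤ ℤ_[p])).toRingHom

variable {F p}

theorem φp_tmul (a : 𝓞 F) (z : ℤ_[p]) : φp F p (a ⊗ₜ z) = (a : F) ⊗ₜ z := rfl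

theorem algebraMap_op (z : ℤ_[p]) : algebraMap ℤ_[p] (Op F p) z = 1 ⊗ₜ z := rfl

theorem φp_injective : Function.Injective (φp F p) :=
  Module.Flat.rTensor_preserves_injective_linearMap
    ((algebraMap (𝓞 F) F).toIntAlgHom.toLinearMap) RingOfIntegers.coe_injective

theorem natCast_tmul_one (m : ℕ) : ((m : F) ⊗ₜ[ℤ] (1 : ℤ_[p])) = (m : Lp F p) :=
  map_natCast (Algebra.TensorProduct.includeLeftRingHom : F →+* Lp F p) m

variable [NumberField F]

theorem isUnit_natCast_Lp {m : ℕ} (hm : m ≠ 0) : IsUnit (m : Lp F p) := by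
  rw [← natCast_tmul_one]
  exact (isUnit_iff_ne_zero.mpr (Nat.cast_ne_zero.mpr hm)).map
    (Algebra.TensorProduct.includeLeftRingHom : F →+* Lp F p)

theorem exists_natCast_mul_eq_φp (x : Lp F p) :
    ∃ m : ℕ, m ≠ 0 ∧ ∃ o : Op F p, (m : Lp F p) * x = φp F p o := by
  induction x using TensorProduct.induction_on with
  | zero => exact ⟨1, one_ne_zero, 0, by simp⟩
  | tmul f z =>
    obtain ⟨m, hm, a, ha⟩ := LanglandsTunnell.Geom.exists_natCast_mul_eq_coe f
    refine ⟨m, hm, a ⊗ₜ z, ?_⟩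
    rw [φp_tmul, ← ha, ← natCast_tmul_one, Algebra.TensorProduct.tmul_mul_tmul, one_mul]
  | add x y hx hy =>
    obtain ⟨m, hm, o, ho⟩ := hx
    obtain ⟨m', hm', o', ho'⟩ := hy
    refine ⟨m * m', mul_ne_zero hm hm', (m' : Op F p) * o + (m : Op F p) * o', ?_⟩
    rw [map_add, map_mul, map_mul, map_natCast, map_natCast, ← ho, ← ho', Nat.cast_mul]
    ring

/-- Coordinates in an integral basis. -/
def opCoord : Op F p ≃ₗ[ℤ] (Module.Free.ChooseBasisIndex ℤ (𝓞 F) →₀ ℤ_[p]) :=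
  TensorProduct.equivFinsuppOfBasisLeft (RingOfIntegers.basis F)

theorem opCoord_mul (z : ℤ_[p]) (x : Op F p) :
    opCoord ((1 ⊗ₜ z : Op F p) * x) = z • opCoord x := by
  induction x using TensorProduct.induction_on with
  | zero => simp
  | tmul a y =>
    ext i
    rw [Algebra.TensorProduct.tmul_mul_tmul, one_mul, Finsupp.smul_apply]
    erw [TensorProduct.equivFinsuppOfBasisLeft_apply_tmul_apply,
      TensorProduct.equivFinsuppOfBasisLeft_apply_tmul_apply]
    exact (mul_smul_comm _ z y).symm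
  | add x y hx hy => rw [mul_add, map_add, hx, hy, map_add, smul_add]

theorem opCoord_smul (z : ℤ_[p]) (x : Op F p) : opCoord (z • x) = z • opCoord x := by
  rw [Algebra.smul_def, algebraMap_op, opCoord_mul]

/-- The coordinates, linear over `ℤ_p`. -/
def opCoordP : Op F p ≃ₗ[ℤ_[p]] (Module.Free.ChooseBasisIndex ℤ (𝓞 F) →₀ ℤ_[p]) :=
  { (opCoord : Op F p ≃ₗ[ℤ] _) with map_smul' := opCoord_smul }

instance finiteOp : Module.Finite ℤ_[p] (Op F p) := Module.Finite.equiv opCoordP.symm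

instance torsionFreeOp : Module.IsTorsionFree ℤ_[p] (Op F p) :=
  opCoordP.injective.moduleIsTorsionFree _ fun r m => map_smul opCoordP r m

theorem isPComplete_op : IsPComplete (p : Op F p) := isPComplete_padic p

/-- The map of `ℤ_p` into the component. -/
def padicHom : ℤ_[p] →+* Lp F p :=
  (Algebra.TensorProduct.includeRight : ℤ_[p] →ₐ[ℤ] Lp F p).toRingHom

theorem isUnit_padicHom {z : ℤ_[p]} (hz : z ≠ 0) : IsUnit (padicHom (F := F) z) := by
  rw [PadicInt.unitCoeff_spec hz, map_mul, map_pow, map_natCast]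
  exact ((PadicInt.unitCoeff hz).isUnit.map _).mul ((isUnit_natCast_Lp (NeZero.ne p)).pow _)

instance algebraLp : Algebra ℚ_[p] (Lp F p) :=
  (IsLocalization.lift (M := nonZeroDivisors ℤ_[p]) (S := ℚ_[p]) (g := padicHom (F := F))
    fun y => isUnit_padicHom (nonZeroDivisors.ne_zero y.2)).toAlgebra

theorem algebraMap_Lp (z : ℤ_[p]) : algebraMap ℚ_[p] (Lp F p) (z : ℚ_[p]) = padicHom z :=
  IsLocalization.lift_eq _ z

instance finiteLp : Module.Finite ℚ_[p] (Lp F p) := by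
  set v : Module.Free.ChooseBasisIndex ℤ (𝓞 F) → Lp F p :=
    fun i => (RingOfIntegers.basis F i : F) ⊗ₜ[ℤ] (1 : ℤ_[p])
  set W := Submodule.span ℚ_[p] (Set.range v)
  suffices hW : W = ⊤ by exact ⟨hW ▸ Submodule.fg_span (Set.finite_range v)⟩
  rw [eq_top_iff]
  rintro x -
  have key : ∀ (b : F) (w : ℤ_[p]), b ⊗ₜ[ℤ] w = (w : ℚ_[p]) • (b ⊗ₜ[ℤ] (1 : ℤ_[p])) := fun b w => by
    rw [Algebra.smul_def, algebraMap_Lp]
    simp [padicHom]
  have hφ : ∀ o : Op F p, φp F p o ∈ W := by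
    intro o
    induction o using TensorProduct.induction_on with
    | zero => simp
    | tmul a z =>
      rw [φp_tmul, ← (RingOfIntegers.basis F).sum_repr a, RingOfIntegers.coe_eq_algebraMap,
        map_sum, TensorProduct.sum_tmul]
      refine sum_mem fun i _ => ?_
      rw [map_zsmul, TensorProduct.smul_tmul, key]
      exact W.smul_mem _ (Submodule.subset_span ⟨i, rfl⟩)
    | add x y hx hy => rw [map_add]; exact W.add_mem hx hy
  obtain ⟨m, hm, o, ho⟩ := exists_natCast_mul_eq_φp x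
  have : x = ((m : ℚ_[p])⁻¹) • ((m : Lp F p) * x) := by
    rw [← nsmul_eq_mul, ← Nat.cast_smul_eq_nsmul ℚ_[p], smul_smul,
      inv_mul_cancel₀ (Nat.cast_ne_zero.mpr hm), one_smul]
  rw [this, ho]
  exact W.smul_mem _ (hφ o)

instance isArtinianRing_Lp : IsArtinianRing (Lp F p) := IsArtinianRing.of_finite ℚ_[p] _

/-! ### Reduction modulo powers of `p` -/

omit [NumberField F] in
theorem exists_sub_tmul_one (k : ℕ) (o : Op F p) :
    ∃ (a : 𝓞 F) (r : Op F p), o = a ⊗ₜ 1 + (p : Op F p) ^ k * r := by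
  induction o using TensorProduct.induction_on with
  | zero => exact ⟨0, 0, by simp⟩
  | tmul a z =>
    obtain ⟨w, hw⟩ := Ideal.mem_span_singleton.mp (PadicInt.appr_spec k z)
    refine ⟨(z.appr k : 𝓞 F) * a, a ⊗ₜ w, ?_⟩
    have hp : ((p : Op F p) ^ k) = (1 : 𝓞 F) ⊗ₜ[ℤ] ((p : ℤ_[p]) ^ k) := by
      rw [← algebraMap_op, map_pow, map_natCast]
    rw [hp, Algebra.TensorProduct.tmul_mul_tmul, one_mul, ← hw, TensorProduct.tmul_sub,
      show ((z.appr k : 𝓞 F) * a) = (z.appr k : ℤ) • a by simp [zsmul_eq_mul],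
      TensorProduct.smul_tmul, zsmul_eq_mul, mul_one]
    push_cast
    abel
  | add x y hx hy =>
    obtain ⟨a, r, ha⟩ := hx
    obtain ⟨b, s, hb⟩ := hy
    exact ⟨a + b, r + s, by rw [ha, hb, TensorProduct.add_tmul, mul_add]; abel⟩

theorem pow_dvd_tmul_one_iff (k : ℕ) (a : 𝓞 F) :
    (p : Op F p) ^ k ∣ a ⊗ₜ 1 ↔ (p : 𝓞 F) ^ k ∣ a := by
  constructor
  · rintro ⟨r, hr⟩
    have key : ∀ i, (p : ℤ_[p]) ^ k ∣ ((RingOfIntegers.basis F).repr a i : ℤ) := fun i => by
      have h1 : opCoord (a ⊗ₜ[ℤ] (1 : ℤ_[p])) i = ((RingOfIntegers.basis F).repr a i : ℤ) := by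
        erw [TensorProduct.equivFinsuppOfBasisLeft_apply_tmul_apply]
        simp
      rw [← h1, hr, ← map_natCast (algebraMap ℤ_[p] (Op F p)), ← map_pow, ← Algebra.smul_def,
        opCoord_smul]
      exact ⟨opCoord r i, rfl⟩
    choose c hc using fun i => (PadicInt.pow_p_dvd_int_iff k _).mp (key i)
    refine ⟨∑ i, c i • RingOfIntegers.basis F i, ?_⟩
    rw [Finset.mul_sum]
    conv_lhs => rw [← (RingOfIntegers.basis F).sum_repr a]
    refine Finset.sum_congr rfl fun i _ => ?_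
    rw [hc i]
    simp [zsmul_eq_mul, mul_assoc]
  · rintro ⟨r, rfl⟩
    exact ⟨r ⊗ₜ 1, by
      rw [show ((p : 𝓞 F) ^ k * r) ⊗ₜ[ℤ] (1 : ℤ_[p])
        = ((p : 𝓞 F) ^ k) ⊗ₜ[ℤ] (1 : ℤ_[p]) * r ⊗ₜ[ℤ] (1 : ℤ_[p]) by simp]
      congr 1
      exact (map_pow (Algebra.TensorProduct.includeLeftRingHom : 𝓞 F →+* Op F p) _ k).trans
        (by rw [map_natCast])⟩

theorem exists_pow_mul_eq_φp (x : Lp F p) :
    ∃ (k : ℕ) (o : Op F p), (p : Lp F p) ^ k * x = φp F p o := by
  obtain ⟨m, hm, o, ho⟩ := exists_natCast_mul_eq_φp x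
  obtain ⟨k, u, hu, rfl⟩ := Nat.exists_eq_pow_mul_and_not_dvd hm p (Fact.out : p.Prime).ne_one
  have hu' : IsUnit (u : Op F p) := by
    rw [← map_natCast (algebraMap ℤ_[p] (Op F p))]
    refine IsUnit.map _ ?_
    rw [PadicInt.isUnit_iff, PadicInt.norm_natCast_eq_one_iff]
    exact ((Fact.out : p.Prime).coprime_iff_not_dvd.mpr hu).symm.symm
  refine ⟨k, (↑hu'.unit⁻¹ : Op F p) * o, ?_⟩
  rw [map_mul, ← ho, Nat.cast_mul, Nat.cast_pow, ← map_natCast (φp F p) u]
  have h := congrArg (φp F p) hu'.val_inv_mul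
  rw [map_mul, map_one] at h
  linear_combination -((p : Lp F p) ^ k * x) * h

/-- Square roots of integral elements are integral. -/
theorem φp_sqClosed (x : Lp F p) (h : ∃ a, φp F p a = x ^ 2) : ∃ a, φp F p a = x := by
  obtain ⟨a, ha⟩ := h
  obtain ⟨k, o, ho⟩ := exists_pow_mul_eq_φp x
  have h2 : o ^ 2 = (p : Op F p) ^ (2 * k) * a := φp_injective (by
    rw [map_pow, map_mul, map_pow, map_natCast, ha, ← ho]; ring)
  obtain ⟨b, r, hb⟩ := exists_sub_tmul_one (2 * k) o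
  have hb2 : (p : 𝓞 F) ^ (2 * k) ∣ b ^ 2 := (pow_dvd_tmul_one_iff _ _).mp ⟨
    a - 2 * (b ⊗ₜ 1) * r - (p : Op F p) ^ (2 * k) * r ^ 2, by
      rw [show (b ^ 2) ⊗ₜ[ℤ] (1 : ℤ_[p]) = (b ⊗ₜ[ℤ] (1 : ℤ_[p])) ^ 2 from
        map_pow (Algebra.TensorProduct.includeLeftRingHom : 𝓞 F →+* Op F p) b 2]
      rw [hb] at h2
      linear_combination h2⟩
  have hbk : (p : 𝓞 F) ^ k ∣ b := by
    refine (IsIntegrallyClosed.pow_dvd_pow_iff two_ne_zero).mp ?_
    rwa [← pow_mul, mul_comm]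
  obtain ⟨c, hc⟩ := (pow_dvd_tmul_one_iff k b).mpr hbk
  refine ⟨c + (p : Op F p) ^ k * r, ?_⟩
  refine ((isUnit_natCast_Lp (F := F) (p := p) (NeZero.ne p)).pow k).mul_left_cancel ?_
  rw [ho, hb, hc, map_add, map_add, map_mul, map_mul, map_mul, map_pow, map_pow, map_natCast]
  ring

end FLTAgent.LanglandsTunnell.Local
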