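import Fermat.Agent.LanglandsTunnell.Kernels
import Fermat.Agent.LanglandsTunnell.AdelicRing
import Fermat.Agent.LanglandsTunnell.Local.LocalRing
import Fermat.Agent.LanglandsTunnell.Local.Levels

/-!
# The finite adeles as a restricted product of the components at the rational primes

An integral adele, adele, adelic matrix or point of level `N` is given by its components
(`compOH`, `compAF`, `compGL`, `compPt`), which can be prescribed (`exists_af_comp`,
`exists_gl_comp`, `exists_finPt_comp`) and detect the levels (`mem_levelGroup_iff_comp`).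
-/

set_option autoImplicit false

noncomputable section

namespace FLTAgent.LanglandsTunnell.Local

open scoped TensorProduct
open NumberField FLTAgent.LanglandsTunnell

variable {F : Type} [Field F] [NumberField F]

/-- Coordinates of integral adeles. -/
def ohCoord : OH F ≃ₗ[ℤ] (Module.Free.ChooseBasisIndex ℤ (𝓞 F) →₀ Zhat) :=
  TensorProduct.equivFinsuppOfBasisLeft (RingOfIntegers.basis F)

/-- The component of an integral adele. -/
def compOH (p : Nat.Primes) : OH F →+* Op F p :=
  (Algebra.TensorProduct.map (AlgHom.id ℤ (𝓞 F))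
    (Pi.evalAlgHom ℤ (fun q : Nat.Primes => ℤ_[(q : ℕ)]) p)).toRingHom

omit [NumberField F] in
theorem compAF_intHom (p : Nat.Primes) (y : OH F) :
    compAF p (intHom F y) = φp F p (compOH p y) := by
  induction y using TensorProduct.induction_on with
  | zero => simp
  | tmul a z => rfl
  | add x y hx hy => simp only [map_add, hx, hy]

theorem opCoord_compOH (p : Nat.Primes) (y : OH F) (i : Module.Free.ChooseBasisIndex ℤ (𝓞 F)) :
    opCoord (compOH p y) i = ohCoord y i p := by
  induction y using TensorProduct.induction_on with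
  | zero => simp
  | tmul a z =>
    show opCoord (a ⊗ₜ[ℤ] z p) i = ohCoord (a ⊗ₜ[ℤ] z) i p
    erw [TensorProduct.equivFinsuppOfBasisLeft_apply_tmul_apply,
      TensorProduct.equivFinsuppOfBasisLeft_apply_tmul_apply]
    rfl
  | add x y hx hy => simp [hx, hy]

/-- Integral adeles are equal when all components are. -/
theorem oh_ext {x y : OH F} (h : ∀ p : Nat.Primes, compOH p x = compOH p y) : x = y :=
  ohCoord.injective (Finsupp.ext fun i => funext fun p => by
    rw [← opCoord_compOH, ← opCoord_compOH, h])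

/-- Integral adeles can be given by components. -/
theorem exists_oh_comp (o : ∀ p : Nat.Primes, Op F p) :
    ∃ y : OH F, ∀ p : Nat.Primes, compOH p y = o p := by
  refine ⟨ohCoord.symm (Finsupp.equivFunOnFinite.symm fun i p => opCoord (o p) i), fun p => ?_⟩
  refine opCoord.injective (Finsupp.ext fun i => ?_)
  rw [opCoord_compOH, LinearEquiv.apply_symm_apply]
  rfl

theorem af_ext {x y : AF F} (h : ∀ p : Nat.Primes, compAF p x = compAF p y) : x = y := by
  obtain ⟨N, hN, z, hz⟩ := exists_natCast_mul_mem_intAF (x - y)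
  have hz0 : z = 0 := oh_ext fun p => φp_injective (by
    have : compAF p (intHom F z) = (compAF p ((N : AF F) * (x - y)) : F ⊗[ℤ] ℤ_[(p : ℕ)]) :=
      congrArg (compAF p) hz
    rw [compAF_intHom, map_mul, map_sub, h p, sub_self, mul_zero] at this
    rw [this, map_zero, map_zero])
  have h2 : (N : AF F) * (x - y) = 0 := by
    rw [← show intHom F z = (N : AF F) * (x - y) from hz, hz0, map_zero]
  exact sub_eq_zero.mp ((isUnit_natCast_AF hN).mul_right_eq_zero.mp h2)

theorem mem_intAF_iff_comp {x : AF F} :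
    x ∈ intAF F ↔ ∀ p : Nat.Primes, ∃ o, φp F p o = compAF p x := by
  constructor
  · rintro ⟨y, rfl⟩ p
    exact ⟨compOH p y, (compAF_intHom p y).symm⟩
  · intro h
    choose o ho using h
    obtain ⟨y, hy⟩ := exists_oh_comp o
    exact ⟨y, af_ext fun p => by
      show compAF p (intHom F y) = _
      rw [compAF_intHom, hy, ho]⟩

omit [NumberField F] in
theorem isUnit_natCast_Op {p N : ℕ} [Fact p.Prime] (h : ¬ p ∣ N) : IsUnit (N : Op F p) := by
  rw [← map_natCast (algebraMap ℤ_[p] (Op F p))]
  refine IsUnit.map _ ?_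
  rw [PadicInt.isUnit_iff, PadicInt.norm_natCast_eq_one_iff]
  exact (Fact.out : p.Prime).coprime_iff_not_dvd.mpr h

/-- All but finitely many components are integral. -/
theorem exists_finset_integral (x : AF F) :
    ∃ S : Finset Nat.Primes, ∀ p : Nat.Primes, p ∉ S → ∃ o, φp F p o = compAF p x := by
  obtain ⟨N, hN, hx⟩ := exists_natCast_mul_mem_intAF x
  refine ⟨N.primeFactors.subtype _, fun p hp => ?_⟩
  obtain ⟨o, ho⟩ := mem_intAF_iff_comp.mp hx p
  have hu := isUnit_natCast_Op (F := F) (p := p) (N := N) fun h =>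
    hp (Finset.mem_subtype.mpr (Nat.mem_primeFactors.mpr ⟨p.2, h, hN⟩))
  refine ⟨(↑hu.unit⁻¹ : Op F p) * o, ?_⟩
  refine (hu.map (φp F p)).mul_left_cancel ?_
  rw [← map_mul, ← mul_assoc, hu.mul_val_inv, one_mul, ho, map_mul, map_natCast, map_natCast]

/-- An adele with prescribed components. -/
theorem exists_af_comp (x : ∀ p : Nat.Primes, Lp F p) (S : Finset Nat.Primes)
    (hS : ∀ p : Nat.Primes, p ∉ S → ∃ o, φp F p o = x p) :
    ∃ a : AF F, ∀ p : Nat.Primes, compAF p a = x p := by
  classical
  have hk : ∀ p : Nat.Primes, ∃ m : ℕ, m ≠ 0 ∧ ∃ o, φp F p o = (m : Lp F p) * x p := fun p => by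
    obtain ⟨m, hm, o, ho⟩ := exists_natCast_mul_eq_φp (x p)
    exact ⟨m, hm, o, ho.symm⟩
  choose m hm o ho using hk
  set N := ∏ p ∈ S, m p
  have hN : N ≠ 0 := Finset.prod_ne_zero_iff.mpr fun p _ => hm p
  have hint : ∀ p : Nat.Primes, ∃ o, φp F p o = (N : Lp F p) * x p := fun p => by
    by_cases hp : p ∈ S
    · obtain ⟨c, hc⟩ := Finset.dvd_prod_of_mem m hp
      refine ⟨(c : Op F p) * o p, ?_⟩
      rw [map_mul, ho, map_natCast, show N = m p * c from hc, Nat.cast_mul]
      ring
    · obtain ⟨o', ho'⟩ := hS p hp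
      exact ⟨(N : Op F p) * o', by rw [map_mul, ho', map_natCast]⟩
  choose o' ho' using hint
  obtain ⟨y, hy⟩ := exists_oh_comp o'
  refine ⟨(↑(isUnit_natCast_AF (F := F) hN).unit⁻¹ : AF F) * intHom F y, fun p => ?_⟩
  refine ((isUnit_natCast_Lp (F := F) (p := p) hN)).mul_left_cancel ?_
  have h1 : compAF p (N : AF F) = (N : Lp F p) := map_natCast (compAF p) N
  rw [← h1, ← map_mul, ← mul_assoc, IsUnit.mul_val_inv, one_mul, compAF_intHom, hy, ho', h1]

theorem mem_idealAF_span_natCast {N : ℕ} {x : AF F} :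
    x ∈ idealAF F (Ideal.span {(N : 𝓞 F)}) ↔
      ∀ p : Nat.Primes, ∃ o, φp F p ((N : Op F p) * o) = compAF p x := by
  have hI : idealOH (Ideal.span {(N : 𝓞 F)}) = Ideal.span {(N : OH F)} := by
    rw [idealOH, Ideal.map_span, Set.image_singleton, map_natCast]
  rw [LanglandsTunnell.mem_idealAF, hI]
  constructor
  · rintro ⟨y, hy, rfl⟩ p
    obtain ⟨z, rfl⟩ := Ideal.mem_span_singleton.mp hy
    exact ⟨compOH p z, by rw [compAF_intHom, map_mul (compOH p), map_natCast (compOH p)]⟩
  · intro h
    choose o ho using h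
    obtain ⟨y, hy⟩ := exists_oh_comp o
    refine ⟨(N : OH F) * y, Ideal.mul_mem_right _ _ (Ideal.mem_span_singleton_self _),
      af_ext fun p => ?_⟩
    rw [compAF_intHom, map_mul, hy, map_natCast, ho]

/-! ### Matrices -/

/-- The component of an adelic matrix. -/
def compGL (p : Nat.Primes) : GL (Fin 2) (AF F) →* GL (Fin 2) (Lp F p) :=
  Matrix.GeneralLinearGroup.map (compAF p).toRingHom

omit [NumberField F] in
theorem compGL_val (p : Nat.Primes) (g : GL (Fin 2) (AF F)) (i j : Fin 2) :
    (compGL p g).1 i j = compAF p (g.1 i j) := rfl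

theorem gl_ext {g h : GL (Fin 2) (AF F)} (hp : ∀ p : Nat.Primes, compGL p g = compGL p h) : g = h :=
  Units.ext (Matrix.ext fun i j => af_ext fun p => by rw [← compGL_val, hp, compGL_val])

theorem exists_finset_congr (N : ℕ) (hN : N ≠ 0) (g : GL (Fin 2) (AF F)) :
    ∃ S : Finset Nat.Primes, ∀ p : Nat.Primes, p ∉ S →
      compGL p g ∈ congrGroup (φp F p) (N : Op F p) := by
  classical
  choose S hS using fun x : AF F => exists_finset_integral x
  refine ⟨N.primeFactors.subtype _ ∪ (Finset.univ.biUnion fun ij : Fin 2 × Fin 2 =>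
    S (g.1 ij.1 ij.2) ∪ S ((g⁻¹).1 ij.1 ij.2)), fun p hp => ?_⟩
  have hu := isUnit_natCast_Op (F := F) (p := p) (N := N) fun h =>
    hp (Finset.mem_union_left _ (Finset.mem_subtype.mpr (Nat.mem_primeFactors.mpr ⟨p.2, h, hN⟩)))
  have key : ∀ g : GL (Fin 2) (AF F), (∀ i j, p ∉ S (g.1 i j)) →
      InCongr (φp F p) (N : Op F p) (compGL p g).1 := fun g hg => by
    choose o ho using fun i j => hS (g.1 i j) p (hg i j)
    exact ⟨Matrix.of o, isCongrOne_of_isUnit hu _, Matrix.ext fun i j => ho i j⟩
  exact ⟨key g fun i j h => hp (Finset.mem_union_right _ (Finset.mem_biUnion.mpr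
      ⟨(i, j), Finset.mem_univ _, Finset.mem_union_left _ h⟩)),
    by
      rw [← map_inv]
      exact key _ fun i j h => hp (Finset.mem_union_right _ (Finset.mem_biUnion.mpr
        ⟨(i, j), Finset.mem_univ _, Finset.mem_union_right _ h⟩))⟩

/-- An adelic matrix with prescribed components. -/
theorem exists_gl_comp (g : ∀ p : Nat.Primes, GL (Fin 2) (Lp F p)) (S : Finset Nat.Primes)
    (hS : ∀ p : Nat.Primes, p ∉ S → g p ∈ congrGroup (φp F p) 1) :
    ∃ a : GL (Fin 2) (AF F), ∀ p : Nat.Primes, compGL p a = g p := by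
  have key : ∀ g : ∀ p : Nat.Primes, GL (Fin 2) (Lp F p),
      (∀ p : Nat.Primes, p ∉ S → InCongr (φp F p) 1 (g p).1) →
      ∃ X : Matrix (Fin 2) (Fin 2) (AF F), ∀ p i j, compAF p (X i j) = (g p).1 i j := fun g h => by
    have := fun i j => exists_af_comp (fun p => (g p).1 i j) S fun p hp => by
      obtain ⟨Y, -, hY⟩ := h p hp
      exact ⟨Y i j, congrFun (congrFun hY i) j⟩
    choose X hX using this
    exact ⟨Matrix.of X, fun p i j => hX i j p⟩
  obtain ⟨X, hX⟩ := key g fun p hp => (hS p hp).1
  obtain ⟨Y, hY⟩ := key (fun p => (g p)⁻¹) fun p hp => (hS p hp).2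
  have h1 : ∀ (X Y : Matrix (Fin 2) (Fin 2) (AF F)), (∀ p : Nat.Primes,
      X.map (compAF p) * Y.map (compAF p) = 1) → X * Y = 1 := fun X Y h =>
    Matrix.ext fun i j => af_ext fun p => by
      have := congrFun (congrFun (h p) i) j
      rw [← Matrix.map_mul, Matrix.map_apply] at this
      rw [this]
      simp [Matrix.one_apply, apply_ite (compAF p)]
  refine ⟨⟨X, Y, h1 X Y fun p => ?_, h1 Y X fun p => ?_⟩, fun p => Units.ext (Matrix.ext (hX p))⟩
  · rw [show X.map (compAF p) = (g p).1 from Matrix.ext (hX p),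
      show Y.map (compAF p) = ((g p)⁻¹).1 from Matrix.ext (hY p)]
    exact (g p).mul_inv
  · rw [show X.map (compAF p) = (g p).1 from Matrix.ext (hX p),
      show Y.map (compAF p) = ((g p)⁻¹).1 from Matrix.ext (hY p)]
    exact (g p).inv_mul

theorem mem_principalSubgroup_iff_comp {N : ℕ} {g : GL (Fin 2) (AF F)} :
    g ∈ principalSubgroup (Ideal.span {(N : 𝓞 F)}) ↔
      ∀ p : Nat.Primes, compGL p g ∈ congrGroup (φp F p) (N : Op F p) := by
  have key : ∀ g : GL (Fin 2) (AF F), CongrOne (Ideal.span {(N : 𝓞 F)}) g.1 ↔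
      ∀ p : Nat.Primes, InCongr (φp F p) (N : Op F p) (compGL p g).1 := fun g => by
    constructor
    · intro h p
      choose o ho using fun i j => mem_idealAF_span_natCast.mp (h i j) p
      refine ⟨1 + (N : Op F p) • Matrix.of o, ⟨_, rfl⟩, Matrix.ext fun i j => ?_⟩
      rw [Matrix.map_apply, Matrix.add_apply, Matrix.smul_apply, Matrix.of_apply, smul_eq_mul,
        map_add, ho, Matrix.sub_apply, map_sub, compGL_val]
      simp [Matrix.one_apply, apply_ite (compAF p), apply_ite (φp F p)]
    · intro h i j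
      refine mem_idealAF_span_natCast.mpr fun p => ?_
      obtain ⟨_, ⟨X, rfl⟩, hX⟩ := h p
      refine ⟨X i j, ?_⟩
      have := congrFun (congrFun hX i) j
      rw [Matrix.map_apply, Matrix.add_apply, map_add, compGL_val] at this
      rw [Matrix.sub_apply, map_sub, ← this, Matrix.smul_apply, smul_eq_mul]
      simp [Matrix.one_apply, apply_ite (compAF p), apply_ite (φp F p)]
  exact ⟨fun h p => ⟨(key g).mp h.1 p, by rw [← map_inv]; exact (key _).mp h.2 p⟩,
    fun h => ⟨(key g).mpr fun p => (h p).1,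
      (key _).mpr fun p => by rw [map_inv]; exact (h p).2⟩⟩

omit [NumberField F] in
theorem compGL_scalar (p : Nat.Primes) (u : (AF F)ˣ) :
    compGL p (Matrix.GeneralLinearGroup.scalar (Fin 2) u)
      = Matrix.GeneralLinearGroup.scalar (Fin 2) (Units.map (compAF p).toRingHom.toMonoidHom u) :=
  Matrix.GeneralLinearGroup.map_scalar _ _

theorem mem_levelGroup_iff_comp {N : ℕ} (hN : N ≠ 0) {g : GL (Fin 2) (AF F)} :
    g ∈ levelGroup (Ideal.span {(N : 𝓞 F)}) ↔
      ∀ p : Nat.Primes, compGL p g ∈ levelK (φp F p) (N : Op F p) := by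
  classical
  constructor
  · intro h p
    rw [levelGroup, Subgroup.mem_sup_of_normal_right] at h
    obtain ⟨k, hk, z, hz, rfl⟩ := h
    rw [Matrix.GeneralLinearGroup.center_eq_range_scalar] at hz
    obtain ⟨u, rfl⟩ := hz
    rw [map_mul, compGL_scalar]
    exact mem_levelK.mpr ⟨_, _, mem_principalSubgroup_iff_comp.mp hk p,
      (Matrix.GeneralLinearGroup.scalar_commute _ _).symm⟩
  · intro h
    obtain ⟨S, hS⟩ := exists_finset_congr N hN g
    choose u k hk hgk using fun p => mem_levelK.mp (h p)
    let u' : ∀ p : Nat.Primes, (Lp F p)ˣ := fun p => if p ∈ S then u p else 1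
    obtain ⟨a, ha⟩ := exists_gl_comp
      (fun p => Matrix.GeneralLinearGroup.scalar (Fin 2) (u' p)) S fun p hp => by
        simp only [u', if_neg hp, map_one]; exact one_mem _
    have hac : a ∈ Subgroup.center (GL (Fin 2) (AF F)) := Subgroup.mem_center_iff.mpr fun b =>
      gl_ext fun p => by
        rw [map_mul, map_mul, ha]
        exact Subgroup.mem_center_iff.mp (scalar_mem_center _) _
    rw [show g = (a⁻¹ * g) * a by
      rw [mul_assoc, Subgroup.mem_center_iff.mp hac g, inv_mul_cancel_left]]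
    refine mul_mem (le_sup_left (a := principalSubgroup (Ideal.span {(N : 𝓞 F)}))
      (mem_principalSubgroup_iff_comp.mpr fun p => ?_))
        (le_sup_right (a := principalSubgroup _) hac)
    rw [map_mul, map_inv, ha]
    simp only [u']
    split_ifs with hp
    · rw [hgk, inv_mul_cancel_left]; exact hk p
    · simpa using hS p hp

/-! ### Points -/

variable (F) in
/-- The local cosets of level `N`. -/
abbrev LocPt (N : ℕ) (p : Nat.Primes) : Type :=
  GL (Fin 2) (Lp F p) ⧸ levelK (φp F p) (N : Op F p)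

/-- The component of a point. -/
def compPt {N : ℕ} (hN : N ≠ 0) (p : Nat.Primes) :
    FinPt F (Ideal.span {(N : 𝓞 F)}) → LocPt F N p :=
  Quotient.map' (compGL p) fun x y hxy => by
    rw [QuotientGroup.leftRel_apply] at hxy ⊢
    rw [← map_inv, ← map_mul]
    exact (mem_levelGroup_iff_comp hN).mp hxy p

variable {N : ℕ} (hN : N ≠ 0)

@[simp] theorem compPt_mk (p : Nat.Primes) (g : GL (Fin 2) (AF F)) :
    compPt hN p (g : FinPt F (Ideal.span {(N : 𝓞 F)})) = (compGL p g : LocPt F N p) := rfl

theorem finPt_ext {v v' : FinPt F (Ideal.span {(N : 𝓞 F)})}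
    (h : ∀ p : Nat.Primes, compPt hN p v = compPt hN p v') : v = v' := by
  induction v using QuotientGroup.induction_on with
  | H g =>
    induction v' using QuotientGroup.induction_on with
    | H g' =>
      refine QuotientGroup.eq.mpr ((mem_levelGroup_iff_comp hN).mpr fun p => ?_)
      rw [map_mul, map_inv]
      exact QuotientGroup.eq.mp (by simpa using h p)

theorem exists_finset_compPt_one (v : FinPt F (Ideal.span {(N : 𝓞 F)})) :
    ∃ S : Finset Nat.Primes, ∀ p : Nat.Primes, p ∉ S → compPt hN p v =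
      ((1 : GL (Fin 2) (Lp F p)) : LocPt F N p) := by
  induction v using QuotientGroup.induction_on with
  | H g =>
    obtain ⟨S, hS⟩ := exists_finset_congr N hN g
    refine ⟨S, fun p hp => ?_⟩
    rw [compPt_mk, QuotientGroup.eq, mul_one]
    exact inv_mem (le_sup_left (a := congrGroup (φp F p) (N : Op F p)) (hS p hp))

/-- A point with prescribed components. -/
theorem exists_finPt_comp (v : ∀ p : Nat.Primes, LocPt F N p) (S : Finset Nat.Primes)
    (hS : ∀ p : Nat.Primes, p ∉ S → v p = ((1 : GL (Fin 2) (Lp F p)) : LocPt F N p)) :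
    ∃ x : FinPt F (Ideal.span {(N : 𝓞 F)}), ∀ p : Nat.Primes, compPt hN p x = v p := by
  classical
  choose g hg using fun p => QuotientGroup.mk_surjective (v p)
  obtain ⟨a, ha⟩ := exists_gl_comp (fun p => if p ∈ S then g p else 1) S fun p hp => by
    simp only [if_neg hp]; exact one_mem _
  refine ⟨(a : FinPt F _), fun p => ?_⟩
  rw [compPt_mk, ha]
  split_ifs with hp
  · exact hg p
  · exact (hS p hp).symm

end FLTAgent.LanglandsTunnell.Local
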