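import Fermat.Agent.LanglandsTunnell.Local.LocalInstance
import Fermat.Agent.LanglandsTunnell.Local.Components

/-!
# The comparison at one component

`X` are the points over the ground field, `X'` those over the cubic extension, `g` the action of
the class, `f` a twisted action, `comm` the pairs of actions of the centraliser.
The interfaces are `PlainLocal`, `TwistLocal` and `IsRamifiedPlace`.
-/

set_option autoImplicit false

noncomputable section

namespace FLTAgent.LanglandsTunnell.Local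

open scoped TensorProduct
open Matrix NumberField FLTAgent.LanglandsTunnell

variable {X X' : Type*}

/-- The plain side at one component. -/
structure PlainLocal (c : ℝ) (g : X → X) (pe k2 : X → X → ℂ)
    (comm : Set (Equiv.Perm X × Equiv.Perm X')) (isDiag isNorm : Prop) (hE : X → ℝ) where
  proj : X → X
  proj_comm : ∀ t ∈ comm, ∀ u, proj (t.1 u) = t.1 (proj u)
  finite : ∀ z, {u | proj u = z ∧ (pe u (g u) ≠ 0 ∨ k2 u (g u) ≠ 0)}.Finite
  norm_or : isNorm ∨ ∀ z, ∑ᶠ u ∈ {u | proj u = z}, pe u (g u) = 0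
  dE : X → ℝ
  dE_nonneg : ∀ u, 0 ≤ dE u
  height : isDiag → ∀ u, hE u = hE (proj u) + dE u
  height_nonnorm : isDiag → ¬ isNorm → ∀ z,
    -(3 * (c : ℂ)) * ∑ᶠ u ∈ {u | proj u = z}, (dE u : ℂ) * pe u (g u) =
      ∑ᶠ u ∈ {u | proj u = z}, k2 u (g u)

/-- The twisted side at one component. -/
structure TwistLocal {c : ℝ} {g : X → X} {pe k2 : X → X → ℂ}
    {comm : Set (Equiv.Perm X × Equiv.Perm X')} {isDiag isNorm : Prop} {hE : X → ℝ}
    (P : PlainLocal c g pe k2 comm isDiag isNorm hE) (f : X' → X') (km : X' → X' → ℂ)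
    (hM : X' → ℝ) where
  q : Fin 3 → X' → X
  q_comm : ∀ i, ∀ t ∈ comm, ∀ v, km v (f v) ≠ 0 → q i (t.2 v) = t.1 (q i v)
  finite : ∀ i z, {v | q i v = z ∧ km v (f v) ≠ 0}.Finite
  sum_eq : ∀ i z, ∑ᶠ v ∈ {v | q i v = z}, km v (f v) =
    (c : ℂ) * ∑ᶠ u ∈ {u | P.proj u = z}, pe u (g u)
  dM : X' → ℝ
  dM_nonneg : ∀ v, 0 ≤ dM v
  height : isDiag → ∀ v, km v (f v) ≠ 0 → hM v = (∑ i, hE (q i v)) + dM v
  identity : isDiag → ∀ z, ∑ᶠ v ∈ {v | q 0 v = z}, (dM v : ℂ) * km v (f v)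
      - 3 * (c : ℂ) * ∑ᶠ u ∈ {u | P.proj u = z}, (P.dE u : ℂ) * pe u (g u) =
    ∑ᶠ u ∈ {u | P.proj u = z}, k2 u (g u)

/-! ### The ramified places -/

variable {E M : Type} [Field E] [Field M] [NumberField E] [NumberField M] {f : E →+* M}
  {s : M ≃+* M}

open scoped Classical in
/-- The test kernel at a place of `R`. -/
def ramLocKer (h : CubicData f s) (p : Nat.Primes) (N₀ N₁ N' : ℕ)
    (v v' : LocPt M N' p) : ℂ :=
  if ∃ (g k : GL (Fin 2) (Lp M p)) (y : GL (Fin 2) (Lp E p)),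
      k ∈ congrGroup (φp M p) (N₀ : Op M p) ∧ y ∈ congrGroup (φp E p) (N₁ : Op E p) ∧
      (g : LocPt M N' p) = v ∧
      ((g * (k * (h.localCubic (p : ℕ)).ι y * ((h.localCubic (p : ℕ)).θ k)⁻¹) :
        GL (Fin 2) (Lp M p)) : LocPt M N' p) = v'
  then 1 else 0

/-- What is needed at a place of `R`: a matching of fixed points with multiplicity `c`, compatible
with an element of the torus at level one. -/
structure IsRamifiedPlace (h : CubicData f s) (p : Nat.Primes) (N₀ N₁ N N' : ℕ) (c : ℝ) : Prop where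
  pos : 0 < c
  matching : ∀ (γ : GL (Fin 2) (Lp E p)) (δ : GL (Fin 2) (Lp M p)),
    δ.1 ∈ Algebra.adjoin (Lp M p) {((h.localCubic (p : ℕ)).ι γ).1} →
    tnorm (h.localCubic (p : ℕ)).θ δ = (h.localCubic (p : ℕ)).ι γ →
    ∃ (b : GL (Fin 2) (Lp M p)) (q : LocPt M N' p → LocPt E N p),
      b.1 ∈ Algebra.adjoin (Lp M p) {((h.localCubic (p : ℕ)).ι γ).1} ∧
      (∀ t : GL (Fin 2) (Lp E p), Commute t γ → ∀ g : GL (Fin 2) (Lp M p),
        ramLocKer h p N₀ N₁ N' (g : LocPt M N' p)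
            ((δ * (h.localCubic (p : ℕ)).θ g : GL (Fin 2) (Lp M p)) : LocPt M N' p) ≠ 0 →
          q (((h.localCubic (p : ℕ)).ι t * g : GL (Fin 2) (Lp M p)) : LocPt M N' p) =
            t • q (g : LocPt M N' p)) ∧
      (∀ (g : GL (Fin 2) (Lp M p)) (u : GL (Fin 2) (Lp E p)),
        ramLocKer h p N₀ N₁ N' (g : LocPt M N' p)
            ((δ * (h.localCubic (p : ℕ)).θ g : GL (Fin 2) (Lp M p)) : LocPt M N' p) ≠ 0 →
          q (g : LocPt M N' p) = (u : LocPt E N p) →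
            (b * (h.localCubic (p : ℕ)).ι u)⁻¹ * g ∈ levelK (φp M p) 1) ∧
      ∀ z : LocPt E N p,
        ({v | q v = z ∧ ∃ g : GL (Fin 2) (Lp M p), (g : LocPt M N' p) = v ∧
          ramLocKer h p N₀ N₁ N' v
            ((δ * (h.localCubic (p : ℕ)).θ g : GL (Fin 2) (Lp M p)) : LocPt M N' p) ≠ 0}.Finite) ∧
        ({v | q v = z ∧ ∃ g : GL (Fin 2) (Lp M p), (g : LocPt M N' p) = v ∧
          ramLocKer h p N₀ N₁ N' v
            ((δ * (h.localCubic (p : ℕ)).θ g : GL (Fin 2) (Lp M p)) : LocPt M N' p) ≠ 0}.ncard : ℝ)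
          = c * Set.indicator {z : LocPt E N p | γ • z = z} 1 z
  norm : ∀ (γ : GL (Fin 2) (Lp E p)) (z : LocPt E N p), γ • z = z →
    ∃ (u : (Lp E p)ˣ) (X : GL (Fin 2) (Lp M p)),
      X * (h.localCubic (p : ℕ)).ι γ = (h.localCubic (p : ℕ)).ι γ * X ∧
      tnorm (h.localCubic (p : ℕ)).θ X =
        (h.localCubic (p : ℕ)).ι (GeneralLinearGroup.scalar (Fin 2) u * γ)

end FLTAgent.LanglandsTunnell.Local
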