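import Fermat.Agent.LanglandsTunnell.Local.RestrictedSum
import Fermat.Agent.LanglandsTunnell.Local.LocalSpec

/-!
# Local comparisons combine to the comparison on a restricted product

A `LocalFamily` whose members are trivial outside a finite set gives the plain and twisted sides
of the comparison on objects built from the components (`IsProductOf`, `prodPlain`,
`prodTwist`).
-/

set_option autoImplicit false

noncomputable section

namespace FLTAgent.LanglandsTunnell.Local

variable {P X X' : Type*} {Y Y' : P → Type*}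

/-- The local data of a family of components. -/
structure LocalFamily (P : Type*) (Y Y' : P → Type*) where
  c : P → ℝ
  g : ∀ p, Y p → Y p
  f : ∀ p, Y' p → Y' p
  pe : ∀ p, Y p → Y p → ℂ
  k2 : ∀ p, Y p → Y p → ℂ
  km : ∀ p, Y' p → Y' p → ℂ
  comm : ∀ p, Set (Equiv.Perm (Y p) × Equiv.Perm (Y' p))
  isNorm : P → Prop
  hE : ∀ p, Y p → ℝ
  hM : ∀ p, Y' p → ℝ

variable (F : LocalFamily P Y Y') {base : ∀ p, Y p} {base' : ∀ p, Y' p}
  {co : ∀ p, X → Y p} {co' : ∀ p, X' → Y' p} {S : Finset P} {isDiag : Prop}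

/-- Outside `S` everything is trivial. -/
structure IsTrivialOutside (base : ∀ p, Y p) (base' : ∀ p, Y' p) (S : Finset P)
    (Q : ∀ p, PlainLocal (F.c p) (F.g p) (F.pe p) (F.k2 p) (F.comm p) isDiag (F.isNorm p)
      (F.hE p)) : Prop where
  c_eq : ∀ p ∉ S, F.c p = 1
  pe_diag : IsDiagOutside F.pe S
  km_diag : IsDiagOutside F.km S
  k2_eq : ∀ p ∉ S, ∀ x y, F.k2 p x y = 0
  proj_eq : ∀ p ∉ S, ∀ u, (Q p).proj u = u
  dE_eq : ∀ p ∉ S, ∀ u, (Q p).dE u = 0
  g_base : ∀ p ∉ S, F.g p (base p) = base p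
  f_base : ∀ p ∉ S, F.f p (base' p) = base' p
  hE_base : ∀ p, F.hE p (base p) = 0
  hM_base : ∀ p, F.hM p (base' p) = 0

variable {g : X → X} {f : X' → X'} {pe k2 : X → X → ℂ} {km : X' → X' → ℂ}
  {comm : Set (Equiv.Perm X × Equiv.Perm X')} {hE : X → ℝ} {hM : X' → ℝ} {CE CM : ℝ}

/-- The global objects are built from the components. -/
structure IsProductOf [DecidableEq P] (co : ∀ p, X → Y p) (co' : ∀ p, X' → Y' p) (S : Finset P)
    (g : X → X) (pe k2 : X → X → ℂ) (comm : Set (Equiv.Perm X × Equiv.Perm X')) (hE : X → ℝ)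
    (CE : ℝ) : Prop where
  g_eq : ∀ p u, co p (g u) = F.g p (co p u)
  pe_eq : ∀ u u', pe u u' = prodKer F.pe co u u'
  k2_eq : ∀ u u', k2 u u' = ∑ q ∈ S, (∏ p ∈ S.erase q, (F.c p : ℂ)) *
    prodKer (fun p => if p = q then F.k2 p else F.pe p) co u u'
  comm_eq : ∀ t ∈ comm, ∀ p, ∃ t' ∈ F.comm p, (∀ u, co p (t.1 u) = t'.1 (co p u)) ∧
    ∀ v, co' p (t.2 v) = t'.2 (co' p v)
  hE_eq : ∀ u, hE u = CE + ∑ᶠ p, F.hE p (co p u)

variable [DecidableEq P] (hX : IsRestricted base co) (hX' : IsRestricted base' co')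
  (Q : ∀ p, PlainLocal (F.c p) (F.g p) (F.pe p) (F.k2 p) (F.comm p) isDiag (F.isNorm p) (F.hE p))
  (hQ : IsTrivialOutside F base base' S Q)
  (hG : IsProductOf F co co' S g pe k2 comm hE CE)

/-- The components of a fibre. -/
theorem IsRestricted.fibre_finite (h : IsRestricted base co) (A : ∀ p, Set (Y p)) (T : Finset P)
    (hfin : ∀ p ∈ T, (A p).Finite) (hbase : ∀ p ∉ T, A p ⊆ {base p}) :
    {u | ∀ p, co p u ∈ A p}.Finite := by
  let G : X → ∀ p : T, Y p := fun u p => co p u
  have hmem : ∀ u ∈ {u | ∀ p, co p u ∈ A p}, G u ∈ {x : ∀ p : T, Y p | ∀ p : T, x p ∈ A p} :=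
    fun u hu p => hu p
  have hpi : {x : ∀ p : T, Y p | ∀ p : T, x p ∈ A p}.Finite := by
    have := Set.Finite.pi' (t := fun p : T => A p) fun p => hfin p p.2
    exact this.subset fun x hx => hx
  refine Set.Finite.of_injOn hmem (fun u hu v hv he => h.ext fun p => ?_) hpi
  by_cases hp : p ∈ T
  · exact congrFun he ⟨p, hp⟩
  · rw [Set.mem_singleton_iff.mp (hbase p hp (hu p)), Set.mem_singleton_iff.mp (hbase p hp (hv p))]

/-- A fibre sum of a product factors. -/
theorem IsRestricted.finsum_fibre (h : IsRestricted base co) (A : ∀ p, Set (Y p))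
    (φ : ∀ p, Y p → ℂ) (T : Finset P) (hfin : ∀ p ∈ T, (A p ∩ Function.support (φ p)).Finite)
    (hbase : ∀ p ∉ T, A p ∩ Function.support (φ p) = {base p} ∧ φ p (base p) = 1) :
    ∑ᶠ u ∈ {u | ∀ p, co p u ∈ A p}, ∏ᶠ p, φ p (co p u) =
      ∏ p ∈ T, ∑ᶠ x ∈ A p, φ p x := by
  classical
  simp only [finsum_mem_def]
  refine h.finsum_prod (fun p => (A p).indicator (φ p)) T (fun p hp => ?_) _ (fun u hu => ?_)
    fun u p hp hne => ?_
  · exact (hfin p hp).subset (Set.support_indicator.le)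
  · rw [Set.indicator_apply]
    split_ifs with hA
    · rw [finprod_eq_prod_of_mulSupport_subset _ (s := T) fun p hp => ?_]
      · exact Finset.prod_congr rfl fun p _ => (Set.indicator_of_mem (hA p) _).symm
      · by_contra hpT
        exact hp (by show φ p (co p u) = 1; rw [hu p hpT, (hbase p hpT).2])
    · obtain ⟨p, hp⟩ := not_forall.mp hA
      have hpT : p ∈ T := by
        by_contra hpT
        refine hp ?_
        rw [hu p hpT]
        exact ((hbase p hpT).1.ge rfl).1
      exact (Finset.prod_eq_zero hpT (Set.indicator_of_notMem hp _)).symm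
  · rw [Set.indicator_apply, ite_eq_right_iff]
    intro hA
    obtain ⟨T', hT'⟩ := h.cofinite u
    have h0 : φ p (co p u) = 0 := by
      by_contra h0
      exact hne ((hbase p hp).1.le ⟨hA p, h0⟩)
    rw [finprod_eq_prod_of_mulSupport_subset _ (s := T ∪ T' ∪ {p}) fun q hq => ?_]
    · exact Finset.prod_eq_zero (by simp) h0
    · by_contra hq'
      simp only [Finset.coe_union, Set.mem_union, Finset.mem_coe, not_or] at hq'
      exact hq (by show φ q (co q u) = 1; rw [hT' q hq'.1.2, (hbase q hq'.1.1).2])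

include hX hQ in
theorem exists_prodProj (u : X) : ∃ v, ∀ p, co p v = (Q p).proj (co p u) := by
  classical
  obtain ⟨T, hT⟩ := hX.cofinite u
  refine hX.exists_eq (fun p => (Q p).proj (co p u)) (T ∪ S) fun p hp => ?_
  simp only [Finset.mem_union, not_or] at hp
  rw [hQ.proj_eq p hp.2, hT p hp.1]

/-- The projection componentwise. -/
def prodProj (u : X) : X := (exists_prodProj F hX Q hQ u).choose

theorem co_prodProj (u : X) (p : P) :
    co p (prodProj F hX Q hQ u) = (Q p).proj (co p u) :=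
  (exists_prodProj F hX Q hQ u).choose_spec p

theorem prodProj_fibre (z : X) :
    {u | prodProj F hX Q hQ u = z} = {u | ∀ p, co p u ∈ {x | (Q p).proj x = co p z}} := by
  ext u
  refine ⟨fun h p => ?_, fun h => hX.ext fun p => ?_⟩
  · show (Q p).proj (co p u) = co p z
    rw [← co_prodProj F hX Q hQ, show prodProj F hX Q hQ u = z from h]
  · rw [co_prodProj F hX Q hQ]; exact h p

/-- The fibre sum of a product kernel on the plain side. -/
theorem sum_plain (z : X) (T : Finset P) (hST : S ⊆ T) (hT : ∀ p ∉ T, co p z = base p)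
    (φ : ∀ p, Y p → ℂ) (hφ : ∀ p ∈ T, ∀ x, φ p x ≠ 0 →
      F.pe p x (F.g p x) ≠ 0 ∨ F.k2 p x (F.g p x) ≠ 0)
    (hφ' : ∀ p ∉ T, φ p = fun x => F.pe p x (F.g p x)) :
    ∑ᶠ u ∈ {u | prodProj F hX Q hQ u = z}, ∏ᶠ p, φ p (co p u) =
      ∏ p ∈ T, ∑ᶠ x ∈ {x | (Q p).proj x = co p z}, φ p x := by
  rw [prodProj_fibre F hX Q hQ z]
  refine hX.finsum_fibre _ φ T (fun p hp => ((Q p).finite (co p z)).subset fun x hx =>
    ⟨hx.1, hφ p hp x hx.2⟩) fun p hp => ?_
  have hpS : p ∉ S := fun h => hp (hST h)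
  have h1 : φ p (base p) = 1 := by
    rw [hφ' p hp]
    exact (hQ.pe_diag p hpS _ _).1 (hQ.g_base p hpS).symm
  refine ⟨Set.eq_singleton_iff_unique_mem.mpr ⟨⟨?_, by rw [Function.mem_support, h1]; simp⟩, ?_⟩,
    h1⟩
  · show (Q p).proj (base p) = co p z
    rw [hQ.proj_eq p hpS, hT p hp]
  · rintro x ⟨hx, -⟩
    rw [← hT p hp, ← show (Q p).proj x = co p z from hx, hQ.proj_eq p hpS]

/-- The total height increment of the plain side. -/
def prodDE (co : ∀ p, X → Y p) (S : Finset P) (u : X) : ℝ := ∑ p ∈ S, (Q p).dE (co p u)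

include hG in
theorem pe_diag_eq (u : X) : pe u (g u) = ∏ᶠ p, F.pe p (co p u) (F.g p (co p u)) := by
  rw [hG.pe_eq, prodKer]
  simp only [hG.g_eq]

include hG in
/-- The plain identity at one summand. -/
theorem sum_dE (z : X) (T : Finset P) (hST : S ⊆ T) (hT : ∀ p ∉ T, co p z = base p) :
    ∑ᶠ u ∈ {u | prodProj F hX Q hQ u = z}, (prodDE F Q co S u : ℂ) * pe u (g u) =
      ∑ q ∈ S, (∑ᶠ x ∈ {x | (Q q).proj x = co q z}, ((Q q).dE x : ℂ) * F.pe q x (F.g q x)) *
        ∏ p ∈ T.erase q, ∑ᶠ x ∈ {x | (Q p).proj x = co p z}, F.pe p x (F.g p x) := by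
  classical
  have hU := hX.fibre_finite (fun p => {x | (Q p).proj x = co p z ∧
      (F.pe p x (F.g p x) ≠ 0 ∨ F.k2 p x (F.g p x) ≠ 0)}) T (fun p _ => (Q p).finite _)
      fun p hp x hx => by
        rw [Set.mem_singleton_iff, ← hT p hp, ← hx.1, hQ.proj_eq p fun h => hp (hST h)]
  have hsup : {u | prodProj F hX Q hQ u = z} ∩ Function.support (fun u => pe u (g u)) ⊆
      {u | ∀ p, co p u ∈ {x | (Q p).proj x = co p z ∧
        (F.pe p x (F.g p x) ≠ 0 ∨ F.k2 p x (F.g p x) ≠ 0)}} := by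
    rintro u ⟨hu1, hu2⟩ p
    refine ⟨((prodProj_fibre F hX Q hQ z).le hu1) p, Or.inl fun h0 => hu2 ?_⟩
    show pe u (g u) = 0
    rw [pe_diag_eq F hG]
    refine finprod_eq_zero _ p h0 ?_
    obtain ⟨T', hT'⟩ := hX.cofinite u
    refine (T' ∪ T).finite_toSet.subset fun r hr => ?_
    by_contra hr'
    simp only [Finset.coe_union, Set.mem_union, Finset.mem_coe, not_or] at hr'
    have hrS : r ∉ S := fun h => hr'.2 (hST h)
    refine hr ?_
    show F.pe r (co r u) (F.g r (co r u)) = 1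
    rw [hT' r hr'.1, hQ.g_base r hrS]
    exact (hQ.pe_diag r hrS _ _).1 rfl
  have hsub : ↑hU.toFinset ⊆ {u | prodProj F hX Q hQ u = z} := fun u hu =>
    (prodProj_fibre F hX Q hQ z).ge fun p => (hU.mem_toFinset.mp hu p).1
  have hconv : ∀ w : X → ℂ,
      ∑ᶠ u ∈ {u | prodProj F hX Q hQ u = z}, w u * pe u (g u) =
        ∑ u ∈ hU.toFinset, w u * pe u (g u) := fun w =>
    finsum_mem_eq_sum_of_subset _ (fun u hu => hU.mem_toFinset.mpr
      (hsup ⟨hu.1, right_ne_zero_of_mul hu.2⟩)) hsub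
  rw [hconv]
  simp only [prodDE, Complex.ofReal_sum, Finset.sum_mul]
  rw [Finset.sum_comm]
  refine Finset.sum_congr rfl fun q hq => ?_
  rw [← hconv fun u => ((Q q).dE (co q u) : ℂ)]
  let φ : ∀ p, Y p → ℂ := fun p x =>
    (if p = q then ((Q p).dE x : ℂ) else 1) * F.pe p x (F.g p x)
  have hprod : ∀ u, ((Q q).dE (co q u) : ℂ) * pe u (g u) = ∏ᶠ p, φ p (co p u) := fun u => by
    rw [pe_diag_eq F hG]
    obtain ⟨T', hT'⟩ := hX.cofinite u
    have hsub : ∀ r, r ∉ T' ∪ T → F.pe r (co r u) (F.g r (co r u)) = 1 := fun r hr => by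
      simp only [Finset.mem_union, not_or] at hr
      rw [hT' r hr.1, hQ.g_base r fun h => hr.2 (hST h)]
      exact (hQ.pe_diag r (fun h => hr.2 (hST h)) _ _).1 rfl
    rw [finprod_eq_prod_of_mulSupport_subset _ (s := T' ∪ T) fun r hr => by
        by_contra h; exact hr (hsub r h),
      finprod_eq_prod_of_mulSupport_subset (fun p => φ p (co p u)) (s := T' ∪ T) fun r hr => by
        by_contra h
        refine hr ?_
        show φ r (co r u) = 1
        simp only [φ]
        rw [if_neg (fun e : r = q => h (Finset.mem_union_right _ (hST (e ▸ hq)))), one_mul,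
          hsub r h]]
    rw [Finset.prod_mul_distrib,
      Finset.prod_eq_single q (fun r _ hr => if_neg hr)
        (fun h => absurd (Finset.mem_union_right _ (hST hq)) h), if_pos rfl]
  rw [finsum_mem_congr rfl fun u _ => hprod u,
    sum_plain F hX Q hQ z T hST hT φ
      (fun p _ x hx => Or.inl (right_ne_zero_of_mul hx))
      (fun p hp => funext fun x => by
        simp only [φ]; rw [if_neg (fun e : p = q => hp (hST (e ▸ hq))), one_mul]),
    ← Finset.mul_prod_erase T _ (hST hq)]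
  congr 1
  · exact finsum_mem_congr rfl fun x _ => by simp [φ]
  · exact Finset.prod_congr rfl fun p hp => finsum_mem_congr rfl fun x _ => by
      simp [φ, Finset.ne_of_mem_erase hp]

include hG in
/-- The sum of the plain kernel over a fibre. -/
theorem sum_pe (z : X) (T : Finset P) (hST : S ⊆ T) (hT : ∀ p ∉ T, co p z = base p) :
    ∑ᶠ u ∈ {u | prodProj F hX Q hQ u = z}, pe u (g u) =
      ∏ p ∈ T, ∑ᶠ x ∈ {x | (Q p).proj x = co p z}, F.pe p x (F.g p x) := by
  rw [finsum_mem_congr rfl fun u _ => pe_diag_eq F hG u]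
  exact sum_plain F hX Q hQ z T hST hT (fun p x => F.pe p x (F.g p x))
    (fun p _ x hx => Or.inl hx) fun p _ => rfl

include hG in
/-- The sum of the correction kernel over a fibre. -/
theorem sum_k2 (z : X) (T : Finset P) (hST : S ⊆ T) (hT : ∀ p ∉ T, co p z = base p) :
    ∑ᶠ u ∈ {u | prodProj F hX Q hQ u = z}, k2 u (g u) =
      ∑ q ∈ S, (∏ p ∈ S.erase q, (F.c p : ℂ)) *
        ((∑ᶠ x ∈ {x | (Q q).proj x = co q z}, F.k2 q x (F.g q x)) *
          ∏ p ∈ T.erase q, ∑ᶠ x ∈ {x | (Q p).proj x = co p z}, F.pe p x (F.g p x)) := by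
  classical
  let φ : P → ∀ p, Y p → ℂ := fun q p x =>
    (if p = q then F.k2 p else F.pe p) x (F.g p x)
  have hval : ∀ u, k2 u (g u) = ∑ q ∈ S, (∏ p ∈ S.erase q, (F.c p : ℂ)) *
      ∏ᶠ p, φ q p (co p u) := fun u => by
    rw [hG.k2_eq]
    simp only [prodKer, hG.g_eq, φ]
  have hU := hX.fibre_finite (fun p => {x | (Q p).proj x = co p z ∧
      (F.pe p x (F.g p x) ≠ 0 ∨ F.k2 p x (F.g p x) ≠ 0)}) T (fun p _ => (Q p).finite _)
      fun p hp x hx => by
        rw [Set.mem_singleton_iff, ← hT p hp, ← hx.1, hQ.proj_eq p fun h => hp (hST h)]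
  have hsub : ↑hU.toFinset ⊆ {u | prodProj F hX Q hQ u = z} := fun u hu =>
    (prodProj_fibre F hX Q hQ z).ge fun p => (hU.mem_toFinset.mp hu p).1
  have hsup : ∀ q ∈ S, ∀ u, prodProj F hX Q hQ u = z → ∏ᶠ p, φ q p (co p u) ≠ 0 →
      u ∈ hU.toFinset := fun q hq u hu hne => by
    refine hU.mem_toFinset.mpr fun p => ⟨((prodProj_fibre F hX Q hQ z).le hu) p, ?_⟩
    by_contra hc
    simp only [not_or, not_not] at hc
    refine hne (finprod_eq_zero _ p ?_ ?_)
    · simp only [φ]; split_ifs <;> simp [hc]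
    · obtain ⟨T', hT'⟩ := hX.cofinite u
      refine (T' ∪ T).finite_toSet.subset fun r hr => ?_
      by_contra hr'
      simp only [Finset.coe_union, Set.mem_union, Finset.mem_coe, not_or] at hr'
      have hrS : r ∉ S := fun h => hr'.2 (hST h)
      refine hr ?_
      show φ q r (co r u) = 1
      simp only [φ]
      rw [if_neg (fun e : r = q => hrS (e ▸ hq)), hT' r hr'.1, hQ.g_base r hrS]
      exact (hQ.pe_diag r hrS _ _).1 rfl
  rw [finsum_mem_eq_sum_of_subset _ (fun u hu => ?_) hsub, Finset.sum_congr rfl fun u _ => hval u,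
    Finset.sum_comm]
  · refine Finset.sum_congr rfl fun q hq => ?_
    rw [← Finset.mul_sum, ← finsum_mem_eq_sum_of_subset
      (s := {u | prodProj F hX Q hQ u = z}) _ (fun u hu => hsup q hq u hu.1 hu.2) hsub]
    congr 1
    rw [sum_plain F hX Q hQ z T hST hT (φ q)
      (fun p _ x hx => by
        simp only [φ] at hx; split_ifs at hx <;> [exact Or.inr hx; exact Or.inl hx])
      (fun p hp => funext fun x => by
        simp only [φ]; rw [if_neg (fun e : p = q => hp (hST (e ▸ hq)))]),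
      ← Finset.mul_prod_erase T _ (hST hq)]
    congr 1
    · exact finsum_mem_congr rfl fun x _ => by simp [φ]
    · exact Finset.prod_congr rfl fun p hp => finsum_mem_congr rfl fun x _ => by
        simp [φ, Finset.ne_of_mem_erase hp]
  · obtain ⟨hu1, hu2⟩ := hu
    have hu2 : k2 u (g u) ≠ 0 := hu2
    rw [hval] at hu2
    obtain ⟨q, hq, hne⟩ := Finset.exists_ne_zero_of_sum_ne_zero hu2
    exact Finset.mem_coe.mpr (hsup q hq u hu1 (right_ne_zero_of_mul hne))

/-- **The plain side of a product.** -/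
def prodPlain (isNorm : Prop) (hN : (∀ p, F.isNorm p) ↔ isNorm) :
    PlainLocal (∏ p ∈ S, F.c p) g pe k2 comm isDiag isNorm hE where
  proj := prodProj F hX Q hQ
  proj_comm t ht u := hX.ext fun p => by
    obtain ⟨t', ht', h1, -⟩ := hG.comm_eq t ht p
    rw [co_prodProj F hX Q hQ, h1, h1, (Q p).proj_comm t' ht', co_prodProj F hX Q hQ]
  finite z := by
    classical
    obtain ⟨T, hT⟩ := hX.cofinite z
    refine (hX.fibre_finite (fun p => {x | (Q p).proj x = co p z ∧
      (F.pe p x (F.g p x) ≠ 0 ∨ F.k2 p x (F.g p x) ≠ 0)}) (S ∪ T) (fun p _ => (Q p).finite _)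
      fun p hp x hx => ?_).subset fun u hu p => ?_
    · simp only [Finset.mem_union, not_or] at hp
      rw [Set.mem_singleton_iff, ← hT p hp.2, ← hx.1, hQ.proj_eq p hp.1]
    obtain ⟨hu1, hu2⟩ := hu
    refine ⟨((prodProj_fibre F hX Q hQ z).le hu1) p, ?_⟩
    by_contra hc
    simp only [not_or, not_not] at hc
    have hz : ∀ q, ∏ᶠ r, (if r = q then F.k2 r else F.pe r) (co r u) (F.g r (co r u)) = 0 ∨
        q ∉ S := fun q => by
      by_cases hq : q ∈ S
      · refine Or.inl (finprod_eq_zero _ p (by split_ifs <;> simp [hc]) ?_)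
        obtain ⟨T', hT'⟩ := hX.cofinite u
        refine (T' ∪ S).finite_toSet.subset fun r hr => ?_
        by_contra hr'
        simp only [Finset.coe_union, Set.mem_union, Finset.mem_coe, not_or] at hr'
        refine hr ?_
        show (if r = q then F.k2 r else F.pe r) (co r u) (F.g r (co r u)) = 1
        rw [if_neg (fun e : r = q => hr'.2 (e ▸ hq)), hT' r hr'.1, hQ.g_base r hr'.2]
        exact (hQ.pe_diag r hr'.2 _ _).1 rfl
      · exact Or.inr hq
    rcases hu2 with h | h
    · refine h ?_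
      rw [pe_diag_eq F hG]
      refine finprod_eq_zero _ p hc.1 ?_
      obtain ⟨T', hT'⟩ := hX.cofinite u
      refine (T' ∪ S).finite_toSet.subset fun r hr => ?_
      by_contra hr'
      simp only [Finset.coe_union, Set.mem_union, Finset.mem_coe, not_or] at hr'
      refine hr ?_
      show F.pe r (co r u) (F.g r (co r u)) = 1
      rw [hT' r hr'.1, hQ.g_base r hr'.2]
      exact (hQ.pe_diag r hr'.2 _ _).1 rfl
    · refine h ?_
      rw [hG.k2_eq]
      refine Finset.sum_eq_zero fun q hq => ?_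
      simp only [prodKer, hG.g_eq]
      rw [(hz q).resolve_right (not_not.mpr hq), mul_zero]
  norm_or := by
    classical
    by_cases h : ∀ p, F.isNorm p
    · exact Or.inl (hN.mp h)
    obtain ⟨p, hp⟩ := not_forall.mp h
    refine Or.inr fun z => ?_
    obtain ⟨T, hT⟩ := hX.cofinite z
    rw [sum_pe F hX Q hQ hG z (S ∪ T ∪ {p})
      (Finset.subset_union_left.trans Finset.subset_union_left) fun r hr =>
        hT r fun h => hr (Finset.mem_union_left _ (Finset.mem_union_right _ h))]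
    exact Finset.prod_eq_zero (Finset.mem_union_right _ (Finset.mem_singleton_self p))
      ((((Q p).norm_or).resolve_left hp) _)
  dE := prodDE F Q co S
  dE_nonneg u := Finset.sum_nonneg fun p _ => (Q p).dE_nonneg _
  height hd u := by
    classical
    obtain ⟨T, hT⟩ := hX.cofinite u
    have hsum : ∀ v, (∀ p ∉ S ∪ T, co p v = base p) →
        ∑ᶠ p, F.hE p (co p v) = ∑ p ∈ S ∪ T, F.hE p (co p v) := fun v hv =>
      finsum_eq_sum_of_support_subset _ fun p hp => by
        by_contra h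
        exact hp (by show F.hE p (co p v) = 0; rw [hv p h, hQ.hE_base p])
    rw [hG.hE_eq, hG.hE_eq, hsum u fun p hp => hT p fun h => hp (Finset.mem_union_right _ h),
      hsum _ fun p hp => ?_, prodDE, add_assoc CE,
      Finset.sum_subset (Finset.subset_union_left (s₂ := T))
        (fun p _ hp => hQ.dE_eq p hp (co p u)), ← Finset.sum_add_distrib]
    · exact congrArg (CE + ·) (Finset.sum_congr rfl fun p _ => by
        rw [co_prodProj F hX Q hQ]; exact (Q p).height hd _)
    · simp only [Finset.mem_union, not_or] at hp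
      rw [co_prodProj F hX Q hQ, hQ.proj_eq p hp.1, hT p hp.2]
  height_nonnorm hd hn z := by
    classical
    obtain ⟨p₁, hp₁⟩ := not_forall.mp (mt hN.mp hn)
    obtain ⟨T₀, hT₀⟩ := hX.cofinite z
    set T := S ∪ T₀ ∪ {p₁} with hTdef
    have hST : S ⊆ T := Finset.subset_union_left.trans Finset.subset_union_left
    have hT : ∀ p ∉ T, co p z = base p := fun r hr =>
      hT₀ r fun h => hr (Finset.mem_union_left _ (Finset.mem_union_right _ h))
    have h0 := ((Q p₁).norm_or).resolve_left hp₁ (co p₁ z)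
    rw [sum_dE F hX Q hQ hG z T hST hT, sum_k2 F hX Q hQ hG z T hST hT, Finset.mul_sum]
    refine Finset.sum_congr rfl fun q hq => ?_
    by_cases he : q = p₁
    · subst he
      rw [← (Q q).height_nonnorm hd hp₁ (co q z), Complex.ofReal_prod,
        ← Finset.mul_prod_erase S _ hq]
      ring
    · have : ∏ p ∈ T.erase q, ∑ᶠ x ∈ {x | (Q p).proj x = co p z}, F.pe p x (F.g p x) = 0 :=
        Finset.prod_eq_zero (Finset.mem_erase.mpr ⟨Ne.symm he, by simp [hTdef]⟩) h0
      rw [this, mul_zero, mul_zero, mul_zero, mul_zero]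

variable {isNorm : Prop} (hN : (∀ p, F.isNorm p) ↔ isNorm)
  (W : ∀ p, TwistLocal (Q p) (F.f p) (F.km p) (F.hM p))
  (hf : ∀ p v, co' p (f v) = F.f p (co' p v))
  (hkm : ∀ v v', km v v' = prodKer F.km co' v v')
  (hqb : ∀ p ∉ S, ∀ i, (W p).q i (base' p) = base p) (hdM : ∀ p ∉ S, ∀ v, (W p).dM v = 0)
  (hHM : ∀ v, hM v = CM + ∑ᶠ p, F.hM p (co' p v)) (hC : CM = 3 * CE)

include hX' hQ in
theorem km_finite (v : X') :
    Function.HasFiniteMulSupport fun p => F.km p (co' p v) (F.f p (co' p v)) := by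
  classical
  obtain ⟨T', hT'⟩ := hX'.cofinite v
  refine (T' ∪ S).finite_toSet.subset fun r hr => ?_
  by_contra hr'
  simp only [Finset.coe_union, Set.mem_union, Finset.mem_coe, not_or] at hr'
  refine hr ?_
  show F.km r (co' r v) (F.f r (co' r v)) = 1
  rw [hT' r hr'.1, hQ.f_base r hr'.2]
  exact (hQ.km_diag r hr'.2 _ _).1 rfl

include hX hX' hqb in
theorem exists_prodQ (i : Fin 3) (v : X') : ∃ u, ∀ p, co p u = (W p).q i (co' p v) := by
  classical
  obtain ⟨T, hT⟩ := hX'.cofinite v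
  refine hX.exists_eq (fun p => (W p).q i (co' p v)) (T ∪ S) fun p hp => ?_
  simp only [Finset.mem_union, not_or] at hp
  rw [hT p hp.1, hqb p hp.2 i]

/-- The relabelling componentwise. -/
def prodQ (i : Fin 3) (v : X') : X := (exists_prodQ F hX hX' Q W hqb i v).choose

theorem co_prodQ (i : Fin 3) (v : X') (p : P) :
    co p (prodQ F hX hX' Q W hqb i v) = (W p).q i (co' p v) :=
  (exists_prodQ F hX hX' Q W hqb i v).choose_spec p

omit [DecidableEq P] in
include hf hkm in
theorem km_diag_eq (v : X') : km v (f v) = ∏ᶠ p, F.km p (co' p v) (F.f p (co' p v)) := by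
  rw [hkm, prodKer]
  simp only [hf]

include hX' hQ hf hkm in
theorem km_ne_zero {v : X'} (h : km v (f v) ≠ 0) (p : P) :
    F.km p (co' p v) (F.f p (co' p v)) ≠ 0 := fun h0 => h (by
  rw [km_diag_eq F hf hkm]
  exact finprod_eq_zero _ p h0 (km_finite F hX' Q hQ v))

omit [DecidableEq P] in
include hQ hqb in
/-- Outside `S` the fibre over the base point is the base point. -/
theorem local_fibre (i : Fin 3) {p : P} (hp : p ∉ S) :
    {v | (W p).q i v = base p} ∩ Function.support (fun v => F.km p v (F.f p v)) = {base' p} := by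
  have hb : F.km p (base' p) (F.f p (base' p)) = 1 := (hQ.km_diag p hp _ _).1 (hQ.f_base p hp).symm
  have hsum := (W p).sum_eq i (base p)
  have hproj : {x | (Q p).proj x = base p} = {base p} := by
    ext x; simp [hQ.proj_eq p hp]
  rw [show ((F.c p : ℝ) : ℂ) = 1 by rw [hQ.c_eq p hp, Complex.ofReal_one], one_mul, hproj,
    finsum_mem_singleton,
    (hQ.pe_diag p hp _ _).1 (hQ.g_base p hp).symm] at hsum
  set A := {v | (W p).q i v = base p ∧ F.km p v (F.f p v) ≠ 0} with hA
  have hfin : A.Finite := (W p).finite i _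
  rw [finsum_mem_eq_sum_of_subset (s := {v | (W p).q i v = base p}) _ (t := hfin.toFinset)
      (fun v hv => hfin.mem_toFinset.mpr hv)
    (fun v hv => (hfin.mem_toFinset.mp hv).1),
    Finset.sum_congr rfl fun v hv => (hQ.km_diag p hp v (F.f p v)).1 (by
      by_contra hne
      exact (hfin.mem_toFinset.mp hv).2 ((hQ.km_diag p hp _ _).2 hne)),
    Finset.sum_const, nsmul_eq_mul, mul_one, Nat.cast_eq_one, Finset.card_eq_one] at hsum
  obtain ⟨a, ha⟩ := hsum
  have hbA : base' p ∈ hfin.toFinset :=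
    hfin.mem_toFinset.mpr ⟨hqb p hp i, by rw [hb]; exact one_ne_zero⟩
  rw [ha, Finset.mem_singleton] at hbA
  ext v
  constructor
  · rintro ⟨h1, h2⟩
    have hv : v ∈ hfin.toFinset := hfin.mem_toFinset.mpr ⟨h1, h2⟩
    rw [ha, Finset.mem_singleton] at hv
    exact hv.trans hbA.symm
  · rintro rfl
    exact ⟨hqb p hp i, by rw [Function.mem_support, hb]; exact one_ne_zero⟩

include hX' hQ hqb in
theorem prodQ_fibre_finite (i : Fin 3) (z : X) (T : Finset P) (hST : S ⊆ T)
    (hT : ∀ p ∉ T, co p z = base p) :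
    {v | ∀ p, co' p v ∈ {y | (W p).q i y = co p z ∧ F.km p y (F.f p y) ≠ 0}}.Finite :=
  hX'.fibre_finite _ T (fun p _ => (W p).finite i _) fun p hp y hy => by
    rw [← local_fibre F Q hQ W hqb i fun h => hp (hST h)]
    exact ⟨hT p hp ▸ hy.1, hy.2⟩

theorem prodQ_fibre (i : Fin 3) (z : X) :
    {v | prodQ F hX hX' Q W hqb i v = z} =
      {v | ∀ p, co' p v ∈ {y | (W p).q i y = co p z}} := by
  ext v
  refine ⟨fun h p => ?_, fun h => hX.ext fun p => ?_⟩
  · show (W p).q i (co' p v) = co p z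
    rw [← co_prodQ F hX hX' Q W hqb,
      show prodQ F hX hX' Q W hqb i v = z from h]
  · rw [co_prodQ F hX hX' Q W hqb]; exact h p

include hQ hf hkm in
/-- The twisted fibre sum with one weighted component. -/
theorem sum_twisted (i : Fin 3) (z : X) (T : Finset P) (hST : S ⊆ T)
    (hT : ∀ p ∉ T, co p z = base p) (w : ∀ p, Y' p → ℂ) :
    ∑ᶠ v ∈ {v | prodQ F hX hX' Q W hqb i v = z},
      (∏ p ∈ S, w p (co' p v)) * km v (f v) =
      ∏ p ∈ T, ∑ᶠ y ∈ {y | (W p).q i y = co p z},
        (if p ∈ S then w p y else 1) * F.km p y (F.f p y) := by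
  classical
  let φ : ∀ p, Y' p → ℂ := fun p y => (if p ∈ S then w p y else 1) * F.km p y (F.f p y)
  have hval : ∀ v, (∏ p ∈ S, w p (co' p v)) * km v (f v) = ∏ᶠ p, φ p (co' p v) := fun v => by
    obtain ⟨T', hT'⟩ := hX'.cofinite v
    have hsub : ∀ r, r ∉ T' ∪ S → F.km r (co' r v) (F.f r (co' r v)) = 1 := fun r hr => by
      simp only [Finset.mem_union, not_or] at hr
      rw [hT' r hr.1, hQ.f_base r hr.2]
      exact (hQ.km_diag r hr.2 _ _).1 rfl
    rw [km_diag_eq F hf hkm,
      finprod_eq_prod_of_mulSupport_subset _ (s := T' ∪ S) fun r hr => by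
        by_contra h; exact hr (hsub r h),
      finprod_eq_prod_of_mulSupport_subset (fun p => φ p (co' p v)) (s := T' ∪ S) fun r hr => by
        by_contra h
        refine hr ?_
        show φ r (co' r v) = 1
        simp only [φ]
        rw [if_neg (fun hS : r ∈ S => h (Finset.mem_union_right _ hS)), one_mul, hsub r h]]
    simp only [φ]
    rw [Finset.prod_mul_distrib, ← Finset.prod_filter, Finset.filter_mem_eq_inter,
      Finset.inter_eq_right.mpr Finset.subset_union_right]
  rw [finsum_mem_congr rfl fun v _ => hval v, prodQ_fibre F hX hX' Q W hqb]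
  refine hX'.finsum_fibre _ φ T (fun p _ => ((W p).finite i (co p z)).subset fun y hy =>
    ⟨hy.1, right_ne_zero_of_mul hy.2⟩) fun p hp => ?_
  have hpS : p ∉ S := fun h => hp (hST h)
  have hb := local_fibre F Q hQ W hqb i hpS
  have hφ : φ p = fun y => F.km p y (F.f p y) := funext fun y => by simp [φ, hpS]
  rw [hφ, hT p hp]
  exact ⟨hb, (hQ.km_diag p hpS _ _).1 (hQ.f_base p hpS).symm⟩

include hQ hf hkm in
theorem sum_dM (i : Fin 3) (z : X) (T : Finset P) (hST : S ⊆ T)
    (hT : ∀ p ∉ T, co p z = base p) :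
    ∑ᶠ v ∈ {v | prodQ F hX hX' Q W hqb i v = z},
        ((∑ p ∈ S, (W p).dM (co' p v) : ℝ) : ℂ) * km v (f v) =
      ∑ q ∈ S, (∑ᶠ y ∈ {y | (W q).q i y = co q z}, ((W q).dM y : ℂ) * F.km q y (F.f q y)) *
        ∏ p ∈ T.erase q, (F.c p : ℂ) *
          ∑ᶠ x ∈ {x | (Q p).proj x = co p z}, F.pe p x (F.g p x) := by
  classical
  have hU := prodQ_fibre_finite F hX' Q hQ W hqb i z T hST hT
  have hsub : ↑hU.toFinset ⊆ {v | prodQ F hX hX' Q W hqb i v = z} := fun v hv =>
    (prodQ_fibre F hX hX' Q W hqb i z).ge fun p => (hU.mem_toFinset.mp hv p).1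
  have hconv : ∀ w : X' → ℂ,
      ∑ᶠ v ∈ {v | prodQ F hX hX' Q W hqb i v = z}, w v * km v (f v) =
        ∑ v ∈ hU.toFinset, w v * km v (f v) := fun w =>
    finsum_mem_eq_sum_of_subset _ (fun v hv => hU.mem_toFinset.mpr fun p =>
      ⟨((prodQ_fibre F hX hX' Q W hqb i z).le hv.1) p,
        km_ne_zero F hX' Q hQ hf hkm (right_ne_zero_of_mul hv.2) p⟩) hsub
  rw [hconv]
  simp only [Complex.ofReal_sum, Finset.sum_mul]
  rw [Finset.sum_comm]
  refine Finset.sum_congr rfl fun q hq => ?_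
  rw [← hconv fun v => ((W q).dM (co' q v) : ℂ)]
  have hone : ∀ v : X', ((W q).dM (co' q v) : ℂ) =
      ∏ p ∈ S, (if p = q then ((W p).dM (co' p v) : ℂ) else 1) := fun v => by
    rw [Finset.prod_ite_eq' S q, if_pos hq]
  rw [finsum_mem_congr rfl fun v _ => congrArg (· * km v (f v)) (hone v),
    sum_twisted F hX hX' Q hQ W hf hkm hqb i z T hST hT
      (fun p y => if p = q then ((W p).dM y : ℂ) else 1),
    ← Finset.mul_prod_erase T _ (hST hq)]
  congr 1
  · exact finsum_mem_congr rfl fun y _ => by simp [hq]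
  · refine Finset.prod_congr rfl fun p hp => ?_
    rw [← (W p).sum_eq i]
    exact finsum_mem_congr rfl fun y _ => by simp [Finset.ne_of_mem_erase hp]

/-- **The twisted side of a product.** -/
def prodTwist :
    TwistLocal (prodPlain F hX Q hQ hG isNorm hN) f km hM where
  q := prodQ F hX hX' Q W hqb
  q_comm i t ht v hv := hX.ext fun p => by
    obtain ⟨t', ht', h1, h2⟩ := hG.comm_eq t ht p
    rw [co_prodQ F hX hX' Q W hqb, h2,
      (W p).q_comm i t' ht' _ (km_ne_zero F hX' Q hQ hf hkm hv p), h1,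
      co_prodQ F hX hX' Q W hqb]
  finite i z := by
    classical
    obtain ⟨T, hT⟩ := hX.cofinite z
    refine (prodQ_fibre_finite F hX' Q hQ W hqb i z (S ∪ T) Finset.subset_union_left
      fun p hp => hT p fun h => hp (Finset.mem_union_right _ h)).subset fun v hv p => ?_
    exact ⟨((prodQ_fibre F hX hX' Q W hqb i z).le hv.1) p,
      km_ne_zero F hX' Q hQ hf hkm hv.2 p⟩
  sum_eq i z := by
    classical
    obtain ⟨T₀, hT₀⟩ := hX.cofinite z
    set T := S ∪ T₀
    have hT : ∀ p ∉ T, co p z = base p := fun p hp => hT₀ p fun h => hp (Finset.mem_union_right _ h)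
    have h := sum_twisted F hX hX' Q hQ W hf hkm hqb i z T Finset.subset_union_left hT
      (fun _ _ => 1)
    simp only [Finset.prod_const_one, one_mul, ite_self] at h
    show _ = _ * ∑ᶠ u ∈ {u | prodProj F hX Q hQ u = z}, _
    rw [h, sum_pe F hX Q hQ hG z T Finset.subset_union_left hT, Complex.ofReal_prod,
      Finset.prod_subset (Finset.subset_union_left : S ⊆ T)
        (fun p _ hp => by rw [hQ.c_eq p hp, Complex.ofReal_one]), ← Finset.prod_mul_distrib]
    exact Finset.prod_congr rfl fun p _ => (W p).sum_eq i _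
  dM v := ∑ p ∈ S, (W p).dM (co' p v)
  dM_nonneg v := Finset.sum_nonneg fun p _ => (W p).dM_nonneg _
  height hd v hv := by
    classical
    obtain ⟨T₀, hT₀⟩ := hX'.cofinite v
    set T := S ∪ T₀
    have hT : ∀ p ∉ T, co' p v = base' p := fun p hp => hT₀ p fun h =>
      hp (Finset.mem_union_right _ h)
    have hE' : ∀ i, hE (prodQ F hX hX' Q W hqb i v) =
        CE + ∑ p ∈ T, F.hE p ((W p).q i (co' p v)) := fun i => by
      rw [hG.hE_eq, finsum_eq_sum_of_support_subset _ (s := T) fun p hp => ?_]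
      · simp only [co_prodQ F hX hX' Q W hqb]
      · by_contra h
        refine hp ?_
        show F.hE p (co p _) = 0
        rw [co_prodQ F hX hX' Q W hqb, hT p h,
          hqb p (fun h' => h (Finset.mem_union_left _ h')) i, hQ.hE_base p]
    rw [hHM, finsum_eq_sum_of_support_subset _ (s := T) fun p hp => ?_]
    · rw [Finset.sum_congr rfl fun i (_ : i ∈ (Finset.univ : Finset (Fin 3))) => hE' i,
        Finset.sum_add_distrib, Finset.sum_const, Finset.card_univ, Fintype.card_fin, hC,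
        Finset.sum_comm, Finset.sum_subset (Finset.subset_union_left : S ⊆ T)
          (fun p _ hp => hdM p hp (co' p v)), add_assoc _ _ (∑ p ∈ T, (W p).dM (co' p v)),
        ← Finset.sum_add_distrib, nsmul_eq_mul, Nat.cast_ofNat]
      exact congrArg (3 * CE + ·) (Finset.sum_congr rfl fun p _ =>
        (W p).height hd _ (km_ne_zero F hX' Q hQ hf hkm hv p))
    · by_contra h
      exact hp (by show F.hM p (co' p v) = 0; rw [hT p h, hQ.hM_base p])
  identity hd z := by
    classical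
    obtain ⟨T₀, hT₀⟩ := hX.cofinite z
    set T := S ∪ T₀
    have hST : S ⊆ T := Finset.subset_union_left
    have hT : ∀ p ∉ T, co p z = base p := fun p hp => hT₀ p fun h => hp (Finset.mem_union_right _ h)
    show ∑ᶠ v ∈ {v | prodQ F hX hX' Q W hqb 0 v = z}, _ - _ *
      ∑ᶠ u ∈ {u | prodProj F hX Q hQ u = z}, (prodDE F Q co S u : ℂ) * pe u (g u) =
      ∑ᶠ u ∈ {u | prodProj F hX Q hQ u = z}, _
    rw [sum_dM F hX hX' Q hQ W hf hkm hqb 0 z T hST hT, sum_dE F hX Q hQ hG z T hST hT,
      sum_k2 F hX Q hQ hG z T hST hT, Finset.mul_sum, ← Finset.sum_sub_distrib]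
    refine Finset.sum_congr rfl fun q hq => ?_
    rw [← (W q).identity hd (co q z), Finset.prod_mul_distrib, Complex.ofReal_prod,
      ← Finset.mul_prod_erase S _ hq,
      ← Finset.prod_subset (Finset.erase_subset_erase q hST) fun p hp hp' => ?_]
    · ring
    · rw [hQ.c_eq p fun h => hp' (Finset.mem_erase.mpr ⟨Finset.ne_of_mem_erase hp, h⟩),
        Complex.ofReal_one]

end FLTAgent.LanglandsTunnell.Local
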