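import Fermat.Agent.LanglandsTunnell.Local.PrimeSpec
import Fermat.Agent.LanglandsTunnell.Local.Product
import Fermat.Agent.LanglandsTunnell.Words

/-!
# From the comparison at every prime to the finite part of the comparison

Word kernels, correction kernels and local data at a class are assembled over the primes;
`localTransfer_of_prime` deduces `LocalTransferSpec` from `PrimeTransferSpec`.
-/

set_option autoImplicit false

noncomputable section

namespace FLTAgent.LanglandsTunnell.Local

open scoped TensorProduct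
open FLTAgent.LanglandsTunnell NumberField Matrix

/-! ### Products of combinations -/

section Words

attribute [local instance 2000] MulAction.quotient MulAction.toSemigroupAction
    SemigroupAction.toSMul

variable {F : Type} [Field F] [NumberField F] {N : ℕ}

theorem prod_word (hN : N ≠ 0) {ws : List (Ideal (𝓞 F))} (hws : ∀ w ∈ ws, IsGoodPrime N w)
    (v v' : FinPt F (Ideal.span {(N : 𝓞 F)})) :
    combKer (Ideal.span {(N : 𝓞 F)}) [(1, ws)] v v' =
      prodKer (fun p : Nat.Primes => locWord N p ws) (fun p => compPt hN p) v v' := by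
  rw [combKer, List.map_singleton, List.sum_singleton, one_mul, wordKernel_eq_prod hN hws]

theorem prod_combMul (hN : N ≠ 0) {A B : List (ℂ × List (Ideal (𝓞 F)))}
    {f g : ∀ p : Nat.Primes, LocPt F N p → LocPt F N p → ℂ} {S : Finset Nat.Primes}
    (hA : ∀ a ∈ A, ∀ w ∈ a.2, w ≠ ⊥)
    (hf : ∀ v v', combKer (Ideal.span {(N : 𝓞 F)}) A v v' = prodKer f (fun p => compPt hN p) v v')
    (hg : ∀ v v', combKer (Ideal.span {(N : 𝓞 F)}) B v v' = prodKer g (fun p => compPt hN p) v v')
    (hfS : ∀ p ∉ S, f p = idKer) (hgS : ∀ p ∉ S, g p = idKer)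
    (hfin : ∀ p, SplitPlace.FinRows (f p)) (v v' : FinPt F (Ideal.span {(N : 𝓞 F)})) :
    combKer (Ideal.span {(N : 𝓞 F)}) (combMul A B) v v' =
      prodKer (fun p => SplitPlace.comp (f p) (g p)) (fun p => compPt hN p) v v' := by
  rw [combKer_combMul (by simpa using hN) B hA, finsum_congr fun u => by rw [hf v u, hg u v']]
  exact (isRestricted_compPt hN).prodKer_comp (S := S) (isDiagOutside_of_eq hfS)
    (isDiagOutside_of_eq hgS) (fun p _ => hfin p) v v'

omit [NumberField F] in
theorem combKer_append (n : Ideal (𝓞 F)) (L L' : List (ℂ × List (Ideal (𝓞 F))))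
    (u u' : FinPt F n) : combKer n (L ++ L') u u' = combKer n L u u' + combKer n L' u u' := by
  simp [combKer, List.map_append, List.sum_append]

omit [NumberField F] in
theorem combKer_flatMap (n : Ideal (𝓞 F)) {α : Type*}
    (f : α → List (ℂ × List (Ideal (𝓞 F)))) (u u' : FinPt F n) :
    ∀ l : List α, combKer n (l.flatMap f) u u' = (l.map fun x => combKer n (f x) u u').sum
  | [] => rfl
  | x :: l => by
    rw [List.flatMap_cons, combKer_append, combKer_flatMap n f u u' l, List.map_cons, List.sum_cons]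

omit [NumberField F] in
theorem combKer_const_mul (n : Ideal (𝓞 F)) {α : Type*} (K : ℂ) (l : List α) (c : α → ℂ)
    (e : α → List (Ideal (𝓞 F))) (u u' : FinPt F n) :
    combKer n (l.map fun b => (K * c b, e b)) u u' =
      K * combKer n (l.map fun b => (c b, e b)) u u' := by
  induction l with
  | nil => simp [combKer]
  | cons b l ih =>
    simp only [combKer, List.map_cons, List.sum_cons] at ih ⊢
    rw [ih]
    ring

omit [NumberField F] in
theorem padded_eq (v : Ideal (𝓞 F)) (A B : List (Ideal (𝓞 F)))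
    (L : List (ℂ × List (Ideal (𝓞 F)))) :
    combMul (combMul [(1, A)] (combMul [(1, [v])] L)) [(1, B)] =
      L.map fun b => (b.1, A ++ (v :: b.2) ++ B) := by
  induction L with
  | nil => rfl
  | cons b L ih =>
    simp only [combMul, List.flatMap_cons, List.flatMap_nil, List.append_nil, List.map_cons,
      List.map_map, List.map_nil, one_mul, mul_one, List.singleton_append] at ih ⊢
    simp only [List.cons.injEq, true_and]
    exact ih

theorem locWord_finite_fibre (hN : N ≠ 0) {ws : List (Ideal (𝓞 F))}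
    (hws : ∀ w ∈ ws, IsGoodPrime N w) {g : FinPt F (Ideal.span {(N : 𝓞 F)}) →
      FinPt F (Ideal.span {(N : 𝓞 F)})}
    {gl pr : ∀ p : Nat.Primes, LocPt F N p → LocPt F N p}
    {proj : FinPt F (Ideal.span {(N : 𝓞 F)}) → FinPt F (Ideal.span {(N : 𝓞 F)})}
    (hg : ∀ p u, compPt hN p (g u) = gl p (compPt hN p u))
    (hpr : ∀ u (p : Nat.Primes), compPt hN p (proj u) = pr p (compPt hN p u))
    (S : Finset Nat.Primes) (hid : ∀ p ∉ S, ∀ x, pr p x = x)
    (hfin : ∀ (p : Nat.Primes) z, {x | pr p x = z ∧ locWord N p ws x (gl p x) ≠ 0}.Finite)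
    (z : FinPt F (Ideal.span {(N : 𝓞 F)})) :
    {u | proj u = z ∧ wordKernel (Ideal.span {(N : 𝓞 F)}) ws u (g u) ≠ 0}.Finite := by
  classical
  obtain ⟨S₁, hS₁⟩ := exists_primes hws
  obtain ⟨T₀, hT₀⟩ := (isRestricted_compPt hN).cofinite z
  refine ((isRestricted_compPt hN).fibre_finite
    (fun p => {x | pr p x = compPt hN p z ∧ locWord N p ws x (gl p x) ≠ 0}) (S ∪ T₀)
    (fun p _ => hfin p _) fun p hp x hx => ?_).subset fun u hu p => ?_
  · simp only [Finset.mem_union, not_or] at hp
    rw [Set.mem_singleton_iff, ← hT₀ p hp.2, ← hx.1, hid p hp.1]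
  obtain ⟨hu1, hu2⟩ := hu
  refine ⟨by rw [← hpr, hu1], fun h0 => hu2 ?_⟩
  rw [wordKernel_eq_prod hN hws]
  have hd : IsDiagOutside (fun p : Nat.Primes => locWord (F := F) N p ws) S₁ :=
    isDiagOutside_of_eq fun q hq => locWord_eq_idKer fun w hw => hS₁ w hw q hq
  by_cases hall : ∀ q ∉ S₁, compPt hN q u = compPt hN q (g u)
  · rw [prodKer_eq_prod hd hall]
    rw [← hg] at h0
    by_cases hpS : p ∈ S₁
    · exact Finset.prod_eq_zero hpS h0
    · exact absurd (((hd p hpS _ _).1 (hall p hpS)).symm.trans h0) one_ne_zero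
  · push Not at hall
    obtain ⟨q, hq, hne⟩ := hall
    exact (isRestricted_compPt hN).prodKer_eq_zero hd hq hne

end Words

variable {D : Datum}

/-! ### Images of words -/

theorem locDesc_append {N : ℕ} (hN : N ≠ 0) {p : Nat.Primes} :
    ∀ {l l' : List (Ideal (𝓞 D.M))}, (∀ w ∈ l, IsGoodPrime N (D.under w)) →
      locDesc N p (l ++ l') = SplitPlace.comp (locDesc N p l) (locDesc N p l')
  | [], _, _ => (comp_idKer_left _).symm
  | w :: l, l', h => by
    rw [List.cons_append, locDesc, locDesc,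
      locDesc_append hN fun x hx => h x (List.mem_cons_of_mem _ hx),
      SplitPlace.comp_assoc (finRows_descStep hN (h w List.mem_cons_self))
        (finRows_locDesc hN fun x hx => h x (List.mem_cons_of_mem _ hx))]

theorem locDesc_map_under {N : ℕ} {p : Nat.Primes} :
    ∀ {l : List (Ideal (𝓞 D.M))}, (∀ w ∈ l, D.DegreeOne w) →
      locDesc N p l = locWord N p (l.map D.under)
  | [], _ => rfl
  | w :: l, h => by
    rw [locDesc, List.map_cons, locWord, locDesc_map_under fun x hx =>
      h x (List.mem_cons_of_mem _ hx)]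
    congr 1
    unfold descStepKer
    by_cases hp : ((p : ℕ) : 𝓞 D.M) ∈ w
    · rw [if_pos hp, Datum.descPrime, if_pos (h w List.mem_cons_self)]
      funext x y
      simp only [locComb, List.map_cons, List.map_nil, List.sum_cons, List.sum_nil, add_zero,
        one_mul, locWord, comp_idKer_right]
    · rw [if_neg hp, stepKer, if_neg fun h' => hp ((natCast_mem_under D).mp h')]

open scoped Classical in
theorem locDesc_erase {N : ℕ} {p : Nat.Primes} {w : Ideal (𝓞 D.M)}
    (hw : ((p : ℕ) : 𝓞 D.M) ∉ w) :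
    ∀ W : List (Ideal (𝓞 D.M)), locDesc (D := D) N p (W.erase w) = locDesc N p W
  | [] => rfl
  | x :: W => by
    by_cases hx : x = w
    · subst hx
      rw [List.erase_cons_head, locDesc, descStepKer, if_neg hw, comp_idKer_left]
    · rw [List.erase_cons_tail (by simpa using hx), locDesc, locDesc, locDesc_erase hw W]

variable (D)

open scoped Classical in
/-- The correction list of a word. -/
def corrList (K : Ideal (𝓞 D.M) → ℂ) (W : List (Ideal (𝓞 D.M))) :
    List (ℂ × List (Ideal (𝓞 D.E))) :=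
  (W.toFinset.filter fun w => D.DegreeThree w).toList.flatMap fun w =>
    (D.descWord (W.erase w)).map fun b => (K w * b.1, D.under w :: b.2)

variable {D}

theorem corrList_mem {K : Ideal (𝓞 D.M) → ℂ} {W : List (Ideal (𝓞 D.M))}
    {a : ℂ × List (Ideal (𝓞 D.E))} (ha : a ∈ corrList D K W) {v : Ideal (𝓞 D.E)} (hv : v ∈ a.2) :
    ∃ w ∈ W, v = D.under w := by
  classical
  obtain ⟨w, hw, ha⟩ := List.mem_flatMap.mp ha
  obtain ⟨b, hb, rfl⟩ := List.mem_map.mp ha
  rw [Finset.mem_toList, Finset.mem_filter, List.mem_toFinset] at hw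
  rcases List.mem_cons.mp hv with rfl | hv
  · exact ⟨w, hw.1, rfl⟩
  · obtain ⟨x, hx, e⟩ := mem_descWord D hb v hv
    exact ⟨x, List.mem_of_mem_erase hx, e⟩

/-- A sum in one factor of a product. -/
theorem sum_prodKer_ite {P V : Type*} [DecidableEq P] {X : P → Type*} {base : ∀ p, X p}
    {c : ∀ p, V → X p} (h : IsRestricted base c) {f : ∀ p, X p → X p → ℂ} {T : Finset P} {q : P}
    (hd : IsDiagOutside f T) (hq : q ∈ T) {κ : Type*} (s : Finset κ) (k : κ → ℂ)
    (G : κ → ∀ p, X p → X p → ℂ) (G' : ∀ p, X p → X p → ℂ)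
    (hG : ∀ x y, G' q x y = ∑ j ∈ s, k j * G j q x y) (v v' : V) :
    prodKer (fun p => if p = q then G' p else f p) c v v' =
      ∑ j ∈ s, k j * prodKer (fun p => if p = q then G j p else f p) c v v' := by
  classical
  have hd' : ∀ H : ∀ p, X p → X p → ℂ, IsDiagOutside (fun p => if p = q then H p else f p) T :=
    fun H p hp x y => by
      show (_ → (if p = q then H p else f p) x y = 1) ∧ (_ → (if p = q then H p else f p) x y = 0)
      rw [if_neg fun e : p = q => hp (e ▸ hq)]
      exact hd p hp x y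
  by_cases hall : ∀ p ∉ T, c p v = c p v'
  · simp only [prodKer_eq_prod (hd' _) hall, ← Finset.mul_prod_erase T _ hq, if_true]
    rw [hG, Finset.sum_mul]
    refine Finset.sum_congr rfl fun j _ => ?_
    rw [mul_assoc]
    congr 2
    exact Finset.prod_congr rfl fun p hp => by
      rw [if_neg (Finset.ne_of_mem_erase hp), if_neg (Finset.ne_of_mem_erase hp)]
  · push Not at hall
    obtain ⟨p, hp, hne⟩ := hall
    simp only [h.prodKer_eq_zero (hd' _) hp hne, mul_zero, Finset.sum_const_zero]

open scoped Classical in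
/-- The correction kernel at one letter. -/
def letterKer (N : ℕ) (A W B : List (Ideal (𝓞 D.M))) (w : Ideal (𝓞 D.M)) (p : Nat.Primes) :
    LocPt D.E N p → LocPt D.E N p → ℂ :=
  SplitPlace.comp
    (SplitPlace.comp (locWord N p (A.map D.under))
      (SplitPlace.comp (stepKer N p (D.under w)) (locDesc N p (W.erase w))))
    (locWord N p (B.map D.under))

/-! ### The correction combination -/

theorem combKer_padded {N : ℕ} (hN : N ≠ 0) {A W B : List (Ideal (𝓞 D.M))}
    (hgood : ∀ w ∈ A ++ W ++ B, IsGoodPrime N (D.under w))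
    (hdeg : ∀ w ∈ A ++ B, D.DegreeOne w) {w : Ideal (𝓞 D.M)} (hw : w ∈ W) {q : Nat.Primes}
    (hq : ((q : ℕ) : 𝓞 D.M) ∈ w) (u u' : FinPt D.E (lvE D N)) :
    combKer (lvE D N) ((D.descWord (W.erase w)).map fun b =>
        (b.1, A.map D.under ++ (D.under w :: b.2) ++ B.map D.under)) u u' =
      prodKer (fun p : Nat.Primes =>
        if p = q then letterKer N A W B w p else locDesc (D := D) N p (A ++ W ++ B))
        (fun p => compPt hN p) u u' := by
  classical
  have hA : ∀ x ∈ A, IsGoodPrime N (D.under x) := fun x hx =>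
    hgood x (List.mem_append_left _ (List.mem_append_left _ hx))
  have hW : ∀ x ∈ W, IsGoodPrime N (D.under x) := fun x hx =>
    hgood x (List.mem_append_left _ (List.mem_append_right _ hx))
  have hB : ∀ x ∈ B, IsGoodPrime N (D.under x) := fun x hx => hgood x (List.mem_append_right _ hx)
  have hgm : ∀ {l : List (Ideal (𝓞 D.M))}, (∀ x ∈ l, IsGoodPrime N (D.under x)) →
      ∀ v ∈ l.map D.under, IsGoodPrime N v := fun {l} hl v hv => by
    obtain ⟨x, hx, rfl⟩ := List.mem_map.mp hv; exact hl x hx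
  obtain ⟨S, hS⟩ := exists_primes (ws := (A ++ W ++ B).map D.under) (hgm hgood)
  have hSd : ∀ x ∈ A ++ W ++ B, ∀ p : Nat.Primes, p ∉ S → ((p : ℕ) : 𝓞 D.M) ∉ x :=
    fun x hx p hp h => hS _ (List.mem_map_of_mem hx) p hp ((natCast_mem_under D).mpr h)
  have hSw : ∀ {l : List (Ideal (𝓞 D.M))}, (∀ x ∈ l, x ∈ A ++ W ++ B) → ∀ p ∉ S,
      locWord N p (l.map D.under) = idKer := fun {l} hl p hp => locWord_eq_idKer fun v hv => by
    obtain ⟨x, hx, rfl⟩ := List.mem_map.mp hv
    exact hS _ (List.mem_map_of_mem (hl x hx)) p hp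
  have hwm : ∀ x ∈ [w], x ∈ A ++ W ++ B := fun x hx => by
    rw [List.mem_singleton] at hx; subst hx
    exact List.mem_append_left _ (List.mem_append_right _ hw)
  have hWe : ∀ x ∈ W.erase w, IsGoodPrime N (D.under x) := fun x hx =>
    hW x (List.mem_of_mem_erase hx)
  have hne : ∀ {l : List (Ideal (𝓞 D.M))}, (∀ x ∈ l, IsGoodPrime N (D.under x)) →
      ∀ a ∈ [((1 : ℂ), l.map D.under)], ∀ v ∈ a.2, v ≠ ⊥ := fun {l} hl a ha v hv => by
    rw [List.mem_singleton] at ha; subst ha
    exact (hgm hl v hv).2.1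
  have hE : ∀ p ∉ S, locDesc (D := D) N p (W.erase w) = idKer := fun p hp =>
    locDesc_eq_idKer fun x hx =>
      hSd x (List.mem_append_left _ (List.mem_append_right _ (List.mem_of_mem_erase hx))) p hp
  have hstep : ∀ p : Nat.Primes, stepKer N p (D.under w) = locWord N p ([w].map D.under) :=
    fun p => (comp_idKer_right _).symm
  have h1 : ∀ v v', combKer (lvE D N) (combMul [(1, [w].map D.under)] (D.descWord (W.erase w))) v v'
      = prodKer (fun p : Nat.Primes =>
          SplitPlace.comp (stepKer N p (D.under w)) (locDesc (D := D) N p (W.erase w)))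
        (fun p => compPt hN p) v v' := fun v v' => by
    simp only [hstep]
    exact prod_combMul hN (S := S) (hne fun x hx => by
        rw [List.mem_singleton] at hx; subst hx; exact hW _ hw)
      (prod_word hN (hgm fun x hx => by rw [List.mem_singleton] at hx; subst hx; exact hW _ hw))
      (combKer_descWord hN hWe) (hSw hwm) hE
      (fun p => finRows_locWord hN (hgm fun x hx => by
        rw [List.mem_singleton] at hx; subst hx; exact hW _ hw)) v v'
  have hE1 : ∀ p ∉ S, SplitPlace.comp (stepKer N p (D.under w))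
      (locDesc (D := D) N p (W.erase w)) = idKer := fun p hp => by
    rw [hstep, hSw hwm p hp, hE p hp, comp_idKer_left]
  have hne1 : ∀ a ∈ combMul [((1 : ℂ), [w].map D.under)] (D.descWord (W.erase w)),
      ∀ v ∈ a.2, v ≠ ⊥ := fun a ha v hv => by
    simp only [combMul, List.flatMap_cons, List.flatMap_nil, List.append_nil, List.mem_map] at ha
    obtain ⟨b, hb, rfl⟩ := ha
    rcases List.mem_append.mp hv with h | h
    · rw [List.map_singleton, List.mem_singleton] at h; subst h; exact (hW w hw).2.1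
    · obtain ⟨x, hx, rfl⟩ := mem_descWord D hb v h; exact (hWe x hx).2.1
  have hfin1 : ∀ p, SplitPlace.FinRows (SplitPlace.comp (stepKer N p (D.under w))
      (locDesc (D := D) N p (W.erase w))) := fun p =>
    (finRows_stepKer hN (hW w hw)).comp (finRows_locDesc hN hWe)
  have hAm : ∀ x ∈ A, x ∈ A ++ W ++ B := fun x hx =>
    List.mem_append_left _ (List.mem_append_left _ hx)
  have hBm : ∀ x ∈ B, x ∈ A ++ W ++ B := fun x hx => List.mem_append_right _ hx
  have h2 := prod_combMul hN (S := S) (hne hA) (prod_word hN (hgm hA)) h1 (hSw hAm) hE1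
    fun p => finRows_locWord hN (hgm hA)
  have hne2 : ∀ a ∈ combMul [((1 : ℂ), A.map D.under)]
      (combMul [((1 : ℂ), [w].map D.under)] (D.descWord (W.erase w))), ∀ v ∈ a.2, v ≠ ⊥ :=
    fun a ha v hv => by
    obtain ⟨c, hc, ha⟩ := List.mem_flatMap.mp ha
    obtain ⟨b, hb, rfl⟩ := List.mem_map.mp ha
    rcases List.mem_append.mp hv with h | h
    · exact hne hA c hc v h
    · exact hne1 b hb v h
  have h3 := prod_combMul hN (S := S) hne2 h2 (prod_word hN (hgm hB))
    (fun p hp => by rw [hSw hAm p hp, hE1 p hp, comp_idKer_left]) (hSw hBm)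
    (fun p => (finRows_locWord hN (hgm hA)).comp (hfin1 p)) u u'
  rw [List.map_singleton, padded_eq] at h3
  rw [h3]
  refine congrArg (fun f => prodKer f (fun p : Nat.Primes => compPt hN p) u u') (funext fun p => ?_)
  by_cases hp : p = q
  · subst hp
    rw [if_pos rfl, letterKer]
  · rw [if_neg hp]
    have hpw : ((p : ℕ) : 𝓞 D.M) ∉ w := fun h =>
      hp (natCast_mem_unique (hW w hw).1 ((natCast_mem_under D).mpr hq)
        ((natCast_mem_under D).mpr h))
    rw [stepKer, if_neg fun h => hpw ((natCast_mem_under D).mp h), comp_idKer_left,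
      locDesc_erase hpw, ← locDesc_map_under fun x hx => hdeg x (List.mem_append_left _ hx),
      ← locDesc_map_under fun x hx => hdeg x (List.mem_append_right _ hx), ← locDesc_append hN hA,
      ← locDesc_append hN fun x hx => (List.mem_append.mp hx).elim (hA x) (hW x)]

/-! ### The comparison -/

theorem compPt_smul {F : Type} [Field F] [NumberField F] {N : ℕ} (hN : N ≠ 0) (p : Nat.Primes)
    (g : GL (Fin 2) (AF F)) (v : FinPt F (Ideal.span {(N : 𝓞 F)})) :
    compPt hN p (g • v) = compGL p g • compPt hN p v := by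
  obtain ⟨x, rfl⟩ := QuotientGroup.mk_surjective v
  show compPt hN p ((g * x : GL (Fin 2) (AF F)) : FinPt F _) = _
  rw [compPt_mk, compPt_mk, map_mul]
  rfl

variable {σ : D.M ≃ₐ[ℚ] D.M} (h : CubicData D.incl σ.toRingEquiv)

theorem compGL_glEM (p : Nat.Primes) (t : GL (Fin 2) D.E) :
    compGL p (glEM D t) = (h.localCubic (p : ℕ)).ι (gammaAt D p t) := by
  refine Units.ext (Matrix.ext fun i j => ?_)
  exact (compAF_map_eq D.incl p (toAF D.E (t.1 i j)))

theorem compPt_twAct {N' : ℕ} (hN' : N' ≠ 0) (p : Nat.Primes) (δ : GL (Fin 2) D.M)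
    (v : FinPt D.M (lvM D N')) :
    compPt hN' p (twAct D σ δ v) =
      (h.localCubic (p : ℕ)).twMap (N' : Op D.M p) (deltaAt D p δ) (compPt hN' p v) := by
  conv_rhs => rw [← QuotientGroup.out_eq' v, compPt_mk]
  refine Eq.trans ?_ ((h.localCubic (p : ℕ)).twMap_mk (n' := (N' : Op D.M p)) (map_natCast _ _)
    (deltaAt D p δ) (compGL p v.out)).symm
  rw [twAct, compPt_smul, compPt_mk]
  show ((_ * _ : GL (Fin 2) (Lp D.M p)) : LocPt D.M N' p) = _
  refine congrArg (fun x : GL (Fin 2) (Lp D.M p) => ((deltaAt D p δ * x : GL (Fin 2) (Lp D.M p)) :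
    LocPt D.M N' p)) ?_
  refine Units.ext (Matrix.ext fun i j => ?_)
  exact compAF_map_eq σ.toAlgHom.toRingHom p _

theorem isLocalNorm_iff (γ : GL (Fin 2) D.E) :
    (∀ p : Nat.Primes, (h.localCubic (p : ℕ)).IsNormAt (gammaAt D p γ)) ↔ IsLocalNorm D σ γ := by
  have e : ∀ (p : Nat.Primes) (X : GL (Fin 2) (Lp D.M p)), (h.localCubic (p : ℕ)).θ X =
      Matrix.GeneralLinearGroup.map (mapLp (p := (p : ℕ)) σ.toAlgHom.toRingHom) X := fun p X =>
    Units.ext (Matrix.ext fun i j => rfl)
  refine forall_congr' fun p => exists_congr fun z => exists_congr fun X => and_congr Iff.rfl ?_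
  rw [tnorm, e, e]
  rfl

variable (D) in
/-- The local data at a class. -/
def locFam (R : Finset Nat.Primes) (N₀ N₁ N N' : ℕ) (c : Nat.Primes → ℝ)
    (A W B : List (Ideal (𝓞 D.M))) (γ : GL (Fin 2) D.E)
    (f : ∀ p : Nat.Primes, LocPt D.M N' p → LocPt D.M N' p) :
    LocalFamily Nat.Primes (fun p => LocPt D.E N p) (fun p => LocPt D.M N' p) where
  c := primeC R c
  g p x := gammaAt D p γ • x
  f := f
  pe p := locDesc N p (A ++ W ++ B)
  k2 p := corrKer N p A W B
  km p := twistedLocKer h R N₀ N₁ N' (A ++ W ++ B) p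
  comm p := (h.localCubic (p : ℕ)).commPairs (N : Op D.E p) (N' : Op D.M p) (gammaAt D p γ)
  isNorm p := (h.localCubic (p : ℕ)).IsNormAt (gammaAt D p γ)
  hE p x := locHeight p x.out
  hM p v := locHeight p v.out

theorem exists_finset_good (γ : GL (Fin 2) D.E) (hγ : IsRegularMat D γ) (δ : GL (Fin 2) D.M)
    (N' : ℕ) (hN' : N' ≠ 0) : ∃ S : Finset Nat.Primes, ∀ p ∉ S, IsGoodAt D p γ δ ∧
      deltaAt D p δ ∈ congrGroup (φp D.M p) (N' : Op D.M p) := by
  classical
  set d := γ.1.trace ^ 2 - 4 * γ.1.det with hd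
  have hd0 : d ≠ 0 := sub_ne_zero.mpr hγ
  obtain ⟨S₁, h1⟩ := exists_finset_congr 1 one_ne_zero (glE D γ)
  obtain ⟨S₂, h2⟩ := exists_finset_congr N' hN' (Matrix.GeneralLinearGroup.map (toAF D.M) δ)
  obtain ⟨S₃, h3⟩ := exists_finset_integral (toAF D.E d)
  obtain ⟨S₄, h4⟩ := exists_finset_integral (toAF D.E d⁻¹)
  refine ⟨S₁ ∪ S₂ ∪ S₃ ∪ S₄, fun p hp => ?_⟩
  simp only [Finset.mem_union, not_or] at hp
  obtain ⟨o, ho⟩ := h3 p hp.1.2
  obtain ⟨o', ho'⟩ := h4 p hp.2
  have hoo : o * o' = 1 := φp_injective (by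
    rw [map_mul, ho, ho', ← map_mul, ← map_mul, mul_inv_cancel₀ hd0, map_one, map_one, map_one])
  have h1' := h1 p hp.1.1.1
  rw [Nat.cast_one] at h1'
  refine ⟨⟨h1', congrGroup_le_one _ (h2 p hp.1.1.2), Units.mkOfMulEqOne o o' hoo, ?_⟩,
    h2 p hp.1.1.2⟩
  rw [Units.val_mkOfMulEqOne, ho, hd, Matrix.trace_fin_two, Matrix.trace_fin_two,
    Matrix.det_fin_two, Matrix.det_fin_two, map_sub, map_sub, map_pow, map_pow, map_add, map_add,
    map_mul, map_mul, map_ofNat, map_ofNat, map_sub, map_sub, map_mul, map_mul, map_mul, map_mul]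
  rfl

open scoped Classical in
theorem finRows_ramLocKer {N₀ N₁ N' : ℕ} (hN' : N' ≠ 0) (p : Nat.Primes) :
    SplitPlace.FinRows (ramLocKer h p N₀ N₁ N') := by
  intro v
  obtain ⟨g₀, rfl⟩ := QuotientGroup.mk_surjective v
  have : Finite (Op D.M p ⧸ Ideal.span {(N' : Op D.M p)}) := by
    have h0 : (N' : ℤ_[(p : ℕ)]) ≠ 0 := Nat.cast_ne_zero.mpr hN'
    obtain ⟨u, hu⟩ := (associated_op (F := D.M) (q := (p : ℕ)) (a := N')
      (e := (N' : ℤ_[(p : ℕ)]).valuation) (Associated.symm ⟨PadicInt.unitCoeff h0, by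
        rw [mul_comm]; exact (PadicInt.unitCoeff_spec h0).symm⟩)).symm
    rw [← hu, Ideal.span_singleton_mul_right_unit u.isUnit]
    exact finite_quotient_padic_pow _
  have := finite_levelK_quotient (φ := φp D.M p) φp_injective (N₀ := (1 : Op D.M p))
    (N' := (N' : Op D.M p))
  set K := levelK (φp D.M p) (1 : Op D.M p) with hK
  refine (Set.finite_range fun x : K ⧸ (levelK (φp D.M p) (N' : Op D.M p)).subgroupOf K =>
    ((g₀ * x.out.1 : GL (Fin 2) (Lp D.M p)) : LocPt D.M N' p)).subset fun v' hv' => ?_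
  rw [Function.mem_support, ramLocKer] at hv'
  split_ifs at hv' with hex
  swap
  · exact absurd rfl hv'
  obtain ⟨g, k, y, hk, hy, hg, rfl⟩ := hex
  have hgK : g₀⁻¹ * g ∈ K := levelK_le_one _ (QuotientGroup.eq.mp hg.symm)
  have hω : k * (h.localCubic (p : ℕ)).ι y * ((h.localCubic (p : ℕ)).θ k)⁻¹ ∈ K := by
    refine mul_mem (mul_mem ?_ ?_) (inv_mem ?_)
    · exact le_sup_left (a := congrGroup (φp D.M p) 1) (congrGroup_le_one _ hk)
    · have := (h.localCubic (p : ℕ)).ι_mem_congrGroup (n := (1 : Op D.E p))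
        (congrGroup_le_one _ hy)
      rw [map_one] at this
      exact le_sup_left (a := congrGroup (φp D.M p) 1) this
    · exact le_sup_left (a := congrGroup (φp D.M p) 1)
        ((h.localCubic (p : ℕ)).θ_mem_congrGroup (map_one _) (congrGroup_le_one _ hk))
  set x : K := ⟨g₀⁻¹ * (g * (k * (h.localCubic (p : ℕ)).ι y * ((h.localCubic (p : ℕ)).θ k)⁻¹)), by
    rw [← mul_assoc]; exact mul_mem hgK hω⟩ with hx
  refine ⟨(x : K ⧸ (levelK (φp D.M p) (N' : Op D.M p)).subgroupOf K), QuotientGroup.eq.mpr ?_⟩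
  obtain ⟨m, hm⟩ := QuotientGroup.mk_out_eq_mul ((levelK (φp D.M p) (N' : Op D.M p)).subgroupOf K) x
  rw [hm]
  have : ((m : K) : GL (Fin 2) (Lp D.M p)) ∈ levelK (φp D.M p) (N' : Op D.M p) :=
    Subgroup.mem_subgroupOf.mp m.2
  simp only [Subgroup.coe_mul, hx, ← mul_assoc, mul_inv_cancel, one_mul, _root_.mul_inv_rev]
  simpa only [mul_assoc, inv_mul_cancel_left, mul_inv_cancel_left, inv_inv, inv_mul_cancel,
    mul_inv_cancel, mul_one, one_mul] using inv_mem this

/-! ### One class -/

variable (D) in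
/-- The coefficient of a letter in the correction list. -/
private abbrev corrCoeff (R : Finset Nat.Primes) (c : Nat.Primes → ℝ) (w : Ideal (𝓞 D.M)) : ℂ :=
  (kappa w : ℂ) * ∏ p ∈ R, (c p : ℂ)

variable (D) in
/-- The correction list of `W`, padded by the words `A` and `B`. -/
private abbrev paddedCorrList (R : Finset Nat.Primes) (c : Nat.Primes → ℝ)
    (A W B : List (Ideal (𝓞 D.M))) : List (ℂ × List (Ideal (𝓞 D.E))) :=
  (corrList D (corrCoeff D R c) W).map fun b => (b.1, A.map D.under ++ b.2 ++ B.map D.under)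

variable (D) in
/-- The pairs of permutations given by the centraliser of `γ`. -/
private abbrev classComm (N N' : ℕ) (γ : GL (Fin 2) D.E) :
    Set (Equiv.Perm (FinPt D.E (lvE D N)) × Equiv.Perm (FinPt D.M (lvM D N'))) :=
  {t | ∃ s : GL (Fin 2) D.E, Commute s γ ∧
    t = (MulAction.toPerm (glE D s), MulAction.toPerm (glEM D s))}

/-- A letter of the correction list is a good prime below a letter of `W`. -/
private theorem corrList_letter {K : Ideal (𝓞 D.M) → ℂ} {N N' : ℕ} (hdvd : N ∣ N')
    {W : List (Ideal (𝓞 D.M))} (hW : ∀ w ∈ W, D.TestOK N' w)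
    {a : ℂ × List (Ideal (𝓞 D.E))} (ha : a ∈ corrList D K W) {v : Ideal (𝓞 D.E)} (hv : v ∈ a.2) :
    v.IsPrime ∧ v ≠ ⊥ ∧ ¬ v ∣ lvE D N ∧ ∃ w ∈ W, v = D.under w := by
  obtain ⟨w, hw, rfl⟩ := corrList_mem ha hv
  obtain ⟨hp, h0, -⟩ := (isGoodPrime_of_testOK hdvd (hW w hw)).2
  refine ⟨hp, h0, fun hd => (hW w hw).2.2 (hd.trans (Ideal.dvd_iff_le.mpr ?_)), w, hw, rfl⟩
  rw [lvE, Ideal.span_singleton_le_span_singleton]
  exact Nat.cast_dvd_cast hdvd

/-- The data at all primes of one class, with a finite set outside which nothing happens. -/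
private structure ClassSetup (R : Finset Nat.Primes) (N₀ N₁ N N' : ℕ) (c : Nat.Primes → ℝ)
    (A W B : List (Ideal (𝓞 D.M))) (γ : GL (Fin 2) D.E) : Type where
  dvd : N ∣ N'
  ne_zero : N' ≠ 0
  mem : ∀ p ∈ R, (p : ℕ) ∣ N'
  test : ∀ w ∈ A ++ W ++ B, D.TestOK N' w
  deg : ∀ w ∈ A ++ B, D.DegreeOne w
  data : ∀ p : Nat.Primes, PrimeData D h R N₀ N₁ N N' c A W B γ p
  S : Finset Nat.Primes
  subset : R ⊆ S
  idle : ∀ p ∉ S, IsIdle D R N' (A ++ W ++ B) p
  base : ∀ p ∉ S, ((gammaAt D p γ * 1 : GL (Fin 2) (Lp D.E p)) : LocPt D.E N p) =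
    ((1 : GL (Fin 2) (Lp D.E p)) : LocPt D.E N p)

/-- The comparisons at the primes give the data of one class. -/
private theorem nonempty_classSetup (hprime : PrimeTransferSpec) (P : ExtPlaces D)
    (hne : σ ≠ AlgEquiv.refl) (hfix : ∀ x, σ (D.incl x) = D.incl x) {R : Finset Nat.Primes}
    {N₀ N₁ N N' : ℕ} {c : Nat.Primes → ℝ} (hFacts : LevelFacts D h R N₀ N₁ N N' c)
    {A W B : List (Ideal (𝓞 D.M))} (hW : ∀ w ∈ W, D.TestOK N' w)
    (hcount : ∀ w ∈ W, D.DegreeThree w → W.count w ≤ 1)
    (hAB : ∀ w ∈ A ++ B, D.TestOK N' w ∧ D.DegreeOne w) {γ : GL (Fin 2) D.E}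
    (hγ : IsRegularMat D γ) : Nonempty (ClassSetup h R N₀ N₁ N N' c A W B γ) := by
  classical
  have hN : N ≠ 0 := fun h0 => hFacts.ne_zero (Nat.eq_zero_of_zero_dvd (h0 ▸ hFacts.dvd))
  have htest : ∀ w ∈ A ++ W ++ B, D.TestOK N' w := fun w hw => by
    rcases List.mem_append.mp hw with h' | h'
    · exact (List.mem_append.mp h').elim (fun h'' => (hAB w (List.mem_append_left _ h'')).1) (hW w)
    · exact (hAB w (List.mem_append_right _ h')).1
  obtain ⟨SV, hSV⟩ := exists_primes fun w hw => (isGoodPrime_of_testOK hFacts.dvd (htest w hw)).1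
  obtain ⟨Sγ, hSγ⟩ := exists_finset_congr N hN (glE D γ)
  refine ⟨{
    dvd := hFacts.dvd, ne_zero := hFacts.ne_zero, mem := hFacts.mem, test := htest
    deg := fun w hw => (hAB w hw).2
    data := fun p => (hprime D P σ h R N₀ N₁ N N' c hne hfix hFacts A W B htest
      (fun w hw => (hAB w hw).2) hcount γ hγ p).some
    S := R ∪ N'.primeFactors.subtype _ ∪ SV ∪ Sγ
    subset := fun p hp =>
      Finset.mem_union_left _ (Finset.mem_union_left _ (Finset.mem_union_left _ hp))
    idle := fun p hp => ?_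
    base := fun p hp => ?_ }⟩
  · exact ⟨fun h' => hp (Finset.mem_union_left _ (Finset.mem_union_left _
      (Finset.mem_union_left _ h'))), fun hd => hp (Finset.mem_union_left _ (Finset.mem_union_left _
      (Finset.mem_union_right _ (Finset.mem_subtype.mpr
        (Nat.mem_primeFactors.mpr ⟨p.2, hd, hFacts.ne_zero⟩))))),
      fun w hw => hSV w hw p fun h' => hp (Finset.mem_union_left _ (Finset.mem_union_right _ h'))⟩
  · refine QuotientGroup.eq.mpr ?_
    rw [mul_one, mul_one, inv_mem_iff]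
    exact le_sup_left (a := congrGroup (φp D.E p) (N : Op D.E p))
      (hSγ p fun h' => hp (Finset.mem_union_right _ h'))

namespace ClassSetup

variable {h} {R : Finset Nat.Primes} {N₀ N₁ N N' : ℕ} {c : Nat.Primes → ℝ}
  {A W B : List (Ideal (𝓞 D.M))} {γ : GL (Fin 2) D.E}
  (C : ClassSetup h R N₀ N₁ N N' c A W B γ)
include C

/-- The lower level is nonzero. -/
private theorem ne_zero' : N ≠ 0 := fun h0 => C.ne_zero (Nat.eq_zero_of_zero_dvd (h0 ▸ C.dvd))

/-- The letters are good primes upstairs and downstairs. -/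
private theorem good {w : Ideal (𝓞 D.M)} (hw : w ∈ A ++ W ++ B) :
    IsGoodPrime N' w ∧ IsGoodPrime N (D.under w) :=
  isGoodPrime_of_testOK C.dvd (C.test w hw)

/-- No letter lies above a prime of `R`. -/
private theorem notMem {p : Nat.Primes} (hp : p ∈ R) {w : Ideal (𝓞 D.M)}
    (hw : w ∈ A ++ W ++ B) : ((p : ℕ) : 𝓞 D.M) ∉ w :=
  fun hm => (C.good hw).1.2.2 p hm (C.mem p hp)

/-- The constants multiply to the product over `R`. -/
private theorem prod_primeC {S : Finset Nat.Primes} (hS : C.S ⊆ S) :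
    ∏ p ∈ S, primeC R c p = ∏ p ∈ R, c p := by
  simp only [primeC]
  rw [← Finset.prod_subset (fun p hp => hS (C.subset hp)) fun p _ hp => if_neg hp]
  exact Finset.prod_congr rfl fun p hp => if_pos hp

/-- The padded correction list has the kernel with one corrected factor, summed over the primes. -/
private theorem pieceKer_paddedCorrList {S : Finset Nat.Primes} (hS : C.S ⊆ S)
    (u u' : FinPt D.E (lvE D N)) : pieceKer D N (paddedCorrList D R c A W B) u u' =
      ∑ q ∈ S, (∏ p ∈ S.erase q, (primeC R c p : ℂ)) *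
        prodKer (fun p : Nat.Primes =>
          if p = q then corrKer N p A W B else locDesc (D := D) N p (A ++ W ++ B))
          (fun p => compPt C.ne_zero' p) u u' := by
  classical
  show combKer (lvE D N) (paddedCorrList D R c A W B) u u' = _
  set K := corrCoeff D R c with hK
  set T := W.toFinset.filter fun w => D.DegreeThree w with hT
  have hlhs : combKer (lvE D N) (paddedCorrList D R c A W B) u u' = ∑ w ∈ T, K w *
      combKer (lvE D N) ((D.descWord (W.erase w)).map fun b =>
        (b.1, A.map D.under ++ (D.under w :: b.2) ++ B.map D.under)) u u' := by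
    rw [paddedCorrList, corrList, List.map_flatMap, combKer_flatMap, ← hT, ← Finset.sum_map_toList]
    refine congrArg List.sum (List.map_congr_left fun w _ => ?_)
    rw [List.map_map]
    exact combKer_const_mul _ (K w) _ (fun b : ℂ × List (Ideal (𝓞 D.E)) => b.1) _ u u'
  have hout : ∀ p ∉ S, IsIdle D R N' (A ++ W ++ B) p := fun p hp => C.idle p fun h' => hp (hS h')
  have hd : IsDiagOutside (fun p : Nat.Primes => locDesc (D := D) N p (A ++ W ++ B)) S :=
    isDiagOutside_of_eq fun p hp => locDesc_eq_idKer fun w hw => (hout p hp).2.2 w hw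
  have hrhs : ∀ q ∈ S, (∏ p ∈ S.erase q, (primeC R c p : ℂ)) *
      prodKer (fun p : Nat.Primes =>
        if p = q then corrKer N p A W B else locDesc (D := D) N p (A ++ W ++ B))
        (fun p => compPt C.ne_zero' p) u u' =
      ∑ w ∈ T, if ((q : ℕ) : 𝓞 D.M) ∈ w then K w * combKer (lvE D N)
        ((D.descWord (W.erase w)).map fun b =>
          (b.1, A.map D.under ++ (D.under w :: b.2) ++ B.map D.under)) u u' else 0 := by
    intro q hq
    rw [sum_prodKer_ite (isRestricted_compPt C.ne_zero') hd hq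
      (T.filter fun w => ((q : ℕ) : 𝓞 D.M) ∈ w) (fun w => (kappa w : ℂ))
      (fun w p => letterKer N A W B w p) (fun p => corrKer N p A W B) fun x y => ?_,
      Finset.mul_sum, ← Finset.sum_filter]
    · refine Finset.sum_congr rfl fun w hw => ?_
      simp only [hT, Finset.mem_filter, List.mem_toFinset] at hw
      rw [combKer_padded C.ne_zero' (fun w hw => (C.good hw).2) C.deg hw.1.1 hw.2]
      have hqR : q ∉ R := fun h' =>
        C.notMem h' (List.mem_append_left _ (List.mem_append_right _ hw.1.1)) hw.2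
      have hpr : ∏ p ∈ S.erase q, (primeC R c p : ℂ) = ∏ p ∈ R, (c p : ℂ) := by
        rw [← Complex.ofReal_prod, ← Complex.ofReal_prod, ← C.prod_primeC hS,
          ← Finset.mul_prod_erase S _ hq, primeC, if_neg hqR, one_mul]
      rw [hpr, hK]
      simp only [corrCoeff]
      ring
    · simp only [corrKer, letterKer, hT, Finset.filter_filter]
  rw [hlhs, Finset.sum_congr rfl hrhs, Finset.sum_comm]
  refine Finset.sum_congr rfl fun w hw => ?_
  simp only [hT, Finset.mem_filter, List.mem_toFinset] at hw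
  have hwV : w ∈ A ++ W ++ B := List.mem_append_left _ (List.mem_append_right _ hw.1)
  obtain ⟨q, hq⟩ := (C.good hwV).1.exists_mem
  have hqS : q ∈ S := by
    by_contra hn
    exact (hout q hn).2.2 w hwV hq
  rw [Finset.sum_eq_single q (fun r _ hr => if_neg fun h' => hr
    (natCast_mem_unique (C.good hwV).1.1 hq h')) (fun h' => absurd hqS h'), if_pos hq]

/-- The objects of the class are products of those at the primes. -/
private theorem isProductOf (P : ExtPlaces D)
    (f : ∀ p : Nat.Primes, LocPt D.M N' p → LocPt D.M N' p)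
    {S : Finset Nat.Primes} (hS : C.S ⊆ S) :
    IsProductOf (locFam D h R N₀ N₁ N N' c A W B γ f) (fun p => compPt C.ne_zero' p)
      (fun p => compPt C.ne_zero p) S (fun u => glE D γ • u)
      (pieceKer D N (D.descWord (A ++ W ++ B))) (pieceKer D N (paddedCorrList D R c A W B))
      (classComm D N N' γ) (fun u => finHeight P.placesE u) 0 where
  g_eq p u := compPt_smul C.ne_zero' p _ u
  pe_eq u u' := combKer_descWord C.ne_zero' (fun w hw => (C.good hw).2) u u'
  k2_eq := C.pieceKer_paddedCorrList hS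
  comm_eq := by
    rintro t ⟨s, hs, rfl⟩ p
    refine ⟨(MulAction.toPerm (gammaAt D p s), MulAction.toPerm
      ((h.localCubic (p : ℕ)).ι (gammaAt D p s))),
      ⟨gammaAt D p s, (hs.map (glE D)).map (compGL p), rfl⟩,
      fun u => compPt_smul C.ne_zero' p _ u, fun v => ?_⟩
    exact (compPt_smul C.ne_zero p _ v).trans (by rw [compGL_glEM h]; rfl)
  hE_eq u := by
    rw [zero_add]
    exact (finHeight_eq_finsum P.placesE C.ne_zero' u).2

/-- The data at the primes are trivial outside the finite set. -/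
private theorem isTrivialOutside (f : ∀ p : Nat.Primes, LocPt D.M N' p → LocPt D.M N' p)
    {S : Finset Nat.Primes} (hS : C.S ⊆ S)
    (hf : ∀ p ∉ S, f p ((1 : GL (Fin 2) (Lp D.M p)) : LocPt D.M N' p) =
      ((1 : GL (Fin 2) (Lp D.M p)) : LocPt D.M N' p)) :
    IsTrivialOutside (locFam D h R N₀ N₁ N N' c A W B γ f)
      (fun p : Nat.Primes => ((1 : GL (Fin 2) (Lp D.E p)) : LocPt D.E N p))
      (fun p : Nat.Primes => ((1 : GL (Fin 2) (Lp D.M p)) : LocPt D.M N' p)) S
      (fun p => (C.data p).Q) := by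
  have hout : ∀ p ∉ S, IsIdle D R N' (A ++ W ++ B) p := fun p hp => C.idle p fun h' => hp (hS h')
  exact
    { c_eq := fun p hp => if_neg (hout p hp).1
      pe_diag := isDiagOutside_of_eq fun p hp => locDesc_eq_idKer fun w hw =>
        (hout p hp).2.2 w hw
      km_diag := isDiagOutside_of_eq fun p hp => by
        show twistedLocKer h R N₀ N₁ N' (A ++ W ++ B) p = idKer
        rw [twistedLocKer, if_neg (hout p hp).1,
          locWord_eq_idKer fun w hw => (hout p hp).2.2 w hw]
      k2_eq := fun p hp x y => by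
        classical
        show corrKer N p A W B x y = 0
        refine Finset.sum_eq_zero fun w hw => absurd ?_ ((hout p hp).2.2 w ?_)
        · exact (Finset.mem_filter.mp hw).2.2
        · exact List.mem_append_left _ (List.mem_append_right _
            (List.mem_toFinset.mp (Finset.mem_filter.mp hw).1))
      proj_eq := fun p hp => ((C.data p).idle (hout p hp)).1
      dE_eq := fun p hp => ((C.data p).idle (hout p hp)).2
      g_base := fun p hp => C.base p fun h' => hp (hS h')
      f_base := hf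
      hE_base := fun p => locHeight_base p
      hM_base := fun p => locHeight_base p }

/-- The plain side of the class. -/
private def plain (P : ExtPlaces D) :
    PlainLocal (∏ p ∈ C.S, primeC R c p) (fun u => glE D γ • u)
      (pieceKer D N (D.descWord (A ++ W ++ B))) (pieceKer D N (paddedCorrList D R c A W B))
      (classComm D N N' γ) (IsDiagMat γ) (IsLocalNorm D σ γ)
      (fun u => finHeight P.placesE u) :=
  prodPlain _ (isRestricted_compPt C.ne_zero') _
    (C.isTrivialOutside (fun _ x => x) subset_rfl fun _ _ => rfl)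
    (C.isProductOf P (fun _ x => x) subset_rfl) (IsLocalNorm D σ γ) (isLocalNorm_iff h γ)

/-- The plain push is the product of those at the primes. -/
private theorem compPt_plain_proj (P : ExtPlaces D) (u : FinPt D.E (lvE D N)) (p : Nat.Primes) :
    compPt C.ne_zero' p ((C.plain P).proj u) = (C.data p).Q.proj (compPt C.ne_zero' p u) :=
  co_prodProj _ (isRestricted_compPt C.ne_zero') _
    (C.isTrivialOutside (fun _ x => x) subset_rfl fun _ _ => rfl) u p

omit C in
/-- The letters of the words compared lie below letters of `A ++ W ++ B`. -/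
private theorem exists_under_eq {K : Ideal (𝓞 D.M) → ℂ} {a : ℂ × List (Ideal (𝓞 D.E))}
    (ha : a ∈ D.descWord (A ++ W ++ B) ++
      (corrList D K W).map fun b => (b.1, A.map D.under ++ b.2 ++ B.map D.under))
    {v : Ideal (𝓞 D.E)} (hv : v ∈ a.2) : ∃ w ∈ A ++ W ++ B, v = D.under w := by
  rcases List.mem_append.mp ha with ha | ha
  · exact mem_descWord D ha v hv
  · obtain ⟨b, hb, rfl⟩ := List.mem_map.mp ha
    rcases List.mem_append.mp hv with h' | h'
    · rcases List.mem_append.mp h' with h' | h'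
      · obtain ⟨x, hx, rfl⟩ := List.mem_map.mp h'
        exact ⟨x, List.mem_append_left _ (List.mem_append_left _ hx), rfl⟩
      · obtain ⟨x, hx, e⟩ := corrList_mem hb h'
        exact ⟨x, List.mem_append_left _ (List.mem_append_right _ hx), e⟩
    · obtain ⟨x, hx, rfl⟩ := List.mem_map.mp h'
      exact ⟨x, List.mem_append_right _ hx, rfl⟩

omit C in
/-- The twist by `δ` fixes the base point where `δ` is congruent to one. -/
private theorem twMap_base (p : Nat.Primes) {δ : GL (Fin 2) D.M}
    (hδ : deltaAt D p δ ∈ congrGroup (φp D.M p) (N' : Op D.M p)) :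
    (h.localCubic (p : ℕ)).twMap (N' : Op D.M p) (deltaAt D p δ)
      ((1 : GL (Fin 2) (Lp D.M p)) : LocPt D.M N' p) =
      ((1 : GL (Fin 2) (Lp D.M p)) : LocPt D.M N' p) := by
  refine ((h.localCubic (p : ℕ)).twMap_mk (n' := (N' : Op D.M p)) (map_natCast _ _)
    (deltaAt D p δ) 1).trans ?_
  rw [map_one, mul_one]
  refine QuotientGroup.eq.mpr ?_
  rw [mul_one]
  exact inv_mem (le_sup_left (a := congrGroup (φp D.M p) (N' : Op D.M p)) hδ)

/-- The twisted side of the class, compared with the plain one. -/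
private theorem exists_twistedPush (P : ExtPlaces D) (hγ : IsRegularMat D γ)
    {L : List (ℂ × List (Ideal (𝓞 D.E)))} {π : PlainPush D N L γ}
    (hπ : π.proj = (C.plain P).proj) {δ : GL (Fin 2) D.M} (hδ : IsNormOf D σ γ δ) :
    ∃ T : TwistedPush D σ R N₀ N₁ N N' (A ++ W ++ B) γ δ,
      (∀ i z, T.sum D i (fun _ => 1) z =
        ((∏ p ∈ R, c p : ℝ) : ℂ) * π.sum D (D.descWord (A ++ W ++ B)) (fun _ => 1) z) ∧
      (IsDiagMat γ → ∃ dM : FinPt D.M (lvM D N') → ℝ, (∀ v, 0 ≤ dM v) ∧
        (∀ v, cM D σ R N₀ N₁ N' (A ++ W ++ B) v (twAct D σ δ v) ≠ 0 →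
          finHeight P.placesM v = (∑ i, finHeight P.placesE (T.q i v)) + dM v) ∧
        ∀ z, T.sum D 0 (fun v => (dM v : ℂ)) z - 3 * ((∏ p ∈ R, c p : ℝ) : ℂ) *
            π.sum D (D.descWord (A ++ W ++ B)) (fun u => ((C.plain P).dE u : ℂ)) z =
          π.sum D (paddedCorrList D R c A W B) (fun _ => 1) z) := by
  classical
  obtain ⟨Sδ, hSδ⟩ := exists_finset_good γ hγ δ N' C.ne_zero
  have hsub : C.S ⊆ C.S ∪ Sδ := Finset.subset_union_left
  set f₁ : ∀ p : Nat.Primes, LocPt D.M N' p → LocPt D.M N' p :=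
    fun p => (h.localCubic (p : ℕ)).twMap (N' : Op D.M p) (deltaAt D p δ)
  have G₁ := C.isProductOf P f₁ hsub
  have Q₁ := C.isTrivialOutside f₁ hsub fun p hp =>
    twMap_base p (hSδ p fun h' => hp (Finset.mem_union_right _ h')).2
  have hout : ∀ p ∉ C.S ∪ Sδ, IsIdle D R N' (A ++ W ++ B) p := fun p hp =>
    C.idle p fun h' => hp (hsub h')
  choose T hT using fun p => (C.data p).twist δ hδ
  have hkm : ∀ v v', cM D σ R N₀ N₁ N' (A ++ W ++ B) v v' =
      prodKer (locFam D h R N₀ N₁ N N' c A W B γ f₁).km (fun p => compPt C.ne_zero p) v v' :=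
    cM_eq_prod h C.ne_zero (fun w hw => (C.good hw).1) (fun p hp w hw => C.notMem hp hw)
      fun p _ => finRows_ramLocKer h C.ne_zero p
  set Tw := prodTwist (CE := 0) (CM := 0) (f := twAct D σ δ)
    (km := cM D σ R N₀ N₁ N' (A ++ W ++ B))
    (hM := fun v => finHeight P.placesM v) (isDiag := IsDiagMat γ) _
    (isRestricted_compPt C.ne_zero') (isRestricted_compPt C.ne_zero) _ Q₁ G₁
    (isLocalNorm_iff h γ) T (fun p v => compPt_twAct h C.ne_zero p δ v) hkm
    (fun p hp i => (hT p (hout p hp)).2 (hSδ p fun h' => hp (Finset.mem_union_right _ h')).1 i)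
    (fun p hp v => (hT p (hout p hp)).1 v)
    (fun v => by rw [zero_add]; exact (finHeight_eq_finsum P.placesM C.ne_zero v).2)
    (by norm_num)
  set π₁ := prodPlain (locFam D h R N₀ N₁ N N' c A W B γ f₁) (isRestricted_compPt C.ne_zero')
    (isDiag := IsDiagMat γ) _ Q₁ G₁ (IsLocalNorm D σ γ) (isLocalNorm_iff h γ)
  have hproj : π₁.proj = π.proj := hπ.symm ▸ funext fun u =>
    (isRestricted_compPt C.ne_zero').ext fun p => by
      rw [C.compPt_plain_proj]
      exact co_prodProj _ (isRestricted_compPt C.ne_zero') _ Q₁ u p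
  have hdE : π₁.dE = (C.plain P).dE := funext fun u =>
    (Finset.sum_subset hsub fun p _ hp => ((C.data p).idle (C.idle p hp)).2 _).symm
  have hc₁ := congrArg (fun r : ℝ => (r : ℂ)) (C.prod_primeC hsub)
  refine ⟨⟨Tw.q, fun i t ht v hv => Tw.q_comm i (MulAction.toPerm (glE D t),
    MulAction.toPerm (glEM D t)) ⟨t, ht, rfl⟩ v hv, Tw.finite⟩, fun i z => ?_, fun hd =>
    ⟨Tw.dM, Tw.dM_nonneg, Tw.height hd, fun z => ?_⟩⟩
  · have e := Tw.sum_eq i z
    simp only [locFam] at e
    rw [hproj, hc₁] at e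
    simpa [PlainPush.sum, TwistedPush.sum] using e
  · have e := Tw.identity hd z
    simp only [locFam] at e
    rw [hproj, hdE, hc₁] at e
    simpa [PlainPush.sum, TwistedPush.sum] using e

/-- The comparison at the class. -/
private theorem classTransfer (P : ExtPlaces D) (hγ : IsRegularMat D γ) :
    ClassTransfer D P σ R N₀ N₁ N N' (∏ p ∈ R, c p) (A ++ W ++ B)
      (paddedCorrList D R c A W B) γ := by
  set π := C.plain P
  have hfin : ∀ a ∈ D.descWord (A ++ W ++ B) ++ paddedCorrList D R c A W B, ∀ z,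
      {u | π.proj u = z ∧ wordKernel (lvE D N) a.2 u (glE D γ • u) ≠ 0}.Finite := fun a ha z =>
    locWord_finite_fibre C.ne_zero' (fun v hv => by
        obtain ⟨w, hw, rfl⟩ := exists_under_eq ha hv; exact (C.good hw).2)
      (fun p u => compPt_smul C.ne_zero' p (glE D γ) u) (C.compPt_plain_proj P) C.S
      (fun p hp => ((C.data p).idle (C.idle p hp)).1)
      (fun p => (C.data p).finite_word a.2 fun _ hv => exists_under_eq ha hv) z
  refine ⟨⟨π.proj, fun t ht u => π.proj_comm (MulAction.toPerm (glE D t),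
      MulAction.toPerm (glEM D t)) ⟨t, ht, rfl⟩ u, hfin⟩, π.norm_or.imp id fun h0 z => ?_,
    π.dE, π.dE_nonneg, fun hd => ⟨π.height hd, fun hn z => ?_⟩,
    fun δ hδ => C.exists_twistedPush P hγ rfl hδ⟩
  · simpa [PlainPush.sum] using h0 z
  · have e := π.height_nonnorm hd hn z
    rw [congrArg (fun r : ℝ => (r : ℂ)) (C.prod_primeC subset_rfl)] at e
    simpa [PlainPush.sum] using e

end ClassSetup

/-- **The finite part of the comparison from the comparison at every prime.** -/
theorem localTransfer_of_prime (hprime : PrimeTransferSpec) : LocalTransferSpec := by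
  classical
  intro D P σ hne hfix k Bd hBd hk
  obtain ⟨R, N₀, N₁, N, N', hlev, hram, hinert, hsplit⟩ := exists_levels hne hfix k Bd hBd hk
  set c : Nat.Primes → ℝ := fun p => if hp : p ∈ R then (hram p hp).choose else 1 with hc
  have hFacts : LevelFacts D (cubicData hne hfix) R N₀ N₁ N N' c :=
    { ne_zero := hlev.ne_zero, dvd := hlev.dvd, dvd₀ := hlev.dvd₀,
      mem := fun p hp => (hlev.ram_dvd p hp).trans hlev.dvd,
      ram := fun p hp => by
        simp only [hc, dif_pos hp]
        exact (hram p hp).choose_spec,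
      inertia := hinert, split := fun p hp hd => (hsplit p hp hd).2 }
  refine ⟨R, N₀, N₁, N, N', ∏ p ∈ R, c p, Finset.prod_pos fun p hp => (hFacts.ram p hp).pos,
    hlev, fun W hW hcount => ⟨corrList D (corrCoeff D R c) W,
      fun a ha v hv => corrList_letter hlev.dvd hW ha hv, fun A B hAB γ hγ => ?_⟩⟩
  obtain ⟨C⟩ := nonempty_classSetup _ hprime P hne hfix hFacts hW hcount hAB hγ
  exact C.classTransfer P hγ

end FLTAgent.LanglandsTunnell.Local

end
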