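import Fermat.Agent.LanglandsTunnell.Local.PrimeLetters
import Fermat.Agent.LanglandsTunnell.Local.GlobalTransfer

/-!
# The comparison at every prime, and the local transfer

`primeTransfer` proves the comparison at every prime; `localTransferSpec` is the resulting local
transfer.
-/

set_option autoImplicit false

noncomputable section

namespace FLTAgent.LanglandsTunnell.Local

open scoped TensorProduct
open FLTAgent.LanglandsTunnell NumberField Matrix

/-- **The comparison at every prime.** -/
theorem primeTransfer : PrimeTransferSpec := by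
  intro D P σ h R N₀ N₁ N N' c hne hfix hL A W B hok hAB hcount γ hγ p
  by_cases hpR : p ∈ R
  · exact nonempty_primeData_of_mem P hL hγ hok hpR
  by_cases hidle : IsIdle D R N' (A ++ W ++ B) p
  · exact nonempty_primeData_of_idle P hL hγ hidle
  have hin := fun w hw hpw => hL.inertia p hpR w hw hpw
  obtain ⟨PS⟩ := exists_placeSystem (p := p) hne hfix h hin
  have hd : HasDualSystem
      ((autOp σ.toRingEquiv : Op D.M p ≃+* Op D.M p) : Op D.M p →+* Op D.M p) :=
    hasDualSystem_autOp σ.toRingEquiv (fun w hw hpw => (hin w hw hpw).1)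
      (fun w hw hpw => (hin w hw hpw).2)
  have hgood : ∀ w ∈ A ++ W ++ B, IsGoodPrime N' w := fun w hw =>
    (isGoodPrime_of_testOK hL.dvd (hok w hw)).1
  by_cases hpN : (p : ℕ) ∣ N'
  · obtain ⟨hNN, hsplit⟩ := hL.split p hpR hpN
    subst hNN
    refine PS.nonempty_primeData (n := (N : Op D.E p))
      ⟨rfl, by rw [map_natCast]⟩ (fun w hw => ⟨(hgood w hw).1, fun hpw =>
        absurd hpN ((hgood w hw).2.2 p hpw)⟩) hAB hcount P hpR hidle hd (Or.inr fun i => ?_) hγ
    rcases PS.type i with ⟨w, hwc, hwu, hwd, -⟩ | hs
    · exact absurd hwd (not_degreeThree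
        ⟨hwd.1, hwd.2.1, (hsplit w hwc.prime hwc.mem).2⟩)
    · exact hs
  · refine PS.nonempty_primeData (n := (1 : Op D.E p)) ⟨?_, ?_⟩
      (fun w hw => ⟨(hgood w hw).1, fun _ => rfl⟩) hAB hcount P hpR hidle hd (Or.inl rfl) hγ
    · exact le_antisymm (congrGroup_le_one _) (congrGroup_le_of_dvd
        (isUnit_natCast_Op fun h' => hpN (h'.trans hL.dvd)).dvd)
    · rw [map_one]
      exact le_antisymm (congrGroup_le_one _) (congrGroup_le_of_dvd
        (isUnit_natCast_Op hpN).dvd)

/-- **The local transfer.** -/
theorem localTransferSpec : LocalTransferSpec := localTransfer_of_prime primeTransfer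

end FLTAgent.LanglandsTunnell.Local
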