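import Fermat.Agent.LanglandsTunnell.Local.FixedPoints
import Mathlib.GroupTheory.Subgroup.Center
import Mathlib.Data.Set.Card

/-!
# Lifting a matching of cosets to deeper levels

A shift `u ↦ b u` of cosets at level `K₀` lifts equivariantly to deeper levels `K' → KN`, with
fibres of constant size. See `exists_coset_lift`.
-/

set_option autoImplicit false

noncomputable section

namespace FLTAgent.LanglandsTunnell.Local

variable {G H : Type*} [Group G] [Group H] (ι : H →* G) {K₀ K' : Subgroup G} {KN : Subgroup H}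

/-- An element of `ι⁻¹ K₀` fixing a coset in `K₀ ⧸ K'` lies in `KN`. -/
private theorem coe_mem_of_mk_mul_eq (hnorm : ∀ k ∈ K₀, ∀ x ∈ K', k⁻¹ * x * k ∈ K')
    (hK' : K'.comap ι ≤ KN) {e : K₀.comap ι} {k : K₀}
    (h : (((ι.subgroupComap K₀) e * k : K₀) : K₀ ⧸ K'.subgroupOf K₀) = k) : (e : H) ∈ KN := by
  rw [QuotientGroup.eq, Subgroup.mem_subgroupOf] at h
  refine hK' (Subgroup.mem_comap.mpr (inv_mem_iff.mp ?_))
  have := hnorm _ (inv_mem k.2) _ h
  simp only [Subgroup.coe_mul, Subgroup.coe_inv, mul_inv_rev] at this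
  convert this using 1
  change (ι (e : H))⁻¹ = _
  simp only [mul_assoc, inv_inv, mul_inv_cancel_left, mul_inv_cancel, mul_one]
  rfl

/-- An `ι⁻¹ K₀`-equivariant map `K₀ ⧸ K' → H ⧸ KN`, with values in the cosets of `ι⁻¹ K₀`. -/
private theorem exists_equivariant_map (hnorm : ∀ k ∈ K₀, ∀ x ∈ K', k⁻¹ * x * k ∈ K')
    (hK' : K'.comap ι ≤ KN) :
    ∃ ψ : K₀ ⧸ K'.subgroupOf K₀ → H ⧸ KN,
      (∀ (e : K₀.comap ι) (k : K₀),
        ψ ((ι.subgroupComap K₀) e * k : K₀) = (e : H) • ψ k) ∧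
      ∀ x, ∃ e : K₀.comap ι, ψ x = ((e : H) : H ⧸ KN) := by
  let E := K₀.comap ι
  let X := K₀ ⧸ K'.subgroupOf K₀
  let act : MulAction E X := MulAction.compHom X (ι.subgroupComap K₀)
  let rep : X → X := fun x => (Quotient.mk (MulAction.orbitRel E X) x).out
  have hrep : ∀ x, ∃ e : E, e • rep x = x := fun x => by
    obtain ⟨e, he⟩ := MulAction.mem_orbit_iff.mp
      (MulAction.orbitRel_apply.mp (Quotient.mk_out (s := MulAction.orbitRel E X) x))
    exact ⟨e⁻¹, inv_smul_eq_iff.mpr he.symm⟩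
  choose ec hec using hrep
  have hstab : ∀ (e : E) (x : X), e • x = x → (e : H) ∈ KN := fun e x hx => by
    induction x using QuotientGroup.induction_on with
    | H k => exact coe_mem_of_mk_mul_eq ι hnorm hK' hx
  have hψ : ∀ (e : E) (x : X),
      ((ec (e • x) : H) : H ⧸ KN) = (((e : H) * (ec x : H) : H) : H ⧸ KN) := by
    intro e x
    have hr : rep (e • x) = rep x := by
      show (Quotient.mk (MulAction.orbitRel E X) (e • x)).out = _
      rw [Quotient.sound (MulAction.orbitRel_apply.mpr ⟨e, rfl⟩ :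
        (MulAction.orbitRel E X).r (e • x) x)]
    have h1 := hec (e • x)
    rw [hr] at h1
    rw [QuotientGroup.eq]
    refine hstab ((ec (e • x))⁻¹ * (e * ec x)) (rep x) ?_
    rw [mul_smul, mul_smul, hec, inv_smul_eq_iff, h1]
  exact ⟨fun x => ((ec x : H) : H ⧸ KN), fun e k => hψ e k, fun x => ⟨ec x, rfl⟩⟩

/-- A coset lies in the range of the shift by `b` iff it meets `b ι(H)`. -/
private theorem mem_range_shiftMap_iff {b g : G} :
    (g : G ⧸ K₀) ∈ Set.range (shiftMap ι K₀ b) ↔ ∃ h : H, (b * ι h)⁻¹ * g ∈ K₀ := by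
  constructor
  · rintro ⟨u, hu⟩
    induction u using QuotientGroup.induction_on with
    | H h => exact ⟨h, QuotientGroup.eq.mp (by simpa using hu)⟩
  · rintro ⟨h, hh⟩
    exact ⟨h, by rw [shiftMap_mk]; exact QuotientGroup.eq.mpr hh⟩

/-- An equivariant `ψ` extends along the shift by `b`, as `b ι(h) k ↦ h • ψ k`. -/
private theorem exists_shift_extension (hle : K' ≤ K₀) (b : G)
    {ψ : K₀ ⧸ K'.subgroupOf K₀ → H ⧸ KN}
    (hψ : ∀ (e : K₀.comap ι) (k : K₀),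
      ψ ((ι.subgroupComap K₀) e * k : K₀) = (e : H) • ψ k) :
    ∃ q : G ⧸ K' → H ⧸ KN, ∀ (g : G) (h : H) (hk : (b * ι h)⁻¹ * g ∈ K₀),
      q (g : G ⧸ K') = h • ψ ((⟨_, hk⟩ : K₀) : K₀ ⧸ K'.subgroupOf K₀) := by
  classical
  refine ⟨fun v => if hv : ∃ h : H, (b * ι h)⁻¹ * v.out ∈ K₀ then
      hv.choose • ψ ((⟨_, hv.choose_spec⟩ : K₀) : K₀ ⧸ K'.subgroupOf K₀)
    else ((1 : H) : H ⧸ KN), fun g h hk => ?_⟩
  obtain ⟨x, hx, hgx⟩ : ∃ x ∈ K', ((g : G ⧸ K')).out = g * x := by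
    obtain ⟨x, hx⟩ := QuotientGroup.mk_out_eq_mul K' g
    exact ⟨x, x.2, hx⟩
  have hk' : (b * ι h)⁻¹ * ((g : G ⧸ K')).out ∈ K₀ := by
    rw [hgx, ← mul_assoc]; exact mul_mem hk (hle hx)
  have hv : ∃ h : H, (b * ι h)⁻¹ * ((g : G ⧸ K')).out ∈ K₀ := ⟨h, hk'⟩
  simp only [dif_pos hv]
  generalize hv.choose_spec = hs
  revert hs
  generalize hv.choose = h₀
  intro hs
  set k₀ : K₀ := ⟨_, hs⟩
  have he : h⁻¹ * h₀ ∈ K₀.comap ι := by
    have := mul_mem hk' (inv_mem k₀.2)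
    simp only [k₀] at this
    rw [Subgroup.mem_comap, map_mul, map_inv]
    convert this using 1
    group
  have e1 : ((⟨_, hk⟩ : K₀) : K₀ ⧸ K'.subgroupOf K₀) =
      ((ι.subgroupComap K₀) ⟨_, he⟩ * k₀ : K₀) := by
    rw [QuotientGroup.eq, Subgroup.mem_subgroupOf]
    convert hx using 1
    simp only [k₀, Subgroup.coe_mul, Subgroup.coe_inv]
    show ((b * ι h)⁻¹ * g)⁻¹ * (ι (h⁻¹ * h₀) * ((b * ι h₀)⁻¹ * _)) = x
    rw [hgx, map_mul, map_inv]
    group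
  rw [e1, hψ, ← mul_smul]
  congr 1
  simp

section Extension

variable {b : G} {ψ : K₀ ⧸ K'.subgroupOf K₀ → H ⧸ KN} {q : G ⧸ K' → H ⧸ KN}

/-- Where the extension takes the value `u`, the point lies in `b ι(u) K₀`. -/
private theorem mem_of_apply_eq (hKN : KN ≤ K₀.comap ι)
    (hψE : ∀ x, ∃ e : K₀.comap ι, ψ x = ((e : H) : H ⧸ KN))
    (hq : ∀ (g : G) (h : H) (hk : (b * ι h)⁻¹ * g ∈ K₀),
      q (g : G ⧸ K') = h • ψ ((⟨_, hk⟩ : K₀) : K₀ ⧸ K'.subgroupOf K₀))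
    {g : G} {u : H} (hg : (g : G ⧸ K₀) ∈ Set.range (shiftMap ι K₀ b))
    (hu : q (g : G ⧸ K') = (u : H ⧸ KN)) : (b * ι u)⁻¹ * g ∈ K₀ := by
  obtain ⟨h, hk⟩ := (mem_range_shiftMap_iff ι).mp hg
  obtain ⟨e, he⟩ := hψE ((⟨_, hk⟩ : K₀) : K₀ ⧸ K'.subgroupOf K₀)
  rw [hq _ _ hk, he] at hu
  change (((h * (e : H)) : H) : H ⧸ KN) = _ at hu
  rw [QuotientGroup.eq] at hu
  have hE : h⁻¹ * u ∈ K₀.comap ι := by
    have := mul_mem e.2 (hKN hu)
    convert this using 1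
    group
  have := mul_mem (inv_mem (Subgroup.mem_comap.mp hE)) hk
  rw [map_mul, map_inv] at this
  convert this using 1
  group

/-- Each fibre of the extension is a translate of the fibre of `ψ` over the trivial coset. -/
private theorem exists_fibre_eq_image (hle : K' ≤ K₀) (hKN : KN ≤ K₀.comap ι)
    (hψE : ∀ x, ∃ e : K₀.comap ι, ψ x = ((e : H) : H ⧸ KN))
    (hq : ∀ (g : G) (h : H) (hk : (b * ι h)⁻¹ * g ∈ K₀),
      q (g : G ⧸ K') = h • ψ ((⟨_, hk⟩ : K₀) : K₀ ⧸ K'.subgroupOf K₀))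
    (z : H ⧸ KN) :
    ∃ f : K₀ ⧸ K'.subgroupOf K₀ → G ⧸ K', Function.Injective f ∧
      {v | Subgroup.quotientMapOfLE hle v ∈ Set.range (shiftMap ι K₀ b) ∧ q v = z}
        = f '' {x | ψ x = ((1 : H) : H ⧸ KN)} := by
  induction z using QuotientGroup.induction_on with | H u => ?_
  let f : K₀ ⧸ K'.subgroupOf K₀ → G ⧸ K' :=
    Quotient.map' (fun k : K₀ => b * ι u * (k : G)) fun k k' hkk' => by
      rw [QuotientGroup.leftRel_apply] at hkk' ⊢
      rw [Subgroup.mem_subgroupOf] at hkk'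
      convert hkk' using 1
      simp only [Subgroup.coe_mul, Subgroup.coe_inv]
      group
  have hf : ∀ k : K₀, f k = ((b * ι u * (k : G) : G) : G ⧸ K') := fun k => rfl
  refine ⟨f, fun x y hxy => ?_, Set.ext fun v => ?_⟩
  · induction x using QuotientGroup.induction_on with | H k => ?_
    induction y using QuotientGroup.induction_on with | H k' => ?_
    rw [hf, hf, QuotientGroup.eq] at hxy
    rw [QuotientGroup.eq, Subgroup.mem_subgroupOf]
    convert hxy using 1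
    simp only [Subgroup.coe_mul, Subgroup.coe_inv]
    group
  induction v using QuotientGroup.induction_on with | H g => ?_
  constructor
  · rintro ⟨hr, hqv⟩
    have hk : (b * ι u)⁻¹ * g ∈ K₀ := mem_of_apply_eq ι hKN hψE hq (g := g) hr hqv
    refine ⟨((⟨_, hk⟩ : K₀) : K₀ ⧸ K'.subgroupOf K₀), ?_, by rw [hf, mul_inv_cancel_left]⟩
    rw [hq _ _ hk] at hqv
    refine (MulAction.injective u (β := H ⧸ KN)) ?_
    show u • ψ _ = u • ((1 : H) : H ⧸ KN)
    rw [hqv]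
    show _ = ((u * 1 : H) : H ⧸ KN)
    rw [mul_one]
  · rintro ⟨x, hx, hxg⟩
    induction x using QuotientGroup.induction_on with | H k => ?_
    have hk : (b * ι u)⁻¹ * (b * ι u * (k : G)) ∈ K₀ := by
      rw [inv_mul_cancel_left]; exact k.2
    rw [hf] at hxg
    rw [← hxg]
    refine ⟨(mem_range_shiftMap_iff ι).mpr ⟨u, hk⟩, ?_⟩
    rw [hq _ u hk, show (⟨_, hk⟩ : K₀) = k from Subtype.ext (inv_mul_cancel_left _ _),
      show ψ k = _ from hx]
    show ((u * 1 : H) : H ⧸ KN) = _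
    rw [mul_one]

end Extension

/-- **Equivariant lift with constant fibres.** -/
theorem exists_coset_lift (hle : K' ≤ K₀) (hnorm : ∀ k ∈ K₀, ∀ x ∈ K', k⁻¹ * x * k ∈ K')
    (hKN : KN ≤ K₀.comap ι) (hK' : K'.comap ι ≤ KN) [Finite (K₀ ⧸ K'.subgroupOf K₀)] :
    ∃ c : ℕ, 0 < c ∧ ∀ b : G, ∃ q : G ⧸ K' → H ⧸ KN,
      (∀ t : H, Commute b (ι t) → ∀ g : G, (g : G ⧸ K₀) ∈ Set.range (shiftMap ι K₀ b) →
        q ((ι t * g : G) : G ⧸ K') = t • q (g : G ⧸ K')) ∧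
      (∀ (g : G) (u : H), (g : G ⧸ K₀) ∈ Set.range (shiftMap ι K₀ b) →
        q (g : G ⧸ K') = (u : H ⧸ KN) → (b * ι u)⁻¹ * g ∈ K₀) ∧
      ∀ z : H ⧸ KN,
        {v | Subgroup.quotientMapOfLE hle v ∈ Set.range (shiftMap ι K₀ b) ∧ q v = z}.Finite ∧
        {v | Subgroup.quotientMapOfLE hle v ∈ Set.range (shiftMap ι K₀ b) ∧ q v = z}.ncard = c := by
  obtain ⟨ψ, hψ, hψE⟩ := exists_equivariant_map ι hnorm hK'
  let F₁ : Set (K₀ ⧸ K'.subgroupOf K₀) := {x | ψ x = ((1 : H) : H ⧸ KN)}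
  have hF₁ : F₁.Nonempty := by
    obtain ⟨e, he⟩ := hψE ((1 : K₀) : K₀ ⧸ K'.subgroupOf K₀)
    refine ⟨((ι.subgroupComap K₀) e⁻¹ * 1 : K₀), ?_⟩
    show ψ _ = _
    rw [hψ, he]
    show ((((e⁻¹ : K₀.comap ι) : H) * (e : H) : H) : H ⧸ KN) = _
    simp
  refine ⟨F₁.ncard, (Set.ncard_pos (Set.toFinite _)).mpr hF₁, fun b => ?_⟩
  obtain ⟨q, hq⟩ := exists_shift_extension ι hle b hψ
  refine ⟨q, fun t hbt g hg => ?_, fun g u => mem_of_apply_eq ι hKN hψE hq, fun z => ?_⟩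
  · obtain ⟨h, hk⟩ := (mem_range_shiftMap_iff ι).mp hg
    have hsame : (b * ι (t * h))⁻¹ * (ι t * g) = (b * ι h)⁻¹ * g := by
      rw [map_mul, ← mul_assoc b, hbt.eq]
      group
    have hk' : (b * ι (t * h))⁻¹ * (ι t * g) ∈ K₀ := hsame ▸ hk
    rw [hq _ _ hk', hq _ _ hk, mul_smul]
    congr 3
    exact congrArg _ (Subtype.ext hsame)
  · obtain ⟨f, hf, e⟩ := exists_fibre_eq_image ι hle hKN hψE hq z
    rw [e, Set.ncard_image_of_injective _ hf]
    exact ⟨(Set.toFinite _).image _, rfl⟩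

end FLTAgent.LanglandsTunnell.Local
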