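import Fermat.Agent.LanglandsTunnell.Local.LocalCubic

/-!
# The test set at a ramified place is invariant under a deep level

Successive approximation: every matrix close to the image of the deep congruence group over the
ground is a twisted conjugate `k y σ(k)⁻¹` with `k`, `y` deep. See `ramSet_mul_mem`.
-/

set_option autoImplicit false

noncomputable section

namespace FLTAgent.LanglandsTunnell.Local

open Matrix

theorem IsPComplete.exists_matrix_limit {A : Type*} [CommRing A] {p : A} (hA : IsPComplete p)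
    (f : ℕ → Matrix (Fin 2) (Fin 2) A) (hf : ∀ n, ∃ X, f (n + 1) = f n + p ^ n • X) :
    ∃ L, ∀ n, ∃ X, L = f n + p ^ n • X := by
  choose X hX using hf
  have h : ∀ i j, ∃ L, ∀ n, p ^ n ∣ L - f n i j := fun i j => hA.prec (fun n => f n i j) fun n =>
    ⟨X n i j, by simp [hX n]⟩
  choose L hL using h
  choose Y hY using hL
  exact ⟨Matrix.of L, fun n => ⟨Matrix.of fun i j => Y i j n, Matrix.ext fun i j => by
    simp [← hY i j n]⟩⟩

theorem congrGroup_congr {O L : Type*} [CommRing O] [CommRing L] {φ : O →+* L} {N N' : O}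
    (h : Associated N N') : congrGroup φ N = congrGroup φ N' := by
  obtain ⟨u, rfl⟩ := h
  have key : ∀ g : Matrix (Fin 2) (Fin 2) L, InCongr φ N g ↔ InCongr φ (N * u) g := fun g =>
    exists_congr fun Y => and_congr_left fun _ =>
      ⟨fun ⟨X, hX⟩ => ⟨(↑u⁻¹ : O) • X, by rw [hX, smul_smul, mul_assoc, u.mul_inv, mul_one]⟩,
        fun ⟨X, hX⟩ => ⟨(u : O) • X, by rw [hX, smul_smul]⟩⟩
  ext g
  rw [mem_congrGroup, mem_congrGroup, key, key]

theorem IsCongrOne.isUnit_of_pow {O : Type*} [CommRing O] {p b : ℕ} (hO : IsPComplete (p : O))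
    (hb : 1 ≤ b) {M : Matrix (Fin 2) (Fin 2) O} (hM : IsCongrOne ((p : O) ^ b) M) : IsUnit M := by
  obtain ⟨x, hx⟩ := hM.exists_det
  obtain ⟨e, rfl⟩ := Nat.exists_eq_add_of_le' hb
  rw [Matrix.isUnit_iff_isUnit_det, hx, pow_succ', mul_assoc]
  exact hO.isUnit_one_add _

namespace LocalCubic

variable {OE LE OM LM : Type*} [CommRing OE] [CommRing LE] [CommRing OM] [CommRing LM]
  (S : LocalCubic OE LE OM LM)

/-- `σ` on integral matrices. -/
def σMat : Matrix (Fin 2) (Fin 2) OM →+* Matrix (Fin 2) (Fin 2) OM :=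
  S.σO.toRingHom.mapMatrix

theorem σMat_apply (X : Matrix (Fin 2) (Fin 2) OM) (i j : Fin 2) :
    S.σMat X i j = S.σO (X i j) := rfl

theorem σMat_smul (c : OM) (X : Matrix (Fin 2) (Fin 2) OM) :
    S.σMat (c • X) = S.σO c • S.σMat X :=
  Matrix.ext fun i j => by simp [σMat_apply]

theorem σMat_natCast_pow_smul (p n : ℕ) (X : Matrix (Fin 2) (Fin 2) OM) :
    S.σMat ((p : OM) ^ n • X) = (p : OM) ^ n • S.σMat X := by
  rw [σMat_smul, map_pow, map_natCast]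

variable {p b d : ℕ}

/-- The linearised equation `X - σX + Z = p^d W`. -/
theorem exists_tangent {r : OE} (hr : 3 * r = (p : OE) ^ d) (W : Matrix (Fin 2) (Fin 2) OM) :
    ∃ (X : Matrix (Fin 2) (Fin 2) OM) (Z : Matrix (Fin 2) (Fin 2) OE),
      S.jO.mapMatrix Z = (p : OM) ^ d • W - X + S.σMat X := by
  set X := S.jO r • ((2 : OM) • W + S.σMat W) with hX
  have hr' : 3 * S.jO r = (p : OM) ^ d := by
    have := congrArg S.jO hr
    simpa [map_ofNat] using this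
  have key : ∀ i j, ((p : OM) ^ d • W - X + S.σMat X) i j
      = S.jO r * (W i j + S.σO (W i j) + S.σO (S.σO (W i j))) := fun i j => by
    simp only [hX, Matrix.add_apply, Matrix.sub_apply, Matrix.smul_apply, smul_eq_mul,
      σMat_apply, map_mul, map_add, σO_jO, map_ofNat, ← hr']
    ring
  have hfix : ∀ i j, ∃ z, S.jO z = ((p : OM) ^ d • W - X + S.σMat X) i j := fun i j =>
    S.fixedO _ (by
      rw [key, map_mul, σO_jO, map_add, map_add, S.σO_three]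
      ring)
  choose Z hZ using hfix
  exact ⟨X, Matrix.of Z, Matrix.ext fun i j => by simpa using hZ i j⟩

/-- One step of the approximation. -/
theorem exists_approx_step {r : OE} (hr : 3 * r = (p : OE) ^ d) (hb : d + 1 ≤ b) {n : ℕ}
    (hn : b + d ≤ n) {ω k W : Matrix (Fin 2) (Fin 2) OM} {y : Matrix (Fin 2) (Fin 2) OE}
    (hk : IsCongrOne ((p : OM) ^ b) k) (hy : IsCongrOne ((p : OE) ^ b) y)
    (h : ω * S.σMat k = k * S.jO.mapMatrix y - (p : OM) ^ n • W) :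
    ∃ k' y', IsCongrOne ((p : OM) ^ b) k' ∧ IsCongrOne ((p : OE) ^ b) y' ∧
      (∃ X, k' = k + (p : OM) ^ (n - d) • X) ∧ (∃ Z, y' = y + (p : OE) ^ (n - d) • Z) ∧
      ∃ W', ω * S.σMat k' = k' * S.jO.mapMatrix y' - (p : OM) ^ (n + 1) • W' := by
  obtain ⟨e, rfl⟩ := Nat.exists_eq_add_of_le hb
  obtain ⟨m, hm, f, hmf⟩ : ∃ m, n = m + d ∧ ∃ f, m = d + 1 + e + f :=
    ⟨n - d, by omega, n - d - (d + 1 + e), by omega⟩
  subst hm
  obtain ⟨X, Z, hZ⟩ := S.exists_tangent hr (-W)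
  obtain ⟨X₀, hk'⟩ := hk
  obtain ⟨Y₀, hy'⟩ := hy
  rw [Nat.add_sub_cancel]
  have hj : S.jO.mapMatrix y = 1 + (p : OM) ^ (d + 1 + e) • S.jO.mapMatrix Y₀ := by
    rw [hy']
    ext i j
    simp [Matrix.one_apply, apply_ite S.jO]
  have hjZ : S.jO.mapMatrix (y * (1 + (p : OE) ^ m • Z))
      = S.jO.mapMatrix y * (1 + (p : OM) ^ m • S.jO.mapMatrix Z) := by
    rw [map_mul]
    congr 1
    ext i j
    simp [Matrix.one_apply, apply_ite S.jO]
  refine ⟨k * (1 + (p : OM) ^ m • X), y * (1 + (p : OE) ^ m • Z), ?_, ?_, ?_, ?_, ?_⟩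
  · rw [hk']
    refine IsCongrOne.mul' ⟨X₀, rfl⟩ ⟨(p : OM) ^ f • X, ?_⟩
    rw [smul_smul, ← pow_add, hmf]
  · rw [hy']
    refine IsCongrOne.mul' ⟨Y₀, rfl⟩ ⟨(p : OE) ^ f • Z, ?_⟩
    rw [smul_smul, ← pow_add, hmf]
  · exact ⟨k * X, by rw [Matrix.mul_add, Matrix.mul_one, Matrix.mul_smul]⟩
  · exact ⟨y * Z, by rw [Matrix.mul_add, Matrix.mul_one, Matrix.mul_smul]⟩
  refine ⟨-((p : OM) ^ (d + e) • (X₀ * W))
    + (p : OM) ^ e • (k * (X * S.jO.mapMatrix Y₀ + S.jO.mapMatrix Y₀ * S.jO.mapMatrix Z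
        - S.jO.mapMatrix Y₀ * S.σMat X))
    + (p : OM) ^ (d + e + f) • (W * S.σMat X)
    + (p : OM) ^ (e + f) • (k * X * S.jO.mapMatrix y * S.jO.mapMatrix Z), ?_⟩
  rw [map_mul, map_add, map_one, S.σMat_natCast_pow_smul, ← mul_assoc, h, hjZ, hj, hZ, hk', hmf]
  simp only [Matrix.mul_add, Matrix.add_mul, Matrix.mul_sub, Matrix.sub_mul, Matrix.mul_one,
    Matrix.one_mul, Matrix.mul_smul, Matrix.smul_mul, Matrix.mul_neg, smul_add,
    smul_sub, smul_neg, mul_assoc]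
  match_scalars <;> ring

/-- The exact solution. -/
theorem exists_twisted_of_close {r : OE} (hr : 3 * r = (p : OE) ^ d) (hE : IsPComplete (p : OE))
    (hM : IsPComplete (p : OM)) (hb : d + 1 ≤ b) {n : ℕ} (hn : b + d ≤ n)
    {ω W : Matrix (Fin 2) (Fin 2) OM} {y₀ : Matrix (Fin 2) (Fin 2) OE}
    (hy : IsCongrOne ((p : OE) ^ b) y₀) (h : ω = S.jO.mapMatrix y₀ - (p : OM) ^ n • W) :
    ∃ k y, IsCongrOne ((p : OM) ^ b) k ∧ IsCongrOne ((p : OE) ^ b) y ∧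
      ω * S.σMat k = k * S.jO.mapMatrix y := by
  let P : ℕ → Matrix (Fin 2) (Fin 2) OM × Matrix (Fin 2) (Fin 2) OE → Prop := fun i kw =>
    IsCongrOne ((p : OM) ^ b) kw.1 ∧ IsCongrOne ((p : OE) ^ b) kw.2 ∧
      ∃ V, ω * S.σMat kw.1 = kw.1 * S.jO.mapMatrix kw.2 - (p : OM) ^ (n + i) • V
  have hstep : ∀ i (s : {kw // P i kw}), ∃ t : {kw // P (i + 1) kw},
      (∃ X, t.1.1 = s.1.1 + (p : OM) ^ i • X) ∧ ∃ Z, t.1.2 = s.1.2 + (p : OE) ^ i • Z := by
    rintro i ⟨⟨k, y⟩, hk, hy', V, hV⟩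
    obtain ⟨k', y', hk', hy'', ⟨X, hX⟩, ⟨Z, hZ⟩, V', hV'⟩ :=
      S.exists_approx_step hr hb (n := n + i) (by omega) hk hy' hV
    refine ⟨⟨(k', y'), hk', hy'', V', hV'⟩, ⟨(p : OM) ^ (n - d) • X, ?_⟩,
      ⟨(p : OE) ^ (n - d) • Z, ?_⟩⟩
    · rw [smul_smul, ← pow_add, show i + (n - d) = n + i - d by omega]
      exact hX
    · rw [smul_smul, ← pow_add, show i + (n - d) = n + i - d by omega]
      exact hZ
  choose next hnext using hstep
  let s₀ : {kw // P 0 kw} := ⟨(1, y₀), ⟨0, by simp⟩, hy, W, by simp [h]⟩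
  let s : ∀ i, {kw // P i kw} := fun i => Nat.rec s₀ next i
  obtain ⟨k, hk⟩ := hM.exists_matrix_limit (fun i => (s i).1.1) fun i => (hnext i (s i)).1
  obtain ⟨y, hy'⟩ := hE.exists_matrix_limit (fun i => (s i).1.2) fun i => (hnext i (s i)).2
  refine ⟨k, y, ?_, ?_, ?_⟩
  · obtain ⟨X, hX⟩ := hk b
    obtain ⟨X', hX'⟩ := (s b).2.1
    exact ⟨X' + X, by rw [hX, hX', smul_add, add_assoc]⟩
  · obtain ⟨X, hX⟩ := hy' b
    obtain ⟨X', hX'⟩ := (s b).2.2.1
    exact ⟨X' + X, by rw [hX, hX', smul_add, add_assoc]⟩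
  refine Matrix.ext fun i j => sub_eq_zero.mp (hM.haus _ fun l => ?_)
  obtain ⟨X, hX⟩ := hk l
  obtain ⟨Z, hZ⟩ := hy' l
  obtain ⟨V, hV⟩ := (s l).2.2.2
  have hjy : S.jO.mapMatrix y
      = S.jO.mapMatrix (s l).1.2 + (p : OM) ^ l • S.jO.mapMatrix Z := by
    rw [hZ, map_add]
    congr 1
    ext i j
    simp
  have e : ω * S.σMat k - k * S.jO.mapMatrix y = (p : OM) ^ l •
      (-((p : OM) ^ n • V) + ω * S.σMat X - X * S.jO.mapMatrix y
        - (s l).1.1 * S.jO.mapMatrix Z) := by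
    rw [hX, map_add, S.σMat_natCast_pow_smul, Matrix.mul_add, hV, hjy]
    simp only [Matrix.mul_add, Matrix.add_mul, Matrix.mul_smul, Matrix.smul_mul, smul_add,
      smul_sub, smul_neg]
    module
  exact ⟨_, congrFun (congrFun e i) j⟩

/-- The local test set. -/
def ramSet (n₀ : OM) (n₁ : OE) : Set (GL (Fin 2) LM) :=
  {x | ∃ k ∈ congrGroup S.φM n₀, ∃ y ∈ congrGroup S.φE n₁, x = k * S.ι y * (S.θ k)⁻¹}

variable {c : ℕ} {r : OE} (hr : 3 * r = (p : OE) ^ d) (hE : IsPComplete (p : OE))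
  (hM : IsPComplete (p : OM)) (hb : d + 1 ≤ b) (hc : b + d ≤ c)

include hr hE hM hb hc

theorem ι_mul_mem_ramSet {y : GL (Fin 2) LE} (hy : y ∈ congrGroup S.φE ((p : OE) ^ b))
    {κ : GL (Fin 2) LM} (hκ : κ ∈ congrGroup S.φM ((p : OM) ^ c)) :
    S.ι y * κ ∈ S.ramSet ((p : OM) ^ b) ((p : OE) ^ b) := by
  obtain ⟨⟨Y, hY, hY'⟩, -⟩ := hy
  obtain ⟨⟨K, ⟨X, rfl⟩, hK'⟩, -⟩ := hκ
  obtain ⟨k, y', hk, hy', e⟩ := S.exists_twisted_of_close hr hE hM hb hc
    (ω := S.jO.mapMatrix Y * (1 + (p : OM) ^ c • X))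
    (W := -(S.jO.mapMatrix Y * X)) hY (by
      rw [Matrix.mul_add, Matrix.mul_one, Matrix.mul_smul, smul_neg, sub_neg_eq_add])
  have hb1 : 1 ≤ b := by omega
  obtain ⟨uk, huk⟩ := hk.isUnit_of_pow hM hb1
  obtain ⟨uy, huy⟩ := hy'.isUnit_of_pow hE hb1
  refine ⟨GeneralLinearGroup.map S.φM uk,
    mem_congrGroup_of_isUnit hk (hk.isUnit_of_pow hM hb1) (by rw [← huk]; rfl),
    GeneralLinearGroup.map S.φE uy,
    mem_congrGroup_of_isUnit hy' (hy'.isUnit_of_pow hE hb1) (by rw [← huy]; rfl), ?_⟩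
  rw [eq_mul_inv_iff_mul_eq]
  refine Units.ext ?_
  have hι : (S.ι (GeneralLinearGroup.map S.φE uy)).1 = (S.jO.mapMatrix y').map S.φM := by
    rw [ι_val, ← huy]
    exact Matrix.ext fun i j => (S.comm_j _).symm
  have hθ : (S.θ (GeneralLinearGroup.map S.φM uk)).1 = (S.σMat k).map S.φM := by
    rw [θ_val, ← huk]
    exact Matrix.ext fun i j => (S.comm_σ _).symm
  have hy0 : (S.ι y).1 = (S.jO.mapMatrix Y).map S.φM := by
    rw [ι_val, ← hY']
    exact Matrix.ext fun i j => (S.comm_j _).symm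
  rw [Units.val_mul, Units.val_mul, Units.val_mul, hι, hθ, hy0, ← hK',
    show (GeneralLinearGroup.map S.φM uk).1 = k.map S.φM by rw [← huk]; rfl, ← Matrix.map_mul,
    ← Matrix.map_mul, ← Matrix.map_mul, e]

theorem ramSet_mul_mem {ω κ : GL (Fin 2) LM} (hω : ω ∈ S.ramSet ((p : OM) ^ b) ((p : OE) ^ b))
    (hκ : κ ∈ congrGroup S.φM ((p : OM) ^ c)) :
    ω * κ ∈ S.ramSet ((p : OM) ^ b) ((p : OE) ^ b) ∧
      κ * ω ∈ S.ramSet ((p : OM) ^ b) ((p : OE) ^ b) := by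
  obtain ⟨k, hk, y, hy, rfl⟩ := hω
  have hk1 : k ∈ congrGroup S.φM 1 := congrGroup_le_one _ hk
  have hθ1 : S.θ k ∈ congrGroup S.φM 1 := S.θ_mem_congrGroup (map_one S.σO) hk1
  have hy1 : S.ι y ∈ congrGroup S.φM 1 := by
    have := S.ι_mem_congrGroup (congrGroup_le_one _ hy)
    rwa [map_one] at this
  have key : ∀ κ' ∈ congrGroup S.φM ((p : OM) ^ c),
      k * (S.ι y * κ') * (S.θ k)⁻¹ ∈ S.ramSet ((p : OM) ^ b) ((p : OE) ^ b) := by
    intro κ' hκ'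
    obtain ⟨k', hk', y', hy', e⟩ := S.ι_mul_mem_ramSet hr hE hM hb hc hy hκ'
    exact ⟨k * k', mul_mem hk hk', y', hy', by rw [e, map_mul]; group⟩
  constructor
  · convert key _ (conj_mem_congrGroup hθ1 hκ) using 1
    group
  · convert key _ (conj_mem_congrGroup hy1 (conj_mem_congrGroup hk1 hκ)) using 1
    group

end LocalCubic

end FLTAgent.LanglandsTunnell.Local
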