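import Fermat.Agent.LanglandsTunnell.Local.LocalSpec
import Fermat.Agent.LanglandsTunnell.Local.LevelApprox
import Fermat.Agent.LanglandsTunnell.Local.CosetLift

/-!
# A place of `R`: matching with multiplicity

Levels `p ^ b` for `N₀, N₁`, the cubes `3 p ^ b` for `N` and a deep `p ^ c` for `N'`.
See `exists_isRamifiedPlace`.
-/

set_option autoImplicit false

noncomputable section

namespace FLTAgent.LanglandsTunnell.Local

open scoped TensorProduct
open Matrix NumberField FLTAgent.LanglandsTunnell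

section General

variable {O L : Type*} [CommRing O] [CommRing L] {φ : O →+* L}

theorem congrGroup_le_of_dvd {N N' : O} (h : N ∣ N') : congrGroup φ N' ≤ congrGroup φ N := by
  obtain ⟨e, rfl⟩ := h
  have key : ∀ g : Matrix (Fin 2) (Fin 2) L, InCongr φ (N * e) g → InCongr φ N g := by
    rintro g ⟨Y, ⟨X, rfl⟩, hY⟩
    exact ⟨_, ⟨e • X, by rw [smul_smul]⟩, hY⟩
  exact fun g hg => ⟨key _ hg.1, key _ hg.2⟩

theorem levelK_le_of_dvd {N N' : O} (h : N ∣ N') : levelK φ N' ≤ levelK φ N :=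
  sup_le_sup_right (congrGroup_le_of_dvd h) _

theorem scalar_comm (u : Lˣ) (g : GL (Fin 2) L) :
    g * GeneralLinearGroup.scalar (Fin 2) u = GeneralLinearGroup.scalar (Fin 2) u * g :=
  Subgroup.mem_center_iff.mp (scalar_mem_center u) g

theorem levelK_conj {N : O} {k x : GL (Fin 2) L} (hk : k ∈ levelK φ 1) (hx : x ∈ levelK φ N) :
    k⁻¹ * x * k ∈ levelK φ N := by
  obtain ⟨u, y, hy, rfl⟩ := mem_levelK.mp hx
  refine mem_levelK.mpr ⟨u, _, conj_mem_levelK hk hy, ?_⟩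
  rw [← mul_assoc k⁻¹ _ y, scalar_comm]
  group

theorem cube_mem_congrGroup {n₁ N : O} (h : N ∣ 3 * n₁) (h2 : N ∣ n₁ ^ 2)
    {y : GL (Fin 2) L} (hy : y ∈ congrGroup φ n₁) : y ^ 3 ∈ congrGroup φ N := by
  obtain ⟨e, he⟩ := h
  obtain ⟨e₂, he₂⟩ := h2
  have key : ∀ g : GL (Fin 2) L, InCongr φ n₁ g.1 → InCongr φ N (g ^ 3).1 := by
    rintro g ⟨Y, ⟨X, rfl⟩, hY⟩
    refine ⟨(1 + n₁ • X) ^ 3, ⟨e • X + (3 * e₂) • X ^ 2 + (e₂ * n₁) • X ^ 3, ?_⟩, ?_⟩
    · have h3 : n₁ ^ 3 = N * (e₂ * n₁) := by rw [pow_succ, he₂, mul_assoc]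
      have h2' : 3 * n₁ ^ 2 = N * (3 * e₂) := by rw [he₂]; ring
      rw [smul_add, smul_add, smul_smul, smul_smul, smul_smul, ← he, ← h3, ← h2']
      simp only [pow_succ, pow_zero, Matrix.mul_add, Matrix.add_mul,
        Matrix.mul_one, Matrix.smul_mul, Matrix.mul_smul, smul_add, smul_smul, mul_assoc, one_mul]
      module
    · rw [map_cube, hY, Units.val_pow_eq_pow_val]
  refine ⟨key y hy.1, ?_⟩
  rw [← inv_pow]
  exact key _ hy.2

/-- Pulling central factors out of a twisted product. -/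
theorem central_twist {G : Type*} [Group G] {a z c : G}
    (hz : ∀ x, x * z = z * x) (hc : ∀ x, x * c = c * x) (k y k' : G) :
    a * k * z * y * (c * k')⁻¹ = a * z * c⁻¹ * (k * y * k'⁻¹) := by
  have hc' : ∀ x, x * c⁻¹ = c⁻¹ * x := fun x => by
    rw [eq_inv_mul_iff_mul_eq, ← mul_assoc, ← hc, mul_inv_cancel_right]
  calc a * k * z * y * (c * k')⁻¹ = a * (k * z) * (y * (k'⁻¹ * c⁻¹)) := by group
    _ = a * (z * k) * (c⁻¹ * (y * k'⁻¹)) := by rw [hz, ← mul_assoc y, hc' (y * k'⁻¹)]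
    _ = a * z * (k * c⁻¹) * (y * k'⁻¹) := by group
    _ = _ := by rw [hc' k]; group

/-- A class fixed by the conjugation condition is a fixed point of `γ`. -/
private lemma mem_conjFix_iff {H : Type*} [Group H] {K KN : Subgroup H}
    (hnorm : ∀ k ∈ K, ∀ x ∈ (KN : Set H), k⁻¹ * x * k ∈ (KN : Set H)) (γ u : H) :
    ((u : H ⧸ K) ∈ conjFix K γ (KN : Set H)) ↔ γ • (u : H ⧸ KN) = u := by
  show _ ↔ ((γ * u : H) : H ⧸ KN) = u
  rw [eq_comm, QuotientGroup.eq, ← mul_assoc]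
  exact ⟨fun hu => hu u rfl, fun hu => mk_mem_conjFix hnorm hu⟩

/-- The supported classes over a point are the whole fibre at a fixed point and empty otherwise. -/
private lemma finite_and_ncard_support {G H : Type*} [Group G] [Group H] {ι : H →* G}
    {K' K₀ : Subgroup G} {KN : Subgroup H} (hle : K' ≤ K₀) {β : G} {q : G ⧸ K' → H ⧸ KN}
    {Sup : G → G ⧸ K' → Prop} {γ u : H} {m : ℕ} {C : Set (H ⧸ K₀.comap ι)}
    (hsupp : ∀ g : G, Sup g (g : G ⧸ K') ↔ (g : G ⧸ K₀) ∈ shiftMap ι K₀ β '' C)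
    (hfix : (u : H ⧸ K₀.comap ι) ∈ C ↔ γ • (u : H ⧸ KN) = u)
    (hq2 : ∀ (g : G) (u : H), (g : G ⧸ K₀) ∈ Set.range (shiftMap ι K₀ β) →
      q (g : G ⧸ K') = (u : H ⧸ KN) → (β * ι u)⁻¹ * g ∈ K₀)
    (hfin : {v | Subgroup.quotientMapOfLE hle v ∈ Set.range (shiftMap ι K₀ β) ∧
      q v = (u : H ⧸ KN)}.Finite)
    (hcard : {v | Subgroup.quotientMapOfLE hle v ∈ Set.range (shiftMap ι K₀ β) ∧
      q v = (u : H ⧸ KN)}.ncard = m) :
    {v | q v = (u : H ⧸ KN) ∧ ∃ g : G, (g : G ⧸ K') = v ∧ Sup g v}.Finite ∧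
      ({v | q v = (u : H ⧸ KN) ∧ ∃ g : G, (g : G ⧸ K') = v ∧ Sup g v}.ncard : ℝ) =
        (m : ℝ) * Set.indicator {z : H ⧸ KN | γ • z = z} 1 (u : H ⧸ KN) := by
  classical
  have hrange : ∀ g : G, Sup g (g : G ⧸ K') →
      (g : G ⧸ K₀) ∈
        Set.range (shiftMap ι (K₀) β) := fun g hg =>
    Set.image_subset_range _ _ ((hsupp g).mp hg)
  have hmem : ∀ g : G, (g : G ⧸ K₀) ∈
      Set.range (shiftMap ι (K₀) β) → q (g : G ⧸ K') = u →
      (g : G ⧸ K₀) =
        shiftMap ι (K₀) β (u : _ ⧸ (K₀).comap ι) := by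
    intro g hg hu
    rw [shiftMap_mk, eq_comm, QuotientGroup.eq]
    exact hq2 g u hg hu
  have e : {v : G ⧸ K' | q v = (u : H ⧸ KN) ∧ ∃ g : G,
        (g : G ⧸ K') = v ∧ Sup g v} =
      if γ • (u : H ⧸ KN) = u then
        {v | Subgroup.quotientMapOfLE hle v ∈ Set.range (shiftMap ι (K₀) β) ∧
          q v = (u : H ⧸ KN)}
      else ∅ := by
    ext v
    constructor
    · rintro ⟨hqv, g, rfl, hg⟩
      obtain ⟨u', hu', e'⟩ := (hsupp g).mp hg
      have := shiftMap_injective ι _ β (e'.trans (hmem g (hrange g hg) hqv))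
      rw [if_pos (hfix.mp (this ▸ hu'))]
      exact ⟨hrange g hg, hqv⟩
    · intro hv
      split_ifs at hv with hγ
      · obtain ⟨g, rfl⟩ := QuotientGroup.mk_surjective v
        obtain ⟨hr, hqv⟩ := hv
        exact ⟨hqv, g, rfl, (hsupp g).mpr ⟨_, hfix.mpr hγ, (hmem g hr hqv).symm⟩⟩
      · exact absurd hv (Set.notMem_empty _)
  rw [e]
  split_ifs with hγ
  · exact ⟨hfin, by rw [hcard]; simp [Set.indicator, hγ]⟩
  · exact ⟨Set.finite_empty, by
      rw [Set.ncard_empty, Set.indicator_of_notMem (show (u : H ⧸ KN) ∉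
        {z : H ⧸ KN | γ • z = z} from hγ), Nat.cast_zero, mul_zero]⟩

/-- Quotients of deep levels are finite. -/
theorem finite_levelK_quotient (hφ : Function.Injective φ) {N₀ N' : O}
    [Finite (O ⧸ Ideal.span {N'})] :
    Finite (levelK φ N₀ ⧸ (levelK φ N').subgroupOf (levelK φ N₀)) := by
  classical
  have hc : ∀ x : levelK φ N₀ ⧸ (levelK φ N').subgroupOf (levelK φ N₀), ∃ (k : levelK φ N₀)
      (Y : GL (Fin 2) O), (k : levelK φ N₀ ⧸ _) = x ∧ GeneralLinearGroup.map φ Y = k := by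
    intro x
    induction x using QuotientGroup.induction_on with
    | H k =>
      obtain ⟨u, k', hk', hk⟩ := mem_levelK.mp k.2
      obtain ⟨Y, -, hY⟩ := exists_units_of_mem_congrGroup hφ hk'
      refine ⟨⟨k', le_sup_left (a := congrGroup φ N₀) hk'⟩, Y, QuotientGroup.eq.mpr ?_, hY⟩
      rw [Subgroup.mem_subgroupOf]
      refine le_sup_right (a := congrGroup φ N') (b := Subgroup.center (GL (Fin 2) L)) ?_
      have : ((⟨k', le_sup_left (a := congrGroup φ N₀) hk'⟩⁻¹ * k : levelK φ N₀) : GL (Fin 2) L)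
          = k'⁻¹ * (k : GL (Fin 2) L) := rfl
      rw [this, hk, ← scalar_comm, inv_mul_cancel_left]
      exact scalar_mem_center u
  choose k Y hk hY using hc
  refine Finite.of_injective (fun x => (Y x).1.map (Ideal.Quotient.mk (Ideal.span {N'}))) ?_
  intro x x' h
  rw [← hk x, ← hk x']
  refine QuotientGroup.eq.mpr (Subgroup.mem_subgroupOf.mpr (le_sup_left (a := congrGroup φ N') ?_))
  have hd : ∀ i j, N' ∣ (Y x').1 i j - (Y x).1 i j := fun i j => by
    rw [← Ideal.mem_span_singleton, ← Ideal.Quotient.eq]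
    exact (congrFun (congrFun h i) j).symm
  choose D hD using hd
  have hcong : IsCongrOne N' ((Y x)⁻¹ * Y x').1 := by
    refine ⟨((Y x)⁻¹).1 * Matrix.of D, ?_⟩
    have e : N' • Matrix.of D = (Y x').1 - (Y x).1 := Matrix.ext fun i j => (hD i j).symm
    rw [← Matrix.mul_smul, e, Matrix.mul_sub, (Y x).inv_mul, Units.val_mul]
    abel
  have := map_mem_congrGroup (φ := φ) hcong
  rwa [map_mul, map_inv, hY, hY] at this

end General

theorem finite_quotient_padic_pow {p : ℕ} [Fact p.Prime] {A : Type*} [CommRing A]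
    [Algebra ℤ_[p] A] [Module.Finite ℤ_[p] A] (c : ℕ) :
    Finite (A ⧸ Ideal.span {(p : A) ^ c}) := by
  obtain ⟨m, s, hs⟩ := Module.Finite.exists_fin (R := ℤ_[p]) (M := A)
  refine Finite.of_surjective
    (fun a : Fin m → Fin (p ^ c) => Ideal.Quotient.mk _ (∑ i, ((a i : ℕ) : A) * s i)) fun x => ?_
  obtain ⟨x, rfl⟩ := Ideal.Quotient.mk_surjective x
  obtain ⟨a, ha⟩ := (Submodule.mem_span_range_iff_exists_fun ℤ_[p]).mp
    (hs ▸ Submodule.mem_top : x ∈ Submodule.span ℤ_[p] (Set.range s))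
  refine ⟨fun i => ⟨(a i).appr c, PadicInt.appr_lt _ _⟩, ?_⟩
  rw [Ideal.Quotient.eq, ← ha, ← Finset.sum_sub_distrib]
  refine sum_mem fun i _ => ?_
  rw [Algebra.smul_def, ← sub_mul]
  refine Ideal.mul_mem_right _ _ ?_
  obtain ⟨e, he⟩ := Ideal.mem_span_singleton.mp (PadicInt.appr_spec c (a i))
  rw [Ideal.mem_span_singleton]
  refine ⟨-algebraMap ℤ_[p] A e, ?_⟩
  have := congrArg (algebraMap ℤ_[p] A) he
  simp only [map_sub, map_natCast, map_mul, map_pow] at this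
  linear_combination -this

section Place

variable {E M : Type} [Field E] [Field M] [NumberField E] [NumberField M] {f : E →+* M}
  {s : M ≃+* M} (h : CubicData f s) {p : Nat.Primes} {N₀ N₁ N N' b c d : ℕ}

/-- The shape of the levels at a place of `R`. -/
structure RamExponents (p : Nat.Primes) (N₀ N₁ N N' b c d : ℕ) : Prop where
  unit3 : ∃ r : ℤ_[(p : ℕ)], IsUnit r ∧ 3 * r = ((p : ℕ) : ℤ_[(p : ℕ)]) ^ d
  deep : 2 * d + 1 ≤ b
  le : b + d ≤ c
  h₀ : Associated ((N₀ : ℕ) : ℤ_[(p : ℕ)]) (((p : ℕ) : ℤ_[(p : ℕ)]) ^ b)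
  h₁ : Associated ((N₁ : ℕ) : ℤ_[(p : ℕ)]) (((p : ℕ) : ℤ_[(p : ℕ)]) ^ b)
  hN : Associated ((N : ℕ) : ℤ_[(p : ℕ)]) (((p : ℕ) : ℤ_[(p : ℕ)]) ^ (b + d))
  hN' : Associated ((N' : ℕ) : ℤ_[(p : ℕ)]) (((p : ℕ) : ℤ_[(p : ℕ)]) ^ c)

theorem associated_op {F : Type} [Field F] {q a e : ℕ} [Fact q.Prime]
    (h : Associated (a : ℤ_[q]) ((q : ℤ_[q]) ^ e)) :
    Associated (a : Op F q) ((q : Op F q) ^ e) := by
  simpa [map_natCast, map_pow] using h.map (algebraMap ℤ_[q] (Op F q))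

variable (hx : RamExponents p N₀ N₁ N N' b c d)
include hx

/-- All levels at a ramified place are nonzero. -/
theorem RamExponents.ne_zero : N₀ ≠ 0 ∧ N₁ ≠ 0 ∧ N ≠ 0 ∧ N' ≠ 0 := by
  have hp : ((p : ℕ) : ℤ_[(p : ℕ)]) ≠ 0 := Nat.cast_ne_zero.mpr p.2.ne_zero
  have key : ∀ a e : ℕ,
      Associated ((a : ℕ) : ℤ_[(p : ℕ)]) (((p : ℕ) : ℤ_[(p : ℕ)]) ^ e) → a ≠ 0 := by
    rintro a e ha rfl
    rw [Nat.cast_zero] at ha
    exact pow_ne_zero e hp (associated_zero_iff_eq_zero _ |>.mp ha.symm)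
  exact ⟨key _ _ hx.h₀, key _ _ hx.h₁, key _ _ hx.hN, key _ _ hx.hN'⟩

theorem RamExponents.exists_r {F : Type} [Field F] :
    ∃ r : Op F p, IsUnit r ∧ 3 * r = ((p : ℕ) : Op F p) ^ d := by
  obtain ⟨r, hr, e⟩ := hx.unit3
  exact ⟨algebraMap _ _ r, hr.map _, by
    simpa [map_ofNat, map_natCast] using congrArg (algebraMap ℤ_[(p : ℕ)] (Op F p)) e⟩

/-- The test set is bi-invariant under the level `N'`. -/
theorem RamExponents.ramSet_mul_mem {ω κ : GL (Fin 2) (Lp M p)}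
    (hω : ω ∈ (h.localCubic (p : ℕ)).ramSet (N₀ : Op M p) (N₁ : Op E p))
    (hκ : κ ∈ congrGroup (φp M p) (N' : Op M p)) :
    ω * κ ∈ (h.localCubic (p : ℕ)).ramSet (N₀ : Op M p) (N₁ : Op E p) ∧
      κ * ω ∈ (h.localCubic (p : ℕ)).ramSet (N₀ : Op M p) (N₁ : Op E p) := by
  obtain ⟨r, -, hr⟩ := hx.exists_r (F := E)
  have e : (h.localCubic (p : ℕ)).ramSet (N₀ : Op M p) (N₁ : Op E p)
      = (h.localCubic (p : ℕ)).ramSet (((p : ℕ) : Op M p) ^ b) (((p : ℕ) : Op E p) ^ b) := by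
    simp only [LocalCubic.ramSet]
    rw [congrGroup_congr (φ := (h.localCubic (p : ℕ)).φM) (associated_op hx.h₀),
      congrGroup_congr (φ := (h.localCubic (p : ℕ)).φE) (associated_op hx.h₁)]
  rw [e] at hω ⊢
  rw [congrGroup_congr (associated_op hx.hN')] at hκ
  have := hx.deep
  exact (h.localCubic (p : ℕ)).ramSet_mul_mem hr isPComplete_op isPComplete_op (by omega) hx.le
    hω hκ

theorem RamExponents.isDeep {F : Type} [Field F] [NumberField F] :
    IsDeep (φp F p) ((N₁ : ℕ) : Op F p) := by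
  obtain ⟨r, hr, e⟩ := hx.exists_r (F := F)
  obtain ⟨u, hu⟩ := (associated_op (F := F) hx.h₁).symm
  have h3 : (3 : Op F p) = ((p : ℕ) : Op F p) ^ d * ↑hr.unit⁻¹ := by
    rw [← e, mul_assoc, hr.mul_val_inv, mul_one]
  have hp : IsUnit (φp F p ((p : ℕ) : Op F p)) := by
    rw [map_natCast]; exact isUnit_natCast_Lp p.2.ne_zero
  have key : ∀ a : ℕ, a ≤ 2 → ∀ x : Op F p,
      IsUnit (φp F p ((3 : Op F p) ^ a + (N₁ : Op F p) * x)) := by
    intro a ha x
    obtain ⟨g, hg⟩ : ∃ g, b = a * d + 1 + g :=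
      Nat.exists_eq_add_of_le (by
        have := hx.deep
        have : a * d ≤ 2 * d := Nat.mul_le_mul_right d ha
        omega)
    have e2 : (3 : Op F p) ^ a + (N₁ : Op F p) * x = (3 : Op F p) ^ a *
        (1 + ((p : ℕ) : Op F p) * (((p : ℕ) : Op F p) ^ g * r ^ a * (u : Op F p) * x)) := by
      have h1 : (3 : Op F p) ^ a * r ^ a = ((p : ℕ) : Op F p) ^ (d * a) := by
        rw [← mul_pow, e, ← pow_mul]
      rw [← hu, hg]
      linear_combination (-((p : ℕ) : Op F p) ^ (g + 1) * (u : Op F p) * x) * h1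
    rw [e2, map_mul]
    refine IsUnit.mul ?_ ((isPComplete_op.isUnit_one_add _).map _)
    rw [h3, map_pow, map_mul, map_pow]
    exact ((hp.pow d).mul ((hr.unit⁻¹).isUnit.map _)).pow a
  exact ⟨fun x => by simpa using key 0 (by norm_num) x,
    fun x => by simpa using key 1 (by norm_num) x,
    fun x => by simpa [show (3 : Op F p) ^ 2 = 9 by norm_num] using key 2 le_rfl x⟩

theorem RamExponents.exists_cube {k : GL (Fin 2) (Lp E p)}
    (hk : k ∈ congrGroup (φp E p) (N : Op E p)) :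
    ∃ y ∈ congrGroup (φp E p) (N₁ : Op E p), y ^ 3 = k := by
  obtain ⟨r, -, e⟩ := hx.unit3
  obtain ⟨b', hb'⟩ : ∃ b', b = 1 + b' := Nat.exists_eq_add_of_le (by have := hx.deep; omega)
  obtain ⟨g, hg⟩ : ∃ g, 2 * b' + 1 = d + g :=
    Nat.exists_eq_add_of_le (by have := hx.deep; omega)
  set P := ((p : ℕ) : ℤ_[(p : ℕ)]) with hP
  have hw : 3 * (P * (P ^ g * r)) = (P * P ^ b') ^ 2 := by
    calc 3 * (P * (P ^ g * r)) = (3 * r) * P ^ (g + 1) := by ring
      _ = P ^ (d + g + 1) := by rw [e]; ring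
      _ = (P * P ^ b') ^ 2 := by rw [← hg]; ring
  obtain ⟨⟨K, hK, hKk⟩, -⟩ := (hk : k ∈ congrGroup (φp E p) (N : Op E p))
  have hν : algebraMap ℤ_[(p : ℕ)] (Op E p) (P * P ^ b') = ((p : ℕ) : Op E p) ^ b := by
    rw [hb', ← pow_succ', map_pow, hP, map_natCast, add_comm 1 b']
  obtain ⟨r', hr', e'⟩ := hx.exists_r (F := E)
  obtain ⟨v, hv⟩ := (associated_op (F := E) hx.hN).symm
  obtain ⟨X, rfl⟩ := hK
  obtain ⟨Y, hYu, hY, hY3⟩ := exists_cube_eq hw ((r' * (v : Op E p)) • X)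
  rw [hν] at hY hY3
  obtain ⟨yu, rfl⟩ := hYu
  refine ⟨GeneralLinearGroup.map (φp E p) yu, ?_, Units.ext ?_⟩
  · rw [congrGroup_congr (associated_op hx.h₁)]
    exact map_mem_congrGroup hY
  · rw [Units.val_pow_eq_pow_val, ← hKk]
    show (yu.1.map (φp E p)) ^ 3 = _
    rw [← map_cube, hY3, smul_smul, ← hv, pow_add, ← e']
    congr 3
    ring

omit [NumberField E] in
theorem RamExponents.cube_mem {y : GL (Fin 2) (Lp E p)}
    (hy : y ∈ congrGroup (φp E p) (N₁ : Op E p)) : y ^ 3 ∈ congrGroup (φp E p) (N : Op E p) := by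
  rw [congrGroup_congr (associated_op hx.h₁)] at hy
  rw [congrGroup_congr (associated_op hx.hN)]
  obtain ⟨r, -, e⟩ := hx.exists_r (F := E)
  refine cube_mem_congrGroup ?_ ?_ hy
  · obtain ⟨r₀, hr₀, e₀⟩ := hx.exists_r (F := E)
    exact ⟨↑hr₀.unit⁻¹, by
      rw [pow_add, ← e₀, mul_assoc, mul_assoc, hr₀.mul_val_inv, mul_one, mul_comm]⟩
  · rw [← pow_mul]
    exact pow_dvd_pow _ (by have := hx.deep; omega)

omit [NumberField M] hx in
/-- Divisibility of the levels in the integers of the place. -/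
private lemma RamExponents.dvd_levels (hx : RamExponents p N₀ N₁ N N' b c d) {F : Type} [Field F] :
    ((N₀ : Op F p) ∣ (N : Op F p)) ∧ ((N : Op F p) ∣ (N' : Op F p)) ∧
      ((N₀ : Op F p) ∣ (N' : Op F p)) := by
  have h1 := (associated_op (F := F) hx.h₀).dvd
  have h2 := (associated_op (F := F) hx.hN).dvd
  have h3 := (associated_op (F := F) hx.hN').symm.dvd
  have hle' := hx.le
  exact ⟨(h1.trans (pow_dvd_pow _ (by omega))).trans (associated_op (F := F) hx.hN).symm.dvd,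
    (h2.trans (pow_dvd_pow _ hle')).trans h3, (h1.trans (pow_dvd_pow _ (by omega))).trans h3⟩

omit hx in
/-- A level of positive exponent is in the Jacobson radical of the integers above the place. -/
private lemma isUnit_one_add_jO {a e : ℕ} (he : 1 ≤ e)
    (ha : Associated ((a : ℕ) : ℤ_[(p : ℕ)]) (((p : ℕ) : ℤ_[(p : ℕ)]) ^ e)) (x : Op M p) :
    IsUnit (1 + (h.localCubic (p : ℕ)).jO (a : Op E p) * x) := by
  obtain ⟨e', rfl⟩ := Nat.exists_eq_add_of_le' he
  obtain ⟨u, hu⟩ := (associated_op (F := M) ha).symm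
  rw [map_natCast, ← hu, pow_succ', mul_assoc, mul_assoc]
  exact isPComplete_op.isUnit_one_add _

omit hx in
/-- A level of positive exponent descends along the inclusion of the local fields. -/
private lemma comap_levelK_natCast {a e : ℕ} (ha0 : a ≠ 0) (he : 1 ≤ e)
    (ha : Associated ((a : ℕ) : ℤ_[(p : ℕ)]) (((p : ℕ) : ℤ_[(p : ℕ)]) ^ e)) :
    (levelK (φp M p) (a : Op M p)).comap (h.localCubic (p : ℕ)).ι =
      levelK (φp E p) (a : Op E p) := by
  have hreg : IsUnit ((h.localCubic (p : ℕ)).φE (a : Op E p)) := by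
    rw [map_natCast]; exact isUnit_natCast_Lp ha0
  have := (h.localCubic (p : ℕ)).comap_levelK (a : Op E p) hreg
    (Or.inr (isUnit_one_add_jO h he ha))
  rw [map_natCast] at this
  exact this

/-- The kernel at a twisted translate does not vanish exactly on the twisted set. -/
private lemma ramLocKer_ne_zero_iff (δ g : GL (Fin 2) (Lp M p)) :
    ramLocKer h p N₀ N₁ N' (g : LocPt M N' p)
      ((δ * (h.localCubic (p : ℕ)).θ g : GL (Fin 2) (Lp M p)) : LocPt M N' p) ≠ 0 ↔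
    g⁻¹ * δ * (h.localCubic (p : ℕ)).θ g ∈
      (twistedSetC (h.localCubic (p : ℕ)).θ (h.localCubic (p : ℕ)).ι
        (levelK (φp M p) (N₀ : Op M p)) (Subgroup.center (GL (Fin 2) (Lp M p)))
        (congrGroup (h.localCubic (p : ℕ)).φE (N₁ : Op E p) : Set (GL (Fin 2) (Lp E p)))) := by
  set S := h.localCubic (p : ℕ)
  simp only [ramLocKer, ne_eq, ite_eq_right_iff, one_ne_zero, imp_false, not_not]
  constructor
  · rintro ⟨g', k, y, hk, hy, hg, hgk⟩
    obtain ⟨u₁, κ₁, hκ₁, e₁⟩ := mem_levelK.mp (QuotientGroup.eq.mp hg.symm)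
    obtain ⟨u₂, κ₂, hκ₂, e₂⟩ := mem_levelK.mp (QuotientGroup.eq.mp hgk)
    obtain ⟨k', hk', y', hy', e'⟩ := (hx.ramSet_mul_mem h
      ((hx.ramSet_mul_mem h ⟨k, hk, y, hy, rfl⟩ hκ₁).2) hκ₂).1
    refine ⟨k', le_sup_left (a := congrGroup (φp M p) _) hk',
      GeneralLinearGroup.scalar (Fin 2) (u₁ * u₂), scalar_mem_center _, y', hy', ?_⟩
    set z₁ := GeneralLinearGroup.scalar (Fin 2) u₁
    set z₂ := GeneralLinearGroup.scalar (Fin 2) u₂
    calc g⁻¹ * δ * S.θ g = (g⁻¹ * g') * (k * S.ι y * (S.θ k)⁻¹) *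
        ((g' * (k * S.ι y * (S.θ k)⁻¹))⁻¹ * (δ * S.θ g)) := by group
      _ = z₁ * (κ₁ * (k * S.ι y * (S.θ k)⁻¹) * z₂) * κ₂ := by rw [e₁, e₂]; group
      _ = z₁ * (z₂ * (κ₁ * (k * S.ι y * (S.θ k)⁻¹))) * κ₂ := by rw [scalar_comm]
      _ = z₁ * z₂ * (κ₁ * (k * S.ι y * (S.θ k)⁻¹) * κ₂) := by group
      _ = _ := by
        rw [e', ← map_mul, scalar_comm (u₁ * u₂) k']
        group
        rfl
  · rintro ⟨k₀, hk₀, z, hz, y, hy, e⟩
    obtain ⟨u, k, hk, rfl⟩ := mem_levelK.mp hk₀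
    refine ⟨g, k, y, hk, hy, rfl, QuotientGroup.eq.mpr ?_⟩
    have hu := scalar_mem_center (L := Lp M p) u
    have hu' : S.θ (GeneralLinearGroup.scalar (Fin 2) u) ∈
        Subgroup.center (GL (Fin 2) (Lp M p)) := by
      rw [S.θ_scalar]; exact scalar_mem_center _
    rw [map_mul, central_twist (Subgroup.mem_center_iff.mp hz)
      (Subgroup.mem_center_iff.mp hu')] at e
    set C := GeneralLinearGroup.scalar (Fin 2) u * z *
      (S.θ (GeneralLinearGroup.scalar (Fin 2) u))⁻¹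
    have hC : C ∈ Subgroup.center (GL (Fin 2) (Lp M p)) :=
      mul_mem (mul_mem hu hz) (inv_mem hu')
    refine le_sup_right (a := congrGroup (φp M p) (N' : Op M p)) ?_
    have e2 : (g * (k * S.ι y * (S.θ k)⁻¹))⁻¹ * (δ * S.θ g) = C := by
      calc _ = (k * S.ι y * (S.θ k)⁻¹)⁻¹ * (g⁻¹ * δ * S.θ g) := by group
        _ = (k * S.ι y * (S.θ k)⁻¹)⁻¹ * (C * (k * S.ι y * (S.θ k)⁻¹)) := by rw [e]
        _ = C := by
          rw [← Subgroup.mem_center_iff.mp hC, inv_mul_cancel_left]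
    rw [e2]
    exact hC

/-- A point fixed by `γ` makes `γ` a twisted norm up to a scalar. -/
private lemma exists_tnorm_eq_of_fixed (γ : GL (Fin 2) (Lp E p)) (z : LocPt E N p)
    (hz : γ • z = z) :
    ∃ (u : (Lp E p)ˣ) (X : GL (Fin 2) (Lp M p)),
      X * (h.localCubic (p : ℕ)).ι γ = (h.localCubic (p : ℕ)).ι γ * X ∧
      tnorm (h.localCubic (p : ℕ)).θ X =
        (h.localCubic (p : ℕ)).ι (GeneralLinearGroup.scalar (Fin 2) u * γ) := by
  set S := h.localCubic (p : ℕ)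
  induction z using QuotientGroup.induction_on with
  | H u =>
    have hu : u⁻¹ * γ * u ∈ levelK (φp E p) (N : Op E p) := by
      change ((γ * u : GL (Fin 2) (Lp E p)) : LocPt E N p) = u at hz
      rw [eq_comm, QuotientGroup.eq, ← mul_assoc] at hz
      exact hz
    obtain ⟨cc, k, hk, e⟩ := mem_levelK.mp hu
    obtain ⟨y, -, rfl⟩ := hx.exists_cube hk
    have hγ : γ = GeneralLinearGroup.scalar (Fin 2) cc * (u * y * u⁻¹) ^ 3 := by
      rw [conj_pow, ← mul_assoc, ← mul_assoc, ← scalar_comm cc u, mul_assoc u _ (y ^ 3), ← e]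
      group
    generalize u * y * u⁻¹ = X at hγ
    refine ⟨cc⁻¹, S.ι X, ?_, ?_⟩
    · rw [← map_mul, ← map_mul]
      congr 1
      rw [hγ, ← mul_assoc, scalar_comm, mul_assoc, mul_assoc, ← pow_succ', ← pow_succ]
    · rw [tnorm, S.θ_ι, S.θ_ι, ← map_mul, ← map_mul]
      congr 1
      rw [hγ, ← mul_assoc, ← map_mul, inv_mul_cancel, map_one, one_mul, pow_succ, pow_two]

/-- **The ramified place.** -/
theorem exists_isRamifiedPlace : ∃ m : ℝ, IsRamifiedPlace h p N₀ N₁ N N' m := by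
  classical
  set S := h.localCubic (p : ℕ) with hS
  obtain ⟨hN₀0, -, -, hN'0⟩ := hx.ne_zero
  set K₀ := levelK (φp M p) (N₀ : Op M p) with hK₀
  set K' := levelK (φp M p) (N' : Op M p) with hK'
  have := hx.deep
  have := hx.le
  have hcomap : K₀.comap S.ι = levelK (φp E p) (N₀ : Op E p) :=
    comap_levelK_natCast h hN₀0 (e := b) (by omega) hx.h₀
  have hcomap' : K'.comap S.ι = levelK (φp E p) (N' : Op E p) :=
    comap_levelK_natCast h hN'0 (e := c) (by omega) hx.hN'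
  have hKN : levelK (φp E p) (N : Op E p) ≤ K₀.comap S.ι :=
    hcomap ▸ levelK_le_of_dvd hx.dvd_levels.1
  have hK'N : K'.comap S.ι ≤ levelK (φp E p) (N : Op E p) :=
    hcomap' ▸ levelK_le_of_dvd hx.dvd_levels.2.1
  have hle : K' ≤ K₀ := levelK_le_of_dvd hx.dvd_levels.2.2
  have : Finite (Op M p ⧸ Ideal.span {(N' : Op M p)}) := by
    obtain ⟨u, hu⟩ := (associated_op (F := M) hx.hN').symm
    rw [← hu, Ideal.span_singleton_mul_right_unit u.isUnit]
    exact finite_quotient_padic_pow c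
  have := finite_levelK_quotient (φ := φp M p) φp_injective (N₀ := (N₀ : Op M p))
    (N' := (N' : Op M p))
  obtain ⟨m, hm, hlift⟩ := exists_coset_lift S.ι hle
    (fun k hk x hx' => levelK_conj (levelK_le_one _ hk) hx') hKN hK'N
  refine ⟨m, by exact_mod_cast hm, fun γ δ hδ hN => ?_, exists_tnorm_eq_of_fixed h hx⟩
  have hreg : IsUnit (S.φE (N₀ : Op E p)) := by
    rw [map_natCast]; exact isUnit_natCast_Lp hN₀0
  obtain ⟨β, hβ, hbij⟩ := S.exists_bijOn_ramified (n₀ := (N₀ : Op E p)) (n₁ := (N₁ : Op E p))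
    (N := (N : Op E p)) hreg (Or.inr (isUnit_one_add_jO h (e := b) (by omega) hx.h₀))
    (by rw [map_natCast]; exact hx.isDeep) (fun k hk => hx.exists_cube hk)
    (fun y hy => hx.cube_mem hy) hδ hN
  rw [map_natCast] at hbij
  change Set.BijOn (shiftMap S.ι K₀ β) (conjFix (K₀.comap S.ι) γ
    (levelK (φp E p) (N : Op E p) : Set (GL (Fin 2) (Lp E p)))) _ at hbij
  obtain ⟨q, hq1, hq2, hq3⟩ := hlift β
  have hsupp : ∀ g : GL (Fin 2) (Lp M p),
      ramLocKer h p N₀ N₁ N' (g : LocPt M N' p)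
        ((δ * S.θ g : GL (Fin 2) (Lp M p)) : LocPt M N' p) ≠ 0 ↔
      (g : GL (Fin 2) (Lp M p) ⧸ K₀) ∈ shiftMap S.ι K₀ β ''
        conjFix (K₀.comap S.ι) γ (levelK (φp E p) (N : Op E p) : Set (GL (Fin 2) (Lp E p))) := by
    intro g
    rw [ramLocKer_ne_zero_iff h hx δ g, hbij.image_eq]
    exact ⟨fun hg => mk_mem_twFix S.θ K₀ (isTwInvariant_twistedSetC _ _) hg, fun hg => hg g rfl⟩
  have hrange : ∀ g : GL (Fin 2) (Lp M p),
      ramLocKer h p N₀ N₁ N' (g : LocPt M N' p)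
        ((δ * S.θ g : GL (Fin 2) (Lp M p)) : LocPt M N' p) ≠ 0 →
      (g : GL (Fin 2) (Lp M p) ⧸ K₀) ∈ Set.range (shiftMap S.ι K₀ β) := fun g hg =>
    Set.image_subset_range _ _ ((hsupp g).mp hg)
  refine ⟨β, q, hβ, fun t ht g hg => hq1 t (Units.ext ?_) g (hrange g hg),
    fun g u hg hu => levelK_le_one _ (hq2 g u (hrange g hg) hu), fun z => ?_⟩
  · have hc : Commute (S.ι t).1 (S.ι γ).1 := by
      have := congrArg Units.val (ht.map S.ι).eq
      rwa [Units.val_mul, Units.val_mul] at this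
    rw [Units.val_mul, Units.val_mul]
    exact (Algebra.commute_of_mem_adjoin_singleton_of_commute hβ hc).symm.eq
  induction z using QuotientGroup.induction_on with
  | H u =>
    obtain ⟨hfin, hcard⟩ := hq3 (u : LocPt E N p)
    refine finite_and_ncard_support hle hsupp (mem_conjFix_iff ?_ γ u) hq2 hfin hcard
    intro k hk x hx'
    rw [hcomap] at hk
    exact levelK_conj (levelK_le_one _ hk) hx'

end Place

end FLTAgent.LanglandsTunnell.Local
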