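import Fermat.Agent.LanglandsTunnell.BadPrimes
import Fermat.Agent.LanglandsTunnell.Local.BadSplit
import Fermat.Agent.LanglandsTunnell.Local.RamifiedPrimes
import Fermat.Agent.LanglandsTunnell.Local.RamifiedPlace

/-!
# The levels of the test element

Tame ramified primes to the first power; bad primes to the power `B`; at `3`, unless split, deep
powers of `3`. `exists_levels` chooses them with the conditions at every prime.
-/

set_option autoImplicit false
set_option linter.unusedSectionVars false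

noncomputable section

namespace FLTAgent.LanglandsTunnell.Local

open scoped TensorProduct Pointwise
open FLTAgent.LanglandsTunnell FLTAgent.LanglandsTunnell.Isolation NumberField Matrix

variable (D : Datum)

/-- The prime `3`. -/
def threeP : Nat.Primes := ⟨3, Nat.prime_three⟩

open scoped Classical in
/-- The product of the ramified primes which are neither `3` nor bad. -/
def tamePart : ℕ :=
  ∏ p ∈ ((ramPrimes D).erase threeP).filter fun p : Nat.Primes => ¬ D.IsBad (p : ℕ), (p : ℕ)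

open scoped Classical in
/-- The exponent of `3` in `N₀` and `N₁`. -/
def deepExp : ℕ := if D.SplitAtThree then 0 else 3

open scoped Classical in
/-- The exponent of `3` in `N`. -/
def cubeExp (k : ℕ) : ℕ :=
  if D.SplitAtThree then 0 else if threeP ∈ ramPrimes D then 4 else max k 4

open scoped Classical in
/-- The exponent of `3` in `N'`. -/
def topExp (k : ℕ) : ℕ := if D.SplitAtThree then 0 else max k 4

/-- `3 ^ e` times the tame part times the bad part to the power `B`. -/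
def levelOf (B e : ℕ) : ℕ := 3 ^ e * tamePart D * D.badPart ^ B

theorem levelOf_ne_zero (B e : ℕ) : levelOf D B e ≠ 0 := by
  classical
  exact mul_ne_zero (mul_ne_zero (pow_ne_zero _ three_ne_zero)
    (Finset.prod_ne_zero_iff.mpr fun p _ => p.2.ne_zero)) (pow_ne_zero _ D.badPart_ne_zero)

theorem levelOf_dvd (B : ℕ) {e e' : ℕ} (h : e ≤ e') : levelOf D B e ∣ levelOf D B e' :=
  mul_dvd_mul_right (mul_dvd_mul_right (pow_dvd_pow _ h) _) _

theorem prime_dvd_tamePart {q : ℕ} (hq : q.Prime) :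
    q ∣ tamePart D ↔ q ≠ 3 ∧ ¬ D.IsBad q ∧ ∃ p ∈ ramPrimes D, (p : ℕ) = q := by
  classical
  rw [tamePart, hq.prime.dvd_finsetProd_iff]
  constructor
  · rintro ⟨p, hp, hd⟩
    obtain rfl := (Nat.prime_dvd_prime_iff_eq hq p.2).mp hd
    simp only [Finset.mem_filter, Finset.mem_erase] at hp
    exact ⟨fun h => hp.1.1 (Subtype.ext h), hp.2, p, hp.1.2, rfl⟩
  · rintro ⟨h3, hb, p, hp, rfl⟩
    exact ⟨p, Finset.mem_filter.mpr
      ⟨Finset.mem_erase.mpr ⟨fun h => h3 (congrArg Subtype.val h), hp⟩, hb⟩, dvd_rfl⟩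

theorem prime_dvd_levelOf {q : ℕ} (hq : q.Prime) {B : ℕ} (hB : B ≠ 0) (e : ℕ) :
    q ∣ levelOf D B e ↔
      (q = 3 ∧ e ≠ 0) ∨ D.IsBad q ∨ (q ≠ 3 ∧ ∃ p ∈ ramPrimes D, (p : ℕ) = q) := by
  rw [levelOf, hq.dvd_mul, hq.dvd_mul, prime_dvd_tamePart D hq, or_assoc]
  refine or_congr ⟨fun h => ?_, fun h => ?_⟩ ⟨fun h => ?_, fun h => ?_⟩
  · exact ⟨(Nat.prime_dvd_prime_iff_eq hq Nat.prime_three).mp (hq.dvd_of_dvd_pow h),
      fun he => hq.ne_one (by rw [he, pow_zero] at h; exact Nat.dvd_one.mp h)⟩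
  · rw [h.1]; exact dvd_pow_self 3 h.2
  · exact h.elim (fun h => Or.inr ⟨h.1, h.2.2⟩)
      fun h => Or.inl ((D.prime_dvd_badPart hq).mp (hq.dvd_of_dvd_pow h))
  · by_cases hb : D.IsBad q
    · exact Or.inr ((D.dvd_badPart hb).trans (dvd_pow_self _ hB))
    · exact Or.inl ((h.resolve_left hb).imp_right fun h => ⟨hb, h⟩)

theorem tame_eq {p : Nat.Primes} (hp : p ∈ ramPrimes D) (h3 : (p : ℕ) ≠ 3) (hb : ¬ D.IsBad p) :
    ∃ m, tamePart D = (p : ℕ) * m ∧ ¬ (p : ℕ) ∣ m := by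
  classical
  refine ⟨∏ q ∈ (((ramPrimes D).erase threeP).filter fun q : Nat.Primes =>
      ¬ D.IsBad (q : ℕ)).erase p, (q : ℕ),
    ?_, fun hd => ?_⟩
  · exact (Finset.mul_prod_erase _ _ (Finset.mem_filter.mpr
      ⟨Finset.mem_erase.mpr ⟨fun h => h3 (congrArg Subtype.val h), hp⟩, hb⟩)).symm
  · obtain ⟨q, hq, hd⟩ := (p.2.prime.dvd_finsetProd_iff _).mp hd
    exact (Finset.mem_erase.mp hq).1 (Subtype.ext ((Nat.prime_dvd_prime_iff_eq p.2 q.2).mp hd)).symm

theorem associated_of_eq {p : Nat.Primes} {a e m : ℕ} (h : a = (p : ℕ) ^ e * m)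
    (hm : ¬ (p : ℕ) ∣ m) :
    Associated (a : ℤ_[(p : ℕ)]) (((p : ℕ) : ℤ_[(p : ℕ)]) ^ e) := by
  have hu : IsUnit ((m : ℕ) : ℤ_[(p : ℕ)]) := by
    rw [PadicInt.isUnit_iff, PadicInt.norm_natCast_eq_one_iff]
    exact p.2.coprime_iff_not_dvd.mpr hm
  rw [h, Nat.cast_mul, Nat.cast_pow]
  exact associated_mul_unit_left _ _ hu

theorem not_dvd_three_pow {p : ℕ} (hp : p.Prime) (h3 : p ≠ 3) (e : ℕ) : ¬ p ∣ 3 ^ e := fun h =>
  h3 ((Nat.prime_dvd_prime_iff_eq hp Nat.prime_three).mp (hp.dvd_of_dvd_pow h))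

theorem associated_levelOf_tame {p : Nat.Primes} (hp : p ∈ ramPrimes D) (h3 : (p : ℕ) ≠ 3)
    (hb : ¬ D.IsBad p) (B e : ℕ) :
    Associated (levelOf D B e : ℤ_[(p : ℕ)]) (((p : ℕ) : ℤ_[(p : ℕ)]) ^ 1) := by
  obtain ⟨m, hm, hpm⟩ := tame_eq D hp h3 hb
  refine associated_of_eq (m := 3 ^ e * m * D.badPart ^ B)
    (by rw [levelOf, hm, pow_one]; ring) ?_
  rw [p.2.dvd_mul, p.2.dvd_mul]
  rintro ((h | h) | h)
  · exact not_dvd_three_pow p.2 h3 e h
  · exact hpm h
  · exact hb ((D.prime_dvd_badPart p.2).mp (p.2.dvd_of_dvd_pow h))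

/-- A bad prime divides a level to the power `B` exactly. -/
theorem levelOf_eq_of_isBad {p : Nat.Primes} (hb : D.IsBad p) (B e : ℕ) :
    ∃ m, levelOf D B e = (p : ℕ) ^ B * m ∧ ¬ (p : ℕ) ∣ m := by
  obtain ⟨m, hm⟩ := D.dvd_badPart hb
  have hpm : ¬ (p : ℕ) ∣ m := fun h => D.not_sq_dvd_badPart p.2 (by
    rw [hm, pow_two]; exact mul_dvd_mul_left _ h)
  refine ⟨3 ^ e * tamePart D * m ^ B, by rw [levelOf, hm, mul_pow]; ring, ?_⟩
  rw [p.2.dvd_mul, p.2.dvd_mul]
  rintro ((h | h) | h)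
  · exact not_dvd_three_pow p.2 hb.ne_three e h
  · exact ((prime_dvd_tamePart D p.2).mp h).2.1 hb
  · exact hpm (p.2.dvd_of_dvd_pow h)

theorem associated_levelOf_bad {p : Nat.Primes} (hb : D.IsBad p) (B e : ℕ) :
    Associated (levelOf D B e : ℤ_[(p : ℕ)]) (((p : ℕ) : ℤ_[(p : ℕ)]) ^ B) := by
  obtain ⟨m, hm, hpm⟩ := levelOf_eq_of_isBad D hb B e
  exact associated_of_eq hm hpm

theorem associated_levelOf_three (B e : ℕ) :
    Associated (levelOf D B e : ℤ_[(threeP : ℕ)]) (((threeP : ℕ) : ℤ_[(threeP : ℕ)]) ^ e) := by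
  refine associated_of_eq (m := tamePart D * D.badPart ^ B) (mul_assoc _ _ _) ?_
  rw [threeP.2.dvd_mul]
  rintro (h | h)
  · exact ((prime_dvd_tamePart D Nat.prime_three).mp h).1 rfl
  · exact D.not_three_dvd_badPart (Nat.prime_three.dvd_of_dvd_pow h)

/-! ### Components of the test element -/

section Comp

variable {D}
variable {σ : D.M ≃ₐ[ℚ] D.M}

theorem compAF_mapAF {F F' : Type} [Field F] [Field F'] (f : F →+* F') (p : Nat.Primes)
    (x : AF F) : compAF p (mapAF f x) = mapLp f (compAF p x) := by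
  induction x using TensorProduct.induction_on with
  | zero => simp
  | tmul a z => rfl
  | add x y hx hy => simp only [map_add, hx, hy]

theorem exists_gl_at {F : Type} [Field F] [NumberField F] {N : ℕ} {p : Nat.Primes}
    {x : GL (Fin 2) (Lp F p)} (hx : x ∈ congrGroup (φp F p) (N : Op F p)) :
    ∃ a ∈ principalSubgroup (Ideal.span {(N : 𝓞 F)}), compGL p a = x := by
  classical
  obtain ⟨a, ha⟩ := exists_gl_comp (F := F)
    (Function.update (fun q : Nat.Primes => (1 : GL (Fin 2) (Lp F q))) p x) {p} fun q hq => by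
      rw [Function.update_of_ne (Finset.notMem_singleton.mp hq)]; exact one_mem _
  refine ⟨a, mem_principalSubgroup_iff_comp.mpr fun q => ?_, by rw [ha, Function.update_self]⟩
  rw [ha]
  rcases eq_or_ne q p with rfl | hq
  · rwa [Function.update_self]
  · rw [Function.update_of_ne hq]; exact one_mem _

variable (h : CubicData D.incl σ.toRingEquiv)

theorem compGL_product (p : Nat.Primes) (k : GL (Fin 2) (AF D.M)) (y : GL (Fin 2) (AF D.E)) :
    compGL p (k * Matrix.GeneralLinearGroup.map (mapAF D.incl).toRingHom y *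
      (Matrix.GeneralLinearGroup.map (mapAF σ.toAlgHom.toRingHom).toRingHom k)⁻¹) =
    compGL p k * (h.localCubic (p : ℕ)).ι (compGL p y) *
      ((h.localCubic (p : ℕ)).θ (compGL p k))⁻¹ := by
  rw [map_mul, map_mul, map_inv]
  congr 1
  · congr 1
    exact Units.ext (Matrix.ext fun i j => compAF_mapAF D.incl p _)
  · congr 1
    exact Units.ext (Matrix.ext fun i j => compAF_mapAF _ p _)

include h in
/-- The test element, component by component. -/
theorem ramElement_iff {R : Finset Nat.Primes} {N₀ N₁ N' : ℕ} {ω : GL (Fin 2) (AF D.M)} :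
    ramElement D σ R N₀ N₁ N' ω ↔
      (∀ p ∈ R, compGL p ω ∈
        (h.localCubic (p : ℕ)).ramSet (N₀ : Op D.M p) (N₁ : Op D.E p)) ∧
      ∀ p ∉ R, compGL p ω ∈ congrGroup (φp D.M p) (N' : Op D.M p) := by
  refine and_congr (forall₂_congr fun p _ => ⟨?_, ?_⟩) (forall₂_congr fun p _ => ⟨?_, ?_⟩)
  · rintro ⟨k, hk, y, hy, e⟩
    exact ⟨compGL p k, mem_principalSubgroup_iff_comp.mp hk p, compGL p y,
      mem_principalSubgroup_iff_comp.mp hy p, e.trans (compGL_product h p k y)⟩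
  · rintro ⟨k, hk, y, hy, e⟩
    obtain ⟨k', hk', rfl⟩ := exists_gl_at hk
    obtain ⟨y', hy', rfl⟩ := exists_gl_at hy
    exact ⟨k', hk', y', hy', e.trans (compGL_product h p k' y').symm⟩
  · rintro ⟨k, hk, e⟩
    change compGL p ω = compGL p k at e
    rw [e]
    exact mem_principalSubgroup_iff_comp.mp hk p
  · intro hω
    obtain ⟨k, hk, e⟩ := exists_gl_at hω
    exact ⟨k, hk, e.symm⟩

end Comp

/-! ### The levels -/

section Levels

variable {D}
variable {σ : D.M ≃ₐ[ℚ] D.M} (hne : σ ≠ AlgEquiv.refl) (hfix : ∀ x, σ (D.incl x) = D.incl x)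

include hne hfix in
theorem not_split_of_three_mem (h : threeP ∈ ramPrimes D) : ¬ D.SplitAtThree := by
  obtain ⟨w, hw, h3, hr⟩ := mem_ramPrimes.mp h
  intro hs
  have := hw
  exact not_isRamPrime_of_split hne hfix hs (by simpa [threeP] using h3) hr

include hne hfix in
/-- With `3` ramified in `M/E` the shape at `3` is a line. -/
theorem lineShape_of_three_mem (h : threeP ∈ ramPrimes D) :
    ∀ A : ValuationSubring QB, A.LiesOverPrime 3 → LineShape D.ρ A := by
  obtain ⟨w, hw, h3, hr⟩ := mem_ramPrimes.mp h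
  have := hw
  have hw0 := ne_bot_of_natCast_mem threeP.2 h3
  obtain ⟨-, A', -, -, -, hA'⟩ := LanglandsTunnell.CFT.exists_placeOver w hw0
  obtain ⟨i, hi, hiE, hiM⟩ :=
    exists_inertia_notMem_galM hne hfix hw0 hr hA' threeP.2 h3
  refine fun A hA => (D.three A hA).resolve_right fun hss => hiM ((mem_galM D).mpr
    ⟨(mem_galE D).mp hiE, ?_⟩)
  obtain ⟨g, rfl⟩ :=
    Density.exists_smul_eq_of_liesOverPrime Nat.prime_three hA (hA'.liesOverPrime h3)
  have hc : Nat.card (((g • A).inertiaSubgroupIn ℚ).map D.ρ) = 8 := by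
    rw [← hss.2]
    exact le_antisymm (card_inertia_image_le (τ := g) rfl)
      (card_inertia_image_le (inv_smul_smul g A))
  have h8 : (⟨D.ρ i, i, hi, rfl⟩ : ((g • A).inertiaSubgroupIn ℚ).map D.ρ) ^ 8 = 1 := by
    rw [← hc]
    exact pow_card_eq_one'
  have h8' : (D.ρ i).1 ^ 8 = 1 := congrArg (fun x => (x.1 : GL (Fin 2) (ZMod 3)).1) h8
  have hd := (mem_galE D).mp hiE
  rw [eta_fin_two (D.ρ i).1] at h8' hd ⊢
  rw [det_fin_two_of] at hd
  rw [trace_fin_two_of]
  exact inQ8_of_pow_eight _ _ _ _ hd h8'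

include hne hfix in
/-- `N` and `N'` have the same power of `3`. -/
theorem cubeExp_eq_topExp (k : ℕ)
    (hk : (∀ A : ValuationSubring QB, A.LiesOverPrime 3 → LineShape D.ρ A) → k = 0) :
    cubeExp D k = topExp D k := by
  classical
  unfold cubeExp topExp
  split_ifs with hs h3 <;> try rfl
  rw [hk (lineShape_of_three_mem hne hfix h3)]
  rfl

include hne hfix in
theorem ramExponents {p : Nat.Primes} (hp : p ∈ ramPrimes D) (k : ℕ) {B : ℕ} (hB : 0 < B) :
    ∃ b c d, RamExponents p (levelOf D B (deepExp D)) (levelOf D B (deepExp D))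
      (levelOf D B (cubeExp D k)) (levelOf D B (topExp D k)) b c d := by
  rcases eq_or_ne p threeP with rfl | h3
  · have hns := not_split_of_three_mem hne hfix hp
    refine ⟨3, max k 4, 1, ⟨1, isUnit_one, by norm_num [threeP]⟩, le_rfl, le_max_right _ _, ?_, ?_,
      ?_, ?_⟩
    all_goals simp only [deepExp, cubeExp, topExp, hns, if_false, hp, if_true]
    all_goals exact associated_levelOf_three D B _
  · have h3' : (p : ℕ) ≠ 3 := fun h => h3 (Subtype.ext h)
    have hu : IsUnit ((3 : ℕ) : ℤ_[(p : ℕ)]) := by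
      rw [PadicInt.isUnit_iff, PadicInt.norm_natCast_eq_one_iff]
      exact (Nat.coprime_primes p.2 Nat.prime_three).mpr h3'
    have hr : ∃ r : ℤ_[(p : ℕ)], IsUnit r ∧ 3 * r = ((p : ℕ) : ℤ_[(p : ℕ)]) ^ 0 :=
      ⟨↑hu.unit⁻¹, (hu.unit⁻¹).isUnit, by rw [pow_zero, ← Nat.cast_ofNat, hu.mul_val_inv]⟩
    by_cases hb : D.IsBad p
    · exact ⟨B, B, 0, hr, hB, le_rfl, associated_levelOf_bad D hb _ _,
        associated_levelOf_bad D hb _ _, associated_levelOf_bad D hb _ _,
        associated_levelOf_bad D hb _ _⟩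
    · exact ⟨1, 1, 0, hr, le_rfl, le_rfl, associated_levelOf_tame D hp h3' hb _ _,
        associated_levelOf_tame D hp h3' hb _ _, associated_levelOf_tame D hp h3' hb _ _,
        associated_levelOf_tame D hp h3' hb _ _⟩

include hne hfix in
/-- The levels form a test level. -/
theorem isTestLevel (k B : ℕ) (hB : 0 < B)
    (hk : (∀ A : ValuationSubring QB, A.LiesOverPrime 3 → LineShape D.ρ A) → k = 0) :
    IsTestLevel D σ k B (ramPrimes D) (levelOf D B (deepExp D)) (levelOf D B (deepExp D))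
      (levelOf D B (cubeExp D k)) (levelOf D B (topExp D k)) := by
  classical
  have hB' : B ≠ 0 := hB.ne'
  have hns : threeP ∈ ramPrimes D → ¬ D.SplitAtThree := not_split_of_three_mem hne hfix
  have hle : cubeExp D k ≤ topExp D k ∧ deepExp D ≤ topExp D k ∧
      (topExp D k = 0 ↔ cubeExp D k = 0) ∧ (cubeExp D k = 0 ↔ D.SplitAtThree) := by
    unfold cubeExp topExp deepExp
    by_cases hs : D.SplitAtThree <;> by_cases h3 : threeP ∈ ramPrimes D <;>
      simp [hs, h3]
  refine ⟨levelOf_ne_zero D _ _, levelOf_dvd D B hle.1, levelOf_dvd D B hle.2.1,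
    fun q hq => ?_, fun p hp => ?_, fun hs => ?_, fun hs hd => ?_,
    fun ω κ hω hκ => ?_, ?_, fun q hq hd => ?_, fun p hp hb => ?_,
    fun p => mem_ramPrimes, fun q hq hd => ?_⟩
  · rw [prime_dvd_levelOf D hq hB', prime_dvd_levelOf D hq hB', Ne, hle.2.2.1]
  · rw [prime_dvd_levelOf D p.2 hB']
    rcases eq_or_ne p threeP with rfl | h3
    · exact Or.inl ⟨rfl, fun h => hns hp (hle.2.2.2.mp h)⟩
    · exact Or.inr (Or.inr ⟨fun h => h3 (Subtype.ext h), p, hp, rfl⟩)
  · exact (prime_dvd_levelOf D Nat.prime_three hB' _).mpr (Or.inl ⟨rfl, mt hle.2.2.2.mp hs⟩)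
  · rw [prime_dvd_levelOf D Nat.prime_three hB'] at hd
    rcases hd with ⟨-, he⟩ | h | ⟨h, -⟩
    exacts [he (hle.2.2.2.mpr hs), h.ne_three rfl, h rfl]
  · obtain ⟨h1, h2⟩ := (ramElement_iff (cubicData hne hfix)).mp hω
    have hκ' := mem_principalSubgroup_iff_comp.mp hκ
    constructor <;> refine (ramElement_iff (cubicData hne hfix)).mpr
      ⟨fun p hp => ?_, fun p hp => ?_⟩ <;> rw [map_mul]
    · obtain ⟨b, c, d, hx⟩ := ramExponents hne hfix hp k hB
      exact (hx.ramSet_mul_mem (cubicData hne hfix) (h1 p hp) (hκ' p)).1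
    · exact mul_mem (h2 p hp) (hκ' p)
    · obtain ⟨b, c, d, hx⟩ := ramExponents hne hfix hp k hB
      exact (hx.ramSet_mul_mem (cubicData hne hfix) (h1 p hp) (hκ' p)).2
    · exact mul_mem (hκ' p) (h2 p hp)
  · refine mul_dvd_mul (dvd_mul_of_dvd_left ?_ _) dvd_rfl
    by_cases hs : D.SplitAtThree
    · rw [hk (lineShape_of_split D hs), pow_zero]
      exact one_dvd _
    · simp only [topExp, hs, if_false]
      exact pow_dvd_pow _ (le_max_left _ _)
  · by_contra! h
    obtain ⟨h3, hb⟩ := h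
    have hc : (q ^ 2).Coprime (D.badPart ^ B) :=
      (hq.coprime_iff_not_dvd.mpr fun h => hb ((D.prime_dvd_badPart hq).mp h)).pow _ _
    have hd' : q ^ 2 ∣ tamePart D :=
      (((Nat.coprime_primes hq Nat.prime_three).mpr h3).pow 2 _).dvd_of_dvd_mul_left
        (hc.dvd_of_dvd_mul_right hd)
    obtain ⟨-, -, p, hp, rfl⟩ :=
      (prime_dvd_tamePart D hq).mp ((dvd_pow_self q two_ne_zero).trans hd')
    obtain ⟨m, hm, hpm⟩ := tame_eq D hp h3 hb
    rw [hm, pow_two] at hd'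
    exact hpm (Nat.dvd_of_mul_dvd_mul_left p.2.pos hd')
  · obtain ⟨m, hm, -⟩ := levelOf_eq_of_isBad D hb B (deepExp D)
    obtain ⟨m', hm', hpm⟩ := levelOf_eq_of_isBad D hb B (topExp D k)
    refine ⟨Dvd.intro _ hm.symm, Dvd.intro _ hm.symm, fun hd => ?_⟩
    rw [hm', pow_succ] at hd
    exact hpm (Nat.dvd_of_mul_dvd_mul_left (pow_pos p.2.pos B) hd)
  · rw [prime_dvd_levelOf D hq hB'] at hd
    exact hd.imp (·.1) (Or.imp_right fun h => h.2)

include hne hfix in
theorem absNorm_eq_of_map_ne {w : Ideal (𝓞 D.M)} [w.IsPrime] (hw : w ≠ ⊥)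
    (hu : ¬ IsRamPrime D w)
    (hσ : w.map (RingOfIntegers.mapRingHom σ.toRingEquiv.toRingHom) ≠ w) :
    Ideal.absNorm w = Ideal.absNorm (D.under w) := by
  rcases degreeOne_or_three hw hu with h | h
  · exact h.2.2
  exfalso
  refine hσ ?_
  set J := Ideal.map (RingOfIntegers.mapRingHom D.incl) (D.under w) with hJ
  have hJw : J ≤ w := Ideal.map_comap_le
  obtain ⟨K, hK⟩ := Ideal.dvd_iff_le.mpr hJw
  have hn := congrArg Ideal.absNorm hK
  rw [map_mul, hJ, absNorm_map, ← h.2.2] at hn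
  have h0 : Ideal.absNorm w ≠ 0 := fun e => hw (Ideal.absNorm_eq_zero_iff.1 e)
  have hK1 : Ideal.absNorm K = 1 :=
    (mul_left_cancel₀ h0 (hn.symm.trans (mul_one _).symm))
  rw [Ideal.absNorm_eq_one_iff.1 hK1, Ideal.mul_top] at hK
  rw [← hK, hJ, Ideal.map_map]
  congr 1
  exact RingHom.ext fun x => RingOfIntegers.ext (hfix _)

include hne hfix in
/-- **The levels of the test element and the conditions at every prime.** -/
theorem exists_levels (k B : ℕ) (hB : 0 < B)
    (hk : (∀ A : ValuationSubring QB, A.LiesOverPrime 3 → LineShape D.ρ A) → k = 0) :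
    ∃ (R : Finset Nat.Primes) (N₀ N₁ N N' : ℕ), IsTestLevel D σ k B R N₀ N₁ N N' ∧
      (∀ p ∈ R, ∃ c, IsRamifiedPlace (cubicData hne hfix) p N₀ N₁ N N' c) ∧
      (∀ p ∉ R, ∀ w : Ideal (𝓞 D.M), w.IsPrime → ((p : ℕ) : 𝓞 D.M) ∈ w →
        (∃ a : 𝓞 D.M, a - RingOfIntegers.mapRingHom σ.toRingEquiv.toRingHom a ∉ w) ∧
        ∃ a : 𝓞 D.M, a - RingOfIntegers.mapRingHom σ.toRingEquiv.toRingHom
          (RingOfIntegers.mapRingHom σ.toRingEquiv.toRingHom a) ∉ w) ∧
      ∀ p ∉ R, (p : ℕ) ∣ N' → ((p : ℕ) = 3 ∨ D.IsBad p) ∧ N = N' ∧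
        ∀ w : Ideal (𝓞 D.M), w.IsPrime → ((p : ℕ) : 𝓞 D.M) ∈ w →
          w.map (RingOfIntegers.mapRingHom σ.toRingEquiv.toRingHom) ≠ w ∧
            Ideal.absNorm w = Ideal.absNorm (D.under w) := by
  classical
  refine ⟨_, _, _, _, _, isTestLevel hne hfix k B hB hk, fun p hp => ?_, fun p hp w hw hpw => ?_,
    fun p hp hd => ?_⟩
  · obtain ⟨b, c, d, hx⟩ := ramExponents hne hfix hp k hB
    exact exists_isRamifiedPlace (cubicData hne hfix) hx
  · have := hw
    exact exists_sub_notMem hne hfix (ne_bot_of_natCast_mem p.2 hpw)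
      fun hr => hp (mem_ramPrimes.mpr ⟨w, hw, hpw, hr⟩)
  · rw [prime_dvd_levelOf D p.2 hB.ne'] at hd
    rcases hd with ⟨h3, he⟩ | hb | ⟨-, p', hp', e⟩
    rotate_left 2
    · exact absurd (Subtype.ext e ▸ hp') hp
    all_goals refine ⟨by tauto, congrArg _ (cubeExp_eq_topExp hne hfix k hk), fun w hw hpw => ?_⟩
    all_goals have := hw
    all_goals have hw0 := ne_bot_of_natCast_mem p.2 hpw
    all_goals have hu : ¬ IsRamPrime D w := fun hr => hp (mem_ramPrimes.mpr ⟨w, hw, hpw, hr⟩)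
    · have hns : ¬ D.SplitAtThree := fun hs => he (by simp [topExp, hs])
      have h3w : (3 : 𝓞 D.M) ∈ w := by simpa [h3] using hpw
      have hm := map_ne_of_not_split hne hfix hns h3w hu
      exact ⟨hm, absNorm_eq_of_map_ne hne hfix hw0 hu hm⟩
    · have hm := map_ne_of_isBad hne hfix hb hpw hu
      exact ⟨hm, absNorm_eq_of_map_ne hne hfix hw0 hu hm⟩

end Levels

end FLTAgent.LanglandsTunnell.Local
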