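import Fermat.Agent.LanglandsTunnell.Local.UnitMatch

/-!
# The factor of an idempotent

The quotient of a ring, of its fraction ring and of a local cubic setting by `1 - e`, and the
decomposition of points along a complete orthogonal family.
See `LocalCubic.corner`, `mem_levelK_of_cgl`.
-/

set_option autoImplicit false

noncomputable section

namespace FLTAgent.LanglandsTunnell.Local

open Matrix

/-- The factor of `e`. -/
abbrev Cnr {A : Type*} [CommRing A] (e : A) : Type _ := A ⧸ Ideal.span {1 - e}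

section Basic

variable {A : Type*} [CommRing A] {e : A}

/-- The projection to the factor. -/
abbrev cmk (e : A) : A →+* Cnr e := Ideal.Quotient.mk _

theorem cmk_eq_iff (he : IsIdempotentElem e) {a b : A} : cmk e a = cmk e b ↔ e * a = e * b := by
  rw [Ideal.Quotient.eq, Ideal.mem_span_singleton]
  refine ⟨fun ⟨c, hc⟩ => ?_, fun h => ⟨a - b, by linear_combination h⟩⟩
  have : e * (a - b) = 0 := by rw [hc]; linear_combination -c * he.eq
  linear_combination this

theorem cmk_self : cmk e e = 1 := by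
  rw [← map_one (cmk e), Ideal.Quotient.eq, Ideal.mem_span_singleton]
  exact ⟨-1, by ring⟩

theorem cmk_eq_zero_of_mul_eq_zero {a : A} (he : IsIdempotentElem e) (h : e * a = 0) :
    cmk e a = 0 := by
  rw [← map_zero (cmk e), cmk_eq_iff he, h, mul_zero]

theorem cmk_surjective : Function.Surjective (cmk e) := Ideal.Quotient.mk_surjective

end Basic

section Map

variable {A B : Type*} [CommRing A] [CommRing B]

/-- A map of rings on the factors. -/
def cnrMap (f : A →+* B) (e : A) : Cnr e →+* Cnr (f e) :=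
  Ideal.quotientMap (Ideal.span {1 - f e}) f (by
    rw [Ideal.span_singleton_le_iff_mem, Ideal.mem_comap, map_sub, map_one]
    exact Ideal.mem_span_singleton_self _)

theorem cnrMap_cmk (f : A →+* B) (e a : A) : cnrMap f e (cmk e a) = cmk (f e) (f a) := rfl

theorem cnrMap_injective {f : A →+* B} (hf : Function.Injective f) {e : A}
    (he : IsIdempotentElem e) : Function.Injective (cnrMap f e) := fun x y h => by
  obtain ⟨a, rfl⟩ := cmk_surjective x
  obtain ⟨b, rfl⟩ := cmk_surjective y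
  rw [cnrMap_cmk, cnrMap_cmk, cmk_eq_iff (he.map f), ← map_mul, ← map_mul] at h
  exact (cmk_eq_iff he).mpr (hf h)

/-- A map of rings between given factors. -/
def cnrHom (f : A →+* B) {e : A} {e' : B} (h : f e = e') : Cnr e →+* Cnr e' :=
  Ideal.quotientMap (Ideal.span {1 - e'}) f (by
    rw [Ideal.span_singleton_le_iff_mem, Ideal.mem_comap, map_sub, map_one, h]
    exact Ideal.mem_span_singleton_self _)

theorem cnrHom_cmk (f : A →+* B) {e : A} {e' : B} (h : f e = e') (a : A) :
    cnrHom f h (cmk e a) = cmk e' (f a) := rfl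

/-- An automorphism on the factor of a fixed idempotent. -/
def cnrAut (σ : A ≃+* A) {e : A} (h : σ e = e) : Cnr e ≃+* Cnr e :=
  RingEquiv.ofRingHom (cnrHom σ.toRingHom h)
    (cnrHom σ.symm.toRingHom (σ.symm_apply_eq.mpr h.symm))
    (Ideal.Quotient.ringHom_ext (RingHom.ext fun a => congrArg (cmk e) (σ.apply_symm_apply a)))
    (Ideal.Quotient.ringHom_ext (RingHom.ext fun a => congrArg (cmk e) (σ.symm_apply_apply a)))

end Map

namespace LocalCubic

variable {OE LE OM LM : Type*} [CommRing OE] [CommRing LE] [CommRing OM] [CommRing LM]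
  (S : LocalCubic OE LE OM LM) {e : OE}

/-- **The setting on the factor of an idempotent of the ground ring.** -/
def corner (he : IsIdempotentElem e) :
    LocalCubic (Cnr e) (Cnr (S.φE e)) (Cnr (S.jO e)) (Cnr (S.φM (S.jO e))) where
  φE := cnrMap S.φE e
  φM := cnrMap S.φM (S.jO e)
  j := cnrHom S.j (S.comm_j e).symm
  jO := cnrMap S.jO e
  σ := cnrAut S.σ (show S.σ (S.φM (S.jO e)) = _ by rw [← S.comm_σ, S.σO_jO])
  σO := cnrAut S.σO (S.σO_jO e)
  φE_inj := cnrMap_injective S.φE_inj he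
  φM_inj := cnrMap_injective S.φM_inj (he.map S.jO)
  j_inj x y h := by
    obtain ⟨a, rfl⟩ := cmk_surjective x
    obtain ⟨b, rfl⟩ := cmk_surjective y
    rw [cnrHom_cmk, cnrHom_cmk, cmk_eq_iff ((he.map S.jO).map S.φM), S.comm_j, ← map_mul,
      ← map_mul] at h
    exact (cmk_eq_iff (he.map S.φE)).mpr (S.j_inj h)
  comm_j x := by
    obtain ⟨a, rfl⟩ := cmk_surjective x
    exact congrArg (cmk _) (S.comm_j a)
  comm_σ x := by
    obtain ⟨a, rfl⟩ := cmk_surjective x
    exact congrArg (cmk _) (S.comm_σ a)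
  σ_three x := by
    obtain ⟨a, rfl⟩ := cmk_surjective x
    exact congrArg (cmk _) (S.σ_three a)
  σ_j x := by
    obtain ⟨a, rfl⟩ := cmk_surjective x
    exact congrArg (cmk _) (S.σ_j a)
  fixed x hx := by
    obtain ⟨a, rfl⟩ := cmk_surjective x
    have hE := (he.map S.jO).map S.φM
    have h1 := (cmk_eq_iff hE).mp hx
    have h2 : S.σ (S.φM (S.jO e) * a) = S.φM (S.jO e) * a := by
      rw [map_mul, ← S.comm_σ, S.σO_jO]
      exact h1
    obtain ⟨b, hb⟩ := S.fixed _ h2
    refine ⟨cmk _ b, (cmk_eq_iff hE).mpr ?_⟩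
    rw [hb, ← mul_assoc, hE.eq]
  fixedO x hx := by
    obtain ⟨a, rfl⟩ := cmk_surjective x
    have hE := he.map S.jO
    have h1 := (cmk_eq_iff hE).mp hx
    have h2 : S.σO (S.jO e * a) = S.jO e * a := by
      rw [map_mul, S.σO_jO]
      exact h1
    obtain ⟨b, hb⟩ := S.fixedO _ h2
    refine ⟨cmk _ b, (cmk_eq_iff hE).mpr ?_⟩
    rw [hb, ← mul_assoc, hE.eq]
  dual := S.dual.map (cmk _) _ fun _ => rfl
  sqClosed x := by
    obtain ⟨a, rfl⟩ := cmk_surjective x
    rintro ⟨b, hb⟩
    obtain ⟨b, rfl⟩ := cmk_surjective b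
    rw [cnrMap_cmk, ← map_pow, cmk_eq_iff ((he.map S.jO).map S.φM)] at hb
    obtain ⟨c, hc⟩ := S.sqClosed (S.φM (S.jO e) * a) ⟨S.jO e * b, by
      rw [map_mul, hb, mul_pow, pow_two (S.φM (S.jO e)), ((he.map S.jO).map S.φM).eq]⟩
    refine ⟨cmk _ c, (cmk_eq_iff ((he.map S.jO).map S.φM)).mpr ?_⟩
    rw [hc, ← mul_assoc, ((he.map S.jO).map S.φM).eq]

theorem corner_dual (he : IsIdempotentElem e) (hd : HasDualSystem (S.σO : OM →+* OM)) :
    HasDualSystem ((S.corner he).σO : Cnr (S.jO e) →+* Cnr (S.jO e)) :=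
  hd.map (cmk _) _ fun _ => rfl

end LocalCubic

section Padic

variable {A : Type*} [CommRing A] {p : ℕ} [Fact p.Prime] [Algebra ℤ_[p] A]

theorem isTorsionFree_cnr [Module.IsTorsionFree ℤ_[p] A] {e : A} (he : IsIdempotentElem e) :
    Module.IsTorsionFree ℤ_[p] (Cnr e) := by
  refine ⟨fun r hr x y h => ?_⟩
  obtain ⟨a, rfl⟩ := cmk_surjective x
  obtain ⟨b, rfl⟩ := cmk_surjective y
  refine (cmk_eq_iff he).mpr ?_
  have h' : cmk e (r • a) = cmk e (r • b) := h
  rw [cmk_eq_iff he, mul_smul_comm, mul_smul_comm] at h'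
  exact hr.isSMulRegular h'

end Padic

/-! ### Decomposition along a complete orthogonal family -/

section Decompose

variable {ι A B : Type*} [CommRing A] [CommRing B] {e : ι → A}

theorem cnr_ext [Fintype ι] (he : CompleteOrthogonalIdempotents e) {a b : A}
    (h : ∀ i, cmk (e i) a = cmk (e i) b) : a = b := by
  rw [← one_mul a, ← one_mul b, ← he.complete, Finset.sum_mul, Finset.sum_mul]
  exact Finset.sum_congr rfl fun i _ => (cmk_eq_iff (he.idem i)).mp (h i)

theorem cnr_exists [Fintype ι] (he : CompleteOrthogonalIdempotents e) (x : ∀ i, Cnr (e i)) :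
    ∃ a, ∀ i, cmk (e i) a = x i := by
  classical
  choose b hb using fun i => cmk_surjective (x i)
  refine ⟨∑ i, e i * b i, fun i => ?_⟩
  rw [← hb i, cmk_eq_iff (he.idem i), Finset.mul_sum, Finset.sum_eq_single i]
  · rw [← mul_assoc, (he.idem i).eq]
  · intro j _ hj
    rw [← mul_assoc, he.ortho hj.symm, zero_mul]
  · exact fun h => absurd (Finset.mem_univ i) h

/-- The component of an invertible matrix. -/
def cgl (e : A) : GL (Fin 2) A →* GL (Fin 2) (Cnr e) := GeneralLinearGroup.map (cmk e)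

theorem cgl_ext [Fintype ι] (he : CompleteOrthogonalIdempotents e) {g h : GL (Fin 2) A}
    (hh : ∀ i, cgl (e i) g = cgl (e i) h) : g = h :=
  Units.ext (Matrix.ext fun a b => cnr_ext he fun i =>
    congrArg (fun m : GL (Fin 2) _ => m.1 a b) (hh i))

theorem cgl_exists [Fintype ι] (he : CompleteOrthogonalIdempotents e)
    (x : ∀ i, GL (Fin 2) (Cnr (e i))) : ∃ g, ∀ i, cgl (e i) g = x i := by
  choose a ha using fun r c => cnr_exists he fun i => (x i).1 r c
  choose b hb using fun r c => cnr_exists he fun i => ((x i)⁻¹).1 r c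
  have h1 : ∀ i, (Matrix.of a).map (cmk (e i)) = (x i).1 := fun i =>
    Matrix.ext fun r c => ha r c i
  have h2 : ∀ i, (Matrix.of b).map (cmk (e i)) = ((x i)⁻¹).1 := fun i =>
    Matrix.ext fun r c => hb r c i
  have hone : ∀ i, (1 : Matrix (Fin 2) (Fin 2) A).map (cmk (e i)) = 1 := fun i =>
    Matrix.map_one _ (map_zero _) (map_one _)
  have key : ∀ P Q : Matrix (Fin 2) (Fin 2) A,
      (∀ i, P.map (cmk (e i)) * Q.map (cmk (e i)) = 1) → P * Q = 1 := fun P Q h =>
    Matrix.ext fun r c => cnr_ext he fun i => by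
      have := congrFun (congrFun (h i) r) c
      rw [← Matrix.map_mul, Matrix.map_apply] at this
      rw [this, ← hone i, Matrix.map_apply]
  exact ⟨⟨Matrix.of a, Matrix.of b, key _ _ fun i => by rw [h1, h2, Units.mul_inv],
    key _ _ fun i => by rw [h1, h2, Units.inv_mul]⟩, fun i => Units.ext (h1 i)⟩

variable {φ : A →+* B}

theorem cgl_mem_congrGroup {e₀ N : A} {g : GL (Fin 2) B} (hg : g ∈ congrGroup φ N) :
    cgl (φ e₀) g ∈ congrGroup (cnrMap φ e₀) (cmk e₀ N) := by
  have key : ∀ g : GL (Fin 2) B, InCongr φ N g.1 →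
      InCongr (cnrMap φ e₀) (cmk e₀ N) (cgl (φ e₀) g).1 := fun g hg => by
    obtain ⟨Y, ⟨X, rfl⟩, h⟩ := hg
    refine ⟨(1 + N • X).map (cmk e₀), ⟨X.map (cmk e₀), ?_⟩, ?_⟩
    · ext r c; simp [Matrix.one_apply, apply_ite (cmk e₀)]
    · ext r c
      show cmk (φ e₀) (φ _) = cmk (φ e₀) (g.1 r c)
      rw [← h]
      rfl
  exact ⟨key g hg.1, by rw [← map_inv]; exact key _ hg.2⟩

theorem cgl_mem_levelK {e₀ N : A} {g : GL (Fin 2) B} (hg : g ∈ levelK φ N) :
    cgl (φ e₀) g ∈ levelK (cnrMap φ e₀) (cmk e₀ N) := by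
  obtain ⟨u, k, hk, rfl⟩ := mem_levelK.mp hg
  rw [map_mul]
  refine mul_mem (le_sup_right (a := congrGroup (cnrMap φ e₀) (cmk e₀ N)) ?_)
    (le_sup_left (a := congrGroup (cnrMap φ e₀) (cmk e₀ N)) (cgl_mem_congrGroup hk))
  rw [cgl, GeneralLinearGroup.map_scalar]
  exact scalar_mem_center _

theorem mem_levelK_of_cgl [Fintype ι] (hφ : Function.Injective φ)
    (he : CompleteOrthogonalIdempotents e) {N : A} {g : GL (Fin 2) B}
    (h : ∀ i, cgl (φ (e i)) g ∈ levelK (cnrMap φ (e i)) (cmk (e i) N)) : g ∈ levelK φ N := by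
  have heB : CompleteOrthogonalIdempotents (φ ∘ e) := he.map φ
  choose u k hk hgk using fun i => mem_levelK.mp (h i)
  choose K hK1 hK2 using fun i =>
    exists_units_of_mem_congrGroup (cnrMap_injective hφ (he.idem i)) (hk i)
  obtain ⟨K₀, hK₀⟩ := cgl_exists he K
  obtain ⟨z, hz⟩ := cgl_exists heB fun i => GeneralLinearGroup.scalar (Fin 2) (u i)
  have hzc : z ∈ Subgroup.center (GL (Fin 2) B) := Subgroup.mem_center_iff.mpr fun b =>
    cgl_ext heB fun i => by
      rw [map_mul, map_mul, hz]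
      exact Subgroup.mem_center_iff.mp (scalar_mem_center _) _
  have hK0 : IsCongrOne N K₀.1 := by
    choose X hX using hK1
    choose X' hX' using fun r c => cnr_exists he fun i => X i r c
    refine ⟨Matrix.of X', Matrix.ext fun r c => cnr_ext he fun i => ?_⟩
    have := congrArg (fun m : GL (Fin 2) (Cnr (e i)) => m.1 r c) (hK₀ i)
    refine this.trans ?_
    show (K i).1 r c = _
    rw [hX i]
    simp [Matrix.one_apply, apply_ite (cmk (e i)), hX']
  have hg : g = GeneralLinearGroup.map φ K₀ * z := cgl_ext heB fun i => by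
    have h1 : cgl ((φ ∘ e) i) (GeneralLinearGroup.map φ K₀) = k i := by
      rw [← hK2 i, ← hK₀ i]; rfl
    rw [map_mul, hz, h1]
    exact (hgk i).trans (GeneralLinearGroup.scalar_commute (u i) (k i))
  rw [hg]
  exact mul_mem (le_sup_left (a := congrGroup φ N) (map_mem_congrGroup hK0))
    (le_sup_right (a := congrGroup φ N) hzc)

end Decompose

end FLTAgent.LanglandsTunnell.Local
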