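import Fermat.Agent.LanglandsTunnell.Local.InertLocal

/-!
# The data of one place over a rational prime

`CornerData` is the comparison at one place; it exists at a split place
(`IsSplitIdem.cornerData`) and at an inert place with at most two letters (`nonempty_inertData`,
`nonempty_inertData_zero`, `nonempty_inertData_one`).
-/

set_option autoImplicit false

noncomputable section

namespace FLTAgent.LanglandsTunnell.Local

open Matrix FLTAgent.LanglandsTunnell

namespace LocalCubic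

variable {OE LE OM LM : Type} [CommRing OE] [CommRing LE] [CommRing OM] [CommRing LM]
  (S : LocalCubic OE LE OM LM)

/-- The comparison at one place. -/
structure CornerData (n : OE) (γ : GL (Fin 2) LE) (isDiag : Prop) (hE : GL (Fin 2) LE → ℝ)
    (hM : GL (Fin 2) LM → ℝ) (pe k2 : QPt S.φE n → QPt S.φE n → ℂ)
    (km : QPt S.φM (S.jO n) → QPt S.φM (S.jO n) → ℂ) : Type where
  Q : PlainLocal 1 (fun u : QPt S.φE n => γ • u) pe k2 (S.commPairs n (S.jO n) γ) isDiag
    (S.IsNormAt γ) (fun u => hE u.out)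
  twist : ∀ (δ : GL (Fin 2) LM) (z : LEˣ), δ.1 ∈ Algebra.adjoin LM {(S.ι γ).1} →
    tnorm S.θ δ = S.ι (GeneralLinearGroup.scalar (Fin 2) z * γ) →
      Nonempty (TwistLocal Q (S.twMap (S.jO n) δ) km (fun v => hM v.out))
  finite_inv : ∀ K : QPt S.φE n → QPt S.φE n → ℂ,
    (∀ (c : GL (Fin 2) LE) x y, K (c • x) (c • y) = K x y) → SplitPlace.FinRows K →
      ∀ z, {u | Q.proj u = z ∧ K u (γ • u) ≠ 0}.Finite

variable {γ : GL (Fin 2) LE} {isDiag : Prop} {hE : GL (Fin 2) LE → ℝ} {hM : GL (Fin 2) LM → ℝ}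

/-- A split place. -/
def IsSplitIdem.cornerData {η : OM} (hη : S.IsSplitIdem η) (H : S.IsHeightPair hE hM) {n : OE}
    {I : Ideal OE} (hfin : SplitPlace.FinRows (nbrKer S.φE n I)) (m : Fin 3 → ℕ)
    (hdiag : isDiag → IsDiag2 γ) :
    S.CornerData n γ isDiag hE hM (iterKer (nbrKer S.φE n I) (m 0 + m 1 + m 2)) 0
      (hη.km n I m) where
  Q := hη.plain γ isDiag hE _
  twist _ _ hδ hN := ⟨hη.twist H hfin m hdiag hδ hN⟩
  finite_inv _ _ _ z := (Set.finite_singleton z).subset fun _ hu => hu.1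

variable {p : ℕ} [Fact p.Prime] [Algebra ℤ_[p] OM] [Module.Finite ℤ_[p] OM]
  [Module.IsTorsionFree ℤ_[p] OM] [IsArtinianRing LM] {π : OE} (U : IsUnifRing S.φE π)
  (U' : IsUnifRing S.φM (S.jO π))
  (hq : Nat.card (OM ⧸ Ideal.span {S.jO π}) = Nat.card (OE ⧸ Ideal.span {π}) ^ 3)
  (H : S.IsHeightPair hE hM) (hd : HasDualSystem (S.σO : OM →+* OM)) (hp : IsUnit (p : LM))
  (hpE : IsUnit (p : LE)) (hE' : IsPComplete (p : OE)) (hdiag : isDiag → IsDiag2 γ)
  (hreg : IsUnit (γ.1.trace ^ 2 - 4 * γ.1.det)) {lam : ℝ} (hlam : 0 ≤ lam)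
  (hlE : ∀ k : ℕ, hE (IsUnifRing.unip ((↑U.pi_unit.unit⁻¹ : LE) ^ k)) = lam * k)
  (hlM : ∀ k : ℕ, hM (IsUnifRing.unip ((↑U'.pi_unit.unit⁻¹ : LM) ^ k)) = 3 * lam * k)

include U U' hq H hd hp hpE hE' hdiag hreg hlam hlE hlM in
/-- An inert place, for trees. -/
theorem nonempty_inertData {j : ℕ} (hj : j ≤ 2) {pe k2 : QPt S.φE 1 → QPt S.φE 1 → ℂ}
    {km : QPt S.φM (S.jO 1) → QPt S.φM (S.jO 1) → ℂ} (hpe : pe = S.inertPe U j)
    (hk2 : k2 = S.inertK2 U lam j)
    (hkm : ∀ g g' : GL (Fin 2) LM, km (g : QPt S.φM (S.jO 1)) (g' : QPt S.φM (S.jO 1)) =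
      S.inertKm U U' j (g : QPt S.φM 1) (g' : QPt S.φM 1)) :
    Nonempty (S.CornerData 1 γ isDiag hE hM pe k2 km) := by
  suffices ∀ n' : OM, n' = 1 → ∀ km : QPt S.φM n' → QPt S.φM n' → ℂ,
      (∀ g g' : GL (Fin 2) LM, km (g : QPt S.φM n') (g' : QPt S.φM n') =
        S.inertKm U U' j (g : QPt S.φM 1) (g' : QPt S.φM 1)) →
      ∃ Q : PlainLocal 1 (fun u : QPt S.φE 1 => γ • u) pe k2 (S.commPairs 1 n' γ) isDiag
          (S.IsNormAt γ) (fun u => hE u.out),
        (∀ (δ : GL (Fin 2) LM) (z : LEˣ), δ.1 ∈ Algebra.adjoin LM {(S.ι γ).1} →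
          tnorm S.θ δ = S.ι (GeneralLinearGroup.scalar (Fin 2) z * γ) →
            Nonempty (TwistLocal Q (S.twMap n' δ) km (fun v => hM v.out))) ∧
        ∀ K : QPt S.φE 1 → QPt S.φE 1 → ℂ,
          (∀ (c : GL (Fin 2) LE) x y, K (c • x) (c • y) = K x y) → SplitPlace.FinRows K →
            ∀ z, {u | Q.proj u = z ∧ K u (γ • u) ≠ 0}.Finite by
    obtain ⟨Q, hQ, hQ'⟩ := this _ (map_one S.jO) km hkm
    exact ⟨⟨Q, hQ, hQ'⟩⟩
  rintro _ rfl km hkm
  have hkm' : km = S.inertKm U U' j := funext fun v => funext fun v' => by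
    induction v using QuotientGroup.induction_on with
    | H g =>
      induction v' using QuotientGroup.induction_on with
      | H g' => exact hkm g g'
  subst hpe hk2 hkm'
  exact ⟨S.inertPlain U H hd hp hpE hE' hdiag hreg hlE hlam hj, fun δ z hδ hN =>
    S.exists_inertTwist U U' H hd hp hpE hE' hdiag hreg hlE hlam hj hq hlM hδ hN,
    fun K hK hrow z => S.finite_inertProj_kernel U hdiag hreg K hK hrow z⟩

include U U' hq H hd hp hpE hE' hdiag hreg hlam hlE hlM in
/-- An inert place without letters. -/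
theorem nonempty_inertData_zero :
    Nonempty (S.CornerData 1 γ isDiag hE hM idKer 0 idKer) := by
  refine S.nonempty_inertData U U' hq H hd hp hpE hE' hdiag hreg hlam hlE hlM (j := 0)
    (by omega) ?_ ?_ fun g g' => ?_
  · rw [(U.tree).idKer_eq]
    rfl
  · funext x y
    simp [inertK2, kerW]
  · rw [inertKm, kerM, Function.iterate_zero_apply]
    have h1 : S.jO 1 = 1 := map_one S.jO
    by_cases h : (g : QPt S.φM (S.jO 1)) = (g' : QPt S.φM (S.jO 1))
    · rw [h, idKer_self]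
      have h' : (g : QPt S.φM 1) = (g' : QPt S.φM 1) := by
        rw [QuotientGroup.eq] at h ⊢; rwa [h1] at h
      rw [h', (U'.tree).d_self]
      rfl
    · rw [idKer_ne h]
      rcases hd0 : (U'.tree).d (g : QPt S.φM 1) (g' : QPt S.φM 1) with _ | k
      · refine absurd ?_ h
        have := ((U'.tree).d_eq_zero _ _).mp hd0
        rw [QuotientGroup.eq] at this ⊢; rwa [h1]
      · rfl

/-- The value of the plain kernel at one inert letter. -/
def inertDesc (q : ℕ) (k : QPt S.φE 1 → QPt S.φE 1 → ℂ) (x y : QPt S.φE 1) : ℂ :=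
  iterKer k 3 x y + -(3 * (q : ℂ)) * iterKer k 1 x y

include U U' hq H hd hp hpE hE' hdiag hreg hlam hlE hlM in
/-- An inert place with one letter. -/
theorem nonempty_inertData_one :
    Nonempty (S.CornerData 1 γ isDiag hE hM
      (S.inertDesc (Nat.card (OE ⧸ Ideal.span {π})) (nbrKer S.φE 1 (Ideal.span {π})))
      (fun x y => ((-(3 * ((Nat.card (OE ⧸ Ideal.span {π}) : ℝ) - 1) * lam) : ℝ) : ℂ) *
        iterKer (nbrKer S.φE 1 (Ideal.span {π})) 1 x y)
      (iterKer (nbrKer S.φM (S.jO 1) (Ideal.span {S.jO π})) 1)) := by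
  refine S.nonempty_inertData U U' hq H hd hp hpE hE' hdiag hreg hlam hlE hlM (j := 1)
    (by omega) ?_ ?_ fun g g' => ?_
  · rw [U.nbrKer_eq]
    exact (U.tree).descKer_eq
  · funext x y
    rw [U.nbrKer_eq, (U.tree).iterKer_adjKer]
    show _ = (lam : ℂ) * kerW (U.tree).q 1 ((U.tree).d x y)
    have : ∀ k, nstep (U.tree).q δ0 k = if k = 1 then 1 else 0 := fun k => by
      rcases k with _ | _ | k <;> simp [nstep, δ0]
    simp only [Function.iterate_one, this, kerW]
    push_cast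
    show -(3 * (((U.tree).q : ℂ) - 1) * (lam : ℂ)) * _ = _
    ring
  · have gen : ∀ n' : OM, n' = 1 →
        iterKer (nbrKer S.φM n' (Ideal.span {S.jO π})) 1 (g : QPt S.φM n') (g' : QPt S.φM n') =
          S.inertKm U U' 1 (g : QPt S.φM 1) (g' : QPt S.φM 1) := by
      rintro _ rfl
      rw [U'.nbrKer_eq, (U'.tree).kerM_one_eq (U.tree).q hq]
      rfl
    exact gen _ (map_one S.jO)

end LocalCubic

end FLTAgent.LanglandsTunnell.Local
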