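import Fermat.Agent.LanglandsTunnell.Local.LocalSpec

/-!
# The comparison at a split place

The points of the extension are triples of points, the twisted action is a shifted product by three
elements with product `γ`; the three kernels compose along the chain.
The data are `SplitSetting`.
-/

set_option autoImplicit false

noncomputable section

namespace FLTAgent.LanglandsTunnell.Local

open Function

namespace SplitPlace

variable {X : Type*}

/-- Composition of kernels with finite rows. -/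
def comp (k l : X → X → ℂ) (x y : X) : ℂ := ∑ᶠ z, k x z * l z y

/-- Finite rows. -/
def FinRows (k : X → X → ℂ) : Prop := ∀ x, (support (k x)).Finite

theorem comp_eq_sum {k : X → X → ℂ} (hk : FinRows k) (l : X → X → ℂ) (x y : X) {s : Finset X}
    (hs : (hk x).toFinset ⊆ s) : comp k l x y = ∑ z ∈ s, k x z * l z y :=
  finsum_eq_sum_of_support_subset _ fun _ hz =>
    hs ((hk x).mem_toFinset.mpr (left_ne_zero_of_mul hz))

theorem FinRows.comp {k l : X → X → ℂ} (hk : FinRows k) (hl : FinRows l) :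
    FinRows (SplitPlace.comp k l) := fun x => by
  refine ((hk x).biUnion fun z _ => hl z).subset fun y hy => ?_
  obtain ⟨z, hz⟩ := exists_ne_zero_of_finsum_mem_ne_zero (s := Set.univ)
    (f := fun z => k x z * l z y) (by rwa [finsum_mem_univ])
  exact Set.mem_biUnion (x := z) (left_ne_zero_of_mul hz.2) (right_ne_zero_of_mul hz.2)

theorem comp_assoc {k l m : X → X → ℂ} (hk : FinRows k) (hl : FinRows l) :
    comp (comp k l) m = comp k (comp l m) := by
  classical
  funext x y
  set s := (hk x).toFinset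
  set t := s.biUnion fun z => (hl z).toFinset with ht
  have hsub : ((hk.comp hl) x).toFinset ⊆ t := by
    intro w hw
    rw [Set.Finite.mem_toFinset] at hw
    obtain ⟨z, hz⟩ := exists_ne_zero_of_finsum_mem_ne_zero (s := Set.univ)
      (f := fun z => k x z * l z w) (by rwa [finsum_mem_univ])
    exact Finset.mem_biUnion.mpr ⟨z, (hk x).mem_toFinset.mpr (left_ne_zero_of_mul hz.2),
      (hl z).mem_toFinset.mpr (right_ne_zero_of_mul hz.2)⟩
  calc comp (comp k l) m x y = ∑ w ∈ t, comp k l x w * m w y := comp_eq_sum (hk.comp hl) m x y hsub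
    _ = ∑ w ∈ t, ∑ z ∈ s, k x z * l z w * m w y := Finset.sum_congr rfl fun w _ => by
        rw [comp_eq_sum hk l x w le_rfl, Finset.sum_mul]
    _ = ∑ z ∈ s, k x z * comp l m z y := by
        rw [Finset.sum_comm]
        refine Finset.sum_congr rfl fun z hz => ?_
        rw [comp_eq_sum hl m z y (s := t)
          (Finset.subset_biUnion_of_mem (fun z => (hl z).toFinset) hz),
          Finset.mul_sum]
        exact Finset.sum_congr rfl fun w _ => by ring
    _ = comp k (comp l m) x y := (comp_eq_sum hk _ x y le_rfl).symm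

/-- The sum along a chain of three kernels. -/
theorem finsum_chain {k l m : X → X → ℂ} (hk : FinRows k) (hl : FinRows l) (z w : X) :
    ({p : X × X | k z p.1 * l p.1 p.2 * m p.2 w ≠ 0}).Finite ∧
      ∑ᶠ p : X × X, k z p.1 * l p.1 p.2 * m p.2 w = comp (comp k l) m z w := by
  classical
  set s := (hk z).toFinset
  set t := s.biUnion fun a => (hl a).toFinset
  have hsub : {p : X × X | k z p.1 * l p.1 p.2 * m p.2 w ≠ 0} ⊆ ↑(s ×ˢ t) := fun p hp => by
    obtain ⟨⟨h1, h2⟩, -⟩ := (by simpa [mul_eq_zero, not_or] using hp :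
      (k z p.1 ≠ 0 ∧ l p.1 p.2 ≠ 0) ∧ m p.2 w ≠ 0)
    rw [Finset.coe_product]
    exact ⟨(hk z).mem_toFinset.mpr h1,
      Finset.mem_biUnion.mpr ⟨p.1, (hk z).mem_toFinset.mpr h1, (hl p.1).mem_toFinset.mpr h2⟩⟩
  refine ⟨(Finset.finite_toSet _).subset hsub, ?_⟩
  rw [finsum_eq_sum_of_support_subset _ hsub, Finset.sum_product, comp_assoc hk hl,
    comp_eq_sum hk _ z w le_rfl]
  refine Finset.sum_congr rfl fun a ha => ?_
  rw [comp_eq_sum hl m a w (s := t)
    (Finset.subset_biUnion_of_mem (fun a => (hl a).toFinset) ha), Finset.mul_sum]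
  exact Finset.sum_congr rfl fun b _ => by ring

end SplitPlace

/-- The data of a split place. -/
structure SplitSetting (G X X' : Type*) [Group G] [MulAction G X] where
  ψ : X' ≃ (Fin 3 → X)
  k : Fin 3 → X → X → ℂ
  k_smul : ∀ i (g : G) x y, k i (g • x) (g • y) = k i x y
  finRows : ∀ i, SplitPlace.FinRows (k i)
  k_comm : ∀ i j, SplitPlace.comp (k i) (k j) = SplitPlace.comp (k j) (k i)

namespace SplitSetting

open SplitPlace

variable {G X X' : Type*} [Group G] [MulAction G X] (S : SplitSetting G X X')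

/-- The kernel of the plain side. -/
def pe : X → X → ℂ := comp (comp (S.k 0) (S.k 1)) (S.k 2)

/-- The kernel of the twisted side. -/
def km (v v' : X') : ℂ := ∏ i, S.k i (S.ψ v i) (S.ψ v' i)

theorem pe_eq_120 : comp (comp (S.k 1) (S.k 2)) (S.k 0) = S.pe := by
  rw [pe, comp_assoc (S.finRows 1) (S.finRows 2), S.k_comm 2 0,
    ← comp_assoc (S.finRows 1) (S.finRows 0), S.k_comm 1 0]

theorem pe_eq_201 : comp (comp (S.k 2) (S.k 0)) (S.k 1) = S.pe := by
  rw [S.k_comm 2 0, comp_assoc (S.finRows 0) (S.finRows 2), S.k_comm 2 1,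
    ← comp_assoc (S.finRows 0) (S.finRows 1)]
  rfl

theorem fibre_id (z : X) (F : X → ℂ) : ∑ᶠ u ∈ {u | id u = z}, F u = F z := by
  rw [show {u : X | id u = z} = {z} from rfl, finsum_mem_singleton]

variable {γ : G} {a : Fin 3 → G}

/-- A fibre of one coordinate as a set of pairs. -/
theorem finsum_fibre {e : X' ≃ X × (X × X)} {k l m : X → X → ℂ} (hk : FinRows k)
    (hl : FinRows l) (γ : G) (F : X' → ℂ)
    (hF : ∀ v, F v = k (e v).1 (e v).2.1 * l (e v).2.1 (e v).2.2 * m (e v).2.2 (γ • (e v).1))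
    (z : X) :
    {v | (e v).1 = z ∧ F v ≠ 0}.Finite ∧
      ∑ᶠ v ∈ {v | (e v).1 = z}, F v = comp (comp k l) m z (γ • z) := by
  obtain ⟨hfin, hsum⟩ := finsum_chain (m := m) hk hl z (γ • z)
  let i : X × X → X' := fun p => e.symm (z, p)
  have hi : Injective i := fun p p' h => (Prod.ext_iff.mp (e.symm.injective h)).2
  have himg : {v | (e v).1 = z} = Set.range i := by
    ext v
    constructor
    · rintro (h : (e v).1 = z)
      exact ⟨(e v).2, e.injective (by simp [i, ← h])⟩
    · rintro ⟨p, rfl⟩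
      simp [i]
  refine ⟨(hfin.image i).subset ?_, ?_⟩
  · rintro v ⟨hv, hne⟩
    obtain ⟨p, rfl⟩ : v ∈ Set.range i := himg ▸ hv
    refine ⟨p, ?_, rfl⟩
    rw [hF] at hne
    simpa [i] using hne
  · rw [himg, finsum_mem_range hi, ← hsum]
    exact finsum_congr fun p => by rw [hF]; simp [i]

variable {f : X' → X'}

/-- The three coordinates moved into the frame of the first one. -/
def coord (a : Fin 3 → G) : Fin 3 → X' → X :=
  ![fun v => S.ψ v 0, fun v => a 0 • S.ψ v 1, fun v => (a 0 * a 1) • S.ψ v 2]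

/-- The triple seen from each of the three coordinates. -/
def frame (γ : G) (a : Fin 3 → G) (i : Fin 3) : X' ≃ X × (X × X) :=
  S.ψ.trans <| match i with
  | 0 =>
    { toFun := fun x => (x 0, a 0 • x 1, (a 0 * a 1) • x 2)
      invFun := fun y => ![y.1, (a 0)⁻¹ • y.2.1, (a 0 * a 1)⁻¹ • y.2.2]
      left_inv := fun x => funext fun j => by fin_cases j <;> simp [-mul_inv_rev, inv_smul_smul]
      right_inv := fun y => by simp [-mul_inv_rev, smul_inv_smul] }
  | 1 =>
    { toFun := fun x => (a 0 • x 1, (a 0 * a 1) • x 2, γ • x 0)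
      invFun := fun y => ![γ⁻¹ • y.2.2, (a 0)⁻¹ • y.1, (a 0 * a 1)⁻¹ • y.2.1]
      left_inv := fun x => funext fun j => by fin_cases j <;> simp [-mul_inv_rev, inv_smul_smul]
      right_inv := fun y => by simp [-mul_inv_rev, smul_inv_smul] }
  | 2 =>
    { toFun := fun x => ((a 0 * a 1) • x 2, γ • x 0, γ • a 0 • x 1)
      invFun := fun y => ![γ⁻¹ • y.2.1, (a 0)⁻¹ • γ⁻¹ • y.2.2, (a 0 * a 1)⁻¹ • y.1]
      left_inv := fun x => funext fun j => by fin_cases j <;> simp [-mul_inv_rev, inv_smul_smul]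
      right_inv := fun y => by simp [-mul_inv_rev, smul_inv_smul] }

variable (hf : ∀ v i, S.ψ (f v) i = a i • S.ψ v (i + 1)) (hγ : a 0 * a 1 * a 2 = γ)
include hf hγ

theorem km_eq (v : X') : S.km v (f v) = S.k 0 (S.ψ v 0) (a 0 • S.ψ v 1) *
    S.k 1 (a 0 • S.ψ v 1) ((a 0 * a 1) • S.ψ v 2) *
    S.k 2 ((a 0 * a 1) • S.ψ v 2) (γ • S.ψ v 0) := by
  rw [km, Fin.prod_univ_three, hf, hf, hf, ← hγ, mul_smul (a 0 * a 1) (a 2), S.k_smul 2,
    mul_smul (a 0), S.k_smul 1]
  simp [show (0 : Fin 3) + 1 = 1 from rfl, show (1 : Fin 3) + 1 = 2 from rfl,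
    show (2 : Fin 3) + 1 = 0 from rfl]

theorem sum_coord (i : Fin 3) (z : X) :
    {v | S.coord a i v = z ∧ S.km v (f v) ≠ 0}.Finite ∧
      ∑ᶠ v ∈ {v | S.coord a i v = z}, S.km v (f v) = S.pe z (γ • z) := by
  fin_cases i
  · exact finsum_fibre (e := S.frame γ a 0) (S.finRows 0) (S.finRows 1) γ
      (fun v => S.km v (f v)) (fun v => S.km_eq hf hγ v) z
  · rw [← S.pe_eq_120]
    refine finsum_fibre (e := S.frame γ a 1) (S.finRows 1) (S.finRows 2) γ
      (fun v => S.km v (f v)) (fun v => ?_) z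
    rw [S.km_eq hf hγ v]
    simp only [frame, Equiv.trans_apply, Equiv.coe_fn_mk, S.k_smul]
    ring
  · rw [← S.pe_eq_201]
    refine finsum_fibre (e := S.frame γ a 2) (S.finRows 2) (S.finRows 0) γ
      (fun v => S.km v (f v)) (fun v => ?_) z
    rw [S.km_eq hf hγ v]
    simp only [frame, Equiv.trans_apply, Equiv.coe_fn_mk, S.k_smul]
    ring

end SplitSetting

end FLTAgent.LanglandsTunnell.Local
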