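import Fermat.Agent.LanglandsTunnell.Local.LocalCubic

/-!
# An unramified place: twisted fixed cosets are the fixed cosets of the norm

Cosets fixed by `θ` modulo the level have fixed representatives (`exists_descend`), and the level
over the extension meets the ground in the level over the ground (`comap_levelK`).
-/

set_option autoImplicit false

noncomputable section

namespace FLTAgent.LanglandsTunnell.Local

open Matrix

namespace LocalCubic

variable {OE LE OM LM : Type*} [CommRing OE] [CommRing LE] [CommRing OM] [CommRing LM]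
  (S : LocalCubic OE LE OM LM)

theorem scalar_map_mem_congrGroup {O L : Type*} [CommRing O] [CommRing L] {φ : O →+* L}
    (a : Oˣ) : GeneralLinearGroup.scalar (Fin 2) (Units.map φ.toMonoidHom a) ∈ congrGroup φ 1 :=
  Matrix.GeneralLinearGroup.map_scalar (n := Fin 2) φ a ▸
    map_mem_congrGroup (isCongrOne_of_isUnit isUnit_one _)

theorem exists_unit_of_scalar_mem {u : LMˣ} {N : OM}
    (h : GeneralLinearGroup.scalar (Fin 2) u ∈ congrGroup S.φM N) :
    ∃ a : OMˣ, Units.map S.φM.toMonoidHom a = u := by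
  obtain ⟨k, -, hk⟩ := exists_units_of_mem_congrGroup S.φM_inj h
  obtain ⟨⟨Y', -, hY'⟩⟩ := And.intro h.2 trivial
  have h0 : S.φM (k.1 0 0) = u := by
    have hk' : k.1.map S.φM = (GeneralLinearGroup.scalar (Fin 2) u).1 := congrArg Units.val hk
    have := congrFun (congrFun hk' 0) 0
    simpa [GeneralLinearGroup.coe_scalar] using this
  have h1 : S.φM (Y' 0 0) = (↑u⁻¹ : LM) := by
    have := congrFun (congrFun hY' 0) 0
    rw [← map_inv (GeneralLinearGroup.scalar (Fin 2)) u, GeneralLinearGroup.coe_scalar] at this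
    simpa using this
  have h2 : k.1 0 0 * Y' 0 0 = 1 := S.φM_inj (by rw [map_mul, h0, h1, u.mul_inv, map_one])
  exact ⟨⟨_, _, h2, by rw [mul_comm]; exact h2⟩, Units.ext h0⟩

theorem sq_unit_closed {u : LMˣ} {a : OMˣ} (h : Units.map S.φM.toMonoidHom a = u ^ 2) :
    ∃ v : OMˣ, Units.map S.φM.toMonoidHom v = u := by
  obtain ⟨v, hv⟩ := S.sqClosed (u : LM) ⟨a, by simpa using congrArg Units.val h⟩
  have h2 : v * v = a := S.φM_inj (by
    rw [map_mul, hv]; simpa [pow_two] using (congrArg Units.val h).symm)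
  have hv' : IsUnit v := isUnit_of_mul_isUnit_left (h2 ▸ a.isUnit : IsUnit (v * v))
  exact ⟨hv'.unit, Units.ext hv⟩

theorem det_θ (g : GL (Fin 2) LM) : (S.θ g).det = Units.map S.σ.toMonoidHom g.det :=
  Units.ext (det_map' (φ := (S.σ : LM →+* LM)) g.1)

theorem det_ι (g : GL (Fin 2) LE) : (S.ι g).det = Units.map S.j.toMonoidHom g.det :=
  Units.ext (det_map' (φ := S.j) g.1)

theorem det_tnorm (g : GL (Fin 2) LM) : (tnorm S.θ g).det = S.nrm g.det := by
  simp only [tnorm, map_mul, det_θ, nrm]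

theorem det_scalar' {L : Type*} [CommRing L] (u : Lˣ) :
    (GeneralLinearGroup.scalar (Fin 2) u).det = u ^ 2 := by
  rw [GeneralLinearGroup.det_scalar, Fintype.card_fin]

/-- Cosets fixed by `θ` modulo the level have fixed representatives. -/
theorem exists_descend [Finite (MaximalSpectrum OM)] (hd : HasDualSystem (S.σO : OM →+* OM))
    {g : GL (Fin 2) LM} (hg : g⁻¹ * S.θ g ∈ levelK S.φM 1) :
    ∃ h : GL (Fin 2) LE, (S.ι h)⁻¹ * g ∈ levelK S.φM 1 := by
  obtain ⟨u, k, hk, hgk⟩ := mem_levelK.mp hg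
  have hθk : ∀ x ∈ congrGroup S.φM 1, S.θ x ∈ congrGroup S.φM 1 :=
    fun x hx => S.θ_mem_congrGroup (map_one S.σO) hx
  have htn1 : tnorm S.θ (g⁻¹ * S.θ g) = 1 := by
    have := tnorm_twist S.θ_three g 1
    rw [mul_one] at this
    rw [this, tnorm, map_one, map_one]
    group
  have htn : tnorm S.θ (GeneralLinearGroup.scalar (Fin 2) u * k)
      = GeneralLinearGroup.scalar (Fin 2) (S.nrm u) * tnorm S.θ k := by
    rw [← tnorm_scalar, tnorm, tnorm, tnorm, map_mul, map_mul, θ_scalar, θ_scalar]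
    have c : ∀ (w : LMˣ) (x : GL (Fin 2) LM),
        x * GeneralLinearGroup.scalar (Fin 2) w = GeneralLinearGroup.scalar (Fin 2) w * x :=
      fun w x => Subgroup.mem_center_iff.mp (scalar_mem_center w) x
    simp only [mul_assoc]
    congr 1
    rw [← mul_assoc k, c, mul_assoc]
    congr 1
    rw [← mul_assoc (S.θ k), c, mul_assoc, ← mul_assoc k, c, mul_assoc]
  obtain ⟨a, ha⟩ := S.exists_unit_of_scalar_mem (u := S.nrm u) (N := 1) (by
    have h1 := htn1
    rw [hgk, htn] at h1
    rw [eq_inv_of_mul_eq_one_left h1]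
    exact inv_mem (mul_mem (mul_mem hk (hθk _ hk)) (hθk _ (hθk _ hk))))
  obtain ⟨b, hb⟩ := det_mem_of_mem_congrGroup S.φM_inj hk
  obtain ⟨v, y, hvy⟩ := S.exists_eq_of_nrm (u := u) (x := g.det) (b := b) ha.symm (by
    have := congrArg GeneralLinearGroup.det hgk
    rw [map_mul, map_inv, det_θ, map_mul, det_scalar', ← hb, inv_mul_eq_iff_eq_mul] at this
    rw [this, mul_comm g.det])
  set g' := g * (GeneralLinearGroup.scalar (Fin 2) y)⁻¹ with hg'
  have hk' : g'⁻¹ * S.θ g'
      = GeneralLinearGroup.scalar (Fin 2) (Units.map S.φM.toMonoidHom v) * k := by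
    have hc := Subgroup.mem_center_iff.mp (scalar_mem_center (L := LM) y)
    rw [hg', map_mul, map_inv, θ_scalar, _root_.mul_inv_rev, inv_inv, mul_assoc, ← mul_assoc g⁻¹,
      hgk, ← mul_assoc, ← mul_assoc, ← map_mul, mul_comm y u, hvy, map_mul]
    have hc' := Subgroup.mem_center_iff.mp (scalar_mem_center (L := LM)
      (Units.map S.σ.toMonoidHom y))
    rw [mul_assoc (GeneralLinearGroup.scalar (Fin 2) (Units.map S.φM.toMonoidHom v)) _ k, ← hc' k]
    group
  obtain ⟨κ, -, hκ⟩ := exists_units_of_mem_congrGroup S.φM_inj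
    (mul_mem (scalar_map_mem_congrGroup (φ := S.φM) v) hk : GeneralLinearGroup.scalar (Fin 2)
      (Units.map S.φM.toMonoidHom v) * k ∈ congrGroup S.φM 1)
  rw [← hκ] at hk'
  have hθmap : ∀ x : GL (Fin 2) OM, S.θ (GeneralLinearGroup.map S.φM x)
      = GeneralLinearGroup.map S.φM (GeneralLinearGroup.map (S.σO : OM →+* OM) x) := fun x =>
    Units.ext (Matrix.ext fun i j => (S.comm_σ _).symm)
  have hinj : Function.Injective (GeneralLinearGroup.map (n := Fin 2) S.φM) := fun x y hxy => by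
    have h : x.1.map S.φM = y.1.map S.φM := congrArg Units.val hxy
    exact Units.ext (Matrix.ext fun i j => S.φM_inj (congrFun (congrFun h i) j))
  have hσ3 : ∀ a, (S.σO : OM →+* OM) ((S.σO : OM →+* OM) ((S.σO : OM →+* OM) a)) = a := fun a =>
    S.φM_inj (by simp [S.comm_σ, S.σ_three])
  obtain ⟨β, hβ, hβ'⟩ := exists_twistSum_isUnit hd hσ3 (k := κ.1) (by
    have h1 : κ * GeneralLinearGroup.map (S.σO : OM →+* OM) κ * GeneralLinearGroup.map
        (S.σO : OM →+* OM) (GeneralLinearGroup.map (S.σO : OM →+* OM) κ) = 1 := by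
      refine hinj ?_
      rw [map_mul, map_mul, ← hθmap, ← hθmap, ← hθmap, ← hk', map_one]
      show tnorm S.θ (g'⁻¹ * S.θ g') = 1
      have := tnorm_twist S.θ_three g' 1
      rw [mul_one] at this
      rw [this, tnorm, map_one, map_one]
      group
    exact congrArg Units.val h1)
  obtain ⟨βu, hβu⟩ := (Matrix.isUnit_iff_isUnit_det _).mpr hβ
  have hfix : S.θ (g' * GeneralLinearGroup.map S.φM βu) = g' * GeneralLinearGroup.map S.φM βu := by
    rw [map_mul, hθmap, show S.θ g' = g' * GeneralLinearGroup.map S.φM κ by rw [← hk']; group,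
      mul_assoc, ← map_mul]
    congr 2
    exact Units.ext (by rw [Units.val_mul]; show κ.1 * βu.1.map _ = _; rw [hβu, hβ'])
  obtain ⟨h, hh⟩ := S.exists_ι hfix
  refine ⟨h, ?_⟩
  rw [hh, hg', show (g * (GeneralLinearGroup.scalar (Fin 2) y)⁻¹ *
    GeneralLinearGroup.map S.φM βu)⁻¹ * g
      = (GeneralLinearGroup.map S.φM βu)⁻¹ * GeneralLinearGroup.scalar (Fin 2) y by group]
  exact mul_mem (inv_mem (le_sup_left (a := congrGroup S.φM 1)
      (map_mem_congrGroup (isCongrOne_of_isUnit isUnit_one _))))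
    (le_sup_right (a := congrGroup S.φM 1) (scalar_mem_center y))

/-- The level over the extension meets the ground in the level over the ground. -/
theorem comap_levelK (n : OE) (hreg : IsUnit (S.φE n))
    (hn : IsUnit n ∨ ∀ x : OM, IsUnit (1 + S.jO n * x)) :
    (levelK S.φM (S.jO n)).comap S.ι = levelK S.φE n := by
  refine le_antisymm (fun g hg => ?_) fun g hg => S.ι_mem_levelK hg
  obtain ⟨u, k, hk, hgk⟩ := mem_levelK.mp (Subgroup.mem_comap.mp hg)
  set s := Units.map S.σ.toMonoidHom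
  -- `σ u / u` is a unit
  have hε : GeneralLinearGroup.scalar (Fin 2) (u⁻¹ * s u)
      = k * (S.θ k)⁻¹ := by
    have h1 := congrArg S.θ hgk
    rw [θ_ι, map_mul, θ_scalar] at h1
    have h2 : GeneralLinearGroup.scalar (Fin 2) (s u) * S.θ k
        = GeneralLinearGroup.scalar (Fin 2) u * k := h1.symm.trans hgk
    rw [map_mul, map_inv, eq_mul_inv_iff_mul_eq, mul_assoc, h2, inv_mul_cancel_left]
  obtain ⟨ε, hε'⟩ := S.exists_unit_of_scalar_mem (u := u⁻¹ * s u) (N := 1) (hε ▸
    mul_mem (congrGroup_le_one _ hk) (inv_mem (S.θ_mem_congrGroup (map_one S.σO)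
      (congrGroup_le_one _ hk))))
  obtain ⟨d, hd⟩ := det_mem_of_mem_congrGroup S.φM_inj hk
  set f := Units.map S.φM.toMonoidHom
  set c := Units.map S.j.toMonoidHom
  have hu2 : u ^ 2 = c g.det * (f d)⁻¹ := by
    have := congrArg GeneralLinearGroup.det hgk
    rw [det_ι, map_mul, det_scalar', ← hd] at this
    rw [eq_mul_inv_iff_mul_eq, this]
  obtain ⟨a, ha⟩ : ∃ a : LEˣ, c a = S.nrm u := by
    obtain ⟨a, ha⟩ := S.fixed _ (S.σ_nrm u)
    obtain ⟨a', ha'⟩ := S.fixed ((S.nrm u)⁻¹ : LMˣ).1 (by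
      have h1 := congrArg S.σ (S.nrm u).mul_inv
      rw [map_mul, σ_nrm, map_one] at h1
      exact (S.nrm u).isUnit.mul_left_cancel (h1.trans (S.nrm u).mul_inv.symm))
    have h2 : a * a' = 1 := S.j_inj (by rw [map_mul, ha, ha', Units.mul_inv, map_one])
    exact ⟨⟨a, a', h2, by rw [mul_comm]; exact h2⟩, Units.ext ha⟩
  have hu : u = c (a * g.det⁻¹) * (f d * ((f ε) ^ 2 * s (f ε))⁻¹) := by
    have h3 : u ^ 3 = S.nrm u * ((f ε) ^ 2 * s (f ε))⁻¹ := by
      rw [eq_mul_inv_iff_mul_eq, hε']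
      simp only [nrm, map_mul, map_inv, s]
      refine Additive.ofMul.injective ?_
      simp only [ofMul_mul, ofMul_inv, ofMul_pow]
      abel
    calc u = u ^ 3 * (u ^ 2)⁻¹ := by rw [pow_succ' u 2, mul_inv_cancel_right]
      _ = _ := by
        rw [h3, hu2, ← ha, map_mul, map_inv]
        refine Additive.ofMul.injective ?_
        simp only [ofMul_mul, ofMul_inv]
        abel
  obtain ⟨v, hv⟩ : ∃ v : OMˣ, f v = f d * ((f ε) ^ 2 * s (f ε))⁻¹ := by
    refine ⟨d * (ε ^ 2 * Units.map (S.σO : OM →+* OM).toMonoidHom ε)⁻¹, ?_⟩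
    rw [map_mul, map_inv, map_mul, map_pow]
    congr 3
    exact Units.ext (S.comm_σ _)
  rw [← hv] at hu
  -- remove the ground scalar
  set g' := (GeneralLinearGroup.scalar (Fin 2) (a * g.det⁻¹))⁻¹ * g with hg'
  have hg'k : S.ι g' = GeneralLinearGroup.scalar (Fin 2) (f v) * k := by
    rw [hg', map_mul, map_inv, ι_scalar, hgk, hu, map_mul (GeneralLinearGroup.scalar (Fin 2)),
      mul_assoc, inv_mul_cancel_left]
  obtain ⟨Y, ⟨X, hX⟩, hYk⟩ := hk.1
  obtain ⟨Y', -, hY'⟩ := (congrGroup_le_one _ (mul_mem (scalar_map_mem_congrGroup (φ := S.φM) v)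
    (congrGroup_le_one _ hk)) : GeneralLinearGroup.scalar (Fin 2) (f v) * k ∈ congrGroup S.φM 1).2
  have hfix : ∀ (M : Matrix (Fin 2) (Fin 2) OM) (N : Matrix (Fin 2) (Fin 2) LE),
      M.map S.φM = N.map S.j → ∃ C : Matrix (Fin 2) (Fin 2) OE, C.map S.jO = M ∧ C.map S.φE = N :=
    fun M N h => by
      choose C hC using fun i j => S.fixedO (M i j) (S.φM_inj (by
        rw [S.comm_σ, show S.φM (M i j) = S.j (N i j) from congrFun (congrFun h i) j, S.σ_j]))
      exact ⟨Matrix.of C, Matrix.ext hC, Matrix.ext fun i j => S.j_inj (by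
        show S.j (S.φE (C i j)) = _
        rw [← S.comm_j, hC]; exact congrFun (congrFun h i) j)⟩
  have hval : (S.ι g').1 = ((v : OM) • Y).map S.φM := by
    rw [hg'k, Units.val_mul, GeneralLinearGroup.coe_scalar, ← hYk]
    ext i j
    simp [Matrix.scalar_apply, f]
  obtain ⟨C, hC, hC'⟩ := hfix _ _ hval.symm
  obtain ⟨C', -, hC''⟩ := hfix Y' (g'⁻¹).1 (by rw [hY', ← hg'k, ← map_inv]; rfl)
  have hCmem : ∃ c₀ : OE, ∃ D : Matrix (Fin 2) (Fin 2) OE, C = c₀ • (1 + n • D) ∧ IsUnit c₀ := by
    have hCC : IsUnit C.det := by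
      have : C.map S.φE * C'.map S.φE = 1 := by rw [hC', hC'']; exact g'.mul_inv
      refine IsUnit.of_mul_eq_one C'.det (S.φE_inj ?_)
      rw [map_mul, ← det_map', ← det_map', ← Matrix.det_mul, this, Matrix.det_one, map_one]
    rcases hn with hn | hn
    · exact ⟨1, (↑hn.unit⁻¹ : OE) • (C - 1), by
        rw [one_smul, smul_smul, IsUnit.mul_val_inv, one_smul]; abel, isUnit_one⟩
    · -- the diagonal entry
      have hreg' : ∀ x : OM, S.σO (S.jO n * x) = S.jO n * x → S.σO x = x := fun x hx => by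
        rw [map_mul, σO_jO] at hx
        refine S.φM_inj ((hreg.map S.j).mul_left_cancel ?_)
        rw [← S.comm_j, ← map_mul, ← map_mul, hx]
      have hdiff : ∀ i j, ∃ e : OE, C i j = (if i = j then C 0 0 else 0) + n * e := fun i j => by
        have hij : ∀ i j, S.jO (C i j) = (v : OM) * ((if i = j then 1 else 0) + S.jO n * X i j) :=
          fun i j => by
          have := congrFun (congrFun hC i) j
          simpa [hX, Matrix.one_apply] using this
        have h1 : S.jO (C i j - (if i = j then C 0 0 else 0))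
            = S.jO n * ((v : OM) * (X i j - if i = j then X 0 0 else 0)) := by
          rw [map_sub, apply_ite S.jO, map_zero, hij i j, hij 0 0, if_pos rfl]
          split_ifs <;> ring
        obtain ⟨e, he⟩ := S.fixedO _ (hreg' _ (by rw [← h1, σO_jO]))
        refine ⟨e, ?_⟩
        have : Function.Injective S.jO := fun x y hxy => S.φE_inj (S.j_inj (by
          rw [← S.comm_j, hxy, S.comm_j]))
        refine this ?_
        rw [map_add, map_mul, he, ← h1, map_sub]
        ring
      choose e he using hdiff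
      have hc : IsUnit (C 0 0) := S.isUnit_of_jO (by
        have := congrFun (congrFun hC 0) 0
        rw [Matrix.map_apply] at this
        rw [this]
        simp only [hX, Matrix.smul_apply, Matrix.add_apply, Matrix.one_apply_eq, smul_eq_mul]
        exact v.isUnit.mul (hn _))
      refine ⟨C 0 0, (↑hc.unit⁻¹ : OE) • Matrix.of e, ?_, hc⟩
      ext i j
      rw [he i j]
      simp only [Matrix.smul_apply, Matrix.add_apply, Matrix.one_apply, Matrix.of_apply,
        smul_eq_mul]
      have := hc.mul_val_inv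
      split_ifs <;> linear_combination -(n * e i j) * this
  obtain ⟨c₀, D, hCD, hc₀⟩ := hCmem
  have hunit : IsUnit (1 + n • D) := by
    rw [Matrix.isUnit_iff_isUnit_det]
    have : IsUnit C.det := by
      have : C.map S.φE * C'.map S.φE = 1 := by rw [hC', hC'']; exact g'.mul_inv
      refine IsUnit.of_mul_eq_one C'.det (S.φE_inj ?_)
      rw [map_mul, ← det_map', ← det_map', ← Matrix.det_mul, this, Matrix.det_one, map_one]
    rw [hCD, Matrix.det_smul] at this
    exact isUnit_of_mul_isUnit_right this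
  refine mem_levelK.mpr ⟨a * g.det⁻¹ * Units.map S.φE.toMonoidHom hc₀.unit,
    GeneralLinearGroup.map S.φE hunit.unit, map_mem_congrGroup ⟨D, rfl⟩, ?_⟩
  rw [map_mul, mul_assoc, ← inv_mul_eq_iff_eq_mul]
  show g' = _
  refine Units.ext (hC'.symm.trans ?_)
  rw [Units.val_mul, hCD, GeneralLinearGroup.coe_scalar]
  ext i j
  simp [Matrix.scalar_apply, mul_add]

end LocalCubic

end FLTAgent.LanglandsTunnell.Local
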