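import Fermat.Agent.LanglandsTunnell.Local.LocalSpec
import Fermat.Agent.LanglandsTunnell.Local.SplitPlace
import Fermat.Agent.LanglandsTunnell.Local.UnitPlace

/-!
# Vocabulary for one place

Points at a level, neighbours by a generator of an ideal, the pairs of actions of the centraliser,
the twisted action, the norm condition and the height functions.
-/

set_option autoImplicit false

noncomputable section

namespace FLTAgent.LanglandsTunnell.Local

open Matrix FLTAgent.LanglandsTunnell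

/-- The identity kernel. -/
def idKer {X : Type*} (x y : X) : ℂ := by classical exact if x = y then 1 else 0

theorem idKer_self {X : Type*} (x : X) : idKer x x = 1 := by
  classical exact if_pos rfl

theorem idKer_ne {X : Type*} {x y : X} (h : x ≠ y) : idKer x y = 0 := by
  classical exact if_neg h

/-- Powers of a kernel. -/
def iterKer {X : Type*} (k : X → X → ℂ) : ℕ → X → X → ℂ
  | 0 => idKer
  | n + 1 => SplitPlace.comp k (iterKer k n)

/-- Diagonal matrices. -/
def IsDiag2 {L : Type*} [CommRing L] (g : GL (Fin 2) L) : Prop := g.1 0 1 = 0 ∧ g.1 1 0 = 0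

section Points

variable {O L : Type} [CommRing O] [CommRing L]

/-- The points at level `N`. -/
abbrev QPt (φ : O →+* L) (N : O) : Type _ := GL (Fin 2) L ⧸ levelK φ N

/-- The neighbours by a generator of `I`. -/
def nbrSet (φ : O →+* L) (N : O) (I : Ideal O) (x : QPt φ N) : Set (QPt φ N) :=
  {x' | ∃ (g k : GL (Fin 2) L) (π : Lˣ) (o : O), (g : QPt φ N) = x ∧ k ∈ congrGroup φ N ∧
    φ o = π ∧ Ideal.span {o} = I ∧ ((g * k * diagUnit π : GL (Fin 2) L) : QPt φ N) = x'}

/-- The kernel of the operator of `I`. -/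
def nbrKer (φ : O →+* L) (N : O) (I : Ideal O) (x x' : QPt φ N) : ℂ :=
  (nbrSet φ N I x).indicator 1 x'

end Points

namespace LocalCubic

variable {OE LE OM LM : Type} [CommRing OE] [CommRing LE] [CommRing OM] [CommRing LM]
  (S : LocalCubic OE LE OM LM)

/-- The twisted action `v ↦ δ θ(v)` at a level. -/
def twMap (n' : OM) (δ : GL (Fin 2) LM) (v : QPt S.φM n') : QPt S.φM n' :=
  ((δ * S.θ v.out : GL (Fin 2) LM) : QPt S.φM n')

theorem twMap_mk {n' : OM} (hn : S.σO n' = n') (δ g : GL (Fin 2) LM) :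
    S.twMap n' δ (g : QPt S.φM n') = ((δ * S.θ g : GL (Fin 2) LM) : QPt S.φM n') := by
  obtain ⟨k, hk⟩ := QuotientGroup.mk_out_eq_mul (levelK S.φM n') g
  refine QuotientGroup.eq.mpr ?_
  rw [hk, map_mul, show (δ * (S.θ g * S.θ k.1))⁻¹ * (δ * S.θ g) = (S.θ k.1)⁻¹ by group]
  exact inv_mem (S.θ_mem_levelK hn k.2)

/-- The actions of the centraliser on both sides. -/
def commPairs (n : OE) (n' : OM) (γ : GL (Fin 2) LE) :
    Set (Equiv.Perm (QPt S.φE n) × Equiv.Perm (QPt S.φM n')) :=
  {t | ∃ c : GL (Fin 2) LE, Commute c γ ∧ t = (MulAction.toPerm c, MulAction.toPerm (S.ι c))}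

/-- `γ` is up to a scalar a norm from its centraliser. -/
def IsNormAt (γ : GL (Fin 2) LE) : Prop :=
  ∃ (z : LEˣ) (X : GL (Fin 2) LM), X * S.ι γ = S.ι γ * X ∧
    tnorm S.θ X = S.ι (GeneralLinearGroup.scalar (Fin 2) z * γ)

/-- The properties of a pair of height functions. -/
structure IsHeightPair (hE : GL (Fin 2) LE → ℝ) (hM : GL (Fin 2) LM → ℝ) : Prop where
  rightE : ∀ g k, k ∈ levelK S.φE 1 → hE (g * k) = hE g
  rightM : ∀ g k, k ∈ levelK S.φM 1 → hM (g * k) = hM g
  diagE : ∀ d g, IsDiag2 d → hE (d * g) = hE g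
  diagM : ∀ d g, IsDiag2 d → hM (d * g) = hM g
  oneE : hE 1 = 0
  oneM : hM 1 = 0
  incl : ∀ g, hM (S.ι g) = 3 * hE g
  twist : ∀ g, hM (S.θ g) = hM g
  exchange : ∀ (η : OM) (g g' h h' : GL (Fin 2) LM), η * η = η →
    h.1 = S.φM η • g.1 + (1 - S.φM η) • g'.1 → h'.1 = S.φM η • g'.1 + (1 - S.φM η) • g.1 →
      hM h + hM h' = hM g + hM g'
  exchangeE : ∀ (e : OE) (g g' h h' : GL (Fin 2) LE), e * e = e →
    h.1 = S.φE e • g.1 + (1 - S.φE e) • g'.1 → h'.1 = S.φE e • g'.1 + (1 - S.φE e) • g.1 →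
      hE h + hE h' = hE g + hE g'

theorem IsHeightPair.outM {hE : GL (Fin 2) LE → ℝ} {hM : GL (Fin 2) LM → ℝ}
    (H : S.IsHeightPair hE hM) {n' : OM} (g : GL (Fin 2) LM) :
    hM (g : QPt S.φM n').out = hM g := by
  obtain ⟨k, hk⟩ := QuotientGroup.mk_out_eq_mul (levelK S.φM n') g
  rw [hk]
  exact H.rightM g _ (levelK_le_one _ k.2)

theorem IsHeightPair.outE {hE : GL (Fin 2) LE → ℝ} {hM : GL (Fin 2) LM → ℝ}
    (H : S.IsHeightPair hE hM) {n : OE} (g : GL (Fin 2) LE) :
    hE (g : QPt S.φE n).out = hE g := by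
  obtain ⟨k, hk⟩ := QuotientGroup.mk_out_eq_mul (levelK S.φE n) g
  rw [hk]
  exact H.rightE g _ (levelK_le_one _ k.2)

end LocalCubic

/-- The plain side where nothing moves. -/
def idPlain {X X' : Type*} (c : ℝ) (g : X → X) (comm : Set (Equiv.Perm X × Equiv.Perm X'))
    (isDiag isNorm : Prop) (hE : X → ℝ) (hn : (∃ z, g z = z) → isNorm) :
    PlainLocal c g idKer 0 comm isDiag isNorm hE where
  proj := id
  proj_comm _ _ _ := rfl
  finite z := (Set.finite_singleton z).subset fun _ hu => hu.1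
  norm_or := by
    classical
    by_cases h : ∃ z, g z = z
    · exact Or.inl (hn h)
    refine Or.inr fun z => ?_
    rw [SplitSetting.fibre_id z fun u => idKer u (g u)]
    exact idKer_ne fun e => h ⟨z, e.symm⟩
  dE _ := 0
  dE_nonneg _ := le_rfl
  height _ _ := (add_zero _).symm
  height_nonnorm _ _ z := by simp

/-- The defining equations of `iterKer`, stated next to the definition. -/
theorem iterKer_defEq {X : Type*} : type_of% (@iterKer.eq_def X) := @iterKer.eq_def X

end FLTAgent.LanglandsTunnell.Local
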