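import Fermat.Agent.LanglandsTunnell.Local.Corner
import Fermat.Agent.LanglandsTunnell.Local.Place

/-!
# Completing a matrix of a factor by the identity; height pairs on factors

`clift` completes a matrix over the factor of an idempotent by the identity and respects the
levels; a height pair gives one on each factor (`IsHeightPair.corner`), and exchange-additive
functions are sums over a complete orthogonal family (`height_eq_sum`).
-/

set_option autoImplicit false

noncomputable section

namespace FLTAgent.LanglandsTunnell.Local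

open Matrix

section Lift

variable {A B : Type*} [CommRing A] [CommRing B] {e : A}

/-- Two elements with the same parts at `e` and at `1 - e` agree. -/
theorem eq_of_cnr_parts {a b : A} (h : e * a = e * b) (h' : (1 - e) * a = (1 - e) * b) : a = b := by
  linear_combination h + h'

/-- A representative of a matrix over a factor, completed by the identity. -/
def liftMat (e : A) (X : Matrix (Fin 2) (Fin 2) (Cnr e)) : Matrix (Fin 2) (Fin 2) A :=
  Matrix.of fun i j => e * Function.surjInv cmk_surjective (X i j) +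
    (1 - e) * (1 : Matrix (Fin 2) (Fin 2) A) i j

variable (he : IsIdempotentElem e)
include he

theorem liftMat_part (X : Matrix (Fin 2) (Fin 2) (Cnr e)) (i j : Fin 2) :
    cmk e (liftMat e X i j) = X i j := by
  conv_rhs => rw [← Function.surjInv_eq cmk_surjective (X i j)]
  rw [cmk_eq_iff he, liftMat, Matrix.of_apply]
  linear_combination (Function.surjInv cmk_surjective (X i j) -
    (1 : Matrix (Fin 2) (Fin 2) A) i j) * he.eq

theorem liftMat_rest (X : Matrix (Fin 2) (Fin 2) (Cnr e)) (i j : Fin 2) :
    (1 - e) * liftMat e X i j = (1 - e) * (1 : Matrix (Fin 2) (Fin 2) A) i j := by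
  rw [liftMat, Matrix.of_apply]
  linear_combination ((1 : Matrix (Fin 2) (Fin 2) A) i j -
    Function.surjInv cmk_surjective (X i j)) * he.eq

theorem liftMat_mul (X Y : Matrix (Fin 2) (Fin 2) (Cnr e)) :
    liftMat e X * liftMat e Y = liftMat e (X * Y) := by
  refine Matrix.ext fun i j => eq_of_cnr_parts (e := e) ((cmk_eq_iff he).mp ?_) ?_
  · rw [liftMat_part he, Matrix.mul_apply, map_sum, Matrix.mul_apply]
    exact Finset.sum_congr rfl fun k _ => by rw [map_mul, liftMat_part he, liftMat_part he]
  · rw [liftMat_rest he, Matrix.mul_apply, Fin.sum_univ_two]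
    have h0 := liftMat_rest he X i 0
    have h1 := liftMat_rest he X i 1
    have k0 := liftMat_rest he Y 0 j
    have k1 := liftMat_rest he Y 1 j
    have hone : (1 : Matrix (Fin 2) (Fin 2) A) i 0 * (1 : Matrix (Fin 2) (Fin 2) A) 0 j +
        (1 : Matrix (Fin 2) (Fin 2) A) i 1 * (1 : Matrix (Fin 2) (Fin 2) A) 1 j =
          (1 : Matrix (Fin 2) (Fin 2) A) i j := by
      rw [← Fin.sum_univ_two (f := fun k => (1 : Matrix (Fin 2) (Fin 2) A) i k *
        (1 : Matrix (Fin 2) (Fin 2) A) k j), ← Matrix.mul_apply, Matrix.one_mul]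
    linear_combination liftMat e Y 0 j * h0 + liftMat e Y 1 j * h1 +
      (1 : Matrix (Fin 2) (Fin 2) A) i 0 * k0 + (1 : Matrix (Fin 2) (Fin 2) A) i 1 * k1 +
      (1 - e) * hone

theorem liftMat_one : liftMat e (1 : Matrix (Fin 2) (Fin 2) (Cnr e)) = 1 := by
  refine Matrix.ext fun i j => eq_of_cnr_parts (e := e) ((cmk_eq_iff he).mp ?_)
    (liftMat_rest he _ i j)
  rw [liftMat_part he]
  simp [Matrix.one_apply, apply_ite (cmk e)]

/-- A matrix of a factor completed by the identity. -/
def clift : GL (Fin 2) (Cnr e) →* GL (Fin 2) A where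
  toFun x := ⟨liftMat e x.1, liftMat e (x⁻¹).1,
    by rw [liftMat_mul he, Units.mul_inv, liftMat_one he],
    by rw [liftMat_mul he, Units.inv_mul, liftMat_one he]⟩
  map_one' := Units.ext (liftMat_one he)
  map_mul' x y := Units.ext (liftMat_mul he x.1 y.1).symm

theorem mul_clift (x : GL (Fin 2) (Cnr e)) (i j : Fin 2) {a : A} (ha : cmk e a = x.1 i j) :
    e * (clift he x).1 i j = e * a :=
  (cmk_eq_iff he).mp ((liftMat_part he x.1 i j).trans ha.symm)

theorem clift_rest (x : GL (Fin 2) (Cnr e)) (i j : Fin 2) :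
    (1 - e) * (clift he x).1 i j = (1 - e) * (1 : Matrix (Fin 2) (Fin 2) A) i j :=
  liftMat_rest he x.1 i j

/-- The lift is characterised by its two parts. -/
theorem clift_eq {x : GL (Fin 2) (Cnr e)} {g : GL (Fin 2) A} (h : cgl e g = x)
    (h' : ∀ i j, (1 - e) * g.1 i j = (1 - e) * (1 : Matrix (Fin 2) (Fin 2) A) i j) :
    clift he x = g :=
  Units.ext (Matrix.ext fun i j => eq_of_cnr_parts
    (mul_clift he x i j (congrArg (fun y : GL (Fin 2) (Cnr e) => y.1 i j) h))
    ((clift_rest he x i j).trans (h' i j).symm))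

/-- Lifts commute with maps of factors. -/
theorem clift_map (f : A →+* B) {e' : B} (hf : f e = e') (x : GL (Fin 2) (Cnr e)) :
    clift (hf ▸ he.map f : IsIdempotentElem e') (GeneralLinearGroup.map (cnrHom f hf) x) =
      GeneralLinearGroup.map f (clift he x) := by
  refine clift_eq _ (Units.ext (Matrix.ext fun i j => ?_)) fun i j => ?_
  · show cmk e' (f ((clift he x).1 i j)) = cnrHom f hf (x.1 i j)
    rw [← cnrHom_cmk f hf]
    exact congrArg _ (liftMat_part he x.1 i j)
  · show (1 - e') * f ((clift he x).1 i j) = _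
    rw [← hf, ← map_one f, ← map_sub, ← map_mul, clift_rest he x i j, map_mul]
    simp [Matrix.one_apply, apply_ite f]

theorem clift_scalar (u : (Cnr e)ˣ) :
    ∃ z : Aˣ, clift he (GeneralLinearGroup.scalar (Fin 2) u) =
      GeneralLinearGroup.scalar (Fin 2) z := by
  set g := clift he (GeneralLinearGroup.scalar (Fin 2) u) with hg
  have h0 : ∀ i j, i ≠ j → g.1 i j = 0 := fun i j hij => eq_of_cnr_parts (e := e)
    ((cmk_eq_iff he).mp (by
      rw [map_zero, hg]
      refine (liftMat_part he _ i j).trans ?_
      simp [GeneralLinearGroup.coe_scalar, Matrix.diagonal_apply_ne _ hij]))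
    (by rw [hg, clift_rest, Matrix.one_apply_ne hij])
  have h11 : g.1 1 1 = g.1 0 0 := eq_of_cnr_parts (e := e)
    ((cmk_eq_iff he).mp (by
      rw [hg]
      refine (liftMat_part he _ 1 1).trans (Eq.trans ?_ (liftMat_part he _ 0 0).symm)
      simp [GeneralLinearGroup.coe_scalar]))
    (by rw [hg, clift_rest, clift_rest, Matrix.one_apply_eq, Matrix.one_apply_eq])
  have hu : IsUnit (g.1 0 0) := by
    have := (Matrix.isUnit_iff_isUnit_det g.1).mp g.isUnit
    rw [Matrix.det_fin_two, h0 0 1 (by decide), zero_mul, sub_zero, h11] at this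
    exact isUnit_of_mul_isUnit_left this
  refine ⟨hu.unit, Units.ext (Matrix.ext fun i j => ?_)⟩
  fin_cases i <;> fin_cases j <;> simp [GeneralLinearGroup.coe_scalar, h11, h0]

theorem isDiag2_clift {x : GL (Fin 2) (Cnr e)} (h : IsDiag2 x) : IsDiag2 (clift he x) := by
  have key : ∀ i j, i ≠ j → x.1 i j = 0 → (clift he x).1 i j = 0 := fun i j hij hx =>
    eq_of_cnr_parts (e := e)
      ((mul_clift he x i j (a := 0) (by rw [map_zero, hx])))
      (by rw [clift_rest, Matrix.one_apply_ne hij])
  exact ⟨key 0 1 (by decide) h.1, key 1 0 (by decide) h.2⟩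

end Lift

/-- Lifts respect the levels. -/
theorem clift_mem_levelK {A B : Type*} [CommRing A] [CommRing B] {φ : A →+* B} {e : A}
    (he : IsIdempotentElem e) (hφ : Function.Injective φ) {x : GL (Fin 2) (Cnr (φ e))}
    (hx : x ∈ levelK (cnrMap φ e) 1) : clift (he.map φ) x ∈ levelK φ 1 := by
  obtain ⟨u, k, hk, rfl⟩ := mem_levelK.mp hx
  obtain ⟨k₀, -, rfl⟩ := exists_units_of_mem_congrGroup (cnrMap_injective hφ he) hk
  obtain ⟨z, hz⟩ := clift_scalar (he.map φ) u
  rw [map_mul, hz]
  refine mem_levelK.mpr ⟨z, GeneralLinearGroup.map φ (clift he k₀),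
    map_mem_congrGroup (isCongrOne_of_isUnit isUnit_one _), ?_⟩
  exact congrArg (GeneralLinearGroup.scalar (Fin 2) z * ·) (clift_map he φ rfl k₀)

/-- The height of a factor. -/
def cornerHeight {A : Type*} [CommRing A] {e : A} (he : IsIdempotentElem e)
    (H : GL (Fin 2) A → ℝ) (x : GL (Fin 2) (Cnr e)) : ℝ := H (clift he x)

namespace LocalCubic

variable {OE LE OM LM : Type} [CommRing OE] [CommRing LE] [CommRing OM] [CommRing LM]
  {S : LocalCubic OE LE OM LM}

/-- **A height pair gives one on the factor of an idempotent.** -/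
theorem IsHeightPair.corner {hE : GL (Fin 2) LE → ℝ} {hM : GL (Fin 2) LM → ℝ}
    (H : S.IsHeightPair hE hM) {e : OE} (he : IsIdempotentElem e) :
    (S.corner he).IsHeightPair (cornerHeight (he.map S.φE) hE)
      (cornerHeight ((he.map S.jO).map S.φM) hM) where
  rightE g k hk := by
    rw [cornerHeight, map_mul]
    exact H.rightE _ _ (clift_mem_levelK he S.φE_inj hk)
  rightM g k hk := by
    rw [cornerHeight, map_mul]
    exact H.rightM _ _ (clift_mem_levelK (he.map S.jO) S.φM_inj hk)
  diagE d g hd := by
    rw [cornerHeight, map_mul]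
    exact H.diagE _ _ (isDiag2_clift _ hd)
  diagM d g hd := by
    rw [cornerHeight, map_mul]
    exact H.diagM _ _ (isDiag2_clift _ hd)
  oneE := by rw [cornerHeight, map_one]; exact H.oneE
  oneM := by rw [cornerHeight, map_one]; exact H.oneM
  incl g := by
    refine Eq.trans (congrArg hM ?_) (H.incl _)
    exact clift_map (he.map S.φE) S.j (S.comm_j e).symm g
  twist g := by
    refine Eq.trans (congrArg hM ?_) (H.twist _)
    refine (congrArg (clift ((he.map S.jO).map S.φM)) (Units.ext ?_)).trans
      ((clift_map ((he.map S.jO).map S.φM) (S.σ : LM →+* LM)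
        (by rw [RingEquiv.coe_toRingHom, ← S.comm_σ, S.σO_jO]) g).trans (Units.ext rfl))
    rfl
  exchange η g g' h h' hη hh hh' := by
    obtain ⟨η₀, rfl⟩ := cmk_surjective η
    have hee := (he.map S.jO).eq
    have hη' : S.jO e * η₀ * (S.jO e * η₀) = S.jO e * η₀ := by
      have := (cmk_eq_iff (he.map S.jO)).mp ((map_mul _ _ _).trans hη)
      linear_combination η₀ * η₀ * hee + this
    have key : ∀ {g g' h : GL (Fin 2) (Cnr (S.φM (S.jO e)))},
        h.1 = (S.corner he).φM (cmk _ η₀) • g.1 + (1 - (S.corner he).φM (cmk _ η₀)) • g'.1 →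
        (clift ((he.map S.jO).map S.φM) h).1 =
          S.φM (S.jO e * η₀) • (clift ((he.map S.jO).map S.φM) g).1 +
            (1 - S.φM (S.jO e * η₀)) • (clift ((he.map S.jO).map S.φM) g').1 := by
      intro g g' h hh
      have hE := (he.map S.jO).map S.φM
      refine Matrix.ext fun i j => eq_of_cnr_parts (e := S.φM (S.jO e)) ?_ ?_
      · refine (cmk_eq_iff hE).mp ?_
        refine ((liftMat_part hE h.1 i j).trans (congrFun (congrFun hh i) j)).trans ?_
        simp only [Matrix.add_apply, Matrix.smul_apply, smul_eq_mul, map_add, map_mul, map_sub,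
          map_one, cmk_self, one_mul]
        rw [show cmk (S.φM (S.jO e)) ((clift hE g).1 i j) = g.1 i j from liftMat_part hE g.1 i j,
          show cmk (S.φM (S.jO e)) ((clift hE g').1 i j) = g'.1 i j from liftMat_part hE g'.1 i j]
        rfl
      · rw [clift_rest hE h i j]
        simp only [Matrix.add_apply, Matrix.smul_apply, smul_eq_mul, map_mul]
        linear_combination -(S.φM (S.jO e) * S.φM η₀) * clift_rest hE g i j -
          (1 - S.φM (S.jO e) * S.φM η₀) * clift_rest hE g' i j
    exact H.exchange (S.jO e * η₀) _ _ _ _ hη' (key hh) (key hh')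
  exchangeE η g g' h h' hη hh hh' := by
    obtain ⟨η₀, rfl⟩ := cmk_surjective η
    have hee := he.eq
    have hη' : e * η₀ * (e * η₀) = e * η₀ := by
      have := (cmk_eq_iff he).mp ((map_mul _ _ _).trans hη)
      linear_combination η₀ * η₀ * hee + this
    have key : ∀ {g g' h : GL (Fin 2) (Cnr (S.φE e))},
        h.1 = (S.corner he).φE (cmk _ η₀) • g.1 + (1 - (S.corner he).φE (cmk _ η₀)) • g'.1 →
        (clift (he.map S.φE) h).1 = S.φE (e * η₀) • (clift (he.map S.φE) g).1 +
            (1 - S.φE (e * η₀)) • (clift (he.map S.φE) g').1 := by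
      intro g g' h hh
      have hE := he.map S.φE
      refine Matrix.ext fun i j => eq_of_cnr_parts (e := S.φE e) ?_ ?_
      · refine (cmk_eq_iff hE).mp ?_
        refine ((liftMat_part hE h.1 i j).trans (congrFun (congrFun hh i) j)).trans ?_
        simp only [Matrix.add_apply, Matrix.smul_apply, smul_eq_mul, map_add, map_mul, map_sub,
          map_one, cmk_self, one_mul]
        rw [show cmk (S.φE e) ((clift hE g).1 i j) = g.1 i j from liftMat_part hE g.1 i j,
          show cmk (S.φE e) ((clift hE g').1 i j) = g'.1 i j from liftMat_part hE g'.1 i j]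
        rfl
      · rw [clift_rest hE h i j]
        simp only [Matrix.add_apply, Matrix.smul_apply, smul_eq_mul, map_mul]
        linear_combination -(S.φE e * S.φE η₀) * clift_rest hE g i j -
          (1 - S.φE e * S.φE η₀) * clift_rest hE g' i j
    exact H.exchangeE (e * η₀) _ _ _ _ hη' (key hh) (key hh')

end LocalCubic

/-- An exchange-additive function is the sum over a complete orthogonal family. -/
theorem height_eq_sum {A B : Type*} [CommRing A] [CommRing B] (φ : A →+* B)
    (H : GL (Fin 2) B → ℝ) (hone : H 1 = 0)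
    (hex : ∀ (e : A) (g g' h h' : GL (Fin 2) B), e * e = e →
      h.1 = φ e • g.1 + (1 - φ e) • g'.1 → h'.1 = φ e • g'.1 + (1 - φ e) • g.1 →
        H h + H h' = H g + H g')
    {ι : Type*} [Fintype ι] {e : ι → A} (he : CompleteOrthogonalIdempotents e) (g : GL (Fin 2) B) :
    H g = ∑ i, cornerHeight ((he.idem i).map φ) H (cgl (φ (e i)) g) := by
  classical
  let E : Finset ι → A := fun s => ∑ i ∈ s, e i
  have hE : ∀ s, IsIdempotentElem (φ (E s)) := fun s =>
    (he.toOrthogonalIdempotents.isIdempotentElem_sum).map φ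
  have key : ∀ s, H (clift (hE s) (cgl (φ (E s)) g)) =
      ∑ i ∈ s, cornerHeight ((he.idem i).map φ) H (cgl (φ (e i)) g) := by
    intro s
    induction s using Finset.induction_on with
    | empty =>
      rw [Finset.sum_empty, ← hone]
      refine congrArg H (clift_eq _ (Units.ext (Matrix.ext fun i j => ?_)) fun i j => ?_)
      · refine (cmk_eq_iff (hE ∅)).mpr ?_
        simp [E]
      · simp
    | insert a s ha ih =>
      have hea : φ (e a) * φ (e a) = φ (e a) := ((he.idem a).map φ).eq
      have hort : φ (e a) * φ (E s) = 0 := by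
        rw [← map_mul, Finset.mul_sum,
          Finset.sum_eq_zero fun i hi => he.ortho (ne_of_mem_of_not_mem hi ha).symm, map_zero]
      have hins : φ (E (insert a s)) = φ (e a) + φ (E s) := by
        simp only [E]; rw [Finset.sum_insert ha, map_add]
      set x := clift (hE (insert a s)) (cgl (φ (E (insert a s))) g) with hx
      have p1 : ∀ i j, (φ (e a) + φ (E s)) * x.1 i j = (φ (e a) + φ (E s)) * g.1 i j :=
          fun i j => by
        rw [← hins]; exact mul_clift (hE (insert a s)) _ i j rfl
      have p2 : ∀ i j, (1 - (φ (e a) + φ (E s))) * x.1 i j =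
          (1 - (φ (e a) + φ (E s))) * (1 : Matrix (Fin 2) (Fin 2) B) i j := fun i j => by
        rw [← hins]; exact clift_rest (hE (insert a s)) _ i j
      have hs := (hE s).eq
      have h1 : (clift ((he.idem a).map φ) (cgl (φ (e a)) g)).1 =
          φ (e a) • x.1 + (1 - φ (e a)) • (1 : GL (Fin 2) B).1 := by
        refine Matrix.ext fun i j => eq_of_cnr_parts (e := φ (e a))
          (Eq.trans (mul_clift _ _ i j rfl) ?_) (Eq.trans (clift_rest _ _ i j) ?_) <;>
          simp only [Matrix.add_apply, Matrix.smul_apply, smul_eq_mul, Units.val_one]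
        · linear_combination -(φ (e a)) * p1 i j + hort * (x.1 i j - g.1 i j) -
            hea * (g.1 i j - (1 : Matrix (Fin 2) (Fin 2) B) i j)
        · linear_combination (x.1 i j - (1 : Matrix (Fin 2) (Fin 2) B) i j) * hea
      have h2 : (clift (hE s) (cgl (φ (E s)) g)).1 =
          φ (e a) • (1 : GL (Fin 2) B).1 + (1 - φ (e a)) • x.1 := by
        refine Matrix.ext fun i j => eq_of_cnr_parts (e := φ (E s))
          (Eq.trans (mul_clift _ _ i j rfl) ?_) (Eq.trans (clift_rest _ _ i j) ?_) <;>
          simp only [Matrix.add_apply, Matrix.smul_apply, smul_eq_mul, Units.val_one]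
        · linear_combination -(φ (E s)) * p1 i j + hort * (2 * x.1 i j - g.1 i j -
            (1 : Matrix (Fin 2) (Fin 2) B) i j) + hs * (x.1 i j - g.1 i j)
        · linear_combination -(p2 i j) + hort * ((1 : Matrix (Fin 2) (Fin 2) B) i j - x.1 i j)
      have := hex (e a) x 1 _ _ (he.idem a).eq h1 h2
      rw [hone, add_zero, ih] at this
      rw [Finset.sum_insert ha, ← this]
      rfl
  rw [← key Finset.univ]
  refine congrArg H (clift_eq (hE _) rfl fun i j => ?_).symm
  have h1 : φ (E Finset.univ) = 1 := by simp only [E]; rw [he.complete, map_one]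
  rw [h1, sub_self, zero_mul, zero_mul]

namespace LocalCubic

variable {OE LE OM LM : Type} [CommRing OE] [CommRing LE] [CommRing OM] [CommRing LM]
  {S : LocalCubic OE LE OM LM}

theorem IsHeightPair.sumE {hE : GL (Fin 2) LE → ℝ} {hM : GL (Fin 2) LM → ℝ}
    (H : S.IsHeightPair hE hM) {ι : Type*} [Fintype ι] {e : ι → OE}
    (he : CompleteOrthogonalIdempotents e) (g : GL (Fin 2) LE) :
    hE g = ∑ i, cornerHeight ((he.idem i).map S.φE) hE (cgl (S.φE (e i)) g) :=
  height_eq_sum S.φE hE H.oneE H.exchangeE he g

theorem IsHeightPair.sumM {hE : GL (Fin 2) LE → ℝ} {hM : GL (Fin 2) LM → ℝ}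
    (H : S.IsHeightPair hE hM) {ι : Type*} [Fintype ι] {e : ι → OE}
    (he : CompleteOrthogonalIdempotents e) (g : GL (Fin 2) LM) :
    hM g = ∑ i, cornerHeight (((he.idem i).map S.jO).map S.φM) hM (cgl (S.φM (S.jO (e i))) g) :=
  height_eq_sum S.φM hM H.oneM H.exchange (he.map S.jO) g

end LocalCubic

end FLTAgent.LanglandsTunnell.Local
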