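import Fermat.Agent.LanglandsTunnell.Local.Adic

/-!
# Cube roots in deep congruence groups of `GL(2)`

If `y, y' ≡ 1` deeply and `g y³ g⁻¹ = l y'³` with `l` scalar, then `g y g⁻¹ = m y'` with `m³ = l`;
every element of the level `3N` is the cube of an element of the level `N`.
See `exists_eq_smul_of_cube`, `exists_cube_eq`.
-/

set_option autoImplicit false

noncomputable section

namespace FLTAgent.LanglandsTunnell.Local

open Matrix

variable {O L : Type*} [CommRing O] [CommRing L]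

/-- Cayley–Hamilton for cubes. -/
theorem cube_eq (Y : Matrix (Fin 2) (Fin 2) L) :
    Y ^ 3 = (Y.trace ^ 2 - Y.det) • Y - (Y.trace * Y.det) • (1 : Matrix (Fin 2) (Fin 2) L) := by
  ext i j
  fin_cases i <;> fin_cases j <;>
    simp [pow_succ, Matrix.mul_apply, Fin.sum_univ_two, Matrix.trace_fin_two,
      Matrix.det_fin_two] <;> ring

theorem trace_cube (Y : Matrix (Fin 2) (Fin 2) L) :
    (Y ^ 3).trace = Y.trace ^ 3 - 3 * (Y.trace * Y.det) := by
  rw [cube_eq, Matrix.trace_sub, Matrix.trace_smul, Matrix.trace_smul, Matrix.trace_one,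
    Fintype.card_fin, smul_eq_mul, smul_eq_mul]
  push_cast
  ring

/-- `N` is deep: elements congruent to `1`, `3`, `9` modulo `N` become units. -/
structure IsDeep (φ : O →+* L) (N : O) : Prop where
  one : ∀ x : O, IsUnit (φ (1 + N * x))
  three : ∀ x : O, IsUnit (φ (3 + N * x))
  nine : ∀ x : O, IsUnit (φ (9 + N * x))

variable (φ : O →+* L) (N : O)

/-- Entrywise congruent to `1` modulo `N`. -/
def IsCongrOne (Y : Matrix (Fin 2) (Fin 2) O) : Prop :=
  ∃ X : Matrix (Fin 2) (Fin 2) O, Y = 1 + N • X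

variable {φ N}

theorem IsCongrOne.exists_det {Y : Matrix (Fin 2) (Fin 2) O} (h : IsCongrOne N Y) :
    ∃ x, Y.det = 1 + N * x := by
  obtain ⟨X, rfl⟩ := h
  exact ⟨X 0 0 + X 1 1 + N * X.det, by simp [Matrix.det_fin_two]; ring⟩

theorem IsCongrOne.exists_trace {Y : Matrix (Fin 2) (Fin 2) O} (h : IsCongrOne N Y) :
    ∃ x, Y.trace = 2 + N * x := by
  obtain ⟨X, rfl⟩ := h
  exact ⟨X 0 0 + X 1 1, by
    simp only [Matrix.trace_fin_two, Matrix.add_apply, Matrix.smul_apply, Matrix.one_apply_eq,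
      smul_eq_mul]
    ring⟩

theorem map_cube (Y : Matrix (Fin 2) (Fin 2) O) : (Y ^ 3).map φ = (Y.map φ) ^ 3 := by
  rw [← RingHom.mapMatrix_apply, map_pow, RingHom.mapMatrix_apply]

theorem trace_map' (Y : Matrix (Fin 2) (Fin 2) O) : (Y.map φ).trace = φ Y.trace := by
  simp [Matrix.trace_fin_two]

theorem det_map' (Y : Matrix (Fin 2) (Fin 2) O) : (Y.map φ).det = φ Y.det := by
  rw [← RingHom.mapMatrix_apply, ← RingHom.map_det]

/-- **Uniqueness of deep cube roots, up to centre.** -/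
theorem exists_eq_smul_of_cube (hN : IsDeep φ N) {Y Y' : Matrix (Fin 2) (Fin 2) O}
    (hY : IsCongrOne N Y) (hY' : IsCongrOne N Y') {g g' : Matrix (Fin 2) (Fin 2) L}
    (hg : g * g' = 1) {l : Lˣ} (h : g * (Y.map φ) ^ 3 * g' = (l : L) • (Y'.map φ) ^ 3) :
    ∃ m : Lˣ, m ^ 3 = l ∧ g * Y.map φ * g' = (m : L) • Y'.map φ := by
  have hg' : g' * g = 1 := mul_eq_one_comm.mp hg
  set a := g * Y.map φ * g' with ha
  have ha3 : a ^ 3 = (l : L) • (Y'.map φ) ^ 3 := by
    rw [← h, ha]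
    simp only [pow_succ, pow_zero, one_mul, Matrix.mul_assoc]
    simp only [← Matrix.mul_assoc g' g, hg', Matrix.one_mul]
  obtain ⟨dx, hdx⟩ := hY.exists_det
  obtain ⟨dx', hdx'⟩ := hY'.exists_det
  obtain ⟨tx, htx⟩ := hY.exists_trace
  obtain ⟨tx', htx'⟩ := hY'.exists_trace
  have hu : IsUnit (φ Y.det) := hdx ▸ hN.one dx
  have hu' : IsUnit (φ Y'.det) := hdx' ▸ hN.one dx'
  have hadet : a.det = φ Y.det := by
    rw [ha, Matrix.det_mul, Matrix.det_mul, mul_right_comm, ← Matrix.det_mul, hg, Matrix.det_one,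
      one_mul, det_map']
  have hatr : a.trace = φ Y.trace := by
    rw [ha, Matrix.trace_mul_cycle, hg', Matrix.one_mul, trace_map']
  -- the scalar
  obtain ⟨u, hu₁⟩ := hu
  obtain ⟨u', hu₂⟩ := hu'
  have hdet : u ^ 3 = l ^ 2 * u' ^ 3 := Units.ext (by
    have := congrArg Matrix.det ha3
    rw [Matrix.det_pow, hadet, Matrix.det_smul, Fintype.card_fin, Matrix.det_pow, det_map',
      ← hu₁, ← hu₂] at this
    simpa using this)
  set e := u / u' with he
  set m := l / e with hm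
  have hm3 : m ^ 3 = l := by
    rw [hm, he, div_pow, div_pow, hdet, mul_div_cancel_right, pow_succ' l 2, mul_div_cancel_right]
  have hm2 : m ^ 2 = e := by
    rw [hm, div_pow, div_eq_iff_eq_mul, ← pow_succ', he, div_pow, hdet, mul_div_cancel_right]
  set b := ((m⁻¹ : Lˣ) : L) • a with hb
  have hb3 : b ^ 3 = (Y'.map φ) ^ 3 := by
    rw [hb, smul_pow, ha3, smul_smul, ← Units.val_pow_eq_pow_val, ← Units.val_mul, inv_pow, hm3,
      inv_mul_cancel, Units.val_one, one_smul]
  have hbdet : b.det = φ Y'.det := by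
    rw [hb, Matrix.det_smul, Fintype.card_fin, hadet, ← hu₁, ← hu₂, ← Units.val_pow_eq_pow_val,
      ← Units.val_mul, inv_pow, hm2, he, inv_div, div_mul_cancel]
  -- the second factor
  have htr : b.trace = φ Y'.trace := by
    have heq : b.trace ^ 3 - 3 * (b.trace * φ Y'.det)
        = φ Y'.trace ^ 3 - 3 * (φ Y'.trace * φ Y'.det) := by
      rw [← hbdet, ← trace_cube, hb3, trace_cube, trace_map', det_map', hbdet]
    have hbt : b.trace = ((m⁻¹ : Lˣ) : L) * φ Y.trace := by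
      rw [hb, Matrix.trace_smul, hatr, smul_eq_mul]
    set ν : L := ((m⁻¹ : Lˣ) : L) with hν
    have hν2 : ν ^ 2 * φ Y.det = φ Y'.det := by
      rw [hν, ← hu₁, ← hu₂, ← Units.val_pow_eq_pow_val, ← Units.val_mul, inv_pow, hm2, he, inv_div,
        div_mul_cancel]
    -- `d² · (A + B ν) (A - B ν)`
    set T := Y.trace
    set T' := Y'.trace
    set d := Y.det
    set d' := Y'.det
    have key : φ d ^ 2 * ((ν * φ T) ^ 2 + ν * φ T * φ T' + φ T' ^ 2 - 3 * φ d') *
        ((ν * φ T) ^ 2 - ν * φ T * φ T' + φ T' ^ 2 - 3 * φ d')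
        = φ ((T ^ 2 * d' + (T' ^ 2 - 3 * d') * d) ^ 2 - T ^ 2 * T' ^ 2 * d' * d) := by
      simp only [map_sub, map_mul, map_pow, map_add, map_ofNat]
      linear_combination ((φ T ^ 2) * (2 * (φ T' ^ 2 - 3 * φ d') * φ d + φ T ^ 2 * (ν ^ 2 * φ d
        + φ d')) - φ d * φ T ^ 2 * φ T' ^ 2) * hν2
    have hunit : IsUnit (φ ((T ^ 2 * d' + (T' ^ 2 - 3 * d') * d) ^ 2
        - T ^ 2 * T' ^ 2 * d' * d)) := by
      obtain ⟨x, hx⟩ : ∃ x, (T ^ 2 * d' + (T' ^ 2 - 3 * d') * d) ^ 2 - T ^ 2 * T' ^ 2 * d' * d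
          = 9 + N * x := by
        obtain ⟨x, hx⟩ : N ∣ (T ^ 2 * d' + (T' ^ 2 - 3 * d') * d) ^ 2
            - T ^ 2 * T' ^ 2 * d' * d - 9 := by
          rw [← Ideal.mem_span_singleton, ← Ideal.Quotient.eq_zero_iff_mem, htx, htx', hdx, hdx']
          have h0 : Ideal.Quotient.mk (Ideal.span {N}) N = 0 :=
            Ideal.Quotient.eq_zero_iff_mem.mpr (Ideal.mem_span_singleton_self N)
          simp only [map_sub, map_mul, map_pow, map_add, map_ofNat, map_one, h0, zero_mul, add_zero]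
          norm_num
        exact ⟨x, by rw [← hx]; ring⟩
      rw [hx]
      exact hN.nine x
    rw [← key, IsUnit.mul_iff, IsUnit.mul_iff] at hunit
    refine sub_eq_zero.mp (hunit.1.2.mul_left_eq_zero.mp ?_)
    rw [hbt] at heq ⊢
    linear_combination heq
  obtain ⟨x3, hx3⟩ : ∃ x, Y'.trace ^ 2 - Y'.det = 3 + N * x :=
    ⟨4 * tx' + N * tx' ^ 2 - dx', by rw [htx', hdx']; ring⟩
  have h3 : IsUnit ((Y'.map φ).trace ^ 2 - (Y'.map φ).det) := by
    rw [trace_map', det_map', ← map_pow, ← map_sub, hx3]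
    exact hN.three x3
  refine ⟨m, hm3, ?_⟩
  have hbY : b = Y'.map φ := by
    refine (h3.smul_left_cancel).mp ?_
    have h1 := cube_eq b
    rw [hb3, cube_eq (Y'.map φ), htr, hbdet, ← trace_map', ← det_map'] at h1
    exact (sub_left_injective h1).symm
  rw [← hbY, hb, smul_smul, ← Units.val_mul, mul_inv_cancel, Units.val_one, one_smul]

variable {p : ℕ} [Fact p.Prime] [Algebra ℤ_[p] O] [Module.Finite ℤ_[p] O]
  [Module.IsTorsionFree ℤ_[p] O]

/-- Every element of the level `3 N` is a cube from the level `N`. -/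
theorem exists_cube_eq {m w : ℤ_[p]} (hw : 3 * ((p : ℤ_[p]) * w) = ((p : ℤ_[p]) * m) ^ 2)
    (X : Matrix (Fin 2) (Fin 2) O) :
    ∃ Y : Matrix (Fin 2) (Fin 2) O, IsUnit Y ∧ IsCongrOne (algebraMap ℤ_[p] O (p * m)) Y ∧
      Y ^ 3 = 1 + (3 * algebraMap ℤ_[p] O (p * m)) • X := by
  let S : Subalgebra ℤ_[p] (Matrix (Fin 2) (Fin 2) O) := Algebra.adjoin ℤ_[p] {X}
  let : CommRing S := { (inferInstance : Ring S) with
    mul_comm := fun a b => Subtype.ext (Algebra.commute_of_mem_adjoin_singleton_of_commute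
      a.2 (Algebra.commute_of_mem_adjoin_self b.2).symm).eq.symm }
  have : Module.Finite ℤ_[p] S := Module.Finite.of_injective S.val.toLinearMap
    Subtype.coe_injective
  have : Module.IsTorsionFree ℤ_[p] S := Subtype.coe_injective.moduleIsTorsionFree _ fun _ _ => rfl
  have hS : IsPComplete ((p : S)) := isPComplete_padic p
  let a : S := ⟨X, Algebra.self_mem_adjoin_singleton _ _⟩
  set ν : S := algebraMap ℤ_[p] S (p * m) with hν
  let φ : S → S := fun s => a - ν * s ^ 2 - (p : S) * algebraMap ℤ_[p] S w * s ^ 3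
  obtain ⟨s, hs, -⟩ := hS.existsUnique_fixedPoint φ fun x y =>
    ⟨-algebraMap ℤ_[p] S m * (x + y) - algebraMap ℤ_[p] S w * (x ^ 2 + x * y + y ^ 2), by
      simp only [φ, hν, map_mul, map_natCast]; ring⟩
  have hw' : 3 * ((p : S) * algebraMap ℤ_[p] S w) = ν ^ 2 := by
    have := congrArg (algebraMap ℤ_[p] S) hw
    simpa [hν, map_mul, map_pow, map_natCast, map_ofNat] using this
  have key : (1 + ν * s) ^ 3 = 1 + 3 * ν * a := by
    simp only [φ] at hs
    linear_combination -3 * ν * hs - s ^ 3 * ν * hw'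
  refine ⟨((1 + ν * s : S) : Matrix (Fin 2) (Fin 2) O), ?_,
    ⟨(s : Matrix (Fin 2) (Fin 2) O), ?_⟩, ?_⟩
  · have h1 : IsUnit (1 + ν * s) := by
      rw [show ν * s = (p : S) * (algebraMap ℤ_[p] S m * s) by
        rw [hν, map_mul, map_natCast]; ring]
      exact hS.isUnit_one_add _
    exact h1.map S.val
  · simp [hν, Algebra.smul_def, ← IsScalarTower.algebraMap_apply]
  · have h := congrArg S.val key
    simp only [map_pow, map_add, map_one, map_mul, map_ofNat] at h
    rw [← Subalgebra.coe_val, map_add, map_one, map_mul, h]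
    simp [hν, a, Algebra.smul_def, mul_assoc, map_ofNat, ← IsScalarTower.algebraMap_apply]

end FLTAgent.LanglandsTunnell.Local
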