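import Fermat.Agent.LanglandsTunnell.Internal
import Fermat.Agent.LanglandsTunnell.Trace.Points
import Fermat.Agent.LanglandsTunnell.Local.Components
import Fermat.Agent.LanglandsTunnell.Local.LocalInstance

/-!
# The finite part of the comparison: statement of the local transfer

For every regular `γ` over `E` the word kernels of the twisted side and their images on `E` are
pushed to common points of `FinPt E N`, equivariantly for the centraliser of `γ`.
`LocalTransferSpec` is proved as `localTransferSpec` in `PrimeTransfer`.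
-/

set_option autoImplicit false

noncomputable section

namespace FLTAgent.LanglandsTunnell.Local

open scoped TensorProduct
open FLTAgent.LanglandsTunnell FLTAgent.LanglandsTunnell.Trace NumberField Matrix

variable (D : Datum)

/-- The level of the twisted side. -/
abbrev lvM (N' : ℕ) : Ideal (𝓞 D.M) := Ideal.span {(N' : 𝓞 D.M)}

/-- The level of the plain side. -/
abbrev lvE (N : ℕ) : Ideal (𝓞 D.E) := Ideal.span {(N : 𝓞 D.E)}

/-- `GL(2, E)` inside the finite adelic group of `E`. -/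
def glE : GL (Fin 2) D.E →* GL (Fin 2) (AF D.E) := Matrix.GeneralLinearGroup.map (toAF D.E)

/-- `GL(2, E)` inside the finite adelic group of `M`. -/
def glEM : GL (Fin 2) D.E →* GL (Fin 2) (AF D.M) :=
  Matrix.GeneralLinearGroup.map ((toAF D.M).comp D.incl)

/-- The finite test kernel of the twisted side for a word. -/
def cM (σ : D.M ≃ₐ[ℚ] D.M) (R : Finset Nat.Primes) (N₀ N₁ N' : ℕ) (W : List (Ideal (𝓞 D.M)))
    (v v' : FinPt D.M (lvM D N')) : ℂ :=
  ∑ᶠ u, ramKernel D σ R N₀ N₁ N' v u * wordKernel (lvM D N') W u v'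

/-- A signed combination of word kernels on the plain side. -/
def pieceKer (N : ℕ) (L : List (ℂ × List (Ideal (𝓞 D.E)))) (u u' : FinPt D.E (lvE D N)) : ℂ :=
  (L.map fun a => a.1 * wordKernel (lvE D N) a.2 u u').sum

/-- `v ↦ δ σ(v)`. -/
def twAct {N' : ℕ} (σ : D.M ≃ₐ[ℚ] D.M) (δ : GL (Fin 2) D.M) (v : FinPt D.M (lvM D N')) :
    FinPt D.M (lvM D N') :=
  Matrix.GeneralLinearGroup.map (toAF D.M) δ •
    ((Matrix.GeneralLinearGroup.map (mapAF σ.toAlgHom.toRingHom).toRingHom v.out :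
      GL (Fin 2) (AF D.M)) : FinPt D.M (lvM D N'))

/-- The finite part of `-(l_∞ + l_0)`. -/
def finHeight {F : Type} [Field F] [NumberField F] {ι : Type} [Fintype ι] {n : Ideal (𝓞 F)}
    (Φ : PlaceChoice F ι) (v : FinPt F n) : ℝ :=
  -(logHeight Φ (cuspInf F) (v, fun _ => LanglandsTunnell.H3.base) +
    logHeight Φ (cuspZero F) (v, fun _ => LanglandsTunnell.H3.base))

/-- Regular semisimple. -/
def IsRegularMat (γ : GL (Fin 2) D.E) : Prop := γ.1.trace ^ 2 ≠ 4 * γ.1.det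

/-- Diagonal. -/
def IsDiagMat {F : Type} [Field F] (γ : GL (Fin 2) F) : Prop := γ.1 0 1 = 0 ∧ γ.1 1 0 = 0

/-- At every rational prime `γ` is, up to a scalar, a norm from the centraliser. -/
def IsLocalNorm (σ : D.M ≃ₐ[ℚ] D.M) (γ : GL (Fin 2) D.E) : Prop :=
  ∀ p : Nat.Primes, ∃ (z : (Lp D.E p)ˣ) (X : GL (Fin 2) (Lp D.M p)),
    X * Matrix.GeneralLinearGroup.map (mapLp (p := (p : ℕ)) D.incl) (compGL p (glE D γ)) =
      Matrix.GeneralLinearGroup.map (mapLp (p := (p : ℕ)) D.incl) (compGL p (glE D γ)) * X ∧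
    X * Matrix.GeneralLinearGroup.map (mapLp (p := (p : ℕ)) σ.toAlgHom.toRingHom) X *
      Matrix.GeneralLinearGroup.map (mapLp (p := (p : ℕ)) σ.toAlgHom.toRingHom)
        (Matrix.GeneralLinearGroup.map (mapLp (p := (p : ℕ)) σ.toAlgHom.toRingHom) X) =
    Matrix.GeneralLinearGroup.map (mapLp (p := (p : ℕ)) D.incl)
      (Matrix.GeneralLinearGroup.scalar (Fin 2) z * compGL p (glE D γ))

/-- `γ` is a scalar times the twisted norm of the commuting element `δ`. -/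
def IsNormOf (σ : D.M ≃ₐ[ℚ] D.M) (γ : GL (Fin 2) D.E) (δ : GL (Fin 2) D.M) : Prop :=
  Commute δ (Matrix.GeneralLinearGroup.map D.incl γ) ∧ ∃ z : (D.E)ˣ,
    δ * Matrix.GeneralLinearGroup.map σ.toAlgHom.toRingHom δ *
      Matrix.GeneralLinearGroup.map σ.toAlgHom.toRingHom
        (Matrix.GeneralLinearGroup.map σ.toAlgHom.toRingHom δ) =
    Matrix.GeneralLinearGroup.map D.incl (Matrix.GeneralLinearGroup.scalar (Fin 2) z * γ)

/-- The plain side at one class: the equivariant push to common points. -/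
structure PlainPush (N : ℕ) (L : List (ℂ × List (Ideal (𝓞 D.E)))) (γ : GL (Fin 2) D.E) : Type where
  proj : FinPt D.E (lvE D N) → FinPt D.E (lvE D N)
  proj_smul : ∀ t : GL (Fin 2) D.E, Commute t γ → ∀ u, proj (glE D t • u) = glE D t • proj u
  finite : ∀ a ∈ L, ∀ z,
    {u | proj u = z ∧ wordKernel (lvE D N) a.2 u (glE D γ • u) ≠ 0}.Finite

/-- The sum over a fibre of `proj`. -/
def PlainPush.sum {N : ℕ} {L : List (ℂ × List (Ideal (𝓞 D.E)))} {γ : GL (Fin 2) D.E}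
    (π : PlainPush D N L γ) (L' : List (ℂ × List (Ideal (𝓞 D.E))))
    (f : FinPt D.E (lvE D N) → ℂ) (z : FinPt D.E (lvE D N)) : ℂ :=
  ∑ᶠ u ∈ {u | π.proj u = z}, f u * pieceKer D N L' u (glE D γ • u)

/-- The twisted side at one class: one relabelling `q i` for each of the three places. -/
structure TwistedPush (σ : D.M ≃ₐ[ℚ] D.M) (R : Finset Nat.Primes) (N₀ N₁ N N' : ℕ)
    (W : List (Ideal (𝓞 D.M))) (γ : GL (Fin 2) D.E) (δ : GL (Fin 2) D.M) : Type where
  q : Fin 3 → FinPt D.M (lvM D N') → FinPt D.E (lvE D N)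
  q_smul : ∀ i, ∀ t : GL (Fin 2) D.E, Commute t γ → ∀ v,
    cM D σ R N₀ N₁ N' W v (twAct D σ δ v) ≠ 0 → q i (glEM D t • v) = glE D t • q i v
  finite : ∀ i z, {v | q i v = z ∧ cM D σ R N₀ N₁ N' W v (twAct D σ δ v) ≠ 0}.Finite

/-- The sum over a fibre of `q i`. -/
def TwistedPush.sum {σ : D.M ≃ₐ[ℚ] D.M} {R : Finset Nat.Primes} {N₀ N₁ N N' : ℕ}
    {W : List (Ideal (𝓞 D.M))} {γ : GL (Fin 2) D.E} {δ : GL (Fin 2) D.M}
    (T : TwistedPush D σ R N₀ N₁ N N' W γ δ) (i : Fin 3) (f : FinPt D.M (lvM D N') → ℂ)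
    (z : FinPt D.E (lvE D N)) : ℂ :=
  ∑ᶠ v ∈ {v | T.q i v = z}, f v * cM D σ R N₀ N₁ N' W v (twAct D σ δ v)

/-- The comparison at one regular class. -/
def ClassTransfer (P : ExtPlaces D) (σ : D.M ≃ₐ[ℚ] D.M) (R : Finset Nat.Primes)
    (N₀ N₁ N N' : ℕ) (c : ℝ) (W : List (Ideal (𝓞 D.M))) (W₂ : List (ℂ × List (Ideal (𝓞 D.E))))
    (γ : GL (Fin 2) D.E) : Prop :=
  ∃ π : PlainPush D N (D.descWord W ++ W₂) γ,
    (IsLocalNorm D σ γ ∨ ∀ z, π.sum D (D.descWord W) (fun _ => 1) z = 0) ∧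
    ∃ dE : FinPt D.E (lvE D N) → ℝ, (∀ u, 0 ≤ dE u) ∧
      (IsDiagMat γ →
        (∀ u, finHeight P.placesE u = finHeight P.placesE (π.proj u) + dE u) ∧
        (¬ IsLocalNorm D σ γ → ∀ z,
          -(3 * (c : ℂ)) * π.sum D (D.descWord W) (fun u => (dE u : ℂ)) z =
            π.sum D W₂ (fun _ => 1) z)) ∧
      ∀ δ, IsNormOf D σ γ δ → ∃ T : TwistedPush D σ R N₀ N₁ N N' W γ δ,
        (∀ i z, T.sum D i (fun _ => 1) z = (c : ℂ) * π.sum D (D.descWord W) (fun _ => 1) z) ∧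
        (IsDiagMat γ → ∃ dM : FinPt D.M (lvM D N') → ℝ, (∀ v, 0 ≤ dM v) ∧
          (∀ v, cM D σ R N₀ N₁ N' W v (twAct D σ δ v) ≠ 0 →
            finHeight P.placesM v = (∑ i, finHeight P.placesE (T.q i v)) + dM v) ∧
          ∀ z, T.sum D 0 (fun v => (dM v : ℂ)) z -
              3 * (c : ℂ) * π.sum D (D.descWord W) (fun u => (dE u : ℂ)) z =
            π.sum D W₂ (fun _ => 1) z)

/-- The local comparison at every regular class, for every test word. -/
def LocalTransferSpec : Prop :=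
  ∀ (D : Datum) (P : ExtPlaces D) (σ : D.M ≃ₐ[ℚ] D.M),
    σ ≠ AlgEquiv.refl → (∀ x, σ (D.incl x) = D.incl x) →
    ∀ k B : ℕ, 0 < B →
      ((∀ A : ValuationSubring QB, A.LiesOverPrime 3 → LineShape D.ρ A) → k = 0) →
      ∃ (R : Finset Nat.Primes) (N₀ N₁ N N' : ℕ) (c : ℝ), 0 < c ∧
        IsTestLevel D σ k B R N₀ N₁ N N' ∧
        ∀ W : List (Ideal (𝓞 D.M)), (∀ w ∈ W, D.TestOK N' w) →
          (∀ w ∈ W, D.DegreeThree w → W.count w ≤ 1) →
          ∃ W₂ : List (ℂ × List (Ideal (𝓞 D.E))),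
            (∀ a ∈ W₂, ∀ v ∈ a.2, v.IsPrime ∧ v ≠ ⊥ ∧ ¬ v ∣ lvE D N ∧
              ∃ w ∈ W, v = D.under w) ∧
            ∀ A B : List (Ideal (𝓞 D.M)),
              (∀ w ∈ A ++ B, D.TestOK N' w ∧ D.DegreeOne w) →
              ∀ γ : GL (Fin 2) D.E, IsRegularMat D γ →
                ClassTransfer D P σ R N₀ N₁ N N' c (A ++ W ++ B)
                  (W₂.map fun b => (b.1, A.map D.under ++ b.2 ++ B.map D.under)) γ

end FLTAgent.LanglandsTunnell.Local
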