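import Fermat.Agent.LanglandsTunnell.Local.LocalWords
import Fermat.Agent.LanglandsTunnell.Local.RamLevels
import Fermat.Agent.LanglandsTunnell.Local.TransferSpec

/-!
# The kernels of the comparison factor over the rational primes

The image on `E` of a word of `M` factors over the rational primes (`locDesc`,
`combKer_descWord`), and so does the twisted kernel (`twistedLocKer`, `cM_eq_prod`).
-/

set_option autoImplicit false

noncomputable section

namespace FLTAgent.LanglandsTunnell.Local

open scoped TensorProduct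
open FLTAgent.LanglandsTunnell NumberField Matrix

variable (D : Datum)

theorem natCast_mem_under {q : ℕ} {w : Ideal (𝓞 D.M)} :
    (q : 𝓞 D.E) ∈ D.under w ↔ (q : 𝓞 D.M) ∈ w := by
  rw [Datum.under, Ideal.mem_comap, map_natCast]

variable {D}

/-- A test prime is good on both sides. -/
theorem isGoodPrime_of_testOK {N N' : ℕ} (hdvd : N ∣ N') {w : Ideal (𝓞 D.M)}
    (hw : D.TestOK N' w) : IsGoodPrime N' w ∧ IsGoodPrime N (D.under w) := by
  obtain ⟨hdeg, -, hv⟩ := hw
  obtain ⟨hwp, hw0⟩ : w.IsPrime ∧ w ≠ ⊥ := hdeg.elim (fun h => ⟨h.1, h.2.1⟩) fun h => ⟨h.1, h.2.1⟩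
  have key : ∀ p : Nat.Primes, ((p : ℕ) : 𝓞 D.E) ∈ D.under w → ¬ (p : ℕ) ∣ N' := by
    intro p hp hd
    refine hv (Ideal.dvd_iff_le.mpr ((Ideal.span_singleton_le_iff_mem _).mpr ?_))
    obtain ⟨m, rfl⟩ := hd
    rw [Nat.cast_mul]
    exact Ideal.mul_mem_right _ _ hp
  refine ⟨⟨hwp, hw0, fun p hp => key p ((natCast_mem_under D).mpr hp)⟩,
    hwp.comap _, fun h0 => ?_, fun p hp hd => key p hp (hd.trans hdvd)⟩
  obtain ⟨q, ε, hε⟩ := LanglandsTunnell.Isolation.exists_isPlaceIdem hwp hw0
  have := (natCast_mem_under D).mpr hε.mem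
  rw [h0, Ideal.mem_bot] at this
  exact q.2.ne_zero (Nat.cast_eq_zero.mp this)

theorem descPrime_mem {w : Ideal (𝓞 D.M)} {a : ℂ × List (Ideal (𝓞 D.E))}
    (ha : a ∈ D.descPrime w) {v : Ideal (𝓞 D.E)} (hv : v ∈ a.2) : v = D.under w := by
  unfold Datum.descPrime at ha
  split_ifs at ha <;> simp only [List.mem_cons, List.not_mem_nil, or_false] at ha
  · subst ha; simpa using hv
  · rcases ha with rfl | rfl <;> simpa using hv

open scoped Classical in
/-- The image of one letter at one prime. -/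
def descStepKer (N : ℕ) (p : Nat.Primes) (w : Ideal (𝓞 D.M)) :
    LocPt D.E N p → LocPt D.E N p → ℂ :=
  if ((p : ℕ) : 𝓞 D.M) ∈ w then locComb N p (D.descPrime w) else idKer

/-- The image of a word at one prime. -/
def locDesc (N : ℕ) (p : Nat.Primes) :
    List (Ideal (𝓞 D.M)) → LocPt D.E N p → LocPt D.E N p → ℂ
  | [] => idKer
  | w :: ws => SplitPlace.comp (descStepKer N p w) (locDesc N p ws)

theorem locDesc_eq_idKer {N : ℕ} {p : Nat.Primes} :
    ∀ {ws : List (Ideal (𝓞 D.M))}, (∀ w ∈ ws, ((p : ℕ) : 𝓞 D.M) ∉ w) →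
      locDesc (D := D) N p ws = idKer
  | [], _ => rfl
  | w :: ws, h => by
    rw [locDesc, descStepKer, if_neg (h w List.mem_cons_self), comp_idKer_left,
      locDesc_eq_idKer fun x hx => h x (List.mem_cons_of_mem _ hx)]

theorem finRows_descStep {N : ℕ} (hN : N ≠ 0) {p : Nat.Primes} {w : Ideal (𝓞 D.M)}
    (hw : IsGoodPrime N (D.under w)) : SplitPlace.FinRows (descStepKer N p w) := by
  classical
  by_cases hp : ((p : ℕ) : 𝓞 D.M) ∈ w
  · rw [descStepKer, if_pos hp]
    exact finRows_locComb hN fun a ha v hv => descPrime_mem ha hv ▸ hw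
  · rw [descStepKer, if_neg hp]; exact finRows_idKer

theorem finRows_locDesc {N : ℕ} (hN : N ≠ 0) {p : Nat.Primes} :
    ∀ {ws : List (Ideal (𝓞 D.M))}, (∀ w ∈ ws, IsGoodPrime N (D.under w)) →
      SplitPlace.FinRows (locDesc N p ws)
  | [], _ => finRows_idKer
  | w :: _, h => (finRows_descStep hN (h w List.mem_cons_self)).comp
      (finRows_locDesc hN fun x hx => h x (List.mem_cons_of_mem _ hx))

theorem descWord_cons (w : Ideal (𝓞 D.M)) (ws : List (Ideal (𝓞 D.M))) :
    D.descWord (w :: ws) = combMul (D.descPrime w) (D.descWord ws) := rfl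

theorem exists_primes {F : Type} [Field F] [NumberField F] {N : ℕ} {ws : List (Ideal (𝓞 F))}
    (hws : ∀ w ∈ ws, IsGoodPrime N w) :
    ∃ S : Finset Nat.Primes, ∀ w ∈ ws, ∀ p : Nat.Primes, p ∉ S → ((p : ℕ) : 𝓞 F) ∉ w := by
  classical
  choose g hg using fun x : {x // x ∈ ws} => (hws x.1 x.2).exists_mem
  exact ⟨Finset.univ.image g, fun x hx p hp h => hp (Finset.mem_image.mpr ⟨⟨x, hx⟩,
    Finset.mem_univ _, (natCast_mem_unique (hws x hx).1 (hg ⟨x, hx⟩) h).symm⟩)⟩

/-- **The image of a word factors over the rational primes.** -/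
theorem combKer_descWord {N : ℕ} (hN : N ≠ 0) {ws : List (Ideal (𝓞 D.M))}
    (hws : ∀ w ∈ ws, IsGoodPrime N (D.under w)) (v v' : FinPt D.E (lvE D N)) :
    combKer (lvE D N) (D.descWord ws) v v' =
      prodKer (fun p : Nat.Primes => locDesc (D := D) N p ws) (fun p => compPt hN p) v v' := by
  classical
  induction ws generalizing v with
  | nil =>
    refine Eq.trans ?_ (prodKer_idKer hN v v').symm
    rw [Datum.descWord, combKer, List.map_singleton, List.sum_singleton, one_mul, wordKernel]
    by_cases h : v = v'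
    · rw [if_pos h, h, idKer_self]
    · rw [if_neg h, idKer_ne h]
  | cons w ws ih =>
    have hw := hws w List.mem_cons_self
    have hws' : ∀ x ∈ ws, IsGoodPrime N (D.under x) := fun x hx => hws x (List.mem_cons_of_mem _ hx)
    obtain ⟨p₀, hp₀⟩ := hw.exists_mem
    have hn : lvE D N ≠ ⊥ := by simpa using hN
    obtain ⟨S, hS⟩ := exists_primes (ws := (w :: ws).map D.under) fun x hx => by
      obtain ⟨y, hy, rfl⟩ := List.mem_map.mp hx
      exact hws y hy
    have hS' : ∀ x ∈ w :: ws, ∀ p : Nat.Primes, p ∉ S → ((p : ℕ) : 𝓞 D.M) ∉ x := fun x hx p hp h =>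
      hS _ (List.mem_map_of_mem hx) p hp ((natCast_mem_under D).mpr h)
    have hstep : ∀ u, combKer (lvE D N) (D.descPrime w) v u =
        prodKer (fun p : Nat.Primes => descStepKer (D := D) N p w) (fun p => compPt hN p) v u := by
      intro u
      rw [combKer_single hN (fun a ha x hx => descPrime_mem ha hx ▸ hw) (p₀ := p₀)
        (fun a ha x hx => descPrime_mem ha hx ▸ hp₀)]
      refine congrArg (fun f => prodKer f (fun p : Nat.Primes => compPt hN p) v u)
        (funext fun p => ?_)
      by_cases hp : p = p₀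
      · subst hp; rw [if_pos rfl, descStepKer, if_pos ((natCast_mem_under D).mp hp₀)]
      · rw [if_neg hp, descStepKer, if_neg fun h =>
          hp (natCast_mem_unique hw.1 hp₀ ((natCast_mem_under D).mpr h))]
    rw [descWord_cons, combKer_combMul hn _ (fun a ha x hx => descPrime_mem ha hx ▸ hw.2.1),
      finsum_congr fun u => by rw [hstep u, ih hws']]
    exact (isRestricted_compPt hN).prodKer_comp (S := S)
      (isDiagOutside_of_eq fun p hp => if_neg (hS' w List.mem_cons_self p hp))
      (isDiagOutside_of_eq fun p hp =>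
        locDesc_eq_idKer fun x hx => hS' x (List.mem_cons_of_mem _ hx) p hp)
      (fun p _ => finRows_descStep hN hw) v v'

/-! ### The twisted kernel -/

variable {σ : D.M ≃ₐ[ℚ] D.M}

open scoped Classical in
/-- The twisted kernel at one prime. -/
def twistedLocKer (h : CubicData D.incl σ.toRingEquiv) (R : Finset Nat.Primes) (N₀ N₁ N' : ℕ)
    (W : List (Ideal (𝓞 D.M))) (p : Nat.Primes) : LocPt D.M N' p → LocPt D.M N' p → ℂ :=
  if p ∈ R then ramLocKer h p N₀ N₁ N' else locWord N' p W

theorem ramKernel_eq_prod (h : CubicData D.incl σ.toRingEquiv) {R : Finset Nat.Primes}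
    {N₀ N₁ N' : ℕ} (hN : N' ≠ 0) (v v' : FinPt D.M (lvM D N')) :
    ramKernel D σ R N₀ N₁ N' v v' =
      prodKer (fun p : Nat.Primes => twistedLocKer h R N₀ N₁ N' [] p) (fun p => compPt hN p)
        v v' := by
  classical
  have hd : IsDiagOutside (fun p : Nat.Primes => twistedLocKer h R N₀ N₁ N' [] p) R :=
    isDiagOutside_of_eq fun p hp => by rw [twistedLocKer, if_neg hp]; rfl
  by_cases hall : ∀ p ∉ R, compPt hN p v = compPt hN p v'
  · rw [prodKer_eq_prod hd hall, ramKernel]
    have hiff : (∃ g ω : GL (Fin 2) (AF D.M), ramElement D σ R N₀ N₁ N' ω ∧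
        (g : FinPt D.M (lvM D N')) = v ∧
        ((g * ω : GL (Fin 2) (AF D.M)) : FinPt D.M (lvM D N')) = v') ↔
        ∀ p ∈ R, ∃ (g k : GL (Fin 2) (Lp D.M p)) (y : GL (Fin 2) (Lp D.E p)),
          k ∈ congrGroup (φp D.M p) (N₀ : Op D.M p) ∧ y ∈ congrGroup (φp D.E p) (N₁ : Op D.E p) ∧
          (g : LocPt D.M N' p) = compPt hN p v ∧
          ((g * (k * (h.localCubic (p : ℕ)).ι y * ((h.localCubic (p : ℕ)).θ k)⁻¹) :
            GL (Fin 2) (Lp D.M p)) : LocPt D.M N' p) = compPt hN p v' := by
      constructor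
      · rintro ⟨g, ω, hω, rfl, rfl⟩ p hp
        obtain ⟨k, hk, y, hy, e⟩ := ((ramElement_iff h).mp hω).1 p hp
        exact ⟨compGL p g, k, y, hk, hy, (compPt_mk hN p g).symm, by rw [compPt_mk, map_mul, e]⟩
      · intro H
        induction v using QuotientGroup.induction_on with
        | H g₀ =>
          choose g k y hk hy hg he using H
          obtain ⟨T, hT⟩ := exists_finset_congr N' hN g₀
          obtain ⟨a, ha⟩ := exists_gl_comp (F := D.M)
            (fun p : Nat.Primes => if hp : p ∈ R then g p hp else compGL p g₀) (T ∪ R)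
            fun p hp => by
            simp only [Finset.mem_union, not_or] at hp
            rw [dif_neg hp.2]
            exact congrGroup_le_one _ (hT p hp.1)
          obtain ⟨ω, hω⟩ := exists_gl_comp (F := D.M)
            (fun p : Nat.Primes => if hp : p ∈ R then
              k p hp * (h.localCubic (p : ℕ)).ι (y p hp) * ((h.localCubic (p : ℕ)).θ (k p hp))⁻¹
              else 1) R fun p hp => by rw [dif_neg hp]; exact one_mem _
          refine ⟨a, ω, (ramElement_iff h).mpr ⟨fun p hp => ?_, fun p hp => ?_⟩,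
            finPt_ext hN fun p => ?_, finPt_ext hN fun p => ?_⟩
          · rw [hω, dif_pos hp]; exact ⟨_, hk p hp, _, hy p hp, rfl⟩
          · rw [hω, dif_neg hp]; exact one_mem _
          · rw [compPt_mk, compPt_mk, ha]
            split_ifs with hp
            · exact (hg p hp).trans (compPt_mk hN p g₀)
            · rfl
          · rw [compPt_mk, map_mul, ha, hω]
            split_ifs with hp
            · exact he p hp
            · rw [mul_one, ← hall p hp, compPt_mk]
    have hval : ∀ p ∈ R, twistedLocKer h R N₀ N₁ N' [] p (compPt hN p v) (compPt hN p v') =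
        if ∃ (g k : GL (Fin 2) (Lp D.M p)) (y : GL (Fin 2) (Lp D.E p)),
          k ∈ congrGroup (φp D.M p) (N₀ : Op D.M p) ∧ y ∈ congrGroup (φp D.E p) (N₁ : Op D.E p) ∧
          (g : LocPt D.M N' p) = compPt hN p v ∧
          ((g * (k * (h.localCubic (p : ℕ)).ι y * ((h.localCubic (p : ℕ)).θ k)⁻¹) :
            GL (Fin 2) (Lp D.M p)) : LocPt D.M N' p) = compPt hN p v' then 1 else 0 :=
        fun p hp => by
      rw [twistedLocKer, if_pos hp]; rfl
    rw [Finset.prod_congr rfl hval, Finset.prod_boole]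
    by_cases hh : ∃ g ω : GL (Fin 2) (AF D.M), ramElement D σ R N₀ N₁ N' ω ∧
        (g : FinPt D.M (lvM D N')) = v ∧
        ((g * ω : GL (Fin 2) (AF D.M)) : FinPt D.M (lvM D N')) = v'
    · rw [if_pos hh, if_pos (hiff.mp hh)]
    · rw [if_neg hh, if_neg fun hh' => hh (hiff.mpr hh')]
  · push Not at hall
    obtain ⟨p, hp, hne⟩ := hall
    rw [(isRestricted_compPt hN).prodKer_eq_zero hd hp hne, ramKernel, if_neg]
    rintro ⟨g, ω, hω, rfl, rfl⟩
    refine hne ?_
    rw [compPt_mk, compPt_mk, map_mul, QuotientGroup.eq, inv_mul_cancel_left]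
    exact le_sup_left (a := congrGroup (φp D.M p) (N' : Op D.M p))
      (((ramElement_iff h).mp hω).2 p hp)

/-- **The twisted kernel factors over the rational primes.** -/
theorem cM_eq_prod (h : CubicData D.incl σ.toRingEquiv) {R : Finset Nat.Primes} {N₀ N₁ N' : ℕ}
    (hN : N' ≠ 0) {W : List (Ideal (𝓞 D.M))} (hW : ∀ w ∈ W, IsGoodPrime N' w)
    (hR : ∀ p ∈ R, ∀ w ∈ W, ((p : ℕ) : 𝓞 D.M) ∉ w)
    (hfinR : ∀ p ∈ R, SplitPlace.FinRows (ramLocKer h p N₀ N₁ N'))
    (v v' : FinPt D.M (lvM D N')) :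
    cM D σ R N₀ N₁ N' W v v' =
      prodKer (fun p : Nat.Primes => twistedLocKer h R N₀ N₁ N' W p) (fun p => compPt hN p)
        v v' := by
  classical
  obtain ⟨S, hS⟩ := exists_primes hW
  rw [cM, finsum_congr fun u => by rw [ramKernel_eq_prod h hN v u, wordKernel_eq_prod hN hW u v'],
    (isRestricted_compPt hN).prodKer_comp (S := R ∪ S)
      (isDiagOutside_of_eq fun p hp => by
        rw [twistedLocKer, if_neg fun h' => hp (Finset.mem_union_left _ h')]; rfl)
      (isDiagOutside_of_eq fun p hp =>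
        locWord_eq_idKer fun x hx => hS x hx p fun h' => hp (Finset.mem_union_right _ h'))
      (fun p _ => by
        by_cases hp : p ∈ R
        · rw [twistedLocKer, if_pos hp]; exact hfinR p hp
        · rw [twistedLocKer, if_neg hp]; exact finRows_idKer)]
  refine congrArg (fun f => prodKer f (fun p : Nat.Primes => compPt hN p) v v') (funext fun p => ?_)
  show SplitPlace.comp (twistedLocKer h R N₀ N₁ N' [] p) (locWord N' p W) = _
  by_cases hp : p ∈ R
  · rw [twistedLocKer, twistedLocKer, if_pos hp, if_pos hp, locWord_eq_idKer (hR p hp),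
      comp_idKer_right]
  · rw [twistedLocKer, twistedLocKer, if_neg hp, if_neg hp]
    exact comp_idKer_left _

end FLTAgent.LanglandsTunnell.Local
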