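import Mathlib

/-!
# Semilocal Galois descent for an automorphism of order three

If `σ` acts freely on a semilocal ring `A`, every `k ∈ GL_n(A)` with `k σ(k) σ²(k) = 1` is
`b σ(b)⁻¹`. See `exists_twistSum_isUnit`.
-/

set_option autoImplicit false

noncomputable section

namespace FLTAgent.LanglandsTunnell.Local

variable {A : Type*} [CommRing A] (σ : A →+* A)

/-- A dual system: the trace form of `σ` is nondegenerate. -/
def HasDualSystem : Prop :=
  ∃ (ι : Type) (_ : Fintype ι) (e f : ι → A),
    ∑ i, e i * f i = 1 ∧ ∑ i, σ (e i) * f i = 0 ∧ ∑ i, σ (σ (e i)) * f i = 0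

theorem exists_halfSystem (τ : A →+* A) (h : Ideal.span (Set.range fun a => a - τ a) = ⊤) :
    ∃ (ι : Type) (_ : Fintype ι) (e f : ι → A), ∑ i, e i * f i = 1 ∧ ∑ i, τ (e i) * f i = 0 := by
  have h1 : (1 : A) ∈ Submodule.span A (Set.range fun a => a - τ a) := by
    rw [← Ideal.span, h]; trivial
  obtain ⟨n, r, g, hg⟩ := Submodule.mem_span_set'.mp h1
  choose a ha using fun i => (g i).2
  refine ⟨Option (Fin n), inferInstance, fun o => o.elim 1 a,
    fun o => o.elim (-∑ i, r i * τ (a i)) r, ?_, ?_⟩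
  · rw [Fintype.sum_option]
    simp only [Option.elim, one_mul]
    rw [← hg, ← Finset.sum_neg_distrib, ← Finset.sum_add_distrib]
    refine Finset.sum_congr rfl fun i _ => ?_
    rw [← ha i, smul_eq_mul]
    ring
  · rw [Fintype.sum_option]
    simp only [Option.elim, map_one, one_mul]
    rw [neg_add_eq_zero]
    exact Finset.sum_congr rfl fun i _ => mul_comm _ _

/-- Free action gives a dual system. -/
theorem hasDualSystem_of_span (h₁ : Ideal.span (Set.range fun a => a - σ a) = ⊤)
    (h₂ : Ideal.span (Set.range fun a => a - σ (σ a)) = ⊤) : HasDualSystem σ := by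
  obtain ⟨ι, _, e, f, he, he'⟩ := exists_halfSystem σ h₁
  obtain ⟨κ, _, e', f', hf, hf'⟩ := exists_halfSystem (σ.comp σ) h₂
  refine ⟨ι × κ, inferInstance, fun x => e x.1 * e' x.2, fun x => f x.1 * f' x.2, ?_, ?_, ?_⟩ <;>
    simp only [map_mul, mul_mul_mul_comm _ _ (f _) (f' _), Fintype.sum_prod_type]
  · rw [← Finset.sum_mul_sum, he, hf, one_mul]
  · rw [← Finset.sum_mul_sum, he', zero_mul]
  · rw [← Finset.sum_mul_sum]
    have : ∑ j, σ (σ (e' j)) * f' j = 0 := hf'
    rw [this, mul_zero]

/-- A dual system is carried along an equivariant ring map. -/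
theorem HasDualSystem.map {σ : A →+* A} (h : HasDualSystem σ) {B : Type*} [CommRing B]
    (φ : A →+* B) (τ : B →+* B) (hφ : ∀ a, φ (σ a) = τ (φ a)) : HasDualSystem τ := by
  obtain ⟨ι, _, e, f, h1, h2, h3⟩ := h
  refine ⟨ι, inferInstance, φ ∘ e, φ ∘ f, ?_, ?_, ?_⟩ <;>
    simp only [Function.comp_apply, ← hφ, ← map_mul, ← map_sum]
  · rw [h1, map_one]
  · rw [h2, map_zero]
  · rw [h3, map_zero]

/-- The maximal ideal `σ⁻¹(m)`. -/
def pullMax (hσ : ∀ a, σ (σ (σ a)) = a) (m : MaximalSpectrum A) : MaximalSpectrum A :=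
  ⟨m.asIdeal.comap σ, Ideal.comap_isMaximal_of_surjective σ (fun a => ⟨σ (σ a), hσ a⟩)
    (K := m.asIdeal)⟩

theorem pullMax_three (hσ : ∀ a, σ (σ (σ a)) = a) (m : MaximalSpectrum A) :
    pullMax σ hσ (pullMax σ hσ (pullMax σ hσ m)) = m :=
  MaximalSpectrum.ext (Ideal.ext fun x => by simp [pullMax, hσ])

/-- An element fixed by `σ` lying outside exactly the given stable set of maximal ideals. -/
theorem exists_fixed_selector (hσ : ∀ a, σ (σ (σ a)) = a) [Finite (MaximalSpectrum A)]
    (T : Set (MaximalSpectrum A)) (hT : ∀ m ∈ T, pullMax σ hσ m ∈ T) :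
    ∃ r : A, σ r = r ∧ ∀ m : MaximalSpectrum A, r ∉ m.asIdeal ↔ m ∈ T := by
  classical
  have : Fintype (MaximalSpectrum A) := Fintype.ofFinite _
  rcases T.eq_empty_or_nonempty with rfl | ⟨m₀, hm₀⟩
  · exact ⟨0, map_zero σ, fun m => by simp⟩
  set J : Ideal A := (Finset.univ.filter fun m => m ∉ T).inf fun m : MaximalSpectrum A => m.asIdeal
    with hJ
  obtain ⟨r, hr, hr'⟩ : ∃ r ∈ J, ∀ m ∈ T, r ∉ m.asIdeal := by
    by_contra! H
    have hsub : (J : Set A) ⊆ ⋃ m ∈ ((Finset.univ.filter (· ∈ T) :
        Finset (MaximalSpectrum A)) : Set (MaximalSpectrum A)), (m.asIdeal : Set A) :=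
        fun x hx => by
      obtain ⟨m, hm, hxm⟩ := H x hx
      exact Set.mem_biUnion (by simpa using hm) hxm
    obtain ⟨m, hm, hJm⟩ := (Ideal.subset_union_prime m₀ m₀
      (fun i _ _ _ => i.isMaximal.isPrime)).mp hsub
    obtain ⟨n, hn, hnm⟩ := (m.isMaximal.isPrime.inf_le').mp hJm
    have : n = m := MaximalSpectrum.ext (n.isMaximal.eq_of_le m.isMaximal.ne_top hnm)
    simp only [Finset.mem_filter, Finset.mem_univ, true_and] at hn hm
    exact hn (this ▸ hm)
  refine ⟨r * σ r * σ (σ r), by rw [map_mul, map_mul, hσ]; ring,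
    fun m => ⟨fun h => ?_, fun hm h => ?_⟩⟩
  · by_contra hm
    exact h (Ideal.mul_mem_right _ _ (Ideal.mul_mem_right _ _
      ((Submodule.mem_finsetInf.mp hr) m (by simpa using hm))))
  · rcases (m.isMaximal.isPrime.mem_or_mem h) with h' | h'
    · rcases (m.isMaximal.isPrime.mem_or_mem h') with h'' | h''
      · exact hr' m hm h''
      · exact hr' _ (hT m hm) h''
    · exact hr' _ (hT _ (hT m hm)) h'

variable {d : Type*} [Fintype d] [DecidableEq d]

/-- `c + k σ(c) + k σ(k) σ²(c)`. -/
def twistSum (k c : Matrix d d A) : Matrix d d A :=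
  c + k * c.map σ + k * k.map σ * (c.map σ).map σ

omit [Fintype d] [DecidableEq d] in
theorem map_map_map (hσ : ∀ a, σ (σ (σ a)) = a) (c : Matrix d d A) :
    ((c.map σ).map σ).map σ = c := by
  ext i j; simp [hσ]

/-- The twisted sum is fixed by the twisted action. -/
theorem twistSum_fixed (hσ : ∀ a, σ (σ (σ a)) = a) {k : Matrix d d A}
    (hk : k * k.map σ * (k.map σ).map σ = 1) (c : Matrix d d A) :
    k * (twistSum σ k c).map σ = twistSum σ k c := by
  have h : (twistSum σ k c).map σ
      = c.map σ + k.map σ * (c.map σ).map σ + k.map σ * (k.map σ).map σ * c := by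
    change σ.mapMatrix (twistSum σ k c) = _
    simp only [twistSum, map_add, map_mul, RingHom.mapMatrix_apply, map_map_map σ hσ]
  rw [h, twistSum, Matrix.mul_add, Matrix.mul_add, ← Matrix.mul_assoc, ← Matrix.mul_assoc,
    ← Matrix.mul_assoc, hk, Matrix.one_mul]
  abel

omit [DecidableEq d] in
theorem twistSum_add (k c c' : Matrix d d A) :
    twistSum σ k (c + c') = twistSum σ k c + twistSum σ k c' := by
  simp only [twistSum, Matrix.map_add σ (map_add σ), Matrix.mul_add]
  abel

omit [DecidableEq d] in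
theorem twistSum_smul_fixed {r : A} (hr : σ r = r) (k c : Matrix d d A) :
    twistSum σ k (r • c) = r • twistSum σ k c := by
  have : ∀ X : Matrix d d A, (r • X).map σ = r • X.map σ := fun X => by
    ext i j; simp [hr]
  simp only [twistSum, this, Matrix.mul_smul, smul_add]

/-- The columns of twisted sums give a unit determinant modulo every maximal ideal. -/
theorem exists_det_notMem {σ : A →+* A} (hd : HasDualSystem σ) (k : Matrix d d A) {P : Ideal A}
    (hP : P ≠ ⊤) : ∃ c : Matrix d d A, (twistSum σ k c).det ∉ P := by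
  classical
  obtain ⟨ι, _, e, f, h1, h2, h3⟩ := hd
  let E : d → ι → Matrix d d A := fun l i => Matrix.single l l (e i)
  let col : d → ι → d → A := fun l i a => twistSum σ k (E l i) a l
  have hcol : ∀ l, ∑ i, f i • col l i = Pi.single l 1 := fun l => by
    funext a
    have : ∑ i, f i • twistSum σ k (E l i) = Matrix.single l l 1 := by
      have hs : ∀ (g : ι → A), ∑ i, f i • Matrix.single l l (g i)
          = Matrix.single l l (∑ i, g i * f i) := fun g => by
        ext a b
        simp only [Matrix.sum_apply, Matrix.smul_apply, smul_eq_mul, Matrix.single_apply]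
        split_ifs <;> simp [mul_comm]
      simp only [twistSum, E, Matrix.map_single _ _ _ σ, smul_add, ← Matrix.mul_smul,
        Finset.sum_add_distrib, ← Matrix.mul_sum, hs, h1, h2, h3, Matrix.single_zero,
        Matrix.mul_zero, add_zero]
    have := congrFun (congrFun this a) l
    simp only [Matrix.sum_apply, Matrix.smul_apply, smul_eq_mul] at this
    simp only [Finset.sum_apply, Pi.smul_apply, smul_eq_mul, col]
    rw [this]
    simp [Matrix.single_apply, Pi.single_apply, eq_comm]
  have hdet : ∑ r : d → ι, (∏ l, f (r l)) * Matrix.det (fun l => col l (r l) : Matrix d d A)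
      = 1 := by
    have := (Matrix.detRowAlternating (R := A) (n := d)).toMultilinearMap.map_sum
      (fun l i => f i • col l i)
    simp only [hcol, MultilinearMap.map_smul_univ, AlternatingMap.coe_multilinearMap,
      smul_eq_mul] at this
    refine Eq.trans this.symm ?_
    refine Eq.trans (congrArg Matrix.det
      (?_ : (fun l => Pi.single l 1 : Matrix d d A) = (1 : Matrix d d A)))
      Matrix.det_one
    funext l a
    simp [Pi.single_apply, Matrix.one_apply, eq_comm]
  obtain ⟨r, hr⟩ : ∃ r : d → ι, Matrix.det (fun l => col l (r l) : Matrix d d A) ∉ P := by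
    by_contra! H
    exact hP ((Ideal.eq_top_iff_one P).mpr (hdet ▸ sum_mem fun r _ => P.mul_mem_left _ (H r)))
  refine ⟨∑ l, E l (r l), ?_⟩
  rwa [← Matrix.det_transpose, show (twistSum σ k (∑ l, E l (r l))).transpose
      = (fun l => col l (r l) : Matrix d d A) from ?_]
  ext l a
  have hsum : twistSum σ k (∑ l, E l (r l)) = ∑ l, twistSum σ k (E l (r l)) :=
    map_sum (⟨⟨twistSum σ k, by simp [twistSum]⟩, twistSum_add σ k⟩ :
      Matrix d d A →+ Matrix d d A) _ _
  rw [Matrix.transpose_apply, hsum, Matrix.sum_apply,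
    Finset.sum_eq_single_of_mem l (Finset.mem_univ l)]
  intro l' _ hl'
  simp [twistSum, E, Matrix.mul_apply, hl']

/-- **Semilocal Galois descent.** -/
theorem exists_twistSum_isUnit [Finite (MaximalSpectrum A)] {σ : A →+* A}
    (hd : HasDualSystem σ) (hσ : ∀ a, σ (σ (σ a)) = a) {k : Matrix d d A}
    (hk : k * k.map σ * (k.map σ).map σ = 1) :
    ∃ b : Matrix d d A, IsUnit b.det ∧ k * b.map σ = b := by
  classical
  have : Fintype (MaximalSpectrum A) := Fintype.ofFinite _
  let good : Matrix d d A → Set (MaximalSpectrum A) := fun c =>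
    {m | (twistSum σ k c).det ∉ m.asIdeal}
  have hstable : ∀ c, ∀ m ∈ good c, pullMax σ hσ m ∈ good c := fun c m hm hn => by
    refine hm ?_
    have := congrArg Matrix.det (twistSum_fixed σ hσ hk c)
    rw [Matrix.det_mul, ← RingHom.mapMatrix_apply, ← RingHom.map_det] at this
    rw [← this]
    exact m.asIdeal.mul_mem_left _ hn
  obtain ⟨c, hc⟩ : ∃ c, ∀ m, m ∈ good c := by
    suffices ∀ S : Finset (MaximalSpectrum A), ∃ c, ∀ m ∈ S, m ∈ good c by
      obtain ⟨c, hc⟩ := this Finset.univ
      exact ⟨c, fun m => hc m (Finset.mem_univ m)⟩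
    intro S
    induction S using Finset.induction with
    | empty => exact ⟨0, by simp⟩
    | @insert m S _ ih =>
      obtain ⟨c, hc⟩ := ih
      by_cases hm : m ∈ good c
      · exact ⟨c, Finset.forall_mem_insert _ _ _ |>.mpr ⟨hm, hc⟩⟩
      obtain ⟨c', hc'⟩ := exists_det_notMem hd k m.isMaximal.ne_top
      -- `r` is outside exactly `good c`; `r'` outside exactly the points good for `c'` only
      obtain ⟨r, hrσ, hr⟩ := exists_fixed_selector σ hσ (good c) (hstable c)
      obtain ⟨r', hrσ', hr'⟩ := exists_fixed_selector σ hσ ((good c)ᶜ ∩ good c') fun a ha =>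
        ⟨fun hb => ha.1 (pullMax_three σ hσ a ▸ hstable c _ (hstable c _ hb)),
          hstable c' a ha.2⟩
      refine ⟨r • c + r' • c', fun n hn => ?_⟩
      have key : n ∈ good c ∨ n ∈ (good c)ᶜ ∩ good c' := by
        rcases Finset.mem_insert.mp hn with rfl | hn
        · exact Or.inr ⟨hm, hc'⟩
        · exact Or.inl (hc n hn)
      show (twistSum σ k (r • c + r' • c')).det ∉ n.asIdeal
      rw [twistSum_add, twistSum_smul_fixed σ hrσ, twistSum_smul_fixed σ hrσ']
      let := n.isMaximal.isPrime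
      let q := Ideal.Quotient.mk n.asIdeal
      rw [← Ideal.Quotient.eq_zero_iff_mem, RingHom.map_det, RingHom.mapMatrix_apply,
        Matrix.map_add _ (map_add q), Matrix.map_smul' _ _ _ (map_mul q),
        Matrix.map_smul' _ _ _ (map_mul q)]
      rcases key with h | h
      · have h0 : q r' = 0 := Ideal.Quotient.eq_zero_iff_mem.mpr
          (not_not.mp fun hh => ((hr' n).mp hh).1 h)
        rw [h0, zero_smul, add_zero, Matrix.det_smul, ← RingHom.mapMatrix_apply, ← RingHom.map_det]
        exact mul_ne_zero (pow_ne_zero _ fun hh =>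
          (hr n).mpr h (Ideal.Quotient.eq_zero_iff_mem.mp hh))
          (fun hh => h (Ideal.Quotient.eq_zero_iff_mem.mp hh))
      · have h0 : q r = 0 := Ideal.Quotient.eq_zero_iff_mem.mpr
          (not_not.mp fun hh => h.1 ((hr n).mp hh))
        rw [h0, zero_smul, zero_add, Matrix.det_smul, ← RingHom.mapMatrix_apply, ← RingHom.map_det]
        exact mul_ne_zero (pow_ne_zero _ fun hh =>
          (hr' n).mpr h (Ideal.Quotient.eq_zero_iff_mem.mp hh))
          (fun hh => h.2 (Ideal.Quotient.eq_zero_iff_mem.mp hh))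
  refine ⟨twistSum σ k c, ?_, twistSum_fixed σ hσ hk c⟩
  by_contra hu
  obtain ⟨M, hM, hmem⟩ := exists_max_ideal_of_mem_nonunits (a := (twistSum σ k c).det) hu
  exact hc ⟨M, hM⟩ hmem

end FLTAgent.LanglandsTunnell.Local
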