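import Fermat.Agent.LanglandsTunnell.Local.Product

/-!
# Products of finitely many components of multiplicity one

Comparisons on finitely many components (`FinComponents`) combine to one on their product
(`FinComponents.exists_product`).
-/

set_option autoImplicit false

noncomputable section

namespace FLTAgent.LanglandsTunnell.Local

variable {X X' : Type*}

/-- The twisted side only sees the projection and the increment of the plain side. -/
def TwistLocal.ofEq {c c' : ℝ} {g : X → X} {pe k2 : X → X → ℂ}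
    {comm : Set (Equiv.Perm X × Equiv.Perm X')} {isDiag isNorm isNorm' : Prop} {hE : X → ℝ}
    {P : PlainLocal c g pe k2 comm isDiag isNorm hE}
    {P' : PlainLocal c' g pe k2 comm isDiag isNorm' hE} {f : X' → X'} {km : X' → X' → ℂ}
    {hM : X' → ℝ} (hc : c = c') (hp : ∀ x, P.proj x = P'.proj x) (hd : ∀ x, P.dE x = P'.dE x)
    (T : TwistLocal P f km hM) : TwistLocal P' f km hM where
  q := T.q
  q_comm := T.q_comm
  finite := T.finite
  sum_eq i z := by
    rw [T.sum_eq i z, show P.proj = P'.proj from funext hp]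
    exact congrArg (fun r : ℝ => (r : ℂ) * ∑ᶠ u ∈ {u | P'.proj u = z}, pe u (g u)) hc
  dM := T.dM
  dM_nonneg := T.dM_nonneg
  height := T.height
  identity h z := by
    have e := T.identity h z
    rw [show P.proj = P'.proj from funext hp, show P.dE = P'.dE from funext hd] at e
    exact (congrArg (fun r : ℝ => ∑ᶠ v ∈ {v | T.q 0 v = z}, (T.dM v : ℂ) * km v (f v) -
      3 * (r : ℂ) * ∑ᶠ u ∈ {u | P'.proj u = z}, (P'.dE u : ℂ) * pe u (g u)) hc).symm.trans e

/-- The data of finitely many components. -/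
structure FinComponents (ι : Type*) (Y Y' : ι → Type*) (isDiag : Prop) where
  g : ∀ i, Y i → Y i
  pe : ∀ i, Y i → Y i → ℂ
  k2 : ∀ i, Y i → Y i → ℂ
  km : ∀ i, Y' i → Y' i → ℂ
  comm : ∀ i, Set (Equiv.Perm (Y i) × Equiv.Perm (Y' i))
  isNorm : ι → Prop
  hE : ∀ i, Y i → ℝ
  hM : ∀ i, Y' i → ℝ
  Q : ∀ i, PlainLocal 1 (g i) (pe i) (k2 i) (comm i) isDiag (isNorm i) (hE i)
  base : ∀ i, Y i
  base' : ∀ i, Y' i
  hE_base : ∀ i, hE i (base i) = 0
  hM_base : ∀ i, hM i (base' i) = 0

variable {ι : Type*} [Fintype ι] {Y Y' : ι → Type*} {isDiag : Prop}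
  (C : FinComponents ι Y Y' isDiag)

open scoped Classical in
/-- **A finite product.** -/
theorem FinComponents.exists_product {co : ∀ i, X → Y i} {co' : ∀ i, X' → Y' i}
    (hX : IsRestricted C.base co) (hX' : IsRestricted C.base' co') {g : X → X}
    {pe k2 : X → X → ℂ} {comm : Set (Equiv.Perm X × Equiv.Perm X')} {isNorm : Prop}
    {hE : X → ℝ} (hg : ∀ i u, co i (g u) = C.g i (co i u))
    (hpe : ∀ u u', pe u u' = prodKer C.pe co u u')
    (hk2 : ∀ u u', k2 u u' =
      ∑ q, prodKer (fun i => if i = q then C.k2 i else C.pe i) co u u')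
    (hcomm : ∀ t ∈ comm, ∀ i, ∃ t' ∈ C.comm i, (∀ u, co i (t.1 u) = t'.1 (co i u)) ∧
      ∀ v, co' i (t.2 v) = t'.2 (co' i v))
    (hhE : ∀ u, hE u = ∑ i, C.hE i (co i u)) (hN : (∀ i, C.isNorm i) ↔ isNorm) :
    ∃ Q : PlainLocal 1 g pe k2 comm isDiag isNorm hE,
      (∀ x i, co i (Q.proj x) = (C.Q i).proj (co i x)) ∧ ∀ (f : X' → X') (fi : ∀ i, Y' i → Y' i)
        (km : X' → X' → ℂ) (hM : X' → ℝ),
        (∀ i v, co' i (f v) = fi i (co' i v)) → (∀ v v', km v v' = prodKer C.km co' v v') →
        (∀ v, hM v = ∑ i, C.hM i (co' i v)) →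
        (∀ i, Nonempty (TwistLocal (C.Q i) (fi i) (C.km i) (C.hM i))) →
        Nonempty (TwistLocal Q f km hM) := by
  let F : (∀ i, Y' i → Y' i) → LocalFamily ι Y Y' := fun fi =>
    ⟨fun _ => 1, C.g, fi, C.pe, C.k2, C.km, C.comm, C.isNorm, C.hE, C.hM⟩
  have hQ : ∀ fi, IsTrivialOutside (F fi) C.base C.base' Finset.univ C.Q := fun fi =>
    { c_eq := fun _ h => absurd (Finset.mem_univ _) h
      pe_diag := fun _ h => absurd (Finset.mem_univ _) h
      km_diag := fun _ h => absurd (Finset.mem_univ _) h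
      k2_eq := fun _ h => absurd (Finset.mem_univ _) h
      proj_eq := fun _ h => absurd (Finset.mem_univ _) h
      dE_eq := fun _ h => absurd (Finset.mem_univ _) h
      g_base := fun _ h => absurd (Finset.mem_univ _) h
      f_base := fun _ h => absurd (Finset.mem_univ _) h
      hE_base := C.hE_base
      hM_base := C.hM_base }
  have hG : ∀ fi, IsProductOf (F fi) co co' Finset.univ g pe k2 comm hE 0 := fun fi =>
    { g_eq := hg
      pe_eq := hpe
      k2_eq := fun u u' => by
        rw [hk2]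
        exact Finset.sum_congr rfl fun q _ => by
          rw [Finset.prod_eq_one fun i _ => by simp [F], one_mul]
      comm_eq := hcomm
      hE_eq := fun u => by rw [hhE, zero_add, finsum_eq_sum_of_fintype] }
  have hc : ∀ fi, ∏ i, (F fi).c i = 1 := fun fi => Finset.prod_eq_one fun i _ => rfl
  let P := fun fi => prodPlain (F fi) hX C.Q (hQ fi) (hG fi) isNorm hN
  let f₀ : ∀ i, Y' i → Y' i := fun _ => id
  refine ⟨{
    proj := (P f₀).proj
    proj_comm := (P f₀).proj_comm
    finite := (P f₀).finite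
    norm_or := (P f₀).norm_or
    dE := (P f₀).dE
    dE_nonneg := (P f₀).dE_nonneg
    height := (P f₀).height
    height_nonnorm := fun hd hn z =>
      (congrArg (fun r : ℝ => -(3 * (r : ℂ)) * ∑ᶠ u ∈ {u | (P f₀).proj u = z},
        ((P f₀).dE u : ℂ) * pe u (g u)) (hc f₀)).symm.trans ((P f₀).height_nonnorm hd hn z) },
    fun x i => co_prodProj (F f₀) hX C.Q (hQ f₀) x i,
    fun f fi km hM hf hkm hhM hT => ?_⟩
  refine ⟨TwistLocal.ofEq (P := P fi) (hc fi) (fun x => hX.ext fun i => ?_) (fun x => rfl)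
    (prodTwist (F fi) hX hX' C.Q (hQ fi) (hG fi) (CM := 0) hN (fun i => (hT i).some) hf hkm
      (fun i h => absurd (Finset.mem_univ i) h) (fun i h => absurd (Finset.mem_univ i) h)
      (fun v => by rw [hhM, zero_add, finsum_eq_sum_of_fintype]) (by rw [mul_zero]))⟩
  exact (co_prodProj (F fi) hX C.Q (hQ fi) x i).trans
    (co_prodProj (F f₀) hX C.Q (hQ f₀) x i).symm

end FLTAgent.LanglandsTunnell.Local
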