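import Mathlib.GroupTheory.Coset.Basic
import Mathlib.GroupTheory.GroupAction.Quotient
import Mathlib.Algebra.Group.Pi.Lemmas
import Mathlib.Algebra.Group.Prod
import Mathlib.Tactic.Group

/-!
# Twisted fixed points and fixed points of the norm

`θ` is an automorphism of order three of `G` with fixed group `H`.  A twisted class `δ` with norm
`γ` has the same fixed cosets as `γ` has in `H`; the bijection is `u ↦ b u`. See `bijOn_shiftMap`.
-/

set_option autoImplicit false

noncomputable section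

namespace FLTAgent.LanglandsTunnell.Local

variable {G H : Type*} [Group G] [Group H]

/-- Cosets `v` with `v⁻¹ δ θ(v) ∈ Ω`. -/
def twFix (θ : G ≃* G) (K : Subgroup G) (δ : G) (Ω : Set G) : Set (G ⧸ K) :=
  {v | ∀ g : G, (g : G ⧸ K) = v → g⁻¹ * δ * θ g ∈ Ω}

/-- Cosets `u` with `u⁻¹ γ u ∈ Y`. -/
def conjFix (K₀ : Subgroup H) (γ : H) (Y : Set H) : Set (H ⧸ K₀) :=
  {u | ∀ h : H, (h : H ⧸ K₀) = u → h⁻¹ * γ * h ∈ Y}

/-- `θ`-twisted invariance of a test set under `K`. -/
def IsTwInvariant (θ : G ≃* G) (K : Subgroup G) (Ω : Set G) : Prop :=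
  ∀ k ∈ K, ∀ x ∈ Ω, k⁻¹ * x * θ k ∈ Ω

/-- Invariance of a test set under conjugation by `K₀`. -/
def IsConjInvariant (K₀ : Subgroup H) (Y : Set H) : Prop :=
  ∀ k ∈ K₀, ∀ x ∈ Y, k⁻¹ * x * k ∈ Y

variable (θ : G ≃* G) (ι : H →* G) (K : Subgroup G)

theorem mk_mem_twFix {δ : G} {Ω : Set G} (hΩ : IsTwInvariant θ K Ω) {g : G}
    (hg : g⁻¹ * δ * θ g ∈ Ω) : (g : G ⧸ K) ∈ twFix θ K δ Ω := fun g' hg' => by
  have hk := QuotientGroup.eq.mp hg'.symm
  have := hΩ _ hk _ hg
  rw [map_mul, map_inv] at this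
  convert this using 1
  group

theorem mk_mem_conjFix {K₀ : Subgroup H} {γ : H} {Y : Set H} (hY : IsConjInvariant K₀ Y) {h : H}
    (hh : h⁻¹ * γ * h ∈ Y) : (h : H ⧸ K₀) ∈ conjFix K₀ γ Y := fun h' hh' => by
  have := hY _ (QuotientGroup.eq.mp hh'.symm) _ hh
  convert this using 1
  group

/-- `u ↦ b u`. -/
def shiftMap (b : G) : H ⧸ K.comap ι → G ⧸ K :=
  Quotient.map' (fun h => b * ι h) fun x y hxy => by
    rw [QuotientGroup.leftRel_apply] at hxy ⊢
    have : (b * ι x)⁻¹ * (b * ι y) = ι (x⁻¹ * y) := by rw [map_mul, map_inv]; group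
    rw [this]
    exact hxy

@[simp] theorem shiftMap_mk (b : G) (h : H) :
    shiftMap ι K b (h : H ⧸ K.comap ι) = ((b * ι h : G) : G ⧸ K) := rfl

theorem shiftMap_injective (b : G) : Function.Injective (shiftMap ι K b) := by
  intro u u'
  induction u using QuotientGroup.induction_on with
  | H x =>
    induction u' using QuotientGroup.induction_on with
    | H y =>
      intro h
      rw [shiftMap_mk, shiftMap_mk, QuotientGroup.eq] at h
      rw [QuotientGroup.eq, Subgroup.mem_comap, map_mul, map_inv]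
      convert h using 1
      group

variable {θ ι K}

/-- **Matching**, from the two directions on representatives. -/
theorem bijOn_shiftMap {δ b t : G} {γ : H} {Ω : Set G} {Y : Set H}
    (hΩ : IsTwInvariant θ K Ω) (hY : IsConjInvariant (K.comap ι) Y)
    (hι : ∀ h, θ (ι h) = ι h) (hb : b⁻¹ * δ * θ b = t)
    (fwd : ∀ h : H, h⁻¹ * γ * h ∈ Y → (ι h)⁻¹ * t * ι h ∈ Ω)
    (back : ∀ g : G, g⁻¹ * t * θ g ∈ Ω → ∃ h : H, (ι h)⁻¹ * g ∈ K ∧ h⁻¹ * γ * h ∈ Y) :
    Set.BijOn (shiftMap ι K b) (conjFix (K.comap ι) γ Y) (twFix θ K δ Ω) := by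
  refine ⟨fun u hu => ?_, (shiftMap_injective ι K b).injOn, fun v hv => ?_⟩
  · induction u using QuotientGroup.induction_on with
    | H h =>
      rw [shiftMap_mk]
      refine mk_mem_twFix θ K hΩ ?_
      have := fwd h (hu h rfl)
      rw [← hb] at this
      rw [map_mul, hι]
      convert this using 1
      group
  · induction v using QuotientGroup.induction_on with
    | H g =>
      have hg := hv g rfl
      obtain ⟨h, hk, hh⟩ := back (b⁻¹ * g) (by
        rw [← hb, map_mul, map_inv]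
        convert hg using 1
        group)
      refine ⟨h, mk_mem_conjFix hY hh, ?_⟩
      rw [shiftMap_mk, QuotientGroup.eq]
      convert hk using 1
      group

/-! ### Units -/

/-- The norm of `t`. -/
def tnorm (θ : G ≃* G) (t : G) : G := t * θ t * θ (θ t)

theorem tnorm_twist (hθ : ∀ g, θ (θ (θ g)) = g) (g t : G) :
    tnorm θ (g⁻¹ * t * θ g) = g⁻¹ * tnorm θ t * g := by
  simp only [tnorm, map_mul, map_inv, hθ]
  group

/-- The unit test function. -/
theorem bijOn_shiftMap_unit (hθ : ∀ g, θ (θ (θ g)) = g) (hι : ∀ h, θ (ι h) = ι h)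
    (hK : ∀ k ∈ K, θ k ∈ K) {δ b t : G} {γ : H} (hb : b⁻¹ * δ * θ b = t)
    (hN : tnorm θ t = ι γ) (hstab : ∀ g : G, g⁻¹ * ι γ * g ∈ K → g⁻¹ * t * g ∈ K)
    (hdesc : ∀ g : G, g⁻¹ * θ g ∈ K → ∃ h : H, (ι h)⁻¹ * g ∈ K) :
    Set.BijOn (shiftMap ι K b) (conjFix (K.comap ι) γ (K.comap ι)) (twFix θ K δ K) := by
  refine bijOn_shiftMap (fun k hk x hx => K.mul_mem (K.mul_mem (K.inv_mem hk) hx) (hK k hk))
    (fun k hk x hx => mul_mem (mul_mem (inv_mem hk) hx) hk) hι hb (fun h hh => ?_) fun g hg => ?_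
  · refine hstab _ ?_
    rw [← map_inv, ← map_mul, ← map_mul]
    exact hh
  · have hγ : g⁻¹ * ι γ * g ∈ K := by
      rw [← hN, ← tnorm_twist hθ g t]
      exact K.mul_mem (K.mul_mem hg (hK _ hg)) (hK _ (hK _ hg))
    obtain ⟨h, hk⟩ := hdesc g (by
      have := K.mul_mem (K.inv_mem (hstab g hγ)) hg
      convert this using 1
      group)
    refine ⟨h, hk, Subgroup.mem_comap.mpr ?_⟩
    have := K.mul_mem (K.mul_mem hk hγ) (K.inv_mem hk)
    rw [map_mul, map_mul, map_inv]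
    convert this using 1
    group

end FLTAgent.LanglandsTunnell.Local

end
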