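import Mathlib

/-!
# Sums over a restricted product

A family of functions which is the point mass at the base point outside a finite set sums to the
product of the sums. See `IsRestricted`, `IsRestricted.finsum_prod`.
-/

set_option autoImplicit false

noncomputable section

namespace FLTAgent.LanglandsTunnell.Local

variable {P V : Type*} {X : P → Type*}

/-- A restricted product of pointed sets. -/
structure IsRestricted (base : ∀ p, X p) (c : ∀ p, V → X p) : Prop where
  ext : ∀ {v v' : V}, (∀ p, c p v = c p v') → v = v'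
  cofinite : ∀ v, ∃ S : Finset P, ∀ p ∉ S, c p v = base p
  exists_eq : ∀ (x : ∀ p, X p) (S : Finset P), (∀ p ∉ S, x p = base p) → ∃ v, ∀ p, c p v = x p

variable {R : Type*} [CommSemiring R] {base : ∀ p, X p} {c : ∀ p, V → X p}

/-- **Sums over a restricted product factor.** -/
theorem IsRestricted.finsum_prod (h : IsRestricted base c) (f : ∀ p, X p → R) (S : Finset P)
    (hfin : ∀ p ∈ S, (Function.support (f p)).Finite) (F : V → R)
    (hF : ∀ v, (∀ p ∉ S, c p v = base p) → F v = ∏ p ∈ S, f p (c p v))
    (hF0 : ∀ v, ∀ p ∉ S, c p v ≠ base p → F v = 0) :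
    ∑ᶠ v, F v = ∏ p ∈ S, ∑ᶠ x, f p x := by
  classical
  let T : ∀ p : S, Finset (X p) := fun p => (hfin p p.2).toFinset
  have hprod : ∏ p ∈ S, ∑ᶠ x, f p x = ∏ p : S, ∑ x ∈ T p, f p x := by
    rw [← Finset.prod_coe_sort S (fun p => ∑ᶠ x, f p x)]
    exact Finset.prod_congr rfl fun p _ => finsum_eq_sum _ (hfin p p.2)
  rw [hprod, Finset.prod_univ_sum]
  let ext : (∀ p : S, X p) → ∀ p, X p := fun x p => if hp : p ∈ S then x ⟨p, hp⟩ else base p
  choose g hg using fun x : ∀ p : S, X p => h.exists_eq (ext x) S fun p hp => dif_neg hp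
  have hgi : Function.Injective g := fun x y hxy => funext fun p => by
    have := (hg x p).symm.trans ((congrArg (c p) hxy).trans (hg y p))
    simpa [ext, p.2] using this
  have hval : ∀ x, F (g x) = ∏ p : S, f p (x p) := fun x => by
    rw [hF _ fun p hp => by rw [hg]; exact dif_neg hp,
      ← Finset.prod_coe_sort S (fun p => f p (c p (g x)))]
    refine Finset.prod_congr rfl fun p _ => ?_
    rw [hg]
    simp [ext, p.2]
  rw [finsum_eq_sum_of_support_subset (s := (Fintype.piFinset T).image g) _ fun v hv => ?_,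
    Finset.sum_image fun x _ y _ hxy => hgi hxy]
  · exact Finset.sum_congr rfl fun x _ => hval x
  · have hbase : ∀ p ∉ S, c p v = base p := fun p hp => by
      by_contra hne
      exact hv (hF0 v p hp hne)
    have hne : ∀ p ∈ S, f p (c p v) ≠ 0 := fun p hp h0 =>
      hv (by rw [hF v hbase, Finset.prod_eq_zero hp h0])
    rw [Finset.coe_image]
    refine ⟨fun p => c p v, Fintype.mem_piFinset.mpr fun p => ?_, h.ext fun p => ?_⟩
    · exact (hfin p p.2).mem_toFinset.mpr (hne p p.2)
    · rw [hg]
      by_cases hp : p ∈ S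
      · simp [ext, hp]
      · simp [ext, hp, hbase p hp]

/-- The product kernel of a family. -/
def prodKer (f : ∀ p, X p → X p → R) (c : ∀ p, V → X p) (v v' : V) : R :=
  ∏ᶠ p, f p (c p v) (c p v')

/-- A family which is the identity kernel outside `S`. -/
def IsDiagOutside (f : ∀ p, X p → X p → R) (S : Finset P) : Prop :=
  ∀ p ∉ S, ∀ x y, (x = y → f p x y = 1) ∧ (x ≠ y → f p x y = 0)

theorem prodKer_eq_prod {f : ∀ p, X p → X p → R} {S : Finset P}
    (hf : IsDiagOutside f S) {v v' : V} (heq : ∀ p ∉ S, c p v = c p v') :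
    prodKer f c v v' = ∏ p ∈ S, f p (c p v) (c p v') :=
  finprod_eq_prod_of_mulSupport_subset _ fun p hp => by
    by_contra hpS
    exact hp ((hf p hpS _ _).1 (heq p hpS))

theorem IsRestricted.prodKer_eq_zero (h : IsRestricted base c) {f : ∀ p, X p → X p → R}
    {S : Finset P} (hf : IsDiagOutside f S) {v v' : V} {p : P} (hp : p ∉ S)
    (hne : c p v ≠ c p v') : prodKer f c v v' = 0 := by
  classical
  obtain ⟨T, hT⟩ := h.cofinite v
  obtain ⟨T', hT'⟩ := h.cofinite v'
  rw [prodKer, finprod_eq_prod_of_mulSupport_subset (s := S ∪ T ∪ T' ∪ {p}) _ fun q hq => ?_]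
  · exact Finset.prod_eq_zero (by simp) ((hf p hp _ _).2 hne)
  · by_contra hq'
    simp only [Finset.coe_union, Set.mem_union, Finset.mem_coe, not_or] at hq'
    exact hq ((hf q hq'.1.1.1 _ _).1 ((hT q hq'.1.1.2).trans (hT' q hq'.1.2).symm))

/-- Composition of product kernels is the product of the compositions. -/
theorem IsRestricted.prodKer_comp (h : IsRestricted base c) {f g : ∀ p, X p → X p → R}
    {S : Finset P} (hf : IsDiagOutside f S) (hg : IsDiagOutside g S)
    (hfin : ∀ p ∈ S, ∀ x, (Function.support (f p x)).Finite) (v v' : V) :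
    ∑ᶠ u, prodKer f c v u * prodKer g c u v' =
      prodKer (fun p x y => ∑ᶠ z, f p x z * g p z y) c v v' := by
  classical
  have hfg : IsDiagOutside (fun p x y => ∑ᶠ z, f p x z * g p z y) S := fun p hp x y => by
    have : ∀ z, z ≠ x → f p x z * g p z y = 0 := fun z hz => by
      rw [(hf p hp x z).2 hz.symm, zero_mul]
    show (_ → _ = _) ∧ (_ → _ = _)
    dsimp only
    rw [finsum_eq_single _ x this, (hf p hp x x).1 rfl, one_mul]
    exact hg p hp x y
  by_cases heq : ∀ p ∉ S, c p v = c p v'
  · obtain ⟨T, hT⟩ := h.cofinite v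
    rw [prodKer_eq_prod hfg heq]
    set S' := S ∪ T with hS'
    let fS : ∀ p, X p → R := fun p z => f p (c p v) z * g p z (c p v')
    have hmono : ∀ {k : ∀ p, X p → X p → R}, IsDiagOutside k S → IsDiagOutside k S' :=
      fun hk p hp => hk p fun hh => hp (Finset.mem_union_left _ hh)
    rw [h.finsum_prod fS S' (fun p _ => ?_) _ (fun u hu => ?_) (fun u p hp hne => ?_)]
    · refine (Finset.prod_subset Finset.subset_union_left fun p _ hp => ?_).symm
      exact (hfg p hp _ _).1 (heq p hp)
    · by_cases hpS : p ∈ S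
      · exact (hfin p hpS (c p v)).subset fun z hz h0 => hz (by simp [fS, h0])
      · exact (Set.finite_singleton (c p v)).subset fun z hz => by
          by_contra hne
          exact hz (by simp [fS, (hf p hpS _ _).2 fun e => hne e.symm])
    · rw [prodKer_eq_prod (hmono hf) fun p hp => ?_, prodKer_eq_prod (hmono hg) fun p hp => ?_,
        ← Finset.prod_mul_distrib]
      · rw [hu p hp, ← heq p fun hh => hp (Finset.mem_union_left _ hh)]
        exact (hT p fun hh => hp (Finset.mem_union_right _ hh)).symm
      · rw [hu p hp]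
        exact hT p fun hh => hp (Finset.mem_union_right _ hh)
    · rw [h.prodKer_eq_zero (hmono hf) hp fun e => hne ?_, zero_mul]
      rw [← e]
      exact hT p fun hh => hp (Finset.mem_union_right _ hh)
  · push Not at heq
    obtain ⟨p, hp, hne⟩ := heq
    rw [h.prodKer_eq_zero hfg hp hne, finsum_eq_zero_of_forall_eq_zero fun u => ?_]
    by_cases he : c p v = c p u
    · rw [h.prodKer_eq_zero hg hp fun e => hne (he.trans e), mul_zero]
    · rw [h.prodKer_eq_zero hf hp he, zero_mul]

end FLTAgent.LanglandsTunnell.Local
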