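import Fermat.Agent.LanglandsTunnell.Local.Components
import Fermat.Agent.LanglandsTunnell.Local.RestrictedSum
import Fermat.Agent.LanglandsTunnell.Matrices

/-!
# Hecke neighbours and word kernels, component by component

Neighbours by a prime `w` are the local neighbours `locNbrs` in the component at the prime below
`w` (`mem_nbrs_iff_comp`), through components of uniformizers (`exists_isUniformizerAt_comp`).
-/

set_option autoImplicit false

noncomputable section

namespace FLTAgent.LanglandsTunnell.Local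

open scoped TensorProduct
open NumberField FLTAgent.LanglandsTunnell

variable {F : Type} [Field F] [NumberField F]

/-- `𝓞 F → 𝓞 F ⊗ ℤ_p`. -/
def incOp (p : ℕ) [Fact p.Prime] : 𝓞 F →+* Op F p := Algebra.TensorProduct.includeLeftRingHom

/-- A generator of `w` in the component. -/
def IsLocUnif {p : ℕ} [Fact p.Prime] (w : Ideal (𝓞 F)) (π : (Lp F p)ˣ) : Prop :=
  ∃ o, φp F p o = π ∧ Ideal.span {o} = w.map (incOp p)

/-- The neighbours in one component. -/
def locNbrs (N : ℕ) (p : Nat.Primes) (w : Ideal (𝓞 F)) (x : LocPt F N p) : Set (LocPt F N p) :=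
  {x' | ∃ (g k : GL (Fin 2) (Lp F p)) (π : (Lp F p)ˣ), (g : LocPt F N p) = x ∧
    k ∈ congrGroup (φp F p) (N : Op F p) ∧ IsLocUnif w π ∧
    ((g * k * diagUnit π : GL (Fin 2) (Lp F p)) : LocPt F N p) = x'}

omit [NumberField F] in
theorem map_idealOH (p : Nat.Primes) (w : Ideal (𝓞 F)) :
    (idealOH w).map (compOH p) = w.map (incOp (p : ℕ)) := by
  rw [idealOH, Ideal.map_map]
  rfl

omit [NumberField F] in
theorem incOp_eq_top_of_ne {p q : Nat.Primes} {w : Ideal (𝓞 F)} (hp : ((p : ℕ) : 𝓞 F) ∈ w)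
    (h : q ≠ p) : w.map (incOp (q : ℕ)) = ⊤ := by
  refine Ideal.eq_top_of_isUnit_mem _ (Ideal.mem_map_of_mem _ hp) ?_
  rw [map_natCast]
  exact isUnit_natCast_Op fun hd => h (Subtype.ext ((Nat.prime_dvd_prime_iff_eq q.2 p.2).mp hd))

theorem mem_idealOH_iff_comp {p : Nat.Primes} {w : Ideal (𝓞 F)} (hp : ((p : ℕ) : 𝓞 F) ∈ w)
    {y : OH F} : y ∈ idealOH w ↔ compOH p y ∈ w.map (incOp (p : ℕ)) := by
  classical
  refine ⟨fun h => map_idealOH p w ▸ Ideal.mem_map_of_mem _ h, fun h => ?_⟩
  have hsurj : Function.Surjective (compOH (F := F) p) := fun o => by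
    obtain ⟨y, hy⟩ := exists_oh_comp
      (Function.update (fun q : Nat.Primes => (0 : Op F q)) p o)
    exact ⟨y, by rw [hy, Function.update_self]⟩
  rw [← map_idealOH, Ideal.mem_map_iff_of_surjective _ hsurj] at h
  obtain ⟨y', hy', he⟩ := h
  choose u hu using fun q : Nat.Primes => show ∃ u : Op F q,
      compOH q (y - y') = ((p : ℕ) : Op F q) * u by
    by_cases hq : q = p
    · subst hq
      exact ⟨0, by rw [map_sub, he, sub_self, mul_zero]⟩
    · have hun := isUnit_natCast_Op (F := F) (p := q) (N := (p : ℕ)) fun hd =>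
        hq (Subtype.ext ((Nat.prime_dvd_prime_iff_eq q.2 p.2).mp hd))
      exact ⟨↑hun.unit⁻¹ * compOH q (y - y'), by rw [← mul_assoc, hun.mul_val_inv, one_mul]⟩
  obtain ⟨z, hz⟩ := exists_oh_comp u
  have hyz : y - y' = ((p : ℕ) : OH F) * z := oh_ext fun q => by
    rw [hu, map_mul (compOH q), map_natCast, hz]
  rw [← sub_add_cancel y y', hyz]
  exact add_mem (Ideal.mul_mem_right _ _ (natCast_mem_idealOH hp)) hy'

theorem exists_comp_of_mem_idealAF {w : Ideal (𝓞 F)} {x : AF F} (hx : x ∈ idealAF F w)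
    (q : Nat.Primes) : ∃ o ∈ w.map (incOp (q : ℕ)), φp F q o = compAF q x := by
  obtain ⟨y, hy, rfl⟩ := LanglandsTunnell.mem_idealAF.mp hx
  exact ⟨compOH q y, map_idealOH q w ▸ Ideal.mem_map_of_mem _ hy, (compAF_intHom q y).symm⟩

theorem diagUnit_mem_of_eq {R : Type} [CommRing R] {o π : R} (ho : o = π) :
    (!![o, 0; 0, 1] : Matrix (Fin 2) (Fin 2) R) = !![π, 0; 0, 1] := by rw [ho]

omit [NumberField F] in
theorem map_comp_unit (q : Nat.Primes) (π : (AF F)ˣ) :
    compGL (F := F) q (diagUnit (R := AF F) π) =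
      diagUnit (R := Lp F q) (Units.map (compAF q).toRingHom.toMonoidHom π) :=
  map_diagUnit (R := AF F) (S := Lp F q) (compAF q).toRingHom π

omit [NumberField F] in
theorem diagUnit_mem_congrGroup {p : ℕ} [Fact p.Prime] {N : Op F p} {π : (Lp F p)ˣ} {o : (Op F p)ˣ}
    (ho : φp F p o = π) (hN : ∃ r, (o : Op F p) - 1 = N * r) :
    diagUnit π ∈ congrGroup (φp F p) N := by
  obtain ⟨r, hr⟩ := hN
  refine mem_congrGroup_of_isUnit (Y := !![(o : Op F p), 0; 0, 1]) ⟨!![r, 0; 0, 0], ?_⟩ ?_ ?_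
  · ext i j
    fin_cases i <;> fin_cases j <;> simp [← hr]
  · rw [Matrix.isUnit_iff_isUnit_det]
    simp [Matrix.det_fin_two]
  · refine Eq.trans ?_ (diagUnit_mem_of_eq ho)
    ext i j
    rw [Matrix.map_apply]
    fin_cases i <;> fin_cases j
    · rfl
    · exact map_zero _
    · exact map_zero _
    · exact map_one _

variable {N : ℕ} {p : Nat.Primes} {w : Ideal (𝓞 F)}

/-- Components of a uniformizer. -/
theorem comp_isUniformizerAt (hp : ((p : ℕ) : 𝓞 F) ∈ w) {π : (AF F)ˣ}
    (hπ : IsUniformizerAt (Ideal.span {(N : 𝓞 F)}) w π) :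
    IsLocUnif w (Units.map (compAF p).toRingHom.toMonoidHom π) ∧
      ∀ q : Nat.Primes, q ≠ p → compGL (F := F) q (diagUnit (R := AF F) π) ∈
        congrGroup (φp F q) (N : Op F q) := by
  obtain ⟨h1, h2⟩ := hπ
  have hmem : (π : AF F) ∈ idealAF F w := h2 ▸ ⟨1, one_mem (intAF F), mul_one _⟩
  have hgen : ∀ q : Nat.Primes, ∀ o : Op F q, φp F q o = compAF q (π : AF F) →
      ∀ a ∈ w.map (incOp (q : ℕ)), o ∣ a := fun q o ho a ha => by
    suffices w.map (incOp (q : ℕ)) ≤ Ideal.span {o} from Ideal.mem_span_singleton.mp (this ha)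
    rw [Ideal.map_le_iff_le_comap]
    intro b hb
    rw [Ideal.mem_comap, Ideal.mem_span_singleton]
    have hb' : toAF F b ∈ idealAF F w := LanglandsTunnell.toAF_mem_idealAF hb
    rw [h2] at hb'
    obtain ⟨y, hy, he⟩ := hb'
    obtain ⟨t, ht⟩ := mem_intAF_iff_comp.mp hy q
    refine ⟨t, φp_injective ?_⟩
    rw [map_mul, ho, ht, ← map_mul]
    refine Eq.trans ?_ (congrArg (compAF q) he).symm
    rfl
  refine ⟨?_, fun q hq => ?_⟩
  · obtain ⟨o, ho, he⟩ := exists_comp_of_mem_idealAF hmem p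
    refine ⟨o, he, le_antisymm (by rwa [Ideal.span_singleton_le_iff_mem]) fun a ha => ?_⟩
    exact Ideal.mem_span_singleton.mpr (hgen p o he a ha)
  · obtain ⟨o, -, he⟩ := exists_comp_of_mem_idealAF hmem q
    have hu : IsUnit o := isUnit_of_dvd_one (hgen q o he 1 (incOp_eq_top_of_ne hp hq ▸ trivial))
    rw [map_comp_unit]
    refine diagUnit_mem_congrGroup (o := hu.unit) he ?_
    obtain ⟨r, hr⟩ := mem_idealAF_span_natCast.mp h1 q
    exact ⟨r, φp_injective (by rw [map_sub, IsUnit.unit_spec, he, map_one, hr, map_sub, map_one])⟩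

theorem exists_isUniformizerAt_comp (hN : ¬ (p : ℕ) ∣ N) (hp : ((p : ℕ) : 𝓞 F) ∈ w)
    {π' : (Lp F p)ˣ} (hπ' : IsLocUnif w π') :
    ∃ π : (AF F)ˣ, IsUniformizerAt (Ideal.span {(N : 𝓞 F)}) w π ∧
      Units.map (compAF p).toRingHom.toMonoidHom π = π' ∧
      ∀ q : Nat.Primes, q ≠ p → compAF q (π : AF F) = 1 := by
  classical
  obtain ⟨o, ho, hspan⟩ := hπ'
  let f : ∀ q : Nat.Primes, (Lp F q)ˣ :=
    Function.update (fun q : Nat.Primes => (1 : (Lp F q)ˣ)) p π'
  have hf : ∀ q : Nat.Primes, q ∉ ({p} : Finset Nat.Primes) → f q = 1 := fun q hq =>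
    Function.update_of_ne (by simpa using hq) _ _
  obtain ⟨a, ha⟩ := exists_af_comp (fun q => (f q : Lp F q)) {p} fun q hq =>
    ⟨1, by rw [map_one, hf q hq, Units.val_one]⟩
  obtain ⟨b, hb⟩ := exists_af_comp (fun q => (((f q)⁻¹ : (Lp F q)ˣ) : Lp F q)) {p} fun q hq =>
    ⟨1, by rw [map_one, hf q hq, inv_one, Units.val_one]⟩
  have hab : a * b = 1 := af_ext fun q => by
    rw [map_mul, ha, hb, ← Units.val_mul, mul_inv_cancel, Units.val_one, map_one]
  have hne : ∀ q : Nat.Primes, q ≠ p → compAF q a = 1 := fun q hq => by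
    rw [ha, hf q (by simpa using hq), Units.val_one]
  refine ⟨⟨a, b, hab, by rw [mul_comm]; exact hab⟩, ⟨?_, ?_⟩,
    Units.ext (by show compAF p a = _; rw [ha]; simp [f]), hne⟩
  · refine mem_idealAF_span_natCast.mpr fun q => ?_
    by_cases hq : q = p
    · subst hq
      have hu := isUnit_natCast_Op (F := F) (p := q) hN
      refine ⟨↑hu.unit⁻¹ * (o - 1), ?_⟩
      rw [← mul_assoc, hu.mul_val_inv, one_mul, map_sub, ho, map_one, map_sub, map_one]
      show _ = compAF q a - 1
      rw [ha]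
      simp [f]
    · exact ⟨0, by rw [mul_zero, map_zero, map_sub, map_one]; show 0 = compAF q a - 1;
                   rw [hne q hq, sub_self]⟩
  · refine SetLike.ext fun x => ⟨fun hx => ?_, ?_⟩
    · obtain ⟨y, hy, rfl⟩ := LanglandsTunnell.mem_idealAF.mp hx
      refine ⟨b * intHom F y, ?_, by
        show a * (b * intHom F y) = intHom F y
        rw [← mul_assoc, hab, one_mul]⟩
      show b * intHom F y ∈ intAF F
      refine mem_intAF_iff_comp.mpr fun q => ?_
      by_cases hq : q = p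
      · subst hq
        obtain ⟨t, ht⟩ := Ideal.mem_span_singleton.mp
          (hspan ▸ (mem_idealOH_iff_comp hp).mp hy : compOH q y ∈ Ideal.span {o})
        refine ⟨t, ?_⟩
        rw [map_mul, hb, compAF_intHom, ht, map_mul, ho, ← mul_assoc]
        simp [f]
      · refine ⟨compOH q y, ?_⟩
        rw [map_mul, hb, hf q (by simpa using hq), inv_one, Units.val_one, one_mul, compAF_intHom]
    · rintro ⟨_, ⟨y, rfl⟩, rfl⟩
      have hint : a ∈ intAF F := mem_intAF_iff_comp.mpr fun q => by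
        by_cases hq : q = p
        · subst hq; exact ⟨o, by rw [ho, ha]; simp [f]⟩
        · exact ⟨1, by rw [map_one, hne q hq]⟩
      obtain ⟨a', ha'⟩ := hint
      refine LanglandsTunnell.mem_idealAF.mpr ⟨a' * y, ?_,
        by rw [map_mul]; exact congrArg (· * _) ha'⟩
      refine (mem_idealOH_iff_comp hp).mpr ?_
      rw [map_mul, ← hspan]
      refine Ideal.mul_mem_right _ _ (Ideal.mem_span_singleton.mpr ⟨1, ?_⟩)
      refine φp_injective ?_
      rw [mul_one, ← compAF_intHom, show intHom F a' = a from ha', ha, ho]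
      simp [f]

variable (hN : N ≠ 0)

theorem exists_gl_single (p : Nat.Primes) (x : GL (Fin 2) (Lp F p)) :
    ∃ g : GL (Fin 2) (AF F), compGL p g = x ∧ ∀ q : Nat.Primes, q ≠ p → compGL q g = 1 := by
  classical
  obtain ⟨g, hg⟩ := exists_gl_comp
    (Function.update (fun q : Nat.Primes => (1 : GL (Fin 2) (Lp F q))) p x) {p} fun q hq => by
      rw [Function.update_of_ne (by simpa using hq)]; exact one_mem _
  exact ⟨g, by rw [hg, Function.update_self], fun q hq => by
    rw [hg, Function.update_of_ne hq]⟩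

theorem inv_mul_mul_self {G : Type*} [Group G] (a b c : G) : (a * b * c)⁻¹ * a = (b * c)⁻¹ := by
  group

theorem coset_eq_of_central {G : Type*} [Group G] {H : Subgroup G} {a l k d g z : G}
    (hg : g = a * (z * l)) (hz : ∀ x, x * z = z * x) (hzH : z ∈ H) :
    ((a * (l * k) * d : G) : G ⧸ H) = ((g * k * d : G) : G ⧸ H) := by
  rw [QuotientGroup.eq]
  have : g * k * d = a * (l * k) * d * z := by
    rw [hg, ← hz l]
    simp only [mul_assoc]
    rw [← hz (k * d)]
    simp only [mul_assoc]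
  rwa [this, inv_mul_cancel_left]

/-- Global neighbours are local neighbours at the prime below. -/
theorem mem_nbrs_iff_comp (hpN : ¬ (p : ℕ) ∣ N) (hp : ((p : ℕ) : 𝓞 F) ∈ w)
    {v v' : FinPt F (Ideal.span {(N : 𝓞 F)})} :
    v' ∈ nbrs (Ideal.span {(N : 𝓞 F)}) w v ↔
      (∀ q : Nat.Primes, q ≠ p → compPt hN q v' = compPt hN q v) ∧
        compPt hN p v' ∈ locNbrs N p w (compPt hN p v) := by
  constructor
  · rintro ⟨g, k, π, rfl, hk, hπ, rfl⟩
    obtain ⟨h1, h2⟩ := comp_isUniformizerAt hp hπ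
    refine ⟨fun q hq => ?_, compGL p g, compGL p k, _, rfl,
      mem_principalSubgroup_iff_comp.mp hk p, h1,
        by rw [compPt_mk, map_mul, map_mul, map_comp_unit]⟩
    rw [compPt_mk, compPt_mk, map_mul, map_mul, QuotientGroup.eq]
    refine le_sup_left (a := congrGroup (φp F q) (N : Op F q)) ?_
    rw [inv_mul_mul_self]
    exact inv_mem (mul_mem (mem_principalSubgroup_iff_comp.mp hk q) (h2 q hq))
  · rintro ⟨hoff, g', k', π', hg', hk', hπ', he⟩
    induction v using QuotientGroup.induction_on with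
    | H g₀ =>
      rw [compPt_mk] at hg'
      obtain ⟨u, l, hl, hgl⟩ := mem_levelK.mp (QuotientGroup.eq.mp hg'.symm)
      obtain ⟨π, hπ, hπp, hπq⟩ := exists_isUniformizerAt_comp hpN hp hπ'
      obtain ⟨k, hkp, hkq⟩ := exists_gl_single p (l * k')
      refine ⟨g₀, k, π, rfl, mem_principalSubgroup_iff_comp.mpr fun q => ?_, hπ,
        finPt_ext hN fun q => ?_⟩
      · by_cases hq : q = p
        · subst hq; rw [hkp]; exact mul_mem hl hk'
        · rw [hkq q hq]; exact one_mem _
      · by_cases hq : q = p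
        · subst hq
          rw [compPt_mk, map_mul, map_mul, hkp, map_comp_unit, hπp, ← he]
          refine coset_eq_of_central (z := Matrix.GeneralLinearGroup.scalar (Fin 2) u) ?_
            (Subgroup.mem_center_iff.mp (scalar_mem_center (L := Lp F q) u))
            (le_sup_right (a := congrGroup (φp F q) (N : Op F q)) (scalar_mem_center u))
          rw [← hgl, mul_inv_cancel_left]
        · rw [hoff q hq, compPt_mk, compPt_mk, map_mul, map_mul, hkq q hq, mul_one, map_comp_unit]
          have h1 : Units.map (compAF q).toRingHom.toMonoidHom π = 1 := Units.ext (hπq q hq)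
          rw [h1, diagUnit_one, mul_one]

end FLTAgent.LanglandsTunnell.Local
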