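import Fermat.Agent.LanglandsTunnell.Local.TransferSpec
import Fermat.Agent.LanglandsTunnell.Geom.Twist

/-!
# The finite height is local

`finHeight` is a function of the two coordinate ideals and of the determinant ideal; it is additive
under exchange of components, invariant under the diagonal torus and the maximal compact group, and
tripled by the cubic extension. `adelicHeight` is its value on matrices (`finHeight_mk`).
-/

set_option autoImplicit false

noncomputable section

namespace FLTAgent.LanglandsTunnell.Local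

open scoped nonZeroDivisors
open FLTAgent.LanglandsTunnell FLTAgent.LanglandsTunnell.Geom FLTAgent.LanglandsTunnell.Trace
open NumberField Matrix

variable {F : Type} [Field F] [NumberField F]

/-! ### Exchange of components of ideals -/

theorem frac_add_mul_inf (I J : FractionalIdeal (𝓞 F)⁰ F) (hI : I ≠ 0) :
    (I + J) * (I ⊓ J) = I * J := by
  refine le_antisymm ?_ ?_
  · rw [add_mul]
    refine le_trans (add_le_add (mul_le_mul_right (inf_le_right (a := I)) I)
      (mul_le_mul_right (inf_le_left (b := J)) J)) ?_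
    rw [mul_comm J I, ← FractionalIdeal.sup_eq_add, sup_idem]
  · have hne : I + J ≠ 0 := fun h => hI (FractionalIdeal.le_zero_iff.mp (h ▸ le_self_add_frac I J))
    have key : ∀ A B : FractionalIdeal (𝓞 F)⁰ F, A ≤ I + J → A * B * (I + J)⁻¹ ≤ B :=
      fun A B hA => by
        calc A * B * (I + J)⁻¹ = B * (A * (I + J)⁻¹) := by ring
          _ ≤ B * 1 := mul_le_mul_right
              ((mul_le_mul_left hA _).trans_eq (mul_inv_cancel₀ hne)) _
          _ = B := mul_one B
    calc I * J = (I + J) * (I * J * (I + J)⁻¹) := by field_simp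
      _ ≤ (I + J) * (I ⊓ J) := mul_le_mul_right (le_inf
          (mul_comm I J ▸ key J I ((le_self_add_frac J I).trans_eq (add_comm J I)))
          (key I J (le_self_add_frac I J))) _
where
  le_self_add_frac (I J : FractionalIdeal (𝓞 F)⁰ F) : I ≤ I + J := by
    rw [← FractionalIdeal.sup_eq_add]; exact le_sup_left

/-- `I` consists of the `c` with `c • X` integral. -/
def IsCoeffIdeal (I : FractionalIdeal (𝓞 F)⁰ F) {κ : Type} (X : κ → AF F) : Prop :=
  ∀ c, c ∈ I ↔ ∀ i, toAF F c * X i ∈ intAF F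

omit [NumberField F] in
theorem IsCoeffIdeal.unique {I J : FractionalIdeal (𝓞 F)⁰ F} {κ : Type} {X : κ → AF F}
    (hI : IsCoeffIdeal I X) (hJ : IsCoeffIdeal J X) : I = J :=
  FractionalIdeal.coe_ext (Submodule.ext fun c => (hI c).trans (hJ c).symm)

/-- Exchanging components does not change the product of the ideals. -/
theorem mul_eq_mul_of_exchange {κ : Type} [Fintype κ] {e : AF F} (he : e ∈ intAF F)
    (he2 : e * e = e) {X Y : κ → AF F} {I J I' J' : FractionalIdeal (𝓞 F)⁰ F} (hI0 : I ≠ 0)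
    (hI0' : I' ≠ 0) (hI : IsCoeffIdeal I X) (hJ : IsCoeffIdeal J Y)
    (hI' : IsCoeffIdeal I' fun i => e * X i + (1 - e) * Y i)
    (hJ' : IsCoeffIdeal J' fun i => e * Y i + (1 - e) * X i) : I' * J' = I * J := by
  have h0 : e * (1 - e) = 0 := by rw [mul_sub, mul_one, he2, sub_self]
  have hf : 1 - e ∈ intAF F := sub_mem (one_mem _) he
  have split : ∀ {a b : AF F}, e * a + (1 - e) * b ∈ intAF F ↔
      e * a ∈ intAF F ∧ (1 - e) * b ∈ intAF F := by
    intro a b
    refine ⟨fun h => ⟨?_, ?_⟩, fun h => add_mem h.1 h.2⟩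
    · have := mul_mem he h
      rwa [mul_add, ← mul_assoc, he2, ← mul_assoc, h0, zero_mul, add_zero] at this
    · have := mul_mem hf h
      rwa [mul_add, ← mul_assoc, mul_comm (1 - e) e, h0, zero_mul, zero_add, ← mul_assoc,
        show (1 - e) * (1 - e) = 1 - e by linear_combination he2] at this
  have whole : ∀ {a : AF F}, a ∈ intAF F ↔ e * a ∈ intAF F ∧ (1 - e) * a ∈ intAF F := fun {a} => by
    rw [← split, show e * a + (1 - e) * a = a by ring]
  have iX : ∀ c, c ∈ I ↔ ∀ i, e * (toAF F c * X i) ∈ intAF F ∧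
      (1 - e) * (toAF F c * X i) ∈ intAF F := fun c => (hI c).trans (forall_congr' fun _ => whole)
  have iY : ∀ c, c ∈ J ↔ ∀ i, e * (toAF F c * Y i) ∈ intAF F ∧
      (1 - e) * (toAF F c * Y i) ∈ intAF F := fun c => (hJ c).trans (forall_congr' fun _ => whole)
  have iX' : ∀ c, c ∈ I' ↔ ∀ i, e * (toAF F c * X i) ∈ intAF F ∧
      (1 - e) * (toAF F c * Y i) ∈ intAF F := fun c => (hI' c).trans (forall_congr' fun i => by
        rw [← split, mul_add]; ring_nf)
  have iY' : ∀ c, c ∈ J' ↔ ∀ i, e * (toAF F c * Y i) ∈ intAF F ∧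
      (1 - e) * (toAF F c * X i) ∈ intAF F := fun c => (hJ' c).trans (forall_congr' fun i => by
        rw [← split, mul_add]; ring_nf)
  have hinf : I' ⊓ J' = I ⊓ J := FractionalIdeal.coe_ext (Submodule.ext fun c => by
    rw [FractionalIdeal.coe_inf, FractionalIdeal.coe_inf, Submodule.mem_inf, Submodule.mem_inf,
      FractionalIdeal.mem_coe, FractionalIdeal.mem_coe, FractionalIdeal.mem_coe,
      FractionalIdeal.mem_coe, iX, iY, iX', iY']
    exact ⟨fun h => ⟨fun i => ⟨(h.1 i).1, (h.2 i).2⟩, fun i => ⟨(h.2 i).1, (h.1 i).2⟩⟩,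
      fun h => ⟨fun i => ⟨(h.1 i).1, (h.2 i).2⟩, fun i => ⟨(h.2 i).1, (h.1 i).2⟩⟩⟩)
  -- an element is split along an integral approximation of the idempotent
  have halves : ∀ (c : F) (A B : κ → AF F), (∀ i, toAF F c * A i ∈ intAF F) →
      ∃ a : 𝓞 F, (∀ i, e * (toAF F ((a : F) * c) * A i) ∈ intAF F ∧
          (1 - e) * (toAF F ((a : F) * c) * B i) ∈ intAF F) ∧
        ∀ i, e * (toAF F (c - (a : F) * c) * B i) ∈ intAF F ∧
          (1 - e) * (toAF F (c - (a : F) * c) * A i) ∈ intAF F := by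
    intro c A B hA
    choose m hm hmB using fun i => exists_natCast_mul_mem_intAF (toAF F c * B i)
    have hM : ∏ i, m i ≠ 0 := Finset.prod_ne_zero_iff.mpr fun i _ => hm i
    have hMB : ∀ i, ((∏ i, m i : ℕ) : AF F) * (toAF F c * B i) ∈ intAF F := fun i => by
      obtain ⟨k, hk⟩ := Finset.dvd_prod_of_mem m (Finset.mem_univ i)
      rw [hk, Nat.cast_mul, mul_comm (m i : AF F), mul_assoc]
      exact mul_mem (natCast_mem_intAF k) (hmB i)
    obtain ⟨a, d, hd, had⟩ := exists_coe_approx he hM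
    refine ⟨a, fun i => ⟨?_, ?_⟩, fun i => ⟨?_, ?_⟩⟩
    · rw [map_mul, mul_assoc (toAF F (a : F)), ← mul_assoc]
      exact mul_mem (mul_mem he (toAF_mem_intAF a)) (hA i)
    · have : (1 - e) * (toAF F ((a : F) * c) * B i) =
          -((1 - e) * d) * (((∏ i, m i : ℕ) : AF F) * (toAF F c * B i)) := by
        rw [map_mul]
        linear_combination (-(toAF F c * B i) * (1 - e)) * had + toAF F c * B i * h0
      rw [this]
      exact mul_mem (neg_mem (mul_mem hf hd)) (hMB i)
    · have : e * (toAF F (c - (a : F) * c) * B i) =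
          e * d * (((∏ i, m i : ℕ) : AF F) * (toAF F c * B i)) := by
        rw [map_sub, map_mul]
        linear_combination (toAF F c * B i * e) * had - toAF F c * B i * he2
      rw [this]
      exact mul_mem (mul_mem he hd) (hMB i)
    · rw [show c - (a : F) * c = ((1 - a : 𝓞 F) : F) * c by push_cast; ring, map_mul,
        mul_assoc (toAF F _), ← mul_assoc]
      exact mul_mem (mul_mem hf (toAF_mem_intAF _)) (hA i)
  have mix : ∀ A B z : AF F, e * (z * (e * A + (1 - e) * B)) = e * (z * A) ∧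
      (1 - e) * (z * (e * B + (1 - e) * A)) = (1 - e) * (z * A) := fun A B z =>
    ⟨by linear_combination (z * (A - B)) * he2, by linear_combination (z * (A - B)) * he2⟩
  have unmix : ∀ (A B : κ → AF F) (c : F),
      (∀ i, e * (toAF F c * A i) ∈ intAF F ∧ (1 - e) * (toAF F c * B i) ∈ intAF F) →
      ∃ a : 𝓞 F, (∀ i, e * (toAF F ((a : F) * c) * A i) ∈ intAF F ∧
          (1 - e) * (toAF F ((a : F) * c) * A i) ∈ intAF F) ∧
        ∀ i, e * (toAF F (c - (a : F) * c) * B i) ∈ intAF F ∧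
          (1 - e) * (toAF F (c - (a : F) * c) * B i) ∈ intAF F := fun A B c hc => by
    obtain ⟨a, h1, h2⟩ := halves c (fun i => e * A i + (1 - e) * B i)
      (fun i => e * B i + (1 - e) * A i) fun i => by
        rw [mul_add, mul_left_comm _ e, mul_left_comm _ (1 - e)]
        exact split.mpr (hc i)
    refine ⟨a, fun i => ?_, fun i => ?_⟩
    · rw [← (mix (A i) (B i) _).1, ← (mix (A i) (B i) _).2]; exact h1 i
    · rw [← (mix (B i) (A i) _).1, ← (mix (B i) (A i) _).2]; exact h2 i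
  have hsum : I' + J' = I + J := by
    refine le_antisymm ?_ ?_ <;> rw [← FractionalIdeal.sup_eq_add] <;> refine sup_le ?_ ?_ <;>
      intro c hc <;> rw [FractionalIdeal.mem_add]
    · change c ∈ I' at hc
      obtain ⟨a, h1, h2⟩ := unmix X Y c ((iX' c).mp hc)
      exact ⟨(a : F) * c, (iX _).mpr h1, c - (a : F) * c, (iY _).mpr h2, add_sub_cancel _ _⟩
    · change c ∈ J' at hc
      obtain ⟨a, h1, h2⟩ := unmix Y X c ((iY' c).mp hc)
      exact ⟨c - (a : F) * c, (iX _).mpr h2, (a : F) * c, (iY _).mpr h1, sub_add_cancel _ _⟩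
    · change c ∈ I at hc
      obtain ⟨a, h1, h2⟩ := halves c X Y ((hI c).mp hc)
      exact ⟨(a : F) * c, (iX' _).mpr h1, c - (a : F) * c, (iY' _).mpr h2, add_sub_cancel _ _⟩
    · change c ∈ J at hc
      obtain ⟨a, h1, h2⟩ := halves c Y X ((hJ c).mp hc)
      exact ⟨c - (a : F) * c, (iX' _).mpr h2, (a : F) * c, (iY' _).mpr h1, sub_add_cancel _ _⟩
  rw [← frac_add_mul_inf I' J' hI0', ← frac_add_mul_inf I J hI0, hsum, hinf]

/-! ### The height of an adelic matrix -/

/-- The two basis vectors. -/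
def stdVec (j : Fin 2) : Fin 2 → F := Pi.single j 1

theorem stdVec_ne_zero (j : Fin 2) : (stdVec j : Fin 2 → F) ≠ 0 := by
  simp [stdVec]

theorem isCoeffIdeal_coordFrac (g : GL (Fin 2) (AF F)) (j : Fin 2) :
    IsCoeffIdeal (coordFrac g (stdVec j)) fun i => (g⁻¹).1 i j := fun c => by
  rw [mem_coordFrac (stdVec_ne_zero j), mem_latt]
  refine forall_congr' fun i => ?_
  fin_cases j <;> simp [stdVec, Matrix.mulVec, dotProduct, mul_comm]

theorem isCoeffIdeal_ideleFrac (z : (AF F)ˣ) :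
    IsCoeffIdeal (ideleFrac z) fun _ : Unit => ((z⁻¹ : (AF F)ˣ) : AF F) := fun c => by
  rw [mem_ideleFrac]; exact ⟨fun h _ => h, fun h => h ()⟩

/-- The height of an adelic matrix. -/
def adelicHeight (g : GL (Fin 2) (AF F)) : ℝ :=
  2 * Real.log (nrm (coordFrac g (stdVec 0))) + 2 * Real.log (nrm (coordFrac g (stdVec 1))) -
    2 * Real.log (nrm (ideleFrac (GeneralLinearGroup.det g)))

theorem finHeight_mk {ι : Type} [Fintype ι] {n : Ideal (𝓞 F)} (Φ : PlaceChoice F ι)
    (g : GL (Fin 2) (AF F)) : finHeight Φ ((g : FinPt F n)) = adelicHeight g := by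
  have key : ∀ (j : Fin 2) (v : Fin 2 → F) (hv : v ≠ 0), v = stdVec j →
      logHeight Φ (Projectivization.mk F v hv)
          ((g : FinPt F n), fun _ => LanglandsTunnell.H3.base) =
        -(2 * Real.log (nrm (coordFrac g (stdVec j))) -
          Real.log (nrm (ideleFrac (GeneralLinearGroup.det g)))) := by
    intro j v hv hj
    subst hj
    have hq : ∀ i, LanglandsTunnell.H3.qform LanglandsTunnell.H3.base (Φ.emb i ∘ stdVec j) = 1 :=
      fun i => by
        fin_cases j <;> simp [LanglandsTunnell.H3.qform, LanglandsTunnell.H3.base, stdVec]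
    rw [logHeight_mk, height_mk, Real.log_inv, sizeFn]
    simp only [hq, one_pow, Finset.prod_const_one, mul_one]
    rw [Real.log_div (pow_ne_zero 2 (nrm_pos (coordFrac_ne_zero g hv)).ne')
      (nrm_pos (ideleFrac_ne_zero _)).ne', Real.log_pow]
    norm_num
  rw [finHeight, cuspInf, cuspZero,
    key 0 _ _ (funext fun i => by fin_cases i <;> simp [stdVec]),
    key 1 _ _ (funext fun i => by fin_cases i <;> simp [stdVec]), adelicHeight]
  ring

/-- Right translation by the maximal compact group and the centre. -/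
theorem adelicHeight_mul_right (g : GL (Fin 2) (AF F)) {k : GL (Fin 2) (AF F)}
    (hk : Bounded 1 k) (z : (AF F)ˣ) :
    adelicHeight (g * k * GeneralLinearGroup.scalar (Fin 2) z) = adelicHeight g := by
  simp only [adelicHeight, coordFrac_mul_scalar _ _ (stdVec_ne_zero _), coordFrac_mul_right hk,
    map_mul, ideleFrac_mul, det_scalar_two, pow_two z,
    show ideleFrac (GeneralLinearGroup.det g) * ideleFrac (GeneralLinearGroup.det k) =
      ideleFrac (GeneralLinearGroup.det g) by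
        rw [← ideleFrac_mul, ← map_mul, ideleFrac_det_mul_right hk], nrm_mul]
  have hn : ∀ z, nrm (ideleFrac (F := F) z) ≠ 0 := fun z => (nrm_pos (ideleFrac_ne_zero z)).ne'
  have hc : ∀ j, nrm (coordFrac g (stdVec j)) ≠ 0 := fun j =>
    (nrm_pos (coordFrac_ne_zero g (stdVec_ne_zero j))).ne'
  simp only [Real.log_mul, hn, hc, mul_ne_zero, ne_eq, not_false_eq_true]
  ring

theorem coeff_exchange {g g' h h' : GL (Fin 2) (AF F)} {e : AF F} (he : e ∈ intAF F)
    (he2 : e * e = e) (hh : h.1 = e • g.1 + (1 - e) • g'.1)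
    (hh' : h'.1 = e • g'.1 + (1 - e) • g.1) :
    adelicHeight h + adelicHeight h' = adelicHeight g + adelicHeight g' := by
  have h0 : e * (1 - e) = 0 := by rw [mul_sub, mul_one, he2, sub_self]
  have hinv : ∀ {g g' h : GL (Fin 2) (AF F)}, h.1 = e • g.1 + (1 - e) • g'.1 →
      (h⁻¹).1 = e • (g⁻¹).1 + (1 - e) • (g'⁻¹).1 := fun {g g' h} hh => by
    refine left_inv_eq_right_inv (a := h.1) h.inv_mul ?_
    have e1 := fun i j => congrFun (congrFun g.mul_inv i) j
    have e2 := fun i j => congrFun (congrFun g'.mul_inv i) j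
    rw [hh]
    ext i j
    have h1 := e1 i j
    have h2 := e2 i j
    simp only [Matrix.mul_apply, Fin.sum_univ_two, Matrix.add_apply, Matrix.smul_apply,
      smul_eq_mul] at h1 h2 ⊢
    linear_combination e * h1 + (1 - e) * h2 +
      (g.1 i 0 * (g⁻¹).1 0 j + g.1 i 1 * (g⁻¹).1 1 j + g'.1 i 0 * (g'⁻¹).1 0 j +
        g'.1 i 1 * (g'⁻¹).1 1 j - g.1 i 0 * (g'⁻¹).1 0 j - g.1 i 1 * (g'⁻¹).1 1 j -
        g'.1 i 0 * (g⁻¹).1 0 j - g'.1 i 1 * (g⁻¹).1 1 j) * he2
  have hdet : ∀ {g g' h : GL (Fin 2) (AF F)}, h.1 = e • g.1 + (1 - e) • g'.1 →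
      (((GeneralLinearGroup.det h)⁻¹ : (AF F)ˣ) : AF F) =
        e * (((GeneralLinearGroup.det g)⁻¹ : (AF F)ˣ) : AF F) +
          (1 - e) * (((GeneralLinearGroup.det g')⁻¹ : (AF F)ˣ) : AF F) := fun {g g' h} hh => by
    simp only [← map_inv, GeneralLinearGroup.val_det_apply, hinv hh, Matrix.det_fin_two]
    simp only [Matrix.add_apply, Matrix.smul_apply, smul_eq_mul]
    linear_combination ((g⁻¹).1 0 0 * (g⁻¹).1 1 1 - (g⁻¹).1 0 1 * (g⁻¹).1 1 0 +
      (g'⁻¹).1 0 0 * (g'⁻¹).1 1 1 - (g'⁻¹).1 0 1 * (g'⁻¹).1 1 0 -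
      (g⁻¹).1 0 0 * (g'⁻¹).1 1 1 - (g'⁻¹).1 0 0 * (g⁻¹).1 1 1 +
      (g⁻¹).1 0 1 * (g'⁻¹).1 1 0 + (g'⁻¹).1 0 1 * (g⁻¹).1 1 0) * he2
  have hc : ∀ j, coordFrac h (stdVec j) * coordFrac h' (stdVec j) =
      coordFrac g (stdVec j) * coordFrac g' (stdVec j) := fun j => by
    refine mul_eq_mul_of_exchange he he2 (coordFrac_ne_zero g (stdVec_ne_zero j))
      (coordFrac_ne_zero h (stdVec_ne_zero j)) (isCoeffIdeal_coordFrac g j)
      (isCoeffIdeal_coordFrac g' j) ?_ ?_
    · have := isCoeffIdeal_coordFrac h j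
      simp only [hinv hh, Matrix.add_apply, Matrix.smul_apply, smul_eq_mul] at this
      exact this
    · have := isCoeffIdeal_coordFrac h' j
      simp only [hinv hh', Matrix.add_apply, Matrix.smul_apply, smul_eq_mul] at this
      exact this
  have hd : ideleFrac (GeneralLinearGroup.det h) * ideleFrac (GeneralLinearGroup.det h') =
      ideleFrac (GeneralLinearGroup.det g) * ideleFrac (GeneralLinearGroup.det g') := by
    refine mul_eq_mul_of_exchange he he2 (ideleFrac_ne_zero _) (ideleFrac_ne_zero _)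
      (isCoeffIdeal_ideleFrac _) (isCoeffIdeal_ideleFrac _) ?_ ?_
    · have := isCoeffIdeal_ideleFrac (GeneralLinearGroup.det h)
      simpa only [hdet hh] using this
    · have := isCoeffIdeal_ideleFrac (GeneralLinearGroup.det h')
      simpa only [hdet hh'] using this
  have key : ∀ {I J I' J' : FractionalIdeal (𝓞 F)⁰ F}, I ≠ 0 → J ≠ 0 → I' ≠ 0 → J' ≠ 0 →
      I' * J' = I * J → Real.log (nrm I') + Real.log (nrm J') =
        Real.log (nrm I) + Real.log (nrm J) := fun {I J I' J'} h1 h2 h3 h4 heq => by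
    rw [← Real.log_mul (nrm_pos h1).ne' (nrm_pos h2).ne',
      ← Real.log_mul (nrm_pos h3).ne' (nrm_pos h4).ne', ← nrm_mul, ← nrm_mul, heq]
  have e0 := key (coordFrac_ne_zero g (stdVec_ne_zero 0)) (coordFrac_ne_zero g' (stdVec_ne_zero 0))
    (coordFrac_ne_zero h (stdVec_ne_zero 0)) (coordFrac_ne_zero h' (stdVec_ne_zero 0)) (hc 0)
  have e1 := key (coordFrac_ne_zero g (stdVec_ne_zero 1)) (coordFrac_ne_zero g' (stdVec_ne_zero 1))
    (coordFrac_ne_zero h (stdVec_ne_zero 1)) (coordFrac_ne_zero h' (stdVec_ne_zero 1)) (hc 1)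
  have e2 := key (ideleFrac_ne_zero _) (ideleFrac_ne_zero _) (ideleFrac_ne_zero _)
    (ideleFrac_ne_zero _) hd
  simp only [adelicHeight]
  linarith

/-- Left translation by the diagonal torus. -/
theorem adelicHeight_diag_mul {d : GL (Fin 2) (AF F)} (h01 : d.1 0 1 = 0) (h10 : d.1 1 0 = 0)
    (g : GL (Fin 2) (AF F)) : adelicHeight (d * g) = adelicHeight g := by
  have hdet : d.1.det = d.1 0 0 * d.1 1 1 := by rw [Matrix.det_fin_two, h01, zero_mul, sub_zero]
  have hd : IsUnit (d.1 0 0 * d.1 1 1) := hdet ▸ (Matrix.isUnit_iff_isUnit_det d.1).mp d.isUnit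
  set a : Fin 2 → (AF F)ˣ := ![(isUnit_of_mul_isUnit_left hd).unit,
    (isUnit_of_mul_isUnit_right hd).unit] with ha
  have hinv : (d⁻¹).1 = !![(((a 0)⁻¹ : (AF F)ˣ) : AF F), 0; 0, (((a 1)⁻¹ : (AF F)ˣ) : AF F)] := by
    refine left_inv_eq_right_inv (a := d.1) d.inv_mul ?_
    ext i j
    fin_cases i <;> fin_cases j <;> simp [ha, Matrix.mul_apply, h01, h10]
  have hc : ∀ j, coordFrac (d * g) (stdVec j) = ideleFrac (a j) * coordFrac g (stdVec j) :=
    fun j => by
      rw [← coordFrac_mul_scalar g (a j) (stdVec_ne_zero j)]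
      refine (isCoeffIdeal_coordFrac _ j).unique fun c => ?_
      rw [isCoeffIdeal_coordFrac _ j c]
      refine forall_congr' fun i => ?_
      simp only [_root_.mul_inv_rev, Units.val_mul, hinv, ← map_inv,
        GeneralLinearGroup.coe_scalar, Matrix.scalar_apply, Matrix.diagonal_mul]
      fin_cases j <;> simp [Matrix.mul_apply, mul_comm]
  have hdd : GeneralLinearGroup.det d = a 0 * a 1 := Units.ext (by
    rw [GeneralLinearGroup.val_det_apply, hdet]; simp [ha])
  simp only [adelicHeight, hc, map_mul, hdd, ideleFrac_mul, nrm_mul]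
  have hn : ∀ z, nrm (ideleFrac (F := F) z) ≠ 0 := fun z => (nrm_pos (ideleFrac_ne_zero z)).ne'
  have hcn : ∀ j, nrm (coordFrac g (stdVec j)) ≠ 0 := fun j =>
    (nrm_pos (coordFrac_ne_zero g (stdVec_ne_zero j))).ne'
  simp only [Real.log_mul, hn, hcn, mul_ne_zero, ne_eq, not_false_eq_true]
  ring

theorem adelicHeight_one : adelicHeight (1 : GL (Fin 2) (AF F)) = 0 := by
  have h1 : ∀ j, coordFrac (1 : GL (Fin 2) (AF F)) (stdVec j) = 1 := fun j => by
    rw [← ideleFrac_one (F := F)]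
    refine (isCoeffIdeal_coordFrac 1 j).unique fun c => ?_
    rw [mem_ideleFrac]
    fin_cases j <;> simp [Fin.forall_fin_two, zero_mem]
  simp [adelicHeight, h1, ideleFrac_one, nrm_one]

/-- The idele ideal of a uniformizer. -/
theorem ideleFrac_uniformizer {n w : Ideal (𝓞 F)} (hw0 : w ≠ ⊥) {π : (AF F)ˣ}
    (hπ : IsUniformizerAt n w π) : ideleFrac π = (w : FractionalIdeal (𝓞 F)⁰ F) := by
  have hπi : (π : AF F) ∈ intAF F := idealAF_le w (hπ.2 ▸ ⟨1, one_mem (intAF F), mul_one _⟩)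
  refine FractionalIdeal.coe_ext (Submodule.ext fun c => ?_)
  show c ∈ ideleFrac π ↔ c ∈ (w : FractionalIdeal (𝓞 F)⁰ F)
  rw [mem_ideleFrac, FractionalIdeal.mem_coeIdeal]
  constructor
  · intro h
    obtain ⟨a, rfl⟩ := exists_eq_of_toAF_mem_intAF (f := c) (by
      simpa [mul_assoc] using mul_mem h hπi)
    refine ⟨a, (toAF_mem_idealAF_iff hw0).mp ?_, rfl⟩
    rw [hπ.2]
    refine ⟨_, h, ?_⟩
    change (π : AF F) * _ = _
    rw [mul_left_comm, Units.mul_inv, mul_one]
  · rintro ⟨a, ha, rfl⟩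
    have := toAF_mem_idealAF ha
    rw [hπ.2] at this
    obtain ⟨y, hy, hya⟩ := this
    convert hy using 1
    rw [show toAF F ((algebraMap (𝓞 F) F) a) = (π : AF F) * y from hya.symm]
    simp [mul_comm (π : AF F)]

omit [NumberField F] in
theorem upperUnip_inv_val (x : AF F) :
    ((upperUnip (R := AF F) x)⁻¹).1 = !![1, -x; 0, 1] := rfl

theorem coordFrac_upperUnip_zero (x : AF F) :
    coordFrac (F := F) (upperUnip (R := AF F) x) (stdVec (F := F) 0) = 1 := by
  rw [← ideleFrac_one (F := F)]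
  refine (isCoeffIdeal_coordFrac (F := F) _ 0).unique fun c => ?_
  rw [mem_ideleFrac, upperUnip_inv_val, Fin.forall_fin_two]
  simp [zero_mem]

omit [NumberField F] in
theorem det_upperUnip (x : AF F) :
    GeneralLinearGroup.det (upperUnip (R := AF F) x) = 1 := Units.ext (by
  rw [GeneralLinearGroup.val_det_apply]
  show Matrix.det !![(1 : AF F), x; 0, 1] = 1
  rw [Matrix.det_fin_two_of]
  ring)

theorem coordFrac_upperUnip_one {y : (AF F)ˣ} (hy : (y : AF F) ∈ intAF F) {x : AF F}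
    (hx : x - ((y⁻¹ : (AF F)ˣ) : AF F) ∈ intAF F) :
    coordFrac (F := F) (upperUnip (R := AF F) x) (stdVec (F := F) 1) = ideleFrac y := by
  refine (isCoeffIdeal_coordFrac (F := F) _ 1).unique fun c => ?_
  rw [mem_ideleFrac, upperUnip_inv_val, Fin.forall_fin_two]
  simp only [Matrix.of_apply, Matrix.cons_val', Matrix.cons_val_zero, Matrix.cons_val_one,
    Matrix.empty_val', Matrix.cons_val_fin_one, mul_one]
  have hn : toAF F c * -x = -(toAF F c * x) := eq_neg_of_add_eq_zero_left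
    ((mul_add _ _ _).symm.trans ((congrArg (toAF F c * ·) (neg_add_cancel x)).trans (mul_zero _)))
  constructor
  · intro h
    have hc : toAF F c ∈ intAF F := by
      have := mul_mem h hy
      rwa [mul_assoc, Units.inv_mul, mul_one] at this
    refine ⟨?_, hc⟩
    suffices hcx : toAF F c * x ∈ intAF F by
      exact hn ▸ neg_mem hcx
    rw [show toAF F c * x = toAF F c * ((y⁻¹ : (AF F)ˣ) : AF F) +
      toAF F c * (x - ((y⁻¹ : (AF F)ˣ) : AF F)) by ring]
    exact add_mem h (mul_mem hc hx)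
  · rintro ⟨h, hc⟩
    rw [show toAF F c * ((y⁻¹ : (AF F)ˣ) : AF F) = toAF F c * x -
      toAF F c * (x - ((y⁻¹ : (AF F)ˣ) : AF F)) by ring]
    refine sub_mem ?_ (mul_mem hc hx)
    have h' := neg_mem (hn ▸ h)
    rwa [neg_neg] at h'

theorem nrm_ideleFrac_pow {n w : Ideal (𝓞 F)} (hw0 : w ≠ ⊥) {π : (AF F)ˣ}
    (hπ : IsUniformizerAt n w π) (k : ℕ) :
    nrm (ideleFrac (π ^ k)) = (Ideal.absNorm w : ℝ) ^ k := by
  induction k with
  | zero => simp [ideleFrac_one, nrm_one]
  | succ k ih =>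
    rw [pow_succ π, ideleFrac_mul, nrm_mul, pow_succ, ih, ideleFrac_uniformizer hw0 hπ, nrm,
      FractionalIdeal.coeIdeal_absNorm, Rat.cast_natCast]

/-- The height of an upper unipotent with pole of order `k` at `w`. -/
theorem adelicHeight_upperUnip {n w : Ideal (𝓞 F)} (hw0 : w ≠ ⊥) {π : (AF F)ˣ}
    (hπ : IsUniformizerAt n w π) (k : ℕ) {x : AF F}
    (hx : x - (((π ^ k)⁻¹ : (AF F)ˣ) : AF F) ∈ intAF F) :
    adelicHeight (F := F) (upperUnip (R := AF F) x) = 2 * k * Real.log (Ideal.absNorm w) := by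
  have hπi : (π : AF F) ∈ intAF F := idealAF_le w (hπ.2 ▸ ⟨1, one_mem (intAF F), mul_one _⟩)
  have hy : ((π ^ k : (AF F)ˣ) : AF F) ∈ intAF F := by
    rw [Units.val_pow_eq_pow_val]; exact pow_mem hπi k
  rw [adelicHeight, coordFrac_upperUnip_zero, coordFrac_upperUnip_one hy hx, det_upperUnip,
    ideleFrac_one, nrm_one, nrm_ideleFrac_pow hw0 hπ, Real.log_one, Real.log_pow]
  ring

end FLTAgent.LanglandsTunnell.Local
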