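import Fermat.Agent.LanglandsTunnell.Local.TreeMin

/-!
# The spherical kernels at an inert place and their values

The radial kernels `kerE`, `kerM`, `kerW` of at most two letters and their fibre sums
(`fib_kerE`, `fib_height`, `fib_kerM`, `fib_fixed`, `fib_fixed_height`).
-/

set_option autoImplicit false


noncomputable section

namespace FLTAgent.LanglandsTunnell.Local

/-- The adjacency operator of a `(q + 1)`-regular tree on functions of the distance. -/
def nstep (q : ℕ) (φ : ℕ → ℂ) : ℕ → ℂ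
  | 0 => ((q : ℂ) + 1) * φ 1
  | k + 1 => φ k + (q : ℂ) * φ (k + 2)

/-- The identity kernel. -/
def δ0 : ℕ → ℂ
  | 0 => 1
  | _ + 1 => 0

/-- The image of one degree three operator. -/
def descStep (q : ℕ) (φ : ℕ → ℂ) (k : ℕ) : ℂ :=
  nstep q (nstep q (nstep q φ)) k - 3 * (q : ℂ) * nstep q φ k

/-- The plain kernel of `n` degree three letters. -/
def kerE (q n : ℕ) : ℕ → ℂ := (descStep q)^[n] δ0

/-- The twisted kernel of `n` letters. -/
def kerM (q n : ℕ) : ℕ → ℂ := (nstep (q ^ 3))^[n] δ0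

/-- The correction kernel, in units of the height of one edge. -/
def kerW (q : ℕ) : ℕ → ℕ → ℂ
  | 1, k => -3 * ((q : ℂ) - 1) * if k = 1 then 1 else 0
  | 2, k => 3 * (((q : ℂ) - 1) ^ 2 * ((q : ℂ) + 2) * (if k = 0 then 1 else 0)
      - 2 * ((q : ℂ) - 1) * (if k = 2 then 1 else 0) - ((q : ℂ) - 1) * if k = 4 then 1 else 0)
  | _, _ => 0

theorem kerE_one (q : ℕ) : kerE q 1 =
    fun k => if k = 1 then -((q : ℂ) - 1) else if k = 3 then 1 else 0 := by
  funext k
  rcases k with _ | _ | _ | _ | k <;> simp [kerE, descStep, nstep, δ0]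
  all_goals ring

theorem kerE_two (q : ℕ) : kerE q 2 =
    fun k => if k = 0 then 2 * (q : ℂ) ^ 3 - q + 1 else if k = 6 then 1
      else if k = 2 ∨ k = 4 then -((q : ℂ) - 1) else 0 := by
  funext k
  show descStep q (kerE q 1) k = _
  rw [kerE_one]
  rcases k with _ | _ | _ | _ | _ | _ | _ | k <;>
    simp [descStep, nstep] <;> ring

theorem kerM_one (q : ℕ) : kerM q 1 = fun k => if k = 1 then 1 else 0 := by
  funext k
  rcases k with _ | _ | k <;> simp [kerM, nstep, δ0]

theorem kerM_two (q : ℕ) : kerM q 2 =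
    fun k => if k = 0 then (q : ℂ) ^ 3 + 1 else if k = 2 then 1 else 0 := by
  funext k
  show nstep (q ^ 3) (kerM q 1) k = _
  rw [kerM_one]
  rcases k with _ | _ | _ | k <;> simp [nstep]

theorem kerE_zero (q : ℕ) : kerE q 0 = fun k => if k = 0 then 1 else 0 := by
  funext k; cases k <;> rfl

theorem kerM_zero (q : ℕ) : kerM q 0 = fun k => if k = 0 then 1 else 0 := by
  funext k; cases k <;> rfl

/-- The kernels vanish far away. -/
theorem kernels_eq_zero (q : ℕ) {n : ℕ} (hn : n ≤ 2) {k : ℕ} (hk : 6 < k) :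
    kerE q n k = 0 ∧ kerM q n k = 0 ∧ kerW q n k = 0 := by
  interval_cases n <;>
    simp [kerE_zero, kerE_one, kerE_two, kerM_zero, kerM_one, kerM_two, kerW,
      show k ≠ 0 by omega, show k ≠ 1 by omega, show k ≠ 2 by omega, show k ≠ 3 by omega,
      show k ≠ 4 by omega, show k ≠ 6 by omega]

/-- The fibre sum of a kernel and of its product with the depth. -/
def fib (q m L : ℕ) (φ : ℕ → ℂ) (w : ℕ → ℂ) : ℂ :=
  w 0 * φ L + ((q + 1 - m : ℕ) : ℂ) *
    ∑ j ∈ Finset.range 4, (q : ℂ) ^ j * (w (j + 1) * φ (L + 2 * (j + 1)))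

/-- The common value without fixed vertices. -/
def noFixVal (n m L : ℕ) : ℂ :=
  if (n = 1 ∧ m = 1) ∨ (0 < n ∧ m = 2 ∧ L = 3 * n) then 1 else 0

theorem fib_kerE {q : ℕ} (hq : 1 ≤ q) {n : ℕ} (hn : n ≤ 2) {m L : ℕ} (hL : L ≠ 0)
    (hm : (m = 1 ∧ L = 1) ∨ m = 2) : fib q m L (kerE q n) 1 = noFixVal n m L := by
  rcases Nat.lt_or_ge 6 L with hL6 | hL6
  · have : ∀ j, kerE q n (L + j) = 0 := fun j => (kernels_eq_zero q hn (by omega)).1
    rw [fib, noFixVal, if_neg (by omega), show kerE q n L = 0 from this 0]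
    simp [this]
  rcases hm with ⟨rfl, rfl⟩ | rfl
  · interval_cases n <;>
      simp [fib, noFixVal, kerE_zero, kerE_one, kerE_two, Finset.sum_range_succ]
  · interval_cases n <;> interval_cases L <;> first | exact absurd rfl hL |
      simp [fib, noFixVal, kerE_zero, kerE_one, kerE_two, Finset.sum_range_succ, Nat.cast_sub hq]

theorem fib_height {q : ℕ} (hq : 1 ≤ q) {n : ℕ} (hn : n ≤ 2) {L : ℕ} (hL : L ≠ 0) :
    -3 * fib q 2 L (kerE q n) (fun j => (j : ℂ)) = fib q 2 L (kerW q n) 1 := by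
  rcases Nat.lt_or_ge 6 L with hL6 | hL6
  · have h1 : ∀ j, kerE q n (L + j) = 0 := fun j => (kernels_eq_zero q hn (by omega)).1
    have h2 : ∀ j, kerW q n (L + j) = 0 := fun j => (kernels_eq_zero q hn (by omega)).2.2
    rw [fib, fib, show kerE q n L = 0 from h1 0, show kerW q n L = 0 from h2 0]
    simp [h1, h2]
  interval_cases n <;> interval_cases L <;> first | exact absurd rfl hL |
    (simp [fib, kerE_zero, kerE_one, kerE_two, kerW, Finset.sum_range_succ, Nat.cast_sub hq] <;>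
      ring)

theorem fib_kerM {q : ℕ} {n : ℕ} (hn : n ≤ 2) {m L Lf : ℕ} (hLf : Lf ≠ 0)
    (h : (m = 1 ∧ Lf = 1 ∧ L = 1) ∨ (m = 2 ∧ L = 3 * Lf)) :
    fib (q ^ 3) m Lf (kerM q n) 1 = noFixVal n m L := by
  have hzero : ∀ k, 2 < k → kerM q n k = 0 := fun k hk => by
    interval_cases n <;> simp [kerM_zero, kerM_one, kerM_two, show k ≠ 0 by omega,
      show k ≠ 1 by omega, show k ≠ 2 by omega]
  have e : fib (q ^ 3) m Lf (kerM q n) 1 = kerM q n Lf := by
    rw [fib, Pi.one_apply, one_mul, Finset.sum_eq_zero fun j _ => by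
      rw [hzero _ (by omega), mul_zero, mul_zero], mul_zero, add_zero]
  rw [e]
  rcases h with ⟨rfl, rfl, rfl⟩ | ⟨rfl, rfl⟩
  · interval_cases n <;> simp [noFixVal, kerM_zero, kerM_one, kerM_two]
  · rcases Nat.lt_or_ge 2 Lf with hb | hb
    · rw [hzero _ hb, noFixVal, if_neg (by omega)]
    · interval_cases n <;> interval_cases Lf <;> first | exact absurd rfl hLf |
        simp [noFixVal, kerM_zero, kerM_one, kerM_two]

theorem fib_fixed {q : ℕ} {n : ℕ} (hn : n ≤ 2) {m : ℕ} (hm : m ≤ q + 1) :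
    fib (q ^ 3) m 0 (kerM q n) 1 = fib q m 0 (kerE q n) 1 := by
  have hq3 : q ≤ q ^ 3 := Nat.le_self_pow (by norm_num) q
  interval_cases n <;>
    simp [fib, kerE_zero, kerE_one, kerE_two, kerM_zero, kerM_one, kerM_two,
      Finset.sum_range_succ, Nat.cast_sub hm, Nat.cast_sub (show m ≤ q ^ 3 + 1 by omega)]
  all_goals ring

/-- The height identity at one fixed vertex of height `h`, up to a multiple of `m - 2`. -/
theorem fib_fixed_height {q : ℕ} {n : ℕ} (hn : n ≤ 2) {m : ℕ} (hm : m ≤ q + 1) (h : ℂ) :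
    3 * fib (q ^ 3) m 0 (kerM q n) (fun j => h + j) - 3 * fib q m 0 (kerE q n) (fun j => h + j)
      - fib q m 0 (kerW q n) 1 =
      ((m : ℂ) - 2) * if n = 2 then 3 * (q : ℂ) * ((q : ℂ) + 1) - 3 * ((q : ℂ) - 1) *
        ((q : ℂ) + 2) else 0 := by
  have hq3 : q ≤ q ^ 3 := Nat.le_self_pow (by norm_num) q
  interval_cases n <;>
    simp [fib, kerE_zero, kerE_one, kerE_two, kerM_zero, kerM_one, kerM_two, kerW,
      Finset.sum_range_succ, Nat.cast_sub hm, Nat.cast_sub (show m ≤ q ^ 3 + 1 by omega)]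
  all_goals ring

end FLTAgent.LanglandsTunnell.Local
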