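import Fermat.Agent.LanglandsTunnell.Local.SplitCorner
import Fermat.Agent.LanglandsTunnell.Trace.QuadPair

/-!
# The comparison at places without corners

At a place with trivial levels and at a place of `R` the plain side is the identity: fixed points
are matched by `u ↦ b u` with `b` in the torus of the class.
See `IsRamifiedPlace.exists_twistLocal`.
-/

set_option autoImplicit false

noncomputable section

namespace FLTAgent.LanglandsTunnell.Local

open Matrix FLTAgent.LanglandsTunnell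
open FLTAgent.LanglandsTunnell.Trace (qMat exists_qMat_of_commute qMat_map)

theorem idKer_ne_zero_iff {X : Type*} {x y : X} : idKer x y ≠ 0 ↔ x = y := by
  by_cases h : x = y
  · simp [h, idKer_self]
  · simp [h, idKer_ne h]

/-- Twisted and plain identity kernels, from a matching of fixed points. -/
theorem exists_twistLocal_idKer {X X' : Type*} [Nonempty X] (g : X → X) (f : X' → X')
    (comm : Set (Equiv.Perm X × Equiv.Perm X')) (isDiag isNorm : Prop) (hE : X → ℝ)
    (hn : (∃ z, g z = z) → isNorm) (hM : X' → ℝ) (sh : X → X') (hinj : Function.Injective sh)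
    (hsh : Set.BijOn sh {u | g u = u} {v | f v = v})
    (hcomm : ∀ t ∈ comm, ∀ u, sh (t.1 u) = t.2 (sh u))
    (hh : isDiag → ∀ u, g u = u → hM (sh u) = 3 * hE u) :
    ∃ T : TwistLocal (idPlain 1 g comm isDiag isNorm hE hn) f idKer hM,
      (∀ v, T.dM v = 0) ∧ ∀ i u, T.q i (sh u) = u := by
  classical
  have hq : ∀ u, Function.invFun sh (sh u) = u := Function.leftInverse_invFun hinj
  have hsupp : ∀ v, idKer v (f v) ≠ 0 → ∃ u, g u = u ∧ sh u = v := fun v hv => by
    obtain ⟨u, hu, e⟩ := hsh.surjOn (show v ∈ {v | f v = v} from (idKer_ne_zero_iff.mp hv).symm)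
    exact ⟨u, hu, e⟩
  refine ⟨{
    q := fun _ => Function.invFun sh
    q_comm := fun _ t ht v hv => ?_
    finite := fun _ z => ?_
    sum_eq := fun _ z => ?_
    dM := fun _ => 0
    dM_nonneg := fun _ => le_rfl
    height := fun hd v hv => ?_
    identity := fun _ z => ?_ }, fun _ => rfl, fun _ u => hq u⟩
  · obtain ⟨u, -, rfl⟩ := hsupp v hv
    rw [← hcomm t ht u, hq, hq]
  · refine (Set.finite_singleton (sh z)).subset fun v hv => ?_
    obtain ⟨u, -, rfl⟩ := hsupp v hv.2
    simp only [Set.mem_singleton_iff]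
    rw [← (hq u).symm.trans hv.1]
  · rw [show (idPlain 1 g comm isDiag isNorm hE hn).proj = id from rfl]
    simp only [id_eq, Set.ofPred_eq_eq_singleton, finsum_mem_singleton]
    rw [finsum_mem_eq_sum_of_subset (s := {v | Function.invFun sh v = z})
      (fun v => idKer v (f v)) (t := if g z = z then {sh z} else ∅) ?_ ?_]
    · split_ifs with hz
      · rw [Finset.sum_singleton, show f (sh z) = sh z from hsh.mapsTo hz, idKer_self, hz,
          idKer_self]
        simp
      · rw [Finset.sum_empty, idKer_ne fun e => hz e.symm, mul_zero]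
    · rintro v ⟨hv, hv'⟩
      obtain ⟨u, hu, rfl⟩ := hsupp v hv'
      obtain rfl : u = z := (hq u).symm.trans hv
      simp [hu]
    · split_ifs with hz
      · simp [hq]
      · simp
  · obtain ⟨u, hu, rfl⟩ := hsupp v hv
    simp only [hq, add_zero, Finset.sum_const, Finset.card_univ, Fintype.card_fin, nsmul_eq_mul]
    rw [hh hd u hu]
    norm_num
  · simp [idPlain]

section Diag

variable {L : Type} [CommRing L]

theorem adjoin_scalar_mul (u : Lˣ) (a : GL (Fin 2) L) :
    Algebra.adjoin L {(GeneralLinearGroup.scalar (Fin 2) u * a).1} = Algebra.adjoin L {a.1} := by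
  have key : ∀ (u : Lˣ) (a : GL (Fin 2) L),
      (GeneralLinearGroup.scalar (Fin 2) u * a).1 ∈ Algebra.adjoin L {a.1} := fun u a => by
    rw [Units.val_mul, GeneralLinearGroup.coe_scalar]
    exact mul_mem (Subalgebra.algebraMap_mem (Algebra.adjoin L {a.1}) (u : L))
      (Algebra.self_mem_adjoin_singleton _ _)
  refine le_antisymm (Algebra.adjoin_le (Set.singleton_subset_iff.mpr (key u a)))
    (Algebra.adjoin_le (Set.singleton_subset_iff.mpr ?_))
  have := key u⁻¹ (GeneralLinearGroup.scalar (Fin 2) u * a)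
  rwa [← mul_assoc, ← map_mul, inv_mul_cancel, map_one, one_mul] at this

theorem commute_of_mem_adjoin {a g c : GL (Fin 2) L} (hg : g.1 ∈ Algebra.adjoin L {a.1})
    (hc : Commute c a) : g * c = c * g :=
  Units.ext (by
    have h : Commute c.1 a.1 := congrArg Units.val hc.eq
    rw [Units.val_mul, Units.val_mul]
    exact (Algebra.commute_of_mem_adjoin_singleton_of_commute hg h).symm.eq)

variable {O : Type} [CommRing O] (φ : O →+* L)

theorem scalar_smul_qPt (N : O) (u : Lˣ) (γ : GL (Fin 2) L) (x : QPt φ N) :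
    (GeneralLinearGroup.scalar (Fin 2) u * γ) • x = γ • x := by
  induction x using QuotientGroup.induction_on with
  | H g =>
    show ((GeneralLinearGroup.scalar (Fin 2) u * γ * g : GL (Fin 2) L) : QPt φ N) =
      ((γ * g :) : QPt φ N)
    refine QuotientGroup.eq.mpr ?_
    rw [show (GeneralLinearGroup.scalar (Fin 2) u * γ * g)⁻¹ * (γ * g) =
        (γ * g)⁻¹ * (GeneralLinearGroup.scalar (Fin 2) u)⁻¹ * (γ * g) by group,
      Subgroup.mem_center_iff.mp (inv_mem (scalar_mem_center u)) (γ * g)⁻¹, mul_assoc,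
      inv_mul_cancel, mul_one]
    exact le_sup_right (a := congrGroup φ N) (inv_mem (scalar_mem_center u))

theorem smul_mk_eq_iff (N : O) (γ g : GL (Fin 2) L) :
    γ • (g : QPt φ N) = g ↔ g⁻¹ * γ * g ∈ levelK φ N := by
  show ((γ * g :) : QPt φ N) = g ↔ _
  rw [eq_comm, QuotientGroup.eq, ← mul_assoc]

end Diag

namespace LocalCubic

variable {OE LE OM LM : Type} [CommRing OE] [CommRing LE] [CommRing OM] [CommRing LM]
  (S : LocalCubic OE LE OM LM)

theorem twMap_mk_of_level {n' : OM} (hn' : levelK S.φM n' = levelK S.φM 1)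
    (δ g : GL (Fin 2) LM) :
    S.twMap n' δ (g : QPt S.φM n') = ((δ * S.θ g : GL (Fin 2) LM) : QPt S.φM n') := by
  obtain ⟨k, hk⟩ := QuotientGroup.mk_out_eq_mul (levelK S.φM n') g
  refine QuotientGroup.eq.mpr ?_
  rw [hk, map_mul, show (δ * (S.θ g * S.θ k.1))⁻¹ * (δ * S.θ g) = (S.θ k.1)⁻¹ by group]
  exact (SetLike.ext_iff.mp hn' _).mpr
    (inv_mem (S.θ_mem_levelK (map_one S.σO) ((SetLike.ext_iff.mp hn' _).mp k.2)))

variable {p : ℕ} [Fact p.Prime] [Algebra ℤ_[p] OM] [Module.Finite ℤ_[p] OM]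
  [Module.IsTorsionFree ℤ_[p] OM]

/-- A fixed invertible integral matrix is a norm from the order it generates. -/
theorem exists_norm_integral (hd : HasDualSystem (S.σO : OM →+* OM)) (hp : IsUnit (p : LM))
    {κ : GL (Fin 2) OM} (hκ : κ.1.map S.σO = κ.1) :
    ∃ y : GL (Fin 2) OM, y.1 ∈ Algebra.adjoin OM {κ.1} ∧
      y * GeneralLinearGroup.map (S.σO : OM →+* OM) y *
        GeneralLinearGroup.map (S.σO : OM →+* OM) (GeneralLinearGroup.map (S.σO : OM →+* OM) y)
        = κ := by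
  let A : Subalgebra OM (Matrix (Fin 2) (Fin 2) OM) := Algebra.adjoin OM {κ.1}
  let : CommRing A := adjoinSingletonCommRing OM _
  have hmem : ∀ x ∈ A, (x.map S.σO : Matrix (Fin 2) (Fin 2) OM) ∈ A := fun x =>
    map_mem_adjoin S.σO (fun r => ⟨S.σO r, rfl⟩) hκ
  let τ : A →+* A :=
    ((S.σO : OM →+* OM).mapMatrix.comp A.val.toRingHom).codRestrict A fun x => hmem _ x.2
  have hτ : ∀ a, τ (τ (τ a)) = a := fun a => Subtype.ext (Matrix.ext fun i j =>
    S.φM_inj (by
      show S.φM (S.σO (S.σO (S.σO _))) = _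
      rw [S.comm_σ, S.comm_σ, S.comm_σ, S.σ_three]
      rfl))
  have : Module.Finite OM A := Algebra.finite_adjoin_simple_of_isIntegral
    ((Algebra.IsIntegral.of_finite OM (Matrix (Fin 2) (Fin 2) OM)).isIntegral _)
  have : Module.Finite ℤ_[p] A := Module.Finite.trans OM A
  have : Module.IsTorsionFree ℤ_[p] A := ⟨fun z hz x y (hxy : z • x = z • y) => Subtype.ext
    (Matrix.ext fun i j => smul_right_injective OM hz.ne_zero
      (show z • x.1 i j = z • y.1 i j from congrFun (congrFun (congrArg Subtype.val hxy) i) j))⟩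
  have hreg : ∀ x : A, (p : A) * x = 0 → x = 0 := fun x hx => Subtype.ext (Matrix.ext fun i j => by
    have h2 := congrArg A.val hx
    rw [map_mul, map_natCast, map_zero, Subalgebra.coe_val, ← nsmul_eq_mul] at h2
    have h3 := congrFun (congrFun h2 i) j
    rw [Matrix.smul_apply, nsmul_eq_mul] at h3
    refine S.φM_inj (hp.mul_left_cancel ?_)
    rw [show (p : LM) = S.φM (p : OM) from (map_natCast S.φM p).symm, ← map_mul, h3]
    simp)
  have : Finite (A ⧸ Ideal.span {(p : A)}) := finite_quotient_padic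
  have hdA : HasDualSystem τ := hd.map (algebraMap OM A) τ fun a =>
    Subtype.ext (Matrix.ext fun i j => by
      simp [τ, Matrix.algebraMap_matrix_apply, apply_ite S.σO])
  have hinv : (κ⁻¹).1 ∈ A := inv_mem_adjoin κ
  let e : Aˣ := ⟨⟨κ.1, Algebra.self_mem_adjoin_singleton _ _⟩, ⟨_, hinv⟩,
    Subtype.ext κ.mul_inv, Subtype.ext κ.inv_mul⟩
  obtain ⟨y, hy, hNy⟩ := exists_norm_eq (p := (p : A)) (isPComplete_padic p) hreg (map_natCast τ p)
    hdA hτ (e := e) (Subtype.ext hκ)
  obtain ⟨yu, hyu⟩ := (hy.map A.val : IsUnit ((y : A) : Matrix (Fin 2) (Fin 2) OM))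
  refine ⟨yu, hyu ▸ y.2, Units.ext ?_⟩
  show yu.1 * yu.1.map S.σO * (yu.1.map S.σO).map S.σO = κ.1
  rw [hyu]
  exact congrArg Subtype.val hNy

/-- A class fixing a point at level one is a norm from its torus. -/
theorem exists_norm_of_fixed (hd : HasDualSystem (S.σO : OM →+* OM)) (hp : IsUnit (p : LM))
    {n : OE} (hn : levelK S.φE n = levelK S.φE 1) {γ : GL (Fin 2) LE} {x : QPt S.φE n}
    (hx : γ • x = x) :
    ∃ (z : LEˣ) (X : GL (Fin 2) LM), X.1 ∈ Algebra.adjoin LM {(S.ι γ).1} ∧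
      tnorm S.θ X = S.ι (GeneralLinearGroup.scalar (Fin 2) z * γ) := by
  induction x using QuotientGroup.induction_on with
  | H h =>
    rw [smul_mk_eq_iff, hn] at hx
    obtain ⟨c, k, hk, hck⟩ := mem_levelK.mp hx
    obtain ⟨κE, -, hκE⟩ := exists_units_of_mem_congrGroup S.φE_inj hk
    set κ := GeneralLinearGroup.map S.jO κE with hκdef
    have hκι : GeneralLinearGroup.map S.φM κ = S.ι k := by
      rw [← hκE]
      exact Units.ext (Matrix.ext fun i j => S.comm_j _)
    obtain ⟨y, hy, hyN⟩ := S.exists_norm_integral hd hp (κ := κ)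
      (Matrix.ext fun i j => S.σO_jO _)
    have hγ : GeneralLinearGroup.scalar (Fin 2) c⁻¹ * γ = h * k * h⁻¹ := by
      rw [map_inv, inv_mul_eq_iff_eq_mul, ← mul_assoc, ← mul_assoc,
        ← Subgroup.mem_center_iff.mp (scalar_mem_center c) h, mul_assoc h _ k, ← hck]
      group
    refine ⟨c⁻¹, S.ι h * GeneralLinearGroup.map S.φM y * (S.ι h)⁻¹, ?_, ?_⟩
    · rw [← adjoin_scalar_mul (Units.map S.j.toMonoidHom c⁻¹) (S.ι γ), ← ι_scalar, ← map_mul, hγ]
      have key : ∀ x ∈ Algebra.adjoin OM {κ.1}, (S.ι h).1 * x.map S.φM * ((S.ι h)⁻¹).1 ∈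
          Algebra.adjoin LM {(S.ι (h * k * h⁻¹)).1} := fun x hx => by
        induction hx using Algebra.adjoin_induction with
        | mem x hx =>
          rw [Set.mem_singleton_iff] at hx
          subst hx
          rw [map_mul, map_mul, map_inv, ← hκι]
          exact Algebra.self_mem_adjoin_singleton _ _
        | algebraMap r =>
          have : (algebraMap OM (Matrix (Fin 2) (Fin 2) OM) r).map S.φM =
              algebraMap LM (Matrix (Fin 2) (Fin 2) LM) (S.φM r) := by
            ext i j; simp [Matrix.algebraMap_matrix_apply, apply_ite S.φM]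
          rw [this, ← Algebra.commutes, Matrix.mul_assoc, Units.mul_inv, Matrix.mul_one]
          exact Subalgebra.algebraMap_mem _ _
        | add x y _ _ hx hy =>
          rw [Matrix.map_add _ (map_add S.φM), Matrix.mul_add, Matrix.add_mul]
          exact add_mem hx hy
        | mul x y _ _ hx hy =>
          rw [Matrix.map_mul]
          convert mul_mem hx hy using 1
          simp only [Matrix.mul_assoc]
          rw [← Matrix.mul_assoc ((S.ι h)⁻¹).1 (S.ι h).1, Units.inv_mul, Matrix.one_mul]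
      exact key _ hy
    · have hθmap : ∀ x : GL (Fin 2) OM, S.θ (GeneralLinearGroup.map S.φM x)
          = GeneralLinearGroup.map S.φM (GeneralLinearGroup.map (S.σO : OM →+* OM) x) := fun x =>
        Units.ext (Matrix.ext fun i j => (S.comm_σ _).symm)
      rw [hγ, map_mul, map_mul, map_inv, ← hκι, ← hyN]
      simp only [tnorm, map_mul, map_inv, θ_ι, hθmap]
      group

/-- (a) The norm condition at a place with trivial level. -/
theorem isNormAt_of_fixed (hd : HasDualSystem (S.σO : OM →+* OM)) (hp : IsUnit (p : LM))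
    {n : OE} (hn : levelK S.φE n = levelK S.φE 1) {γ : GL (Fin 2) LE}
    (hx : ∃ x : QPt S.φE n, γ • x = x) : S.IsNormAt γ := by
  obtain ⟨x, hx⟩ := hx
  obtain ⟨z, X, hX, hN⟩ := S.exists_norm_of_fixed hd hp hn hx
  exact ⟨z, X, commute_of_mem_adjoin hX (Commute.refl _), hN⟩

/-- When the torus is integral, `δ` fixes what `γ` fixes. -/
theorem conj_mem_of_integral {δ : GL (Fin 2) LM} {γ : GL (Fin 2) LE}
    (hγ : γ ∈ congrGroup S.φE 1) (hδ : δ ∈ congrGroup S.φM 1)
    (hδmem : δ.1 ∈ Algebra.adjoin LM {(S.ι γ).1})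
    (hdisc : ∃ u : OEˣ, S.φE u = γ.1.trace ^ 2 - 4 * γ.1.det) {g : GL (Fin 2) LM}
    (hg : g⁻¹ * S.ι γ * g ∈ levelK S.φM 1) : g⁻¹ * δ * g ∈ levelK S.φM 1 := by
  obtain ⟨Γ, -, hΓ⟩ := exists_units_of_mem_congrGroup S.φE_inj hγ
  obtain ⟨Δ, -, hΔ⟩ := exists_units_of_mem_congrGroup S.φM_inj hδ
  set G := Γ.1.map S.jO with hG
  have hGι : G.map S.φM = (S.ι γ).1 := by
    rw [← hΓ]; exact Matrix.ext fun i j => S.comm_j _
  have hD : IsUnit (G.trace ^ 2 - 4 * G.det) := by
    obtain ⟨u, hu⟩ := hdisc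
    have h1 : Γ.1.trace ^ 2 - 4 * Γ.1.det = u := S.φE_inj (by
      rw [hu, ← hΓ, map_sub, map_pow, map_mul, map_ofNat]
      simp [Matrix.trace_fin_two, Matrix.det_fin_two])
    rw [hG, trace_map', det_map', ← map_ofNat S.jO 4, ← map_pow, ← map_mul, ← map_sub, h1]
    exact u.isUnit.map _
  have hcomm : Δ.1 * G = G * Δ.1 := by
    refine Matrix.ext fun i j => S.φM_inj ?_
    have h : (Δ.1 * G).map S.φM = (G * Δ.1).map S.φM := by
      rw [Matrix.map_mul, Matrix.map_mul, hGι, show Δ.1.map S.φM = δ.1 from congrArg Units.val hΔ]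
      exact congrArg Units.val (commute_of_mem_adjoin hδmem (Commute.refl (S.ι γ)))
    exact congrFun (congrFun h i) j
  obtain ⟨⟨a, b⟩, hab⟩ := exists_qMat_of_commute hD hcomm
  obtain ⟨c, k, hk, hck⟩ := mem_levelK.mp hg
  obtain ⟨d₁, hd₁⟩ := det_mem_of_mem_congrGroup S.φM_inj hk
  obtain ⟨d₂, hd₂⟩ := det_mem_of_mem_congrGroup S.φM_inj (by
    simpa using S.ι_mem_congrGroup hγ : S.ι γ ∈ congrGroup S.φM 1)
  obtain ⟨v, hv⟩ := S.sq_unit_closed (u := c) (a := d₂ * d₁⁻¹) (by
    have h1 := congrArg GeneralLinearGroup.det hck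
    simp only [map_mul, map_inv, det_scalar', inv_mul_cancel_comm] at h1
    rw [map_mul, map_inv, hd₁, hd₂, h1, mul_inv_cancel_right])
  obtain ⟨G', hG'⟩ : ∃ G' : Matrix (Fin 2) (Fin 2) OM,
      G'.map S.φM = (g⁻¹ * S.ι γ * g).1 := by
    obtain ⟨K', -, hK'⟩ := (mul_mem (scalar_map_mem_congrGroup (φ := S.φM) v) hk :
      GeneralLinearGroup.scalar (Fin 2) (Units.map S.φM.toMonoidHom v) * k ∈ congrGroup S.φM 1).1
    exact ⟨K', by rw [hK', hv, hck]⟩
  have himg : (qMat G' (a, b)).map S.φM = (g⁻¹ * δ * g).1 := by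
    rw [qMat_map, hG', Units.val_mul, Units.val_mul, Units.val_mul, Units.val_mul,
      ← congrArg Units.val hΔ]
    show _ = (g⁻¹).1 * Δ.1.map S.φM * g.1
    rw [hab, qMat_map, hGι]
    simp only [qMat, Matrix.mul_add, Matrix.add_mul, Matrix.mul_smul, Matrix.smul_mul,
      Matrix.mul_one, Units.inv_mul]
  refine le_sup_left (a := congrGroup S.φM 1) (mem_congrGroup_of_isUnit
    (isCongrOne_of_isUnit isUnit_one _) ?_ himg)
  rw [Matrix.isUnit_iff_isUnit_det]
  have : (qMat G' (a, b)).det = Δ.1.det := S.φM_inj (by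
    rw [← det_map', ← det_map', himg, show Δ.1.map S.φM = δ.1 from congrArg Units.val hΔ,
      Units.val_mul, Units.val_mul, Matrix.det_units_conj'])
  rw [this]
  exact (Matrix.isUnit_iff_isUnit_det _).mp Δ.isUnit

/-- The torus element of the matching, with both directions on representatives. -/
theorem exists_matching [IsArtinianRing LM] (hd : HasDualSystem (S.σO : OM →+* OM))
    (hp : IsUnit (p : LM)) {δ : GL (Fin 2) LM} {γ : GL (Fin 2) LE} {z : LEˣ}
    (hδ : δ.1 ∈ Algebra.adjoin LM {(S.ι γ).1})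
    (hN : tnorm S.θ δ = S.ι (GeneralLinearGroup.scalar (Fin 2) z * γ)) :
    ∃ b : GL (Fin 2) LM, b.1 ∈ Algebra.adjoin LM {(S.ι γ).1} ∧
      ((γ ∈ congrGroup S.φE 1 ∧ δ ∈ congrGroup S.φM 1 ∧
        ∃ u : OEˣ, S.φE u = γ.1.trace ^ 2 - 4 * γ.1.det) → b = 1) ∧
      (∀ h : GL (Fin 2) LE, h⁻¹ * γ * h ∈ levelK S.φE 1 →
        (b * S.ι h)⁻¹ * δ * S.θ (b * S.ι h) ∈ levelK S.φM 1) ∧
      ∀ g : GL (Fin 2) LM, g⁻¹ * δ * S.θ g ∈ levelK S.φM 1 →
        ∃ h : GL (Fin 2) LE, (b * S.ι h)⁻¹ * g ∈ levelK S.φM 1 ∧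
          h⁻¹ * γ * h ∈ levelK S.φE 1 := by
  have hfin : Finite (OM ⧸ Ideal.span {(p : OM)}) := finite_quotient_padic
  have : Finite (MaximalSpectrum OM) := (isPComplete_padic p).finite_maximalSpectrum
  set K := levelK S.φM 1
  set γ₁ := GeneralLinearGroup.scalar (Fin 2) z * γ with hγ₁
  have hcomap : K.comap S.ι = levelK S.φE 1 := by
    have := S.comap_levelK 1 (by simp) (Or.inl isUnit_one)
    rwa [map_one] at this
  have hsc : ∀ h : GL (Fin 2) LE, h⁻¹ * γ₁ * h ∈ levelK S.φE 1 ↔ h⁻¹ * γ * h ∈ levelK S.φE 1 :=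
    fun h => by rw [← smul_mk_eq_iff, ← smul_mk_eq_iff, hγ₁, scalar_smul_qPt]
  have hadj : Algebra.adjoin LM {(S.ι γ₁).1} = Algebra.adjoin LM {(S.ι γ).1} := by
    rw [hγ₁, map_mul, ι_scalar, adjoin_scalar_mul]
  have hbij : ∃ b : GL (Fin 2) LM, b.1 ∈ Algebra.adjoin LM {(S.ι γ).1} ∧
      ((γ ∈ congrGroup S.φE 1 ∧ δ ∈ congrGroup S.φM 1 ∧
        ∃ u : OEˣ, S.φE u = γ.1.trace ^ 2 - 4 * γ.1.det) → b = 1) ∧
      Set.BijOn (shiftMap S.ι K b) (conjFix (K.comap S.ι) γ₁ (K.comap S.ι))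
        (twFix S.θ K δ K) := by
    by_cases hgood : γ ∈ congrGroup S.φE 1 ∧ δ ∈ congrGroup S.φM 1 ∧
        ∃ u : OEˣ, S.φE u = γ.1.trace ^ 2 - 4 * γ.1.det
    · obtain ⟨h1, h2, h3⟩ := hgood
      refine ⟨1, one_mem _, fun _ => rfl, bijOn_shiftMap_unit S.θ_three S.θ_ι
        (fun k hk => S.θ_mem_levelK (map_one S.σO) hk) (t := δ) (by rw [map_one]; group) hN
        (fun g hg => S.conj_mem_of_integral h1 h2 hδ h3 ?_) fun g hg => S.exists_descend hd hg⟩
      rw [hγ₁, map_mul, ι_scalar, conj_scalar] at hg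
      exact (Subgroup.mul_mem_cancel_left _ (le_sup_right (a := congrGroup S.φM 1)
        (scalar_mem_center _))).mp hg
    · obtain ⟨b, hb, hbij⟩ := S.exists_bijOn_unit hd hp (γ := γ₁) (hadj ▸ hδ) hN
      exact ⟨b, hadj ▸ hb, fun h => absurd h hgood, hbij⟩
  obtain ⟨b, hb, hb1, hbij⟩ := hbij
  have hY : IsConjInvariant (K.comap S.ι) (K.comap S.ι : Set (GL (Fin 2) LE)) :=
    fun k hk x hx => mul_mem (mul_mem (inv_mem hk) hx) hk
  refine ⟨b, hb, hb1, fun h hh => ?_, fun g hg => ?_⟩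
  · have hh' : h⁻¹ * γ₁ * h ∈ K.comap S.ι := by rw [hcomap, hsc]; exact hh
    exact hbij.mapsTo (mk_mem_conjFix hY hh') (b * S.ι h) rfl
  · obtain ⟨u, hu, hug⟩ := hbij.surjOn (mk_mem_twFix S.θ K
      (fun k hk x hx => mul_mem (mul_mem (inv_mem hk) hx) (S.θ_mem_levelK (map_one S.σO) hk)) hg)
    induction u using QuotientGroup.induction_on with
    | H h =>
      rw [shiftMap_mk] at hug
      refine ⟨h, QuotientGroup.eq.mp hug, ?_⟩
      rw [← hsc, ← hcomap]
      exact hu h rfl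

variable {hE : GL (Fin 2) LE → ℝ} {hM : GL (Fin 2) LM → ℝ}

/-- (b) The comparison at a place with trivial levels. -/
theorem exists_twistLocal_whole [IsArtinianRing LM] (hd : HasDualSystem (S.σO : OM →+* OM))
    (hp : IsUnit (p : LM)) (H : S.IsHeightPair hE hM) {n : OE} {n' : OM}
    (hn : levelK S.φE n = levelK S.φE 1) (hn' : levelK S.φM n' = levelK S.φM 1)
    {γ : GL (Fin 2) LE} {isDiag isNorm : Prop} (hdiag : isDiag → IsDiag2 γ)
    (hnorm : (∃ x : QPt S.φE n, γ • x = x) → isNorm) {δ : GL (Fin 2) LM} {z : LEˣ}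
    (hδ : δ.1 ∈ Algebra.adjoin LM {(S.ι γ).1})
    (hN : tnorm S.θ δ = S.ι (GeneralLinearGroup.scalar (Fin 2) z * γ)) :
    ∃ T : TwistLocal (idPlain (1 : ℝ) (fun x : QPt S.φE n => γ • x) (S.commPairs n n' γ) isDiag
        isNorm (fun u => hE u.out) hnorm) (S.twMap n' δ) idKer (fun v => hM v.out),
      (∀ v, T.dM v = 0) ∧
      ((γ ∈ congrGroup S.φE 1 ∧ δ ∈ congrGroup S.φM 1 ∧
        ∃ u : OEˣ, S.φE u = γ.1.trace ^ 2 - 4 * γ.1.det) →
        ∀ i, T.q i ((1 : GL (Fin 2) LM) : QPt S.φM n') = ((1 : GL (Fin 2) LE) : QPt S.φE n)) := by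
  obtain ⟨b, hb, hb1, fwd, back⟩ := S.exists_matching hd hp hδ hN
  have hcomap : (levelK S.φM 1).comap S.ι = levelK S.φE 1 := by
    have := S.comap_levelK 1 (by simp) (Or.inl isUnit_one)
    rwa [map_one] at this
  set sh : QPt S.φE n → QPt S.φM n' := fun u => ((b * S.ι u.out : GL (Fin 2) LM) : QPt S.φM n')
    with hshdef
  have hconj : ∀ h h' : GL (Fin 2) LE,
      (b * S.ι h)⁻¹ * (b * S.ι h') = S.ι (h⁻¹ * h') := fun h h' => by
    rw [map_mul, map_inv]; group
  have hmk : ∀ h : GL (Fin 2) LE, sh (h : QPt S.φE n) = ((b * S.ι h :) : QPt S.φM n') := fun h => by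
    refine QuotientGroup.eq.mpr ?_
    rw [hconj, hn']
    have := QuotientGroup.eq.mp (QuotientGroup.out_eq' (h : QPt S.φE n))
    exact (SetLike.ext_iff.mp (hn.trans hcomap.symm) _).mp this
  have hfix : ∀ g : GL (Fin 2) LM, S.twMap n' δ (g : QPt S.φM n') = g ↔
      g⁻¹ * δ * S.θ g ∈ levelK S.φM 1 := fun g => by
    rw [S.twMap_mk_of_level hn', eq_comm, QuotientGroup.eq, ← mul_assoc, hn']
  have hfixE : ∀ h : GL (Fin 2) LE, γ • (h : QPt S.φE n) = h ↔
      h⁻¹ * γ * h ∈ levelK S.φE 1 := fun h => by rw [smul_mk_eq_iff, hn]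
  have hinj : Function.Injective sh := by
    intro u u'
    induction u using QuotientGroup.induction_on with
    | H h =>
      induction u' using QuotientGroup.induction_on with
      | H h' =>
        intro e
        rw [hmk, hmk, QuotientGroup.eq, hconj, hn'] at e
        rw [QuotientGroup.eq, hn, ← hcomap]
        exact e
  have hsh : Set.BijOn sh {u | γ • u = u} {v | S.twMap n' δ v = v} := by
    refine ⟨fun u hu => ?_, hinj.injOn, fun v hv => ?_⟩
    · induction u using QuotientGroup.induction_on with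
      | H h =>
        show S.twMap n' δ (sh _) = sh _
        rw [hmk]
        exact (hfix _).mpr (fwd h ((hfixE h).mp hu))
    · induction v using QuotientGroup.induction_on with
      | H g =>
        obtain ⟨h, hh, hh'⟩ := back g ((hfix g).mp hv)
        refine ⟨(h : QPt S.φE n), (hfixE h).mpr hh', ?_⟩
        rw [hmk, QuotientGroup.eq, hn']
        exact hh
  have hcomm : ∀ t ∈ S.commPairs n n' γ, ∀ u, sh (t.1 u) = t.2 (sh u) := by
    rintro _ ⟨c, hc, rfl⟩ u
    induction u using QuotientGroup.induction_on with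
    | H h =>
      show sh ((c * h :) : QPt S.φE n) = S.ι c • sh (h : QPt S.φE n)
      rw [hmk, hmk]
      show _ = ((S.ι c * (b * S.ι h) :) : QPt S.φM n')
      rw [map_mul, ← mul_assoc, ← mul_assoc, commute_of_mem_adjoin hb (hc.map S.ι)]
  have hh : isDiag → ∀ u : QPt S.φE n, γ • u = u → hM (sh u).out = 3 * hE u.out := by
    intro hd' u _
    induction u using QuotientGroup.induction_on with
    | H h =>
      rw [hmk]
      simp only [H.outM, H.outE]
      have hι : IsDiag2 (S.ι γ) := by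
        obtain ⟨e1, e2⟩ := hdiag hd'
        exact ⟨by simp [ι_val, e1], by simp [ι_val, e2]⟩
      rw [H.diagM b _ (isDiag2_of_mem_adjoin hι hb), H.incl]
  obtain ⟨T, hT, hq⟩ := exists_twistLocal_idKer (fun x : QPt S.φE n => γ • x) (S.twMap n' δ)
    (S.commPairs n n' γ) isDiag isNorm (fun u => hE u.out) hnorm (fun v => hM v.out) sh hinj hsh
    hcomm hh
  refine ⟨T, hT, fun hgood i => ?_⟩
  have := hq i ((1 : GL (Fin 2) LE) : QPt S.φE n)
  rwa [hmk, hb1 hgood, map_one, mul_one] at this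

end LocalCubic

section Ramified

open scoped TensorProduct
open NumberField

variable {E M : Type} [Field E] [Field M] [NumberField E] [NumberField M] {f : E →+* M}
  {s : M ≃+* M} {h : CubicData f s} {p : Nat.Primes} {N₀ N₁ N N' : ℕ} {c : ℝ}

/-- The norm condition at a place of `R`. -/
theorem IsRamifiedPlace.isNormAt (hp : IsRamifiedPlace h p N₀ N₁ N N' c)
    {γ : GL (Fin 2) (Lp E p)} (hx : ∃ x : LocPt E N p, γ • x = x) :
    (h.localCubic (p : ℕ)).IsNormAt γ := by
  obtain ⟨x, hx⟩ := hx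
  exact hp.norm γ x hx

theorem ramLocKer_eq_one {v v' : LocPt M N' p} (hv : ramLocKer h p N₀ N₁ N' v v' ≠ 0) :
    ramLocKer h p N₀ N₁ N' v v' = 1 := by
  by_contra h1
  simp only [ramLocKer] at hv h1
  split_ifs at hv h1
  all_goals simp_all

/-- (c) The comparison at a place of `R`. -/
theorem IsRamifiedPlace.exists_twistLocal (hp : IsRamifiedPlace h p N₀ N₁ N N' c)
    {hE : GL (Fin 2) (Lp E p) → ℝ} {hM : GL (Fin 2) (Lp M p) → ℝ}
    (H : (h.localCubic (p : ℕ)).IsHeightPair hE hM) {γ : GL (Fin 2) (Lp E p)}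
    {isDiag isNorm : Prop} (hdiag : isDiag → IsDiag2 γ)
    (hnorm : (∃ x : LocPt E N p, γ • x = x) → isNorm) {δ : GL (Fin 2) (Lp M p)}
    {z : (Lp E p)ˣ} (hδ : δ.1 ∈ Algebra.adjoin (Lp M p) {((h.localCubic (p : ℕ)).ι γ).1})
    (hN : tnorm (h.localCubic (p : ℕ)).θ δ =
      (h.localCubic (p : ℕ)).ι (GeneralLinearGroup.scalar (Fin 2) z * γ)) :
    ∃ T : TwistLocal (idPlain c (fun x : LocPt E N p => γ • x)
        ((h.localCubic (p : ℕ)).commPairs (N : Op E p) (N' : Op M p) γ) isDiag isNorm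
        (fun u => hE u.out) hnorm)
        ((h.localCubic (p : ℕ)).twMap (N' : Op M p) δ) (ramLocKer h p N₀ N₁ N')
        (fun v => hM v.out), ∀ v, T.dM v = 0 := by
  classical
  set γ₁ := GeneralLinearGroup.scalar (Fin 2) z * γ with hγ₁
  have hadj : Algebra.adjoin (Lp M p) {((h.localCubic (p : ℕ)).ι γ₁).1} =
      Algebra.adjoin (Lp M p) {((h.localCubic (p : ℕ)).ι γ).1} := by
    rw [hγ₁, map_mul, LocalCubic.ι_scalar, adjoin_scalar_mul]
  obtain ⟨b, q, hb, hq1, hq2, hq3⟩ := hp.matching γ₁ δ (hadj ▸ hδ) hN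
  rw [hadj] at hb
  have hf : ∀ g : GL (Fin 2) (Lp M p), (h.localCubic (p : ℕ)).twMap (N' : Op M p) δ
        (g : LocPt M N' p) =
      ((δ * (h.localCubic (p : ℕ)).θ g : GL (Fin 2) (Lp M p)) : LocPt M N' p) :=
    (h.localCubic (p : ℕ)).twMap_mk (map_natCast (h.localCubic (p : ℕ)).σO N') δ
  -- the support of the fibre of `q`
  have hset : ∀ u,
      {v | q v = u ∧ ramLocKer h p N₀ N₁ N' v ((h.localCubic (p : ℕ)).twMap (N' : Op M p) δ v) ≠
        0} =
      {v | q v = u ∧ ∃ g : GL (Fin 2) (Lp M p), (g : LocPt M N' p) = v ∧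
        ramLocKer h p N₀ N₁ N' v ((δ * (h.localCubic (p : ℕ)).θ g : GL (Fin 2) (Lp M p)) :
          LocPt M N' p) ≠ 0} := by
    intro u
    ext v
    refine and_congr_right fun _ => ⟨fun hv => ?_, ?_⟩
    · induction v using QuotientGroup.induction_on with
      | H g => exact ⟨g, rfl, by rwa [hf] at hv⟩
    · rintro ⟨g, rfl, hg⟩
      rwa [hf]
  have hsum : ∀ u, ∑ᶠ v ∈ {v | q v = u}, ramLocKer h p N₀ N₁ N' v
      ((h.localCubic (p : ℕ)).twMap (N' : Op M p) δ v) = (c : ℂ) * if γ • u = u then 1 else 0 := by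
    intro u
    obtain ⟨hfin, hcard⟩ := hq3 u
    rw [← hset u] at hfin hcard
    rw [finsum_mem_eq_sum_of_subset (s := {v | q v = u}) (fun v => ramLocKer h p N₀ N₁ N' v
        ((h.localCubic (p : ℕ)).twMap (N' : Op M p) δ v)) (t := hfin.toFinset) (fun v hv =>
          hfin.mem_toFinset.mpr
          ⟨hv.1, hv.2⟩) (fun v hv => (hfin.mem_toFinset.mp hv).1),
      Finset.sum_congr rfl fun v hv => ramLocKer_eq_one (hfin.mem_toFinset.mp hv).2,
      Finset.sum_const, nsmul_eq_mul, mul_one, ← Set.ncard_eq_toFinset_card _ hfin]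
    rw [show ({z : LocPt E N p | γ₁ • z = z}) = {z : LocPt E N p | γ • z = z} from
      Set.ext fun x => by rw [Set.mem_ofPred_eq, Set.mem_ofPred_eq, hγ₁, scalar_smul_qPt]] at hcard
    have := congrArg (fun r : ℝ => (r : ℂ)) hcard
    simp only [Complex.ofReal_natCast, Complex.ofReal_mul] at this
    rw [this]
    congr 1
    by_cases hu : γ • u = u <;> simp [Set.indicator, hu]
  refine ⟨{
    q := fun _ => q
    q_comm := ?_
    finite := fun _ u => (congrArg Set.Finite (hset u)).mpr (hq3 u).1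
    sum_eq := fun _ u => ?_
    dM := fun _ => 0
    dM_nonneg := fun _ => le_rfl
    height := fun hd v hv => ?_
    identity := fun _ u => by simp [idPlain] }, fun _ => rfl⟩
  · rintro _ _ ⟨t, ht, rfl⟩ v hv
    induction v using QuotientGroup.induction_on with
    | H g =>
      have hv := (congrArg (fun y => ramLocKer h p N₀ N₁ N' (g : LocPt M N' p) y ≠ 0) (hf g)).mp hv
      exact hq1 t (Commute.mul_right (Subgroup.mem_center_iff.mp (scalar_mem_center z) t) ht) g hv
  · refine (hsum u).trans ?_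
    congr 1
    show _ = ∑ᶠ x ∈ {x | x = u}, idKer x (γ • x)
    simp only [Set.ofPred_eq_eq_singleton, finsum_mem_singleton]
    split_ifs with hu
    · rw [hu, idKer_self]
    · rw [idKer_ne fun e => hu e.symm]
  · induction v using QuotientGroup.induction_on with
    | H g =>
      have hv := (congrArg (fun y => ramLocKer h p N₀ N₁ N' (g : LocPt M N' p) y ≠ 0) (hf g)).mp hv
      obtain ⟨u, hu⟩ := QuotientGroup.mk_surjective (q (g : LocPt M N' p))
      have hk := hq2 g u hv hu.symm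
      have hι : IsDiag2 ((h.localCubic (p : ℕ)).ι γ) := by
        obtain ⟨e1, e2⟩ := hdiag hd
        exact ⟨by simp [LocalCubic.ι_val, e1], by simp [LocalCubic.ι_val, e2]⟩
      simp only [add_zero, Finset.sum_const, Finset.card_univ, Fintype.card_fin, nsmul_eq_mul]
      have e := (congrArg (fun x => hE (Quotient.out x)) hu.symm).trans
        (LocalCubic.IsHeightPair.outE _ H u)
      refine (LocalCubic.IsHeightPair.outM _ H g).trans
        (Eq.trans ?_ (congrArg (((3 : ℕ) : ℝ) * ·) e).symm)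
      rw [show g = b * (h.localCubic (p : ℕ)).ι u * ((b * (h.localCubic (p : ℕ)).ι u)⁻¹ * g)
        by group,
        H.rightM _ _ hk, H.diagM b _ (isDiag2_of_mem_adjoin hι hb), H.incl]
      norm_num

end Ramified

end FLTAgent.LanglandsTunnell.Local
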