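import Fermat.Agent.LanglandsTunnell.Local.InertNorm
import Fermat.Agent.LanglandsTunnell.Local.WholePlace

/-!
# The comparison at an inert place

The points are the two trees. For a diagonal class everything is projected to the standard axis,
otherwise to the set of least displacement of the class.
Main results: `inertPlain` and `exists_inertTwist`.
-/

set_option autoImplicit false
set_option linter.unusedSectionVars false

noncomputable section

namespace FLTAgent.LanglandsTunnell.Local

open Matrix FLTAgent.LanglandsTunnell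
open IsUnifRing (Vert actPerm)

theorem exists_diagGL {L : Type} [CommRing L] {γ : GL (Fin 2) L} (h : IsDiag2 γ) :
    ∃ a d : Lˣ, γ = IsUnifRing.diagGL a d := by
  obtain ⟨h01, h10⟩ := h
  have hdet : IsUnit (γ.1 0 0 * γ.1 1 1) := by
    have := (Matrix.isUnit_iff_isUnit_det _).mp γ.isUnit
    rwa [Matrix.det_fin_two, h01, zero_mul, sub_zero] at this
  refine ⟨(isUnit_of_mul_isUnit_left hdet).unit, (isUnit_of_mul_isUnit_right hdet).unit, ?_⟩
  refine Units.ext (Matrix.ext fun i j => ?_)
  fin_cases i <;> fin_cases j <;> simp [IsUnifRing.diagGL, h01, h10]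

/-- The centraliser of a regular diagonal matrix is diagonal. -/
theorem isDiag2_of_commute {L : Type} [CommRing L] {γ c : GL (Fin 2) L} (h : IsDiag2 γ)
    (hreg : IsUnit (γ.1.trace ^ 2 - 4 * γ.1.det)) (hc : Commute c γ) : IsDiag2 c := by
  obtain ⟨h01, h10⟩ := h
  have hsq : IsUnit ((γ.1 0 0 - γ.1 1 1) * (γ.1 0 0 - γ.1 1 1)) := by
    convert hreg using 1
    rw [Matrix.trace_fin_two, Matrix.det_fin_two, h01, zero_mul, sub_zero]
    ring
  have hu := isUnit_of_mul_isUnit_left hsq
  have e : c.1 * γ.1 = γ.1 * c.1 := congrArg Units.val hc.eq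
  constructor
  · refine hu.mul_right_eq_zero.mp ?_
    have := congrFun (congrFun e 0) 1
    simp [Matrix.mul_apply, Fin.sum_univ_two, h01] at this
    linear_combination -this
  · refine hu.mul_right_eq_zero.mp ?_
    have := congrFun (congrFun e 1) 0
    simp [Matrix.mul_apply, Fin.sum_univ_two, h10] at this
    linear_combination this

namespace LocalCubic

variable {OE LE OM LM : Type} [CommRing OE] [CommRing LE] [CommRing OM] [CommRing LM]
  (S : LocalCubic OE LE OM LM)

/-- The Galois action on the vertices over the extension. -/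
def θVert : Equiv.Perm (Vert (φ := S.φM)) :=
  let t : Vert (φ := S.φM) → Vert (φ := S.φM) := Quotient.map' S.θ fun a b hab => by
    rw [QuotientGroup.leftRel_apply] at hab ⊢
    rw [← map_inv, ← map_mul]
    exact S.θ_mem_levelK (map_one S.σO) hab
  { toFun := t
    invFun := fun v => t (t v)
    left_inv := fun v => by
      induction v using QuotientGroup.induction_on with
      | H g => exact congrArg QuotientGroup.mk (S.θ_three g)
    right_inv := fun v => by
      induction v using QuotientGroup.induction_on with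
      | H g => exact congrArg QuotientGroup.mk (S.θ_three g) }

theorem θVert_mk (g : GL (Fin 2) LM) :
    S.θVert (g : Vert (φ := S.φM)) = ((S.θ g : GL (Fin 2) LM) : Vert (φ := S.φM)) := rfl

/-- The twisted action as a permutation. -/
def twPerm (δ : GL (Fin 2) LM) : Equiv.Perm (Vert (φ := S.φM)) := actPerm δ * S.θVert

theorem twPerm_apply (δ : GL (Fin 2) LM) (v : Vert (φ := S.φM)) :
    S.twPerm δ v = S.twMap 1 δ v := by
  induction v using QuotientGroup.induction_on with
  | H g => rw [S.twMap_mk (map_one S.σO)]; rfl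

theorem twPerm_cube (δ : GL (Fin 2) LM) : S.twPerm δ ^ 3 = actPerm (tnorm S.θ δ) := by
  ext v
  induction v using QuotientGroup.induction_on with
  | H g =>
    show (((δ * S.θ (δ * S.θ (δ * S.θ g))) : GL (Fin 2) LM) : Vert (φ := S.φM)) =
      ((tnorm S.θ δ * g : GL (Fin 2) LM) : Vert (φ := S.φM))
    rw [map_mul, map_mul, map_mul, S.θ_three, tnorm]
    congr 1
    group

variable {π : OE} (U : IsUnifRing S.φE π) (U' : IsUnifRing S.φM (S.jO π))

theorem isIsom_θVert : (U'.tree).IsIsom S.θVert := fun u v => by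
  induction u using QuotientGroup.induction_on with
  | H a =>
    induction v using QuotientGroup.induction_on with
    | H b =>
      rw [θVert_mk, θVert_mk, U'.tree_d, U'.tree_d, ← map_inv, ← map_mul,
        show S.θ (a⁻¹ * b) = GeneralLinearGroup.map (S.σ : LM →+* LM) (a⁻¹ * b) from
          Units.ext (Matrix.ext fun i j => rfl)]
      exact U'.nd_map U' (S.σ : LM →+* LM) (S.σO : OM →+* OM) S.comm_σ
        ⟨1, by rw [Units.val_one, mul_one]; exact S.σO_jO π⟩ _

theorem isIsom_twPerm (δ : GL (Fin 2) LM) : (U'.tree).IsIsom (S.twPerm δ) := fun u v => by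
  show (U'.tree).d (actPerm δ (S.θVert u)) (actPerm δ (S.θVert v)) = _
  rw [U'.isIsom_actPerm δ, S.isIsom_θVert U']

/-- The inclusion of the trees. -/
def upVert (U : IsUnifRing S.φE π) (U' : IsUnifRing S.φM (S.jO π)) :
    Vert (φ := S.φE) → Vert (φ := S.φM) :=
  U.mapVert U' S.j S.jO (fun o => S.comm_j o) ⟨1, by rw [Units.val_one, mul_one]⟩

theorem upVert_mk (g : GL (Fin 2) LE) :
    S.upVert U U' (g : Vert (φ := S.φE)) = ((S.ι g : GL (Fin 2) LM) : Vert (φ := S.φM)) := rfl

theorem dist_upVert (u v : Vert (φ := S.φE)) :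
    (U'.tree).d (S.upVert U U' u) (S.upVert U U' v) = (U.tree).d u v :=
  U.dist_mapVert U' S.j S.jO (fun o => S.comm_j o) ⟨1, by rw [Units.val_one, mul_one]⟩ u v

theorem upVert_smul (c : GL (Fin 2) LE) (u : Vert (φ := S.φE)) :
    S.upVert U U' (c • u) = S.ι c • S.upVert U U' u := by
  induction u using QuotientGroup.induction_on with
  | H g =>
    show S.upVert U U' ((c * g :) : Vert (φ := S.φE)) = S.ι c • ((S.ι g :) : Vert (φ := S.φM))
    rw [upVert_mk, map_mul]
    rfl

include U in
theorem ι_axisGL : S.ι U.axisGL = U'.axisGL := by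
  refine Units.ext (Matrix.ext fun i j => ?_)
  rw [ι_val, U.axisGL_val, U'.axisGL_val]
  fin_cases i <;> fin_cases j <;> simp [S.comm_j]

variable {γ : GL (Fin 2) LE} {isDiag : Prop}

include U in
/-- Diagonal elements commute with the axis translation. -/
theorem diag_axis (hd : IsDiag2 γ) (u : Vert (φ := S.φE)) :
    actPerm γ (U.axisPerm u) = U.axisPerm (actPerm γ u) := by
  obtain ⟨a, d, rfl⟩ := exists_diagGL hd
  exact U.diagGL_comm a d u

open scoped Classical in
/-- Where the points are moved. -/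
def inertProj (U : IsUnifRing S.φE π) (γ : GL (Fin 2) LE) (isDiag : Prop)
    (u : Vert (φ := S.φE)) : Vert (φ := S.φE) :=
  haveI := U.nonempty_vert
  if isDiag then (U.tree).proj U.axisPerm u else (U.tree).proj (actPerm γ) u

theorem inertProj_comm (hdiag : isDiag → IsDiag2 γ) (hreg : IsUnit (γ.1.trace ^ 2 - 4 * γ.1.det))
    {c : GL (Fin 2) LE} (hc : Commute c γ) (u : Vert (φ := S.φE)) :
    S.inertProj U γ isDiag (c • u) = c • S.inertProj U γ isDiag u := by
  have := U.nonempty_vert
  unfold inertProj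
  split_ifs with hd
  · exact (U.tree).proj_commute U.isIsom_axisPerm (U.isIsom_actPerm c)
      (S.diag_axis U (isDiag2_of_commute (hdiag hd) hreg hc)) u
  · refine (U.tree).proj_commute (U.isIsom_actPerm γ) (U.isIsom_actPerm c) (fun v => ?_) u
    show c • γ • v = γ • c • v
    rw [← mul_smul, hc.eq, mul_smul]

variable {hE : GL (Fin 2) LE → ℝ} {hM : GL (Fin 2) LM → ℝ} (H : S.IsHeightPair hE hM) {lam : ℝ}

include H in
theorem hE_eq_depth (hlE : ∀ k : ℕ, hE (IsUnifRing.unip ((↑U.pi_unit.unit⁻¹ : LE) ^ k)) = lam * k)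
    (u : Vert (φ := S.φE)) : hE u.out = lam * (U.tree).depth U.axisPerm u := by
  obtain ⟨a, d, k, rfl, hk⟩ := U.exists_diag_unip u
  rw [hk, H.outE, H.diagE _ _ ⟨by simp [IsUnifRing.diagGL], by simp [IsUnifRing.diagGL]⟩, hlE]

include H in
theorem hM_eq_depth
    (hlM : ∀ k : ℕ, hM (IsUnifRing.unip ((↑U'.pi_unit.unit⁻¹ : LM) ^ k)) = 3 * lam * k)
    (v : Vert (φ := S.φM)) : hM v.out = 3 * lam * (U'.tree).depth U'.axisPerm v := by
  obtain ⟨a, d, k, rfl, hk⟩ := U'.exists_diag_unip v
  rw [hk, H.outM, H.diagM _ _ ⟨by simp [IsUnifRing.diagGL], by simp [IsUnifRing.diagGL]⟩, hlM]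

variable {p : ℕ} [Fact p.Prime] [Algebra ℤ_[p] OM] [Module.Finite ℤ_[p] OM]
  [Module.IsTorsionFree ℤ_[p] OM]

/-- The norm condition, or vanishing. -/
theorem isNormAt_of_isNormType (hd : HasDualSystem (S.σO : OM →+* OM)) (hp : IsUnit (p : LM))
    (hpE : IsUnit (p : LE)) (hE' : IsPComplete (p : OE)) {z : Vert (φ := S.φE)}
    (hz : (U.tree).depth (actPerm γ) z = 0) (hN : (U.tree).IsNormType (actPerm γ) z) :
    S.IsNormAt γ := by
  have := U.nonempty_vert
  have hg := U.isIsom_actPerm γ
  by_cases hL : (U.tree).minD (actPerm γ) = 0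
  · exact S.isNormAt_of_fixed (p := p) hd hp (n := 1) rfl
      (((U.tree).minD_eq_zero_iff _).mp hL)
  rcases (U.tree).minDeg_cases hg hz hL with ⟨-, -, h2⟩ | ⟨h2, -, hd2, -⟩
  · obtain ⟨c, X, hX, hXN⟩ := S.exists_norm_of_fixed (p := p) hd hp (n := 1) rfl
      (γ := γ * γ) (x := z) (by rw [mul_smul]; exact h2)
    exact S.isNormAt_of_sq hX hXN
  · obtain ⟨m, hm⟩ : 3 ∣ (U.tree).minD (actPerm γ) := by
      rcases hN with h | h | h
      · exact absurd h hL
      · omega
      · exact h.2
    have hd1 : (U.tree).d z (γ • z) = 3 * m := hm ▸ ((U.tree).depth_eq_zero_iff hg z).mp hz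
    exact S.isNormAt_of_translation hd hp hpE hE' U γ z (m := m) (by omega) hd1
      (hd2.trans (by omega))

theorem isNormAt_of_minD (hd : HasDualSystem (S.σO : OM →+* OM)) (hp : IsUnit (p : LM))
    (hL : (U.tree).minD (actPerm γ) = 0) : S.IsNormAt γ := by
  have := U.nonempty_vert
  exact S.isNormAt_of_fixed (p := p) hd hp (n := 1) rfl
    (((U.tree).minD_eq_zero_iff _).mp hL)

variable (hd : HasDualSystem (S.σO : OM →+* OM)) (hp : IsUnit (p : LM)) (hpE : IsUnit (p : LE))
  (hE' : IsPComplete (p : OE)) (hdiag : isDiag → IsDiag2 γ)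
  (hreg : IsUnit (γ.1.trace ^ 2 - 4 * γ.1.det))
  (hlE : ∀ k : ℕ, hE (IsUnifRing.unip ((↑U.pi_unit.unit⁻¹ : LE) ^ k)) = lam * k)
  (hlam : 0 ≤ lam) {n : ℕ} (hn : n ≤ 2)

/-- The correction kernel at an inert place. -/
def inertK2 (U : IsUnifRing S.φE π) (lam : ℝ) (n : ℕ) (x y : Vert (φ := S.φE)) : ℂ :=
  (lam : ℂ) * kerW (U.tree).q n ((U.tree).d x y)

/-- The plain kernel at an inert place. -/
def inertPe (U : IsUnifRing S.φE π) (n : ℕ) (x y : Vert (φ := S.φE)) : ℂ :=
  kerE (U.tree).q n ((U.tree).d x y)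

include hdiag hreg in
theorem proj_eq_of_no_fixed (hdg : isDiag) (hL : (U.tree).minD (actPerm γ) ≠ 0)
    (u : Vert (φ := S.φE)) :
    (U.tree).proj U.axisPerm u = (U.tree).proj (actPerm γ) u := by
  have := U.nonempty_vert
  exact ((U.tree).proj_eq_of_translation (U.isIsom_actPerm γ) U.isIsom_axisPerm
    (S.diag_axis U (hdiag hdg))
    (fun v hv => U.axis_sub (U.isIsom_actPerm γ) (S.diag_axis U (hdiag hdg)) hv)
    (fun v hv => U.minDeg_axis hv) hL u).1

include hdiag hreg in
/-- Bounded depth over one point is finite. -/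
theorem finite_inertProj (B : ℕ) (z : Vert (φ := S.φE)) :
    {u : Vert (φ := S.φE) | S.inertProj U γ isDiag u = z ∧
      (U.tree).depth (actPerm γ) u ≤ B}.Finite := by
  have := U.nonempty_vert
  have hg := U.isIsom_actPerm γ
  have key : ∀ z, {u | (U.tree).proj (actPerm γ) u = z ∧
      (U.tree).depth (actPerm γ) u ≤ B}.Finite := fun z => by
    by_cases hz : (U.tree).depth (actPerm γ) z = 0
    · exact (U.tree).fibre_finite hg hz B
    · exact Set.finite_empty.subset fun u hu => hz (hu.1 ▸ (U.tree).depth_proj hg u)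
  by_cases hdg : isDiag
  · by_cases hL : (U.tree).minD (actPerm γ) = 0
    · obtain ⟨a, d, hγ⟩ := exists_diagGL (hdiag hdg)
      have had : a ≠ d := fun e => by
        have := U.nontrivialL
        refine hreg.ne_zero ?_
        rw [hγ]
        simp [IsUnifRing.diagGL, e, Matrix.trace_fin_two, Matrix.det_fin_two]
        ring
      have hF : {u | actPerm γ u = u ∧ (U.tree).proj U.axisPerm u = z}.Finite :=
        hγ ▸ U.finite_fixed had z
      refine (hF.biUnion fun w _ => key w).subset fun u hu => ?_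
      simp only [Set.mem_iUnion, Set.mem_ofPred_eq, exists_prop]
      refine ⟨(U.tree).proj (actPerm γ) u, ⟨((U.tree).depth_zero_iff_fixed hg hL _).mp
        ((U.tree).depth_proj hg u), ?_⟩, rfl, hu.2⟩
      rw [← ((U.tree).depth_add_proj hg U.isIsom_axisPerm (S.diag_axis U (hdiag hdg))
        (fun v hv => U.axis_sub hg (S.diag_axis U (hdiag hdg)) hv) u).2]
      exact (if_pos hdg).symm.trans hu.1
    · refine (key z).subset fun u hu => ⟨?_, hu.2⟩
      rw [← S.proj_eq_of_no_fixed U hdiag hreg hdg hL u]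
      exact (if_pos hdg).symm.trans hu.1
  · exact (key z).subset fun u hu => ⟨(if_neg hdg).symm.trans hu.1, hu.2⟩

include hdiag hreg in
/-- An invariant kernel with finite rows has finitely many entries over one point. -/
theorem finite_inertProj_kernel (K : Vert (φ := S.φE) → Vert (φ := S.φE) → ℂ)
    (hK : ∀ (c : GL (Fin 2) LE) x y, K (c • x) (c • y) = K x y) (hrow : SplitPlace.FinRows K)
    (z : Vert (φ := S.φE)) :
    {u : Vert (φ := S.φE) | S.inertProj U γ isDiag u = z ∧ K u (γ • u) ≠ 0}.Finite := by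
  have := U.nonempty_vert
  set o : Vert (φ := S.φE) := ((1 : GL (Fin 2) LE) : Vert (φ := S.φE)) with ho
  obtain ⟨B, hB⟩ := ((hrow o).image fun y => (U.tree).d o y).bddAbove
  refine (S.finite_inertProj U hdiag hreg B z).subset fun u hu => ⟨hu.1, ?_⟩
  obtain ⟨g, rfl⟩ := QuotientGroup.mk_surjective u
  have h1 : g⁻¹ • (g : Vert (φ := S.φE)) = o :=
    congrArg QuotientGroup.mk (inv_mul_cancel g)
  have hne : K o (g⁻¹ • γ • (g : Vert (φ := S.φE))) ≠ 0 := by
    rw [← h1, hK]; exact hu.2
  have hle : (U.tree).d o (g⁻¹ • γ • (g : Vert (φ := S.φE))) ≤ B := hB ⟨_, hne, rfl⟩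
  have hd : (U.tree).d o (g⁻¹ • γ • (g : Vert (φ := S.φE))) =
      (U.tree).disp (actPerm γ) (g : Vert (φ := S.φE)) := by
    rw [← h1]
    exact U.isIsom_actPerm g⁻¹ (g : Vert (φ := S.φE)) (γ • (g : Vert (φ := S.φE)))
  have := (U.tree).disp_eq_depth (U.isIsom_actPerm γ) (g : Vert (φ := S.φE))
  omega

include H hd hp hpE hE' hdiag hreg hlE hlam hn in
open scoped Classical in
/-- **The plain side at an inert place.** -/
def inertPlain : PlainLocal 1 (fun x : QPt S.φE 1 => γ • x) (S.inertPe U n) (S.inertK2 U lam n)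
    (S.commPairs 1 1 γ) isDiag (S.IsNormAt γ) (fun x => hE x.out) where
  proj := S.inertProj U γ isDiag
  proj_comm t ht u := by
    obtain ⟨c, hc, rfl⟩ := ht
    exact S.inertProj_comm U hdiag hreg hc u
  finite z := by
    have := U.nonempty_vert
    refine (S.finite_inertProj U hdiag hreg 3 z).subset fun u hu => ⟨hu.1, ?_⟩
    exact (U.tree).disp_support (U.isIsom_actPerm γ) hn (hu.2.imp id right_ne_zero_of_mul)
  norm_or := by
    have := U.nonempty_vert
    by_cases hN : ∃ z, (U.tree).depth (actPerm γ) z = 0 ∧ (U.tree).IsNormType (actPerm γ) z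
    · obtain ⟨z, hz, hz'⟩ := hN
      exact Or.inl (S.isNormAt_of_isNormType U hd hp hpE hE' hz hz')
    by_cases hL : (U.tree).minD (actPerm γ) = 0
    · exact Or.inl (S.isNormAt_of_minD U hd hp hL)
    refine Or.inr fun z => ?_
    have hset : {u | S.inertProj U γ isDiag u = z} = {u | (U.tree).proj (actPerm γ) u = z} := by
      ext u
      by_cases hdg : isDiag
      · simp only [Set.mem_ofPred_eq, inertProj, if_pos hdg,
          S.proj_eq_of_no_fixed U hdiag hreg hdg hL u]
      · simp only [Set.mem_ofPred_eq, inertProj, if_neg hdg]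
    rw [hset]
    exact (U.tree).plain_sum_eq_zero (U.isIsom_actPerm γ) hn z fun w hw hw' => hN ⟨w, hw, hw'⟩
  dE u := if isDiag then lam * (U.tree).depth U.axisPerm u else 0
  dE_nonneg u := by
    split_ifs
    · exact mul_nonneg hlam (Nat.cast_nonneg _)
    · exact le_rfl
  height hdg u := by
    have := U.nonempty_vert
    rw [S.hE_eq_depth U H hlE, S.hE_eq_depth U H hlE, inertProj, if_pos hdg, if_pos hdg,
      (U.tree).depth_proj U.isIsom_axisPerm u, Nat.cast_zero, mul_zero, zero_add]
  height_nonnorm hdg hnn z := by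
    have := U.nonempty_vert
    have hg := U.isIsom_actPerm γ
    have hh := U.isIsom_axisPerm
    have hc := S.diag_axis U (hdiag hdg)
    have hL : (U.tree).minD (actPerm γ) ≠ 0 := fun e => hnn (S.isNormAt_of_minD U hd hp e)
    simp only [inertProj, if_pos hdg, inertPe, inertK2]
    by_cases hz : (U.tree).depth U.axisPerm z = 0
    · have h : -3 * ∑ᶠ u ∈ {u | (U.tree).proj U.axisPerm u = z},
          ((U.tree).depth U.axisPerm u : ℂ) * kerE (U.tree).q n ((U.tree).d u (γ • u)) =
          ∑ᶠ u ∈ {u | (U.tree).proj U.axisPerm u = z}, kerW (U.tree).q n ((U.tree).d u (γ • u)) :=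
        (U.tree).plain_height hg hh hc (fun v hv => U.axis_sub hg hc hv)
          (fun v hv => U.minDeg_axis hv) hn hL hz
      rw [finsum_mem_congr rfl fun u (_ : u ∈ {u | (U.tree).proj U.axisPerm u = z}) =>
          show ((lam * ((U.tree).depth U.axisPerm u : ℝ) : ℝ) : ℂ) *
              kerE (U.tree).q n ((U.tree).d u (γ • u)) =
            (lam : ℂ) * (((U.tree).depth U.axisPerm u : ℂ) *
              kerE (U.tree).q n ((U.tree).d u (γ • u))) by push_cast; ring,
        ← mul_finsum_mem, ← mul_finsum_mem, ← h]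
      push_cast
      ring
    · have e : {u | (U.tree).proj U.axisPerm u = z} = (∅ : Set (Vert (φ := S.φE))) :=
        Set.eq_empty_iff_forall_notMem.mpr fun u hu => hz (hu ▸ (U.tree).depth_proj hh u)
      simp [e]

variable [IsArtinianRing LM]
  (hq : Nat.card (OM ⧸ Ideal.span {S.jO π}) = Nat.card (OE ⧸ Ideal.span {π}) ^ 3)
  (hlM : ∀ k : ℕ, hM (IsUnifRing.unip ((↑U'.pi_unit.unit⁻¹ : LM) ^ k)) = 3 * lam * k)

include hd hp hq in
/-- The matching of fixed vertices and the data of the class. -/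
theorem exists_twistData {δ : GL (Fin 2) LM} {z : LEˣ}
    (hδ : δ.1 ∈ Algebra.adjoin LM {(S.ι γ).1})
    (hN : tnorm S.θ δ = S.ι (GeneralLinearGroup.scalar (Fin 2) z * γ)) :
    TwistData (U.tree) (U'.tree) (S.upVert U U') (actPerm γ)
        (actPerm (tnorm S.θ δ)) (S.twPerm δ) ∧
      ∃ b : GL (Fin 2) LM, b.1 ∈ Algebra.adjoin LM {(S.ι γ).1} ∧
        FixData (U.tree) (U'.tree) (actPerm γ) (S.twPerm δ) (fun u => b • S.upVert U U' u) := by
  have hg' : ∀ v : Vert (φ := S.φM), tnorm S.θ δ • v = S.ι γ • v := fun v => by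
    rw [hN, map_mul, ι_scalar, scalar_smul_qPt]
  refine ⟨⟨hq, U.isIsom_actPerm γ, U'.isIsom_actPerm _, S.isIsom_twPerm U' δ,
    S.dist_upVert U U', fun u => ?_, S.twPerm_cube δ⟩, ?_⟩
  · show tnorm S.θ δ • S.upVert U U' u = S.upVert U U' (γ • u)
    rw [hg', S.upVert_smul]
  obtain ⟨b, hb, -, fwd, back⟩ := S.exists_matching hd hp hδ hN
  have hfix : ∀ g : GL (Fin 2) LM, S.twPerm δ (g : Vert (φ := S.φM)) = g ↔
      g⁻¹ * δ * S.θ g ∈ levelK S.φM 1 := fun g => by
    show ((δ * S.θ g :) : Vert (φ := S.φM)) = g ↔ _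
    rw [eq_comm, QuotientGroup.eq, ← mul_assoc]
  refine ⟨b, hb, fun u v => ?_, fun u hu => ?_, fun v hv => ?_⟩
  · show (U'.tree).d (actPerm b (S.upVert U U' u)) (actPerm b (S.upVert U U' v)) = _
    rw [U'.isIsom_actPerm b, S.dist_upVert]
  · induction u using QuotientGroup.induction_on with
    | H h =>
      show S.twPerm δ ((b * S.ι h :) : Vert (φ := S.φM)) = _
      exact (hfix _).mpr (fwd h ((smul_mk_eq_iff S.φE 1 γ h).mp hu))
  · induction v using QuotientGroup.induction_on with
    | H g =>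
      obtain ⟨h, hh, hh'⟩ := back g ((hfix g).mp hv)
      refine ⟨(h : Vert (φ := S.φE)), (smul_mk_eq_iff S.φE 1 γ h).mpr hh', ?_⟩
      show ((b * S.ι h :) : Vert (φ := S.φM)) = g
      exact QuotientGroup.eq.mpr hh

/-- The twisted kernel at an inert place. -/
def inertKm (U : IsUnifRing S.φE π) (U' : IsUnifRing S.φM (S.jO π)) (n : ℕ)
    (v v' : Vert (φ := S.φM)) : ℂ :=
  kerM (U.tree).q n ((U'.tree).d v v')

include hq hlM in
open scoped Classical in
/-- **The twisted side at an inert place.** -/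
theorem exists_inertTwist {δ : GL (Fin 2) LM} {z : LEˣ}
    (hδ : δ.1 ∈ Algebra.adjoin LM {(S.ι γ).1})
    (hN : tnorm S.θ δ = S.ι (GeneralLinearGroup.scalar (Fin 2) z * γ)) :
    Nonempty (TwistLocal (S.inertPlain U H hd hp hpE hE' hdiag hreg hlE hlam hn)
      (S.twMap 1 δ) (S.inertKm U U' n) (fun v => hM v.out)) := by
  have := U.nonempty_vert
  have := U'.nonempty_vert
  obtain ⟨TD, b, hb, J⟩ := S.exists_twistData U U' hd hp hq hδ hN
  have hg := U.isIsom_actPerm γ
  set T := U.tree
  set T' := U'.tree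
  set f := S.twPerm δ with hfdef
  set h := U.axisPerm
  set h' := U'.axisPerm
  have hfm : ∀ v, S.twMap 1 δ v = f v := fun v => (S.twPerm_apply δ v).symm
  -- what commutes
  have hcf : ∀ {c : GL (Fin 2) LE}, Commute c γ →
      ∀ v, actPerm (S.ι c) (f v) = f (actPerm (S.ι c) v) := by
    intro c hc v
    induction v using QuotientGroup.induction_on with
    | H g =>
      show S.ι c • ((δ * S.θ g :) : Vert (φ := S.φM)) =
        S.twPerm δ ((S.ι c * g :) : Vert (φ := S.φM))
      show ((S.ι c * (δ * S.θ g) :) : Vert (φ := S.φM)) =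
        ((δ * S.θ (S.ι c * g) :) : Vert (φ := S.φM))
      rw [map_mul, θ_ι, ← mul_assoc, ← commute_of_mem_adjoin hδ (hc.map S.ι), mul_assoc]
  have hci : ∀ (c : GL (Fin 2) LE) u, actPerm (S.ι c) (S.upVert U U' u) =
      S.upVert U U' (actPerm c u) := fun c u => (S.upVert_smul U U' c u).symm
  have hcj : ∀ {c : GL (Fin 2) LE}, Commute c γ → ∀ u,
      actPerm (S.ι c) (b • S.upVert U U' u) = b • S.upVert U U' (actPerm c u) := by
    intro c hc u
    show S.ι c • b • S.upVert U U' u = b • S.upVert U U' (c • u)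
    rw [S.upVert_smul, ← mul_smul, ← mul_smul, commute_of_mem_adjoin hb (hc.map S.ι)]
  have hA : isDiag → AxisData T T' (actPerm γ) f (fun u => b • S.upVert U U' u) h h' := by
    intro hdg
    have hca : Commute U.axisGL γ := by
      refine Units.ext (Matrix.ext fun i j => ?_)
      rw [Units.val_mul, Units.val_mul, U.axisGL_val]
      fin_cases i <;> fin_cases j <;>
        simp [Matrix.mul_apply, Fin.sum_univ_two, (hdiag hdg).1, (hdiag hdg).2, mul_comm]
    refine ⟨U.isIsom_axisPerm, U'.isIsom_axisPerm, S.diag_axis U (hdiag hdg), fun v => ?_,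
      fun u hu => U.axis_sub hg (S.diag_axis U (hdiag hdg)) hu, fun u hu => U.minDeg_axis hu,
      by rw [U.minD_axis]; exact one_ne_zero, fun u => ?_⟩
    · have := hcf hca v
      rw [S.ι_axisGL U U'] at this
      exact this.symm
    · have := hcj hca u
      rw [S.ι_axisGL U U'] at this
      exact this
  obtain ⟨q, hq1, hq2, hq3, hq4⟩ : ∃ q : Vert (φ := S.φM) → Vert (φ := S.φE),
      (∀ c, Commute c γ → ∀ v, q (S.ι c • v) = c • q v) ∧
      (∀ u, {v | q v = u ∧ kerM T.q n (T'.disp f v) ≠ 0}.Finite) ∧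
      (isDiag → ∀ v, T.depth h (q v) = 0) ∧
      ∀ u, (∑ᶠ v ∈ {v | q v = u}, kerM T.q n (T'.disp f v) =
          ∑ᶠ w ∈ {w | S.inertProj U γ isDiag w = u}, kerE T.q n (T.disp (actPerm γ) w)) ∧
        (isDiag → 3 * ∑ᶠ v ∈ {v | q v = u}, (T'.depth h' v : ℂ) * kerM T.q n (T'.disp f v)
          - 3 * ∑ᶠ w ∈ {w | S.inertProj U γ isDiag w = u},
              (T.depth h w : ℂ) * kerE T.q n (T.disp (actPerm γ) w) =
          ∑ᶠ w ∈ {w | S.inertProj U γ isDiag w = u}, kerW T.q n (T.disp (actPerm γ) w)) := by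
    by_cases hdg : isDiag
    · have A := hA hdg
      have hproj : ∀ u, {w | S.inertProj U γ isDiag w = u} = {w | T.proj h w = u} := fun u => by
        ext w; simp only [Set.mem_ofPred_eq, inertProj, if_pos hdg]; rfl
      simp only [hproj]
      by_cases hL : T.minD (actPerm γ) = 0
      · obtain ⟨a, d, hγ⟩ := exists_diagGL (hdiag hdg)
        have had : a ≠ d := fun e => by
          have := U.nontrivialL
          refine hreg.ne_zero ?_
          rw [hγ]
          simp [IsUnifRing.diagGL, e, Matrix.trace_fin_two, Matrix.det_fin_two]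
          ring
        obtain ⟨h1, h2, -, h4⟩ := twisted_fixed_axis hn TD J A hL
          (fun w => hγ ▸ U.finite_fixed had w)
        exact ⟨axisMap T T' (fun u => b • S.upVert U U' u) f h, fun c hc v => h1 (actPerm c)
          (actPerm (S.ι c)) (U.isIsom_actPerm c) (U'.isIsom_actPerm _) (hcf hc) (hcj hc)
          (S.diag_axis U (isDiag2_of_commute (hdiag hdg) hreg hc)) v, h2,
          fun _ v => T.depth_proj U.isIsom_axisPerm _, fun u => ⟨(h4 u).1, fun _ => (h4 u).2⟩⟩
      · obtain ⟨h1, h2, h3, h4⟩ := twisted_translation hn TD hL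
        have hpe : ∀ u, {w | T.proj h w = u} = {w | T.proj (actPerm γ) w = u} := fun u => by
          ext w
          simp only [Set.mem_ofPred_eq]
          rw [show T.proj h w = T.proj (actPerm γ) w
            from S.proj_eq_of_no_fixed U hdiag hreg hdg hL w]
        have hdeg : ∀ u, T.depth (actPerm γ) u = 0 → T.depth h u = 0 := fun u hu =>
          (T.depth_iff_of_translation hg U.isIsom_axisPerm A.comm A.sub hL A.deg u).mp hu
        have hup : ∀ u, T.depth h u = 0 → T'.depth h' (S.upVert U U' u) = 0 := fun u hu =>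
          (((T.embed_spec T' U.isIsom_axisPerm U'.isIsom_axisPerm TD.emb (fun w => by
            show U'.axisGL • S.upVert U U' w = S.upVert U U' (U.axisGL • w)
            rw [← S.ι_axisGL U U', S.upVert_smul])).2 A.minD_ne).1 _).mpr ⟨u, hu, rfl⟩
        have hq0 : ∀ v, T.depth (actPerm γ) (transMap T' (S.upVert U U') f v) = 0 := fun v => by
          obtain ⟨u, hu, he⟩ := ((TD.translation_spec hL).1 _).mp (T'.depth_proj TD.isomF v)
          rw [transMap, ← he, Function.leftInverse_invFun TD.injective u]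
          exact hu
        refine ⟨transMap T' (S.upVert U U') f, fun c hc v => h1 (actPerm c) (actPerm (S.ι c))
          (U'.isIsom_actPerm _) (hcf hc) (hci c) v, h2, fun _ v => hdeg _ (hq0 v),
          fun u => ⟨by rw [hpe]; exact h4 u, fun _ => ?_⟩⟩
        have hzero : ∑ᶠ v ∈ {v | transMap T' (S.upVert U U') f v = u},
            (T'.depth h' v : ℂ) * kerM T.q n (T'.disp f v) = 0 :=
          finsum_mem_eq_zero_of_forall_eq_zero fun v _ => by
            by_cases hv : kerM T.q n (T'.disp f v) = 0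
            · rw [hv, mul_zero]
            · obtain ⟨e1, e2⟩ := h3 v hv
              rw [← e1, hup _ (hdeg _ e2), Nat.cast_zero, zero_mul]
        rw [hzero, mul_zero, zero_sub]
        by_cases hu : T.depth h u = 0
        · rw [← T.plain_height hg U.isIsom_axisPerm A.comm A.sub A.deg hn hL hu]
          ring
        · have e : {w | T.proj h w = u} = (∅ : Set (Vert (φ := S.φE))) :=
            Set.eq_empty_iff_forall_notMem.mpr fun w hw =>
              hu (hw ▸ T.depth_proj U.isIsom_axisPerm w)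
          simp [e]
    · have hproj : ∀ u, {w | S.inertProj U γ isDiag w = u} = {w | T.proj (actPerm γ) w = u} :=
        fun u => by ext w; simp only [Set.mem_ofPred_eq, inertProj, if_neg hdg]; rfl
      simp only [hproj]
      by_cases hL : T.minD (actPerm γ) = 0
      · obtain ⟨h1, h2, h3⟩ := twisted_fixed hn TD J hL
        exact ⟨fixMap T' (fun u => b • S.upVert U U' u) f, fun c hc v => h1 (actPerm c)
          (actPerm (S.ι c)) (U'.isIsom_actPerm _) (hcf hc) (hcj hc) v, h2,
          fun hd' => absurd hd' hdg, fun u => ⟨h3 u, fun hd' => absurd hd' hdg⟩⟩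
      · obtain ⟨h1, h2, -, h4⟩ := twisted_translation hn TD hL
        exact ⟨transMap T' (S.upVert U U') f, fun c hc v => h1 (actPerm c) (actPerm (S.ι c))
          (U'.isIsom_actPerm _) (hcf hc) (hci c) v, h2,
          fun hd' => absurd hd' hdg, fun u => ⟨h4 u, fun hd' => absurd hd' hdg⟩⟩
  have hk : ∀ v, S.inertKm U U' n v (S.twMap 1 δ v) = kerM T.q n (T'.disp f v) := fun v => by
    rw [hfm]; rfl
  refine ⟨{
    q := fun _ => q
    q_comm := fun _ t ht v _ => ?_
    finite := fun _ u => (hq2 u).subset fun v hv => ⟨hv.1, hk v ▸ hv.2⟩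
    sum_eq := fun _ u => ?_
    dM := fun v => if isDiag then 3 * lam * T'.depth h' v else 0
    dM_nonneg := fun v => by
      split_ifs
      · positivity
      · exact le_rfl
    height := fun hdg v _ => ?_
    identity := fun hdg u => ?_ }⟩
  · obtain ⟨c, hc, rfl⟩ := ht
    exact hq1 c hc v
  · rw [finsum_mem_congr rfl fun v _ => hk v, (hq4 u).1, Complex.ofReal_one, one_mul]
    rfl
  · rw [S.hM_eq_depth U' H hlM, if_pos hdg, Finset.sum_const, S.hE_eq_depth U H hlE, hq3 hdg v,
      Nat.cast_zero, mul_zero, smul_zero, zero_add]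
  · have := (hq4 u).2 hdg
    simp only [inertPlain, if_pos hdg, inertPe, inertK2]
    rw [finsum_mem_congr rfl fun v (_ : v ∈ {v | q v = u}) =>
        show ((3 * lam * (T'.depth h' v : ℝ) : ℝ) : ℂ) * S.inertKm U U' n v (S.twMap 1 δ v) =
          (3 * (lam : ℂ)) * ((T'.depth h' v : ℂ) * kerM T.q n (T'.disp f v)) by
          rw [hk]; push_cast; ring,
      finsum_mem_congr rfl fun w (_ : w ∈ {w | S.inertProj U γ isDiag w = u}) =>
        show ((lam * (T.depth h w : ℝ) : ℝ) : ℂ) * kerE T.q n (T.d w (γ • w)) =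
          (lam : ℂ) * ((T.depth h w : ℂ) * kerE T.q n (T.disp (actPerm γ) w)) by
          push_cast; rw [mul_assoc]; rfl,
      ← mul_finsum_mem, ← mul_finsum_mem, ← mul_finsum_mem, Complex.ofReal_one]
    refine Eq.trans ?_ ((congrArg (fun x => (lam : ℂ) * x) this).trans rfl)
    ring

end LocalCubic

end FLTAgent.LanglandsTunnell.Local
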