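import Fermat.Agent.LanglandsTunnell.Local.UnitPlace

/-!
# Matching at an unramified place

A fixed coset normalises the class into a maximal compact subgroup (`exists_normalise`); the
matching of fixed cosets at an unramified place is `exists_bijOn_unit`.
-/

set_option autoImplicit false

noncomputable section

namespace FLTAgent.LanglandsTunnell.Local

open Matrix

namespace LocalCubic

variable {OE LE OM LM : Type*} [CommRing OE] [CommRing LE] [CommRing OM] [CommRing LM]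
  (S : LocalCubic OE LE OM LM)

/-- With a scalar, conjugates are unchanged. -/
theorem conj_scalar {L : Type*} [CommRing L] (u : Lˣ) (g x : GL (Fin 2) L) :
    g⁻¹ * (GeneralLinearGroup.scalar (Fin 2) u * x) * g
      = GeneralLinearGroup.scalar (Fin 2) u * (g⁻¹ * x * g) := by
  rw [← mul_assoc, Subgroup.mem_center_iff.mp (scalar_mem_center u) g⁻¹]
  group

theorem tnorm_scalar_mul (u : LMˣ) (x : GL (Fin 2) LM) :
    tnorm S.θ (GeneralLinearGroup.scalar (Fin 2) u * x)
      = GeneralLinearGroup.scalar (Fin 2) (S.nrm u) * tnorm S.θ x := by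
  rw [← tnorm_scalar, tnorm, tnorm, tnorm, map_mul, map_mul, θ_scalar, θ_scalar]
  have c : ∀ (w : LMˣ) (y : GL (Fin 2) LM),
      y * GeneralLinearGroup.scalar (Fin 2) w = GeneralLinearGroup.scalar (Fin 2) w * y :=
    fun w y => Subgroup.mem_center_iff.mp (scalar_mem_center w) y
  simp only [mul_assoc]
  congr 1
  rw [← mul_assoc x, c, mul_assoc]
  congr 1
  rw [← mul_assoc (S.θ x), c, mul_assoc, ← mul_assoc x, c, mul_assoc]

/-- A fixed coset on either side puts `γ`, up to the norm of a scalar, into a maximal compact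
subgroup. -/
theorem exists_normalise {δ : GL (Fin 2) LM} {γ : GL (Fin 2) LE} (hN : tnorm S.θ δ = S.ι γ)
    (h : (∃ g : GL (Fin 2) LE, g⁻¹ * γ * g ∈ levelK S.φE 1) ∨
      ∃ g : GL (Fin 2) LM, g⁻¹ * δ * S.θ g ∈ levelK S.φM 1) :
    ∃ (u : LMˣ) (g k : GL (Fin 2) LM), k ∈ congrGroup S.φM 1 ∧
      g⁻¹ * S.ι γ * g = GeneralLinearGroup.scalar (Fin 2) (S.nrm u) * k := by
  rcases h with ⟨g, hg⟩ | ⟨g, hg⟩
  · obtain ⟨c, k, hk, hgk⟩ := mem_levelK.mp hg
    set jc := Units.map S.j.toMonoidHom c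
    set jd := Units.map S.j.toMonoidHom k.det
    obtain ⟨b, hb⟩ := det_mem_of_mem_congrGroup S.φE_inj hk
    refine ⟨jc * δ.det⁻¹, S.ι g,
      GeneralLinearGroup.scalar (Fin 2) jd * S.ι k, mul_mem ?_ ?_, ?_⟩
    · have : jd = Units.map S.φM.toMonoidHom (Units.map S.jO.toMonoidHom b) :=
        Units.ext (by
          show S.j (k.det : LE) = S.φM (S.jO b)
          rw [S.comm_j, ← hb]; rfl)
      rw [this]
      exact scalar_map_mem_congrGroup _
    · have := S.ι_mem_congrGroup hk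
      rwa [map_one] at this
    · have hdet : S.nrm δ.det = jc ^ 2 * jd := by
        rw [← det_tnorm, hN, det_ι]
        have := congrArg GeneralLinearGroup.det hgk
        simp only [map_mul, map_inv, det_scalar', inv_mul_cancel_comm] at this
        rw [this, map_mul, map_pow]
      have hjc : S.nrm jc = jc ^ 3 := Units.ext (by
        simp [nrm, jc, S.σ_j, pow_succ])
      rw [← map_inv S.ι, ← map_mul, ← map_mul, hgk, map_mul, ι_scalar, ← mul_assoc, ← map_mul]
      congr 2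
      have hinv : S.nrm δ.det⁻¹ = (S.nrm δ.det)⁻¹ := by
        rw [eq_inv_iff_mul_eq_one, ← nrm_mul, inv_mul_cancel]
        simp [nrm]
      rw [nrm_mul, hinv, hdet, hjc]
      refine Additive.ofMul.injective ?_
      simp only [ofMul_mul, ofMul_inv, ofMul_pow]
      abel
  · obtain ⟨u, k, hk, hgk⟩ := mem_levelK.mp hg
    refine ⟨u, g, tnorm S.θ k, ?_, ?_⟩
    · have := fun x hx => S.θ_mem_congrGroup (map_one S.σO) (g := x) hx
      exact mul_mem (mul_mem hk (this _ hk)) (this _ (this _ hk))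
    · rw [← hN, ← tnorm_twist S.θ_three, hgk, tnorm_scalar_mul]

variable {p : ℕ} [Fact p.Prime] [Algebra ℤ_[p] OM] [Module.Finite ℤ_[p] OM]
  [Module.IsTorsionFree ℤ_[p] OM]

theorem finite_quotient_padic {A : Type*} [CommRing A] [Algebra ℤ_[p] A] [Module.Finite ℤ_[p] A] :
    Finite (A ⧸ Ideal.span {(p : A)}) := by
  obtain ⟨m, s, hs⟩ := Module.Finite.exists_fin (R := ℤ_[p]) (M := A)
  refine Finite.of_surjective
    (fun c : Fin m → Fin p => Ideal.Quotient.mk _ (∑ i, ((c i : ℕ) : A) * s i)) fun x => ?_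
  obtain ⟨x, rfl⟩ := Ideal.Quotient.mk_surjective x
  obtain ⟨c, hc⟩ := (Submodule.mem_span_range_iff_exists_fun ℤ_[p]).mp
    (hs ▸ Submodule.mem_top : x ∈ Submodule.span ℤ_[p] (Set.range s))
  refine ⟨fun i => ⟨(c i).zmodRepr, PadicInt.zmodRepr_lt_p (c i)⟩, ?_⟩
  rw [Ideal.Quotient.eq, ← hc, ← Finset.sum_sub_distrib]
  refine sum_mem fun i _ => ?_
  rw [Algebra.smul_def, ← sub_mul]
  refine Ideal.mul_mem_right _ _ ?_
  have := PadicInt.sub_zmodRepr_mem (p := p) (c i)
  rw [PadicInt.maximalIdeal_eq_span_p, Ideal.mem_span_singleton] at this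
  obtain ⟨d, hd⟩ := this
  rw [Ideal.mem_span_singleton]
  refine ⟨-algebraMap ℤ_[p] A d, ?_⟩
  have := congrArg (algebraMap ℤ_[p] A) hd
  simp only [map_sub, map_natCast, map_mul] at this
  linear_combination -this

/-- Without fixed cosets on either side the matching is empty. -/
private theorem bijOn_shiftMap_of_not_exists {γ : GL (Fin 2) LE} {δ : GL (Fin 2) LM}
    (hcomap : (levelK S.φM 1).comap S.ι = levelK S.φE 1)
    (hE : ∀ g : GL (Fin 2) LE, g⁻¹ * γ * g ∉ levelK S.φE 1)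
    (hM : ∀ g : GL (Fin 2) LM, g⁻¹ * δ * S.θ g ∉ levelK S.φM 1) :
    Set.BijOn (shiftMap S.ι (levelK S.φM 1) 1)
      (conjFix ((levelK S.φM 1).comap S.ι) γ ((levelK S.φM 1).comap S.ι))
      (twFix S.θ (levelK S.φM 1) δ (levelK S.φM 1)) := by
  refine ⟨fun u hu => ?_, fun u hu => ?_, fun v hv => ?_⟩
  · induction u using QuotientGroup.induction_on with
    | H h => exact (hE h (hcomap ▸ hu h rfl)).elim
  · induction u using QuotientGroup.induction_on with
    | H h => exact (hE h (hcomap ▸ hu h rfl)).elim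
  · induction v using QuotientGroup.induction_on with
    | H g => exact (hM g (hv g rfl)).elim

/-- A conjugate of an integral matrix is integral and has its inverse in the order it generates. -/
private theorem isIntegral_and_inv_mem_adjoin [Algebra OM LM] (hφ : algebraMap OM LM = S.φM)
    {γ' g₀ k : GL (Fin 2) LM} (hk : k ∈ congrGroup S.φM 1) (hγk : g₀⁻¹ * γ' * g₀ = k) :
    IsIntegral OM γ'.1 ∧ (γ'⁻¹).1 ∈ Algebra.adjoin OM {γ'.1} := by
  obtain ⟨κ, -, hκ⟩ := exists_units_of_mem_congrGroup S.φM_inj hk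
  let ψ : Matrix (Fin 2) (Fin 2) OM →ₐ[OM] Matrix (Fin 2) (Fin 2) LM :=
    { toFun := fun X => g₀.1 * X.map S.φM * (g₀⁻¹).1
      map_one' := by simp [Matrix.map_one S.φM (map_zero _) (map_one _)]
      map_mul' := fun X Y => by
        rw [Matrix.map_mul]
        simp only [Matrix.mul_assoc]
        rw [← Matrix.mul_assoc (g₀⁻¹).1 g₀.1, ← Units.val_mul g₀⁻¹ g₀, inv_mul_cancel,
          Units.val_one, Matrix.one_mul]
      map_zero' := by simp
      map_add' := fun X Y => by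
        rw [Matrix.map_add _ (map_add S.φM), Matrix.mul_add, Matrix.add_mul]
      commutes' := fun r => by
        rw [Matrix.algebraMap_eq_diagonal, Matrix.diagonal_map (map_zero _)]
        have : (Matrix.diagonal fun m => S.φM ((algebraMap OM (Fin 2 → OM) r) m))
            = algebraMap OM (Matrix (Fin 2) (Fin 2) LM) r := by
          ext i j
          simp [Matrix.algebraMap_matrix_apply, Matrix.diagonal_apply, hφ]
        rw [this, ← Algebra.commutes, Matrix.mul_assoc, Units.mul_inv, Matrix.mul_one] }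
  have hψκ : ψ κ.1 = γ'.1 := by
    show g₀.1 * κ.1.map S.φM * (g₀⁻¹).1 = γ'.1
    rw [show κ.1.map S.φM = k.1 from congrArg Units.val hκ, ← hγk]
    simp [Matrix.mul_assoc]
  refine ⟨hψκ ▸ IsIntegral.map ψ ((Algebra.IsIntegral.of_finite OM _).isIntegral κ.1), ?_⟩
  have h3 : ψ (κ⁻¹).1 ∈ (Algebra.adjoin OM {κ.1}).map ψ := ⟨_, inv_mem_adjoin κ, rfl⟩
  rw [AlgHom.map_adjoin, Set.image_singleton, hψκ] at h3
  convert h3 using 1
  refine left_inv_eq_right_inv (a := γ'.1) γ'.inv_mul ?_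
  rw [← hψκ, ← map_mul, κ.mul_inv, map_one]

omit [Module.IsTorsionFree ℤ_[p] OM] in
/-- A fixed unit of an order `OM[γ']` is the norm of a unit of the order. -/
private theorem exists_tnorm_eq_mem_adjoin [Algebra OM LM] (hφ : algebraMap OM LM = S.φM)
    (hd : HasDualSystem (S.σO : OM →+* OM)) (hp : IsUnit (p : LM)) {γ' : GL (Fin 2) LM}
    (hθγ : S.θ γ' = γ') (hint : IsIntegral OM γ'.1)
    (hinv : (γ'⁻¹).1 ∈ Algebra.adjoin OM {γ'.1}) :
    ∃ y : GL (Fin 2) LM, y.1 ∈ Algebra.adjoin OM {γ'.1} ∧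
      (y⁻¹).1 ∈ Algebra.adjoin OM {γ'.1} ∧ tnorm S.θ y = γ' := by
  let : Algebra ℤ_[p] LM := ((algebraMap OM LM).comp (algebraMap ℤ_[p] OM)).toAlgebra
  have : IsScalarTower ℤ_[p] OM LM := IsScalarTower.of_algebraMap_eq fun _ => rfl
  let A : Subalgebra OM (Matrix (Fin 2) (Fin 2) LM) := Algebra.adjoin OM {γ'.1}
  let : CommRing A := adjoinSingletonCommRing OM _
  have hmem : ∀ x ∈ A, (x.map S.σ : Matrix (Fin 2) (Fin 2) LM) ∈ A := fun x =>
    map_mem_adjoin S.σ (fun r => ⟨S.σO r, by simp [hφ, S.comm_σ]⟩) (congrArg Units.val hθγ)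
  let τ : A →+* A :=
    ((S.σ : LM →+* LM).mapMatrix.comp A.val.toRingHom).codRestrict A fun x => hmem _ x.2
  have hτ : ∀ a, τ (τ (τ a)) = a := fun a => Subtype.ext (Matrix.ext fun i j => S.σ_three _)
  have : Module.Finite OM A := Algebra.finite_adjoin_simple_of_isIntegral hint
  have : Module.Finite ℤ_[p] A := Module.Finite.trans OM A
  have hregZ : ∀ z : ℤ_[p], z ≠ 0 → IsUnit (algebraMap ℤ_[p] LM z) := fun z hz => by
    rw [PadicInt.unitCoeff_spec hz, map_mul, map_pow, map_natCast]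
    exact ((PadicInt.unitCoeff hz).isUnit.map _).mul (hp.pow _)
  have : Module.IsTorsionFree ℤ_[p] A := ⟨fun z hz x y (hxy : z • x = z • y) => Subtype.ext
    (Matrix.ext fun i j => (hregZ z hz.ne_zero).mul_left_cancel (by
      have := congrFun (congrFun (congrArg Subtype.val hxy) i) j
      change z • x.1 i j = z • y.1 i j at this
      rwa [Algebra.smul_def, Algebra.smul_def] at this))⟩
  have hreg : ∀ x : A, (p : A) * x = 0 → x = 0 := fun x hx => Subtype.ext (by
    have h1 : (p : LM) • (x : Matrix (Fin 2) (Fin 2) LM) = 0 := by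
      have h2 := congrArg A.val hx
      rw [map_mul, map_natCast, map_zero, Subalgebra.coe_val, ← nsmul_eq_mul] at h2
      rwa [Nat.cast_smul_eq_nsmul]
    exact hp.smul_eq_zero.mp h1)
  have : Finite (A ⧸ Ideal.span {(p : A)}) := finite_quotient_padic
  have hdA : HasDualSystem τ := hd.map (algebraMap OM A) τ fun a =>
    Subtype.ext (Matrix.ext fun i j => by
      simp [τ, Matrix.algebraMap_matrix_apply, apply_ite S.σ, hφ, S.comm_σ])
  let e : Aˣ := ⟨⟨γ'.1, Algebra.self_mem_adjoin_singleton _ _⟩, ⟨_, hinv⟩,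
    Subtype.ext γ'.mul_inv, Subtype.ext γ'.inv_mul⟩
  obtain ⟨y, hy, hNy⟩ := exists_norm_eq (p := (p : A)) (isPComplete_padic p) hreg (map_natCast τ p)
    hdA hτ (e := e) (Subtype.ext (congrArg Units.val hθγ))
  obtain ⟨yu, hyu⟩ := (hy.map A.val : IsUnit ((y : A) : Matrix (Fin 2) (Fin 2) LM))
  refine ⟨yu, hyu ▸ y.2, ?_, Units.ext ?_⟩
  · have : ((hy.unit⁻¹ : Aˣ) : A).1 = (yu⁻¹).1 := by
      refine left_inv_eq_right_inv (a := yu.1) ?_ yu.mul_inv
      rw [hyu]
      exact congrArg Subtype.val hy.val_inv_mul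
    exact this ▸ SetLike.coe_mem _
  · show yu.1 * yu.1.map S.σ * (yu.1.map S.σ).map S.σ = γ'.1
    rw [hyu]
    exact congrArg Subtype.val hNy

/-- A conjugate of `γ'` in `levelK` up to a scalar is already in the congruence group. -/
private theorem conj_mem_congrGroup {γ' g₀ k g : GL (Fin 2) LM} {w : LMˣ}
    (hk : k ∈ congrGroup S.φM 1) (hγk : g₀⁻¹ * γ' * g₀ = k)
    (hg : g⁻¹ * (GeneralLinearGroup.scalar (Fin 2) w * γ') * g ∈ levelK S.φM 1) :
    g⁻¹ * γ' * g ∈ congrGroup S.φM 1 := by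
  obtain ⟨c, l, hl, hgl⟩ := mem_levelK.mp hg
  rw [conj_scalar] at hgl
  have hcl : g⁻¹ * γ' * g = GeneralLinearGroup.scalar (Fin 2) (w⁻¹ * c) * l := by
    rw [map_mul, map_inv, mul_assoc _ _ l, ← hgl, inv_mul_cancel_left]
  set c' := w⁻¹ * c
  obtain ⟨b₁, hb₁⟩ := det_mem_of_mem_congrGroup S.φM_inj hk
  obtain ⟨b₂, hb₂⟩ := det_mem_of_mem_congrGroup S.φM_inj hl
  obtain ⟨v, hv⟩ := S.sq_unit_closed (u := c') (a := b₁ * b₂⁻¹) (by
    have h1 := congrArg GeneralLinearGroup.det hcl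
    have h2 := congrArg GeneralLinearGroup.det hγk
    simp only [map_mul, map_inv, det_scalar', inv_mul_cancel_comm] at h1 h2
    rw [map_mul, map_inv, hb₁, hb₂, ← h2, h1, mul_inv_cancel_right])
  exact hcl ▸ hv ▸ mul_mem (scalar_map_mem_congrGroup v) hl

/-- A conjugation making `γ'` integral makes the order it generates integral. -/
private theorem inCongr_conj_of_mem_adjoin [Algebra OM LM] (hφ : algebraMap OM LM = S.φM)
    {γ' g : GL (Fin 2) LM} (hγ : g⁻¹ * γ' * g ∈ congrGroup S.φM 1)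
    {x : Matrix (Fin 2) (Fin 2) LM} (hx : x ∈ Algebra.adjoin OM {γ'.1}) :
    InCongr S.φM 1 ((g⁻¹).1 * x * g.1) := by
  induction hx using Algebra.adjoin_induction with
  | mem x hx =>
    rw [Set.mem_singleton_iff] at hx
    subst hx
    simpa using hγ.1
  | algebraMap r =>
    refine ⟨algebraMap OM _ r, isCongrOne_of_isUnit isUnit_one _, ?_⟩
    rw [← Algebra.commutes, Matrix.mul_assoc, Units.inv_mul, Matrix.mul_one]
    ext i j
    simp [Matrix.algebraMap_matrix_apply, apply_ite S.φM, hφ]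
  | add x y _ _ hx hy =>
    obtain ⟨X, -, hX⟩ := hx
    obtain ⟨Y, -, hY⟩ := hy
    exact ⟨X + Y, isCongrOne_of_isUnit isUnit_one _, by
      rw [Matrix.map_add _ (map_add S.φM), hX, hY, Matrix.mul_add, Matrix.add_mul]⟩
  | mul x y _ _ hx hy =>
    obtain ⟨X, -, hX⟩ := hx
    obtain ⟨Y, -, hY⟩ := hy
    exact ⟨X * Y, isCongrOne_of_isUnit isUnit_one _, by
      rw [Matrix.map_mul, hX, hY]
      simp only [Matrix.mul_assoc]
      rw [← Matrix.mul_assoc g.1 (g⁻¹).1, Units.mul_inv, Matrix.one_mul]⟩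

/-- **Matching at an unramified place.** -/
theorem exists_bijOn_unit [IsArtinianRing LM] (hd : HasDualSystem (S.σO : OM →+* OM))
    (hp : IsUnit (p : LM)) {δ : GL (Fin 2) LM} {γ : GL (Fin 2) LE}
    (hδ : δ.1 ∈ Algebra.adjoin LM {(S.ι γ).1}) (hN : tnorm S.θ δ = S.ι γ) :
    ∃ b : GL (Fin 2) LM, b.1 ∈ Algebra.adjoin LM {(S.ι γ).1} ∧
      Set.BijOn (shiftMap S.ι (levelK S.φM 1) b)
        (conjFix ((levelK S.φM 1).comap S.ι) γ ((levelK S.φM 1).comap S.ι))
        (twFix S.θ (levelK S.φM 1) δ (levelK S.φM 1)) := by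
  have hfin : Finite (OM ⧸ Ideal.span {(p : OM)}) := finite_quotient_padic
  have : Finite (MaximalSpectrum OM) := (isPComplete_padic p).finite_maximalSpectrum
  have hcomap : (levelK S.φM 1).comap S.ι = levelK S.φE 1 := by
    have := S.comap_levelK 1 (by simp) (Or.inl isUnit_one)
    rwa [map_one] at this
  by_cases hne : (∃ g : GL (Fin 2) LE, g⁻¹ * γ * g ∈ levelK S.φE 1) ∨
      ∃ g : GL (Fin 2) LM, g⁻¹ * δ * S.θ g ∈ levelK S.φM 1
  swap
  · push Not at hne
    exact ⟨1, one_mem _, S.bijOn_shiftMap_of_not_exists hcomap hne.1 hne.2⟩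
  obtain ⟨u, g₀, k, hk, hgk⟩ := S.exists_normalise hN hne
  set γ' := (GeneralLinearGroup.scalar (Fin 2) (S.nrm u))⁻¹ * S.ι γ with hγ'
  have hγγ : S.ι γ = GeneralLinearGroup.scalar (Fin 2) (S.nrm u) * γ' := by rw [hγ']; group
  have hγk : g₀⁻¹ * γ' * g₀ = k := by
    have := conj_scalar (S.nrm u) g₀ γ'
    rw [← hγγ, hgk] at this
    exact (mul_left_cancel this).symm
  have hθγ : S.θ γ' = γ' := by
    rw [hγ', map_mul, map_inv, θ_scalar, θ_ι]
    congr 3
    exact Units.ext (S.σ_nrm u)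
  -- `γ'` is a norm from the order `OM[γ']`
  let : Algebra OM LM := S.φM.toAlgebra
  obtain ⟨hint, hinv⟩ := S.isIntegral_and_inv_mem_adjoin rfl hk hγk
  obtain ⟨y, hy, hyinv, hNy⟩ := S.exists_tnorm_eq_mem_adjoin rfl hd hp hθγ hint hinv
  set t := GeneralLinearGroup.scalar (Fin 2) u * y with ht
  have hNt : tnorm S.θ t = S.ι γ := by rw [ht, tnorm_scalar_mul, hNy, ← hγγ]
  have hγA : γ'.1 ∈ Algebra.adjoin LM {(S.ι γ).1} := by
    rw [hγ', ← map_inv, Units.val_mul, GeneralLinearGroup.coe_scalar]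
    exact mul_mem (Subalgebra.algebraMap_mem (Algebra.adjoin LM {(S.ι γ).1})
      (((S.nrm u)⁻¹ : LMˣ) : LM)) (Algebra.self_mem_adjoin_singleton _ _)
  have htA : t.1 ∈ Algebra.adjoin LM {(S.ι γ).1} := by
    rw [ht, Units.val_mul, GeneralLinearGroup.coe_scalar]
    exact mul_mem (Subalgebra.algebraMap_mem (Algebra.adjoin LM {(S.ι γ).1}) (u : LM))
      (Algebra.adjoin_le (S := (Algebra.adjoin LM {(S.ι γ).1}).restrictScalars OM)
        (Set.singleton_subset_iff.mpr hγA) hy)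
  obtain ⟨b, hbmem, hb⟩ := S.exists_twist_eq γ hδ htA (hN.trans hNt.symm)
  refine ⟨b, hbmem, bijOn_shiftMap_unit S.θ_three S.θ_ι
    (fun k hk => S.θ_mem_levelK (map_one S.σO) hk) hb hNt (fun g hg => ?_)
    fun g hg => S.exists_descend hd hg⟩
  -- `t` stabilises what `γ` stabilises
  rw [hγγ] at hg
  have himg {x : Matrix (Fin 2) (Fin 2) LM} (hx : x ∈ Algebra.adjoin OM {γ'.1}) :=
    S.inCongr_conj_of_mem_adjoin rfl (S.conj_mem_congrGroup hk hγk hg) hx
  rw [ht, conj_scalar]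
  refine mem_levelK.mpr ⟨u, g⁻¹ * y * g, ⟨by simpa using himg hy, ?_⟩, rfl⟩
  rw [show (g⁻¹ * y * g)⁻¹ = g⁻¹ * y⁻¹ * g by group]
  simpa using himg hyinv

end LocalCubic

end FLTAgent.LanglandsTunnell.Local
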