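import Fermat.Agent.LanglandsTunnell.Local.InertTree
import Fermat.Agent.LanglandsTunnell.Local.UnitMatch

/-!
# Translations whose length is divisible by three are norms

A primitive representative with unit trace is diagonalisable over the integers; its eigenvalues are
units times powers of the uniformizer, hence norms. See `isNormAt_of_translation`.
-/

set_option autoImplicit false

noncomputable section

namespace FLTAgent.LanglandsTunnell.Local

open Matrix FLTAgent.LanglandsTunnell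

namespace IsUnifRing

variable {O L : Type} [CommRing O] [CommRing L] {φ : O →+* L} {π : O} (U : IsUnifRing φ π)

include U

/-- A representative bounds the valuation. -/
theorem nd_le {X : GL (Fin 2) L} {B : Matrix (Fin 2) (Fin 2) O} {c : Lˣ} {n : ℕ}
    (hu : ∃ u : Oˣ, B.det = π ^ n * u) (hc : X.1 = (c : L) • B.map φ) : U.nd X ≤ n := by
  induction n using Nat.strong_induction_on generalizing B c with
  | _ n ih =>
    rcases U.prim_or B with hp | ⟨B', rfl⟩
    · exact le_of_eq (U.nd_eq ⟨hp, hu, c, hc⟩)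
    obtain ⟨u, hu⟩ := hu
    rw [Matrix.det_smul, Fintype.card_fin] at hu
    have hB0 : B'.det ≠ 0 := fun h0 => by
      have := U.nontrivialO
      rw [h0, mul_zero] at hu
      have h1 : φ (π ^ n * u) = 0 := by rw [← hu, map_zero]
      have := U.nontrivialL
      rw [map_mul, map_pow] at h1
      exact ((U.pi_unit.pow n).mul (u.isUnit.map φ)).ne_zero h1
    obtain ⟨k, u', hu'⟩ := U.expand _ hB0
    rw [hu', ← mul_assoc, ← pow_add] at hu
    have hk := U.pow_unit_inj hu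
    have hle := ih k (by omega) (B := B') (c := c * U.pi_unit.unit) ⟨u', hu'⟩ (by
      rw [hc, Units.val_mul, IsUnit.unit_spec, ← smul_smul]
      congr 1
      ext i j
      simp)
    omega

/-- The integral eigenvalue divisible by the uniformizer. -/
theorem exists_root {p : ℕ} (hO : IsPComplete (p : O)) (hp : IsUnit ((p : ℕ) : L))
    {τ D : O} (hτ : IsUnit τ) {L₀ : ℕ} (hL : L₀ ≠ 0) {ε : Oˣ} (hD : D = π ^ L₀ * ε) :
    ∃ (r : O) (ρ : Oˣ), r = π ^ L₀ * ρ ∧ r * r - τ * r + D = 0 := by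
  obtain ⟨τ, rfl⟩ := hτ
  set d : O := D * ((τ⁻¹ * τ⁻¹ : Oˣ) : O) with hd
  have hp0 : (p : O) ≠ 0 := fun h => by
    have := U.nontrivialL
    exact hp.ne_zero (by rw [← map_natCast φ, h, map_zero])
  obtain ⟨a, u, ha⟩ := U.expand _ hp0
  let ψ : O → O := fun t => 1 + d * t ^ 2
  have hiter : ∀ (n : ℕ) (x y : O), ∃ e, ψ^[n] x - ψ^[n] y = d ^ n * e * (x - y) := by
    intro n
    induction n with
    | zero => exact fun x y => ⟨1, by simp⟩
    | succ n ih =>
      intro x y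
      obtain ⟨e, he⟩ := ih x y
      refine ⟨e * (ψ^[n] x + ψ^[n] y), ?_⟩
      rw [Function.iterate_succ_apply', Function.iterate_succ_apply']
      show 1 + d * (ψ^[n] x) ^ 2 - (1 + d * (ψ^[n] y) ^ 2) = _
      linear_combination d * (ψ^[n] x + ψ^[n] y) * he
  obtain ⟨t, ht, huniq⟩ := hO.existsUnique_fixedPoint ψ^[a + 1] fun x y => by
    obtain ⟨e, he⟩ := hiter (a + 1) x y
    obtain ⟨l, rfl⟩ : ∃ l, L₀ = l + 1 := ⟨L₀ - 1, by omega⟩
    refine ⟨↑u⁻¹ * π ^ (l * (a + 1) + 1) * ((ε * (τ⁻¹ * τ⁻¹) : Oˣ) : O) ^ (a + 1) * e, ?_⟩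
    rw [he, ha, hd, hD, Units.val_mul ε]
    linear_combination
      (-(π ^ a * π ^ (l * (a + 1) + 1) * ((ε : O) * ((τ⁻¹ * τ⁻¹ : Oˣ) : O)) ^ (a + 1)
        * e * (x - y))) * u.mul_inv
  have hfix : ψ t = t := huniq _ (by
    show ψ^[a + 1] (ψ t) = ψ t
    rw [← Function.iterate_succ_apply ψ, Function.iterate_succ_apply' ψ, ht])
  have hπt : IsUnit t := by
    refine (U.unit_or t).resolve_left fun hdvd => U.not_unit (isUnit_of_dvd_one ?_)
    have h1 : (1 : O) = t - d * t ^ 2 := by linear_combination hfix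
    rw [h1]
    exact dvd_sub hdvd (Dvd.dvd.mul_left (dvd_pow hdvd two_ne_zero) _)
  refine ⟨(τ : O) * d * t, τ * (ε * (τ⁻¹ * τ⁻¹)) * hπt.unit, ?_, ?_⟩
  · simp only [hd, hD, Units.val_mul, IsUnit.unit_spec]
    ring
  · have hψ : 1 + d * t ^ 2 = t := hfix
    have hdτ : d * ((τ : O) * τ) = D := by
      rw [hd, mul_assoc, ← Units.val_mul, ← Units.val_mul, show τ⁻¹ * τ⁻¹ * (τ * τ) = 1 by group,
        Units.val_one, mul_one]
    linear_combination ((τ : O) ^ 2 * d) * hψ - hdτ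

end IsUnifRing

namespace LocalCubic

variable {OE LE OM LM : Type} [CommRing OE] [CommRing LE] [CommRing OM] [CommRing LM]
  (S : LocalCubic OE LE OM LM)

/-- The twisted norm is multiplicative on commuting elements. -/
theorem tnorm_mul_commute {a b : GL (Fin 2) LM} (h1 : Commute (S.θ a) b)
    (h2 : Commute (S.θ (S.θ a)) b) (h3 : Commute (S.θ (S.θ a)) (S.θ b)) :
    tnorm S.θ (a * b) = tnorm S.θ a * tnorm S.θ b := by
  simp only [tnorm, map_mul]
  simp only [mul_assoc]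
  rw [← mul_assoc b, ← h1.eq, mul_assoc, ← mul_assoc (S.θ b), ← h3.eq, mul_assoc,
    ← mul_assoc b (S.θ (S.θ a)), ← h2.eq, mul_assoc]

/-- A twisted square root of the square gives a norm. -/
theorem isNormAt_of_sq {γ : GL (Fin 2) LE} {z : LEˣ} {X : GL (Fin 2) LM}
    (hX : X.1 ∈ Algebra.adjoin LM {(S.ι (γ * γ)).1})
    (hN : tnorm S.θ X = S.ι (GeneralLinearGroup.scalar (Fin 2) z * (γ * γ))) : S.IsNormAt γ := by
  have hcomm : Commute (S.ι γ) X := Units.ext (Algebra.commute_of_mem_adjoin_singleton_of_commute hX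
    (show Commute (S.ι γ).1 (S.ι (γ * γ)).1 by
      rw [map_mul, Units.val_mul]; exact (Commute.refl _).mul_right (Commute.refl _))).eq
  refine ⟨z⁻¹, S.ι γ * X⁻¹, by rw [mul_assoc, ← hcomm.inv_right.eq], ?_⟩
  have hθ : ∀ {Y}, Commute (S.ι γ) Y → Commute (S.ι γ) (S.θ Y) := fun {Y} hY => by
    have := hY.map S.θ.toMonoidHom
    simpa [θ_ι] using this
  have hγ : Commute (S.ι γ) X⁻¹ := hcomm.inv_right
  rw [tnorm_mul_commute S (by rw [θ_ι]; exact hγ) (by rw [θ_ι, θ_ι]; exact hγ)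
    (by rw [θ_ι, θ_ι]; exact hθ hγ)]
  have hT : tnorm S.θ X⁻¹ = (tnorm S.θ X)⁻¹ := by
    have hc : ∀ {A B : GL (Fin 2) LM}, A.1 ∈ Algebra.adjoin LM {(S.ι (γ * γ)).1} →
        B.1 ∈ Algebra.adjoin LM {(S.ι (γ * γ)).1} → Commute A B := fun hA hB =>
      Units.ext (Algebra.commute_of_mem_adjoin_singleton_of_commute hB
        (Algebra.commute_of_mem_adjoin_self hA).symm).eq
    have hmem : ∀ {A : GL (Fin 2) LM}, A.1 ∈ Algebra.adjoin LM {(S.ι (γ * γ)).1} →
        (S.θ A).1 ∈ Algebra.adjoin LM {(S.ι (γ * γ)).1} := fun {A} hA =>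
      map_mem_adjoin S.σ (fun r => ⟨S.σ r, rfl⟩) (congrArg Units.val (S.θ_ι (γ * γ))) hA
    have h1 := hc (hmem hX) hX
    have h2 := hc (hmem (hmem hX)) hX
    have h3 := hc (hmem (hmem hX)) (hmem hX)
    refine eq_inv_of_mul_eq_one_left ?_
    rw [← tnorm_mul_commute S (by rw [map_inv]; exact h1.inv_left)
      (by rw [map_inv, map_inv]; exact h2.inv_left) (by rw [map_inv, map_inv]; exact h3.inv_left),
      inv_mul_cancel, tnorm, map_one, map_one, one_mul, one_mul]
  rw [hT, hN, tnorm, θ_ι, θ_ι, ← map_mul, ← map_mul, ← map_inv, ← map_mul, _root_.mul_inv_rev,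
    ← map_inv]
  congr 1
  rw [← Subgroup.mem_center_iff.mp (scalar_mem_center z⁻¹) γ]
  group

variable {p : ℕ} [Fact p.Prime] [Algebra ℤ_[p] OM] [Module.Finite ℤ_[p] OM]
  [Module.IsTorsionFree ℤ_[p] OM] {π : OE}

/-- **A translation of length `3 m` is a norm.** -/
theorem isNormAt_of_translation (hd : HasDualSystem (S.σO : OM →+* OM)) (hp : IsUnit (p : LM))
    (hpE : IsUnit (p : LE)) (hE : IsPComplete (p : OE)) (U : IsUnifRing S.φE π)
    (γ : GL (Fin 2) LE) (z : IsUnifRing.Vert (φ := S.φE)) {m : ℕ} (hm : m ≠ 0)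
    (h1 : (U.tree).d z (γ • z) = 3 * m) (h2 : (U.tree).d z (γ • γ • z) = 6 * m) :
    S.IsNormAt γ := by
  induction z using QuotientGroup.induction_on with
  | H g =>
  set X₀ := g⁻¹ * γ * g with hX₀
  have hnd : U.nd X₀ = 3 * m := by
    rw [← h1]
    show _ = U.nd (g⁻¹ * (γ * g))
    rw [hX₀, mul_assoc]
  have hnd2 : U.nd (X₀ * X₀) = 6 * m := by
    rw [← h2]
    show _ = U.nd (g⁻¹ * (γ * (γ * g)))
    congr 1
    rw [hX₀]; group
  obtain ⟨A, -, ⟨e, he⟩, c, hc⟩ := U.nd_spec X₀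
  rw [hnd] at he
  have hCH : A * A = A.trace • A - A.det • (1 : Matrix (Fin 2) (Fin 2) OE) := by
    ext i j
    fin_cases i <;> fin_cases j <;>
      simp [Matrix.mul_apply, Fin.sum_univ_two, Matrix.trace_fin_two, Matrix.det_fin_two] <;> ring
  have hτ : IsUnit A.trace := by
    refine (U.unit_or _).resolve_left fun ⟨t, ht⟩ => ?_
    set B : Matrix (Fin 2) (Fin 2) OE :=
      t • A - (π ^ (3 * m - 1) * e) • (1 : Matrix (Fin 2) (Fin 2) OE) with hB
    have hAA : A * A = π • B := by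
      rw [hCH, hB, smul_sub, smul_smul, smul_smul, ← ht, he, ← mul_assoc π, ← pow_succ',
        Nat.sub_add_cancel (by omega)]
    have hdet : B.det = π ^ (6 * m - 2) * ((e * e : OEˣ) : OE) := by
      have h := congrArg Matrix.det hAA
      rw [Matrix.det_mul, Matrix.det_smul, Fintype.card_fin, he] at h
      refine U.pow_mul_cancel (n := 2) ?_
      rw [← h, Units.val_mul, ← mul_assoc (π ^ 2), ← pow_add,
        show 2 + (6 * m - 2) = 3 * m + 3 * m by omega, pow_add]
      ring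
    have := U.nd_le (X := X₀ * X₀) (B := B) (c := c * c * U.pi_unit.unit) ⟨_, hdet⟩ (by
      rw [Units.val_mul, hc, Matrix.smul_mul, Matrix.mul_smul, smul_smul, ← Matrix.map_mul, hAA,
        Units.val_mul, Units.val_mul, IsUnit.unit_spec, mul_smul _ (S.φE π)]
      congr 1
      ext i j
      simp)
    omega
  obtain ⟨r, ρ, hr, hroot⟩ := U.exists_root hE hpE hτ (L₀ := 3 * m) (by omega) he
  set s := A.trace - r with hs
  have hrdiv : π ∣ r := hr ▸ Dvd.dvd.mul_right (dvd_pow_self π (by omega)) _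
  have hsu : IsUnit s := (U.unit_or _).resolve_left fun hd => by
    refine U.not_unit (isUnit_of_dvd_unit ?_ hτ)
    rw [show A.trace = s + r by rw [hs]; ring]
    exact dvd_add hd hrdiv
  have hsru : IsUnit (s - r) := (U.unit_or _).resolve_left fun hd => by
    refine U.not_unit (isUnit_of_dvd_unit ?_ hsu)
    rw [show s = (s - r) + r by ring]
    exact dvd_add hd hrdiv
  have hdet : A.det = r * s := by rw [hs]; linear_combination hroot
  set k : OE := ↑hsru.unit⁻¹
  have hk : k * (s - r) = 1 := hsru.val_inv_mul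
  set E₀ : Matrix (Fin 2) (Fin 2) OE := k • (A - r • (1 : Matrix (Fin 2) (Fin 2) OE)) with hE₀
  have hA : A = s • E₀ + r • (1 - E₀) := by
    rw [hE₀, smul_sub r (1 : Matrix (Fin 2) (Fin 2) OE), smul_smul, smul_smul, add_comm,
      sub_add, ← sub_smul, show r * k - s * k = -1 by linear_combination -hk, neg_one_smul]
    abel
  have hEE : E₀ * E₀ = E₀ := by
    rw [hE₀, Matrix.smul_mul, Matrix.mul_smul, smul_smul]
    have : (A - r • (1 : Matrix (Fin 2) (Fin 2) OE)) * (A - r • 1) = (s - r) • (A - r • 1) := by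
      simp only [Matrix.sub_mul, Matrix.mul_sub, Matrix.smul_mul, Matrix.mul_smul, Matrix.one_mul,
        Matrix.mul_one, smul_sub, smul_smul, hCH, hdet, hs]
      module
    rw [this, smul_smul, show k * k * (s - r) = k by linear_combination k * hk]
  -- upstairs
  let F : OE →+* LM := S.j.comp S.φE
  set E : Matrix (Fin 2) (Fin 2) LM := E₀.map F with hEdef
  have hEi : E * E = E := by rw [hEdef, ← Matrix.map_mul, hEE]
  have hEσ : E.map S.σ = E := by
    ext i j
    simp [hEdef, F, S.σ_j]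
  let Ψ : LM × LM →* Matrix (Fin 2) (Fin 2) LM :=
    { toFun := fun x => x.1 • E + x.2 • (1 - E)
      map_one' := by simp
      map_mul' := fun x y => by
        simp only [Prod.fst_mul, Prod.snd_mul, Matrix.add_mul, Matrix.mul_add, Matrix.smul_mul,
          Matrix.mul_smul, Matrix.sub_mul, Matrix.mul_sub, Matrix.one_mul, Matrix.mul_one, hEi]
        module }
  have hfix : ∀ x, (S.σO : OM →+* OM) (S.jO x) = S.jO x := S.σO_jO
  have hreg : ∀ x : OM, (p : OM) * x = 0 → x = 0 := fun x hx => S.φM_inj (by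
    rw [map_zero]
    refine hp.mul_right_eq_zero.mp ?_
    rw [← map_natCast S.φM, ← map_mul, hx, map_zero])
  have hσ3 : ∀ a, (S.σO : OM →+* OM) ((S.σO : OM →+* OM) ((S.σO : OM →+* OM) a)) = a := fun a =>
    S.φM_inj (by simp [S.comm_σ, S.σ_three])
  have : Finite (OM ⧸ Ideal.span {(p : OM)}) := finite_quotient_padic
  obtain ⟨y₁, hy₁, hN₁⟩ := exists_norm_eq (isPComplete_padic p) hreg (map_natCast _ p) hd hσ3
    (e := Units.map S.jO.toMonoidHom hsu.unit) (hfix _)
  obtain ⟨y₂, hy₂, hN₂⟩ := exists_norm_eq (isPComplete_padic p) hreg (map_natCast _ p) hd hσ3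
    (e := Units.map S.jO.toMonoidHom ρ) (hfix _)
  have hFπ : IsUnit (F π) := U.pi_unit.map S.j
  let x : (LM × LM)ˣ := MulEquiv.prodUnits.symm
    ((hy₁.map S.φM).unit, hFπ.unit ^ m * (hy₂.map S.φM).unit)
  let Y : GL (Fin 2) LM := Units.map Ψ x
  have hYv : Y.1 = S.φM y₁ • E + (F π ^ m * S.φM y₂) • (1 - E) := rfl
  have hAmap : A.map F = F s • E + F r • (1 - E) := by
    rw [hEdef]
    conv_lhs => rw [hA]
    ext i j
    simp [Matrix.one_apply, apply_ite F]
  have hσΨ : ∀ a b : LM, ((Ψ (a, b)).map S.σ) = Ψ (S.σ a, S.σ b) := fun a b => by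
    show (a • E + b • (1 - E)).map S.σ = S.σ a • E + S.σ b • (1 - E)
    conv_rhs => rw [← hEσ]
    ext i j
    simp [Matrix.one_apply, apply_ite S.σ]
  have hFσ : ∀ o, S.σ (F o) = F o := fun o => S.σ_j _
  have hnorm : tnorm S.θ Y = S.ι (GeneralLinearGroup.scalar (Fin 2) c⁻¹ * X₀) := by
    have h1' : S.φM y₁ * S.σ (S.φM y₁) * S.σ (S.σ (S.φM y₁)) = F s := by
      rw [← S.comm_σ, ← S.comm_σ, ← map_mul, ← map_mul]
      exact (congrArg S.φM hN₁).trans (by simpa [F] using S.comm_j s)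
    have h2' : S.φM y₂ * S.σ (S.φM y₂) * S.σ (S.σ (S.φM y₂)) = F ρ := by
      rw [← S.comm_σ, ← S.comm_σ, ← map_mul, ← map_mul]
      exact (congrArg S.φM hN₂).trans (by simpa [F] using S.comm_j (ρ : OE))
    refine Units.ext ?_
    show Ψ (_, _) * (Ψ (_, _)).map S.σ * ((Ψ (_, _)).map S.σ).map S.σ = _
    rw [hσΨ, hσΨ, ← map_mul, ← map_mul]
    show (S.φM y₁ * S.σ (S.φM y₁) * S.σ (S.σ (S.φM y₁))) • E +
      ((F π ^ m * S.φM y₂) * S.σ (F π ^ m * S.φM y₂) * S.σ (S.σ (F π ^ m * S.φM y₂))) • (1 - E) = _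
    rw [h1', map_mul, map_pow, hFσ, map_mul, map_pow, hFσ,
      show F π ^ m * S.φM y₂ * (F π ^ m * S.σ (S.φM y₂)) * (F π ^ m * S.σ (S.σ (S.φM y₂))) =
        F (π ^ (3 * m)) * (S.φM y₂ * S.σ (S.φM y₂) * S.σ (S.σ (S.φM y₂))) by
        rw [map_pow, pow_mul]; ring,
      h2', ← map_mul, ← hr, ← hAmap]
    have : (GeneralLinearGroup.scalar (Fin 2) c⁻¹ * X₀).1 = A.map S.φE := by
      rw [Units.val_mul, GeneralLinearGroup.coe_scalar, Matrix.scalar_apply,
        ← Matrix.smul_one_eq_diagonal, Matrix.smul_mul, Matrix.one_mul, hc, smul_smul,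
        Units.inv_mul,
        one_smul]
    rw [ι_val, this, Matrix.map_map]
    rfl
  have hcomm : Commute Y (S.ι (GeneralLinearGroup.scalar (Fin 2) c⁻¹ * X₀)) := by
    refine Units.ext ?_
    rw [← hnorm]
    show Ψ _ * (tnorm S.θ Y).1 = (tnorm S.θ Y).1 * Ψ _
    have hex : ∃ w, (tnorm S.θ Y).1 = Ψ w := by
      refine ⟨(x : LM × LM) * (S.σ (x : LM × LM).1, S.σ (x : LM × LM).2) *
        (S.σ (S.σ (x : LM × LM).1), S.σ (S.σ (x : LM × LM).2)), ?_⟩
      show Ψ (_, _) * (Ψ (_, _)).map S.σ * ((Ψ (_, _)).map S.σ).map S.σ = _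
      rw [hσΨ, hσΨ, map_mul, map_mul]
      rfl
    obtain ⟨w, hw⟩ := hex
    rw [hw, ← map_mul, mul_comm, map_mul]
  refine ⟨c⁻¹, S.ι g * Y * (S.ι g)⁻¹, ?_, ?_⟩
  · have hc' : Commute Y (S.ι X₀) := by
      rw [map_mul] at hcomm
      have hz : Commute Y (S.ι (GeneralLinearGroup.scalar (Fin 2) c⁻¹)) := by
        rw [ι_scalar]; exact Subgroup.mem_center_iff.mp (scalar_mem_center _) _
      have h := hz.inv_right.mul_right hcomm
      rwa [inv_mul_cancel_left] at h
    have hγ : S.ι γ = S.ι g * S.ι X₀ * (S.ι g)⁻¹ := by rw [hX₀, map_mul, map_mul, map_inv]; group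
    rw [hγ]
    simp only [mul_assoc, inv_mul_cancel_left]
    rw [← mul_assoc Y, hc'.eq]
    simp only [mul_assoc]
  · have hconj : tnorm S.θ (S.ι g * Y * (S.ι g)⁻¹) = S.ι g * tnorm S.θ Y * (S.ι g)⁻¹ := by
      simp only [tnorm, map_mul, map_inv, θ_ι]
      group
    rw [hconj, hnorm, ← map_inv, ← map_mul, ← map_mul, hX₀, ← mul_assoc g,
      Subgroup.mem_center_iff.mp (scalar_mem_center c⁻¹) g]
    congr 1
    group

end LocalCubic

end FLTAgent.LanglandsTunnell.Local
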