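import Fermat.Agent.LanglandsTunnell.Local.InertKernels

/-!
# The comparison at an inert place, on trees

`V`, `V'` are the trees over the ground and the cubic extension, `i` the inclusion, `g` the action
of `γ`, `g'` its action upstairs, `f` a twisted cube root of `g'`, `h` a translation along the axis
commuting with everything in the diagonal case.
Main results: `twisted_translation`, `twisted_fixed`, `twisted_fixed_axis`.
-/

set_option autoImplicit false

noncomputable section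

namespace FLTAgent.LanglandsTunnell.Local

namespace RegTree

variable {V : Type*} (T : RegTree V) [Nonempty V] {g : Equiv.Perm V} (hg : T.IsIsom g)

include hg

theorem disp_support {n : ℕ} (hn : n ≤ 2) {u : V}
    (hu : kerE T.q n (T.disp g u) ≠ 0 ∨ kerW T.q n (T.disp g u) ≠ 0) : T.depth g u ≤ 3 := by
  by_contra hc
  have h := kernels_eq_zero T.q hn (k := T.disp g u) (by have := T.disp_eq_depth hg u; omega)
  rcases hu with hu | hu
  exacts [hu h.1, hu h.2.2]

theorem finsum_fib {z : V} (hz : T.depth g z = 0) (φ : ℕ → ℂ) (hφ : ∀ k, 6 < k → φ k = 0)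
    (w : ℕ → ℂ) :
    ∑ᶠ u ∈ {u | T.proj g u = z}, w (T.depth g u) * φ (T.disp g u) =
      fib T.q (T.minDeg g z) (T.minD g) φ w := by
  simp only [T.disp_eq_depth hg]
  rw [T.finsum_fibre hg hz (fun j => w j * φ (T.minD g + 2 * j)) 4 fun j hj => by
    rw [hφ _ (by omega), mul_zero]]
  simp [fib]

omit hg in
/-- The norm condition of an inert place. -/
def IsNormType (g : Equiv.Perm V) (z : V) : Prop :=
  T.minD g = 0 ∨ T.minDeg g z = 1 ∨ (T.minDeg g z = 2 ∧ 3 ∣ T.minD g)

theorem minDeg_shape {z : V} (hz : T.depth g z = 0) (hL : T.minD g ≠ 0) :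
    (T.minDeg g z = 1 ∧ T.minD g = 1) ∨ T.minDeg g z = 2 := by
  rcases T.minDeg_cases hg hz hL with ⟨h, h', -⟩ | ⟨h, -⟩
  exacts [Or.inl ⟨h, h'⟩, Or.inr h]

/-- The plain sum without fixed vertices. -/
theorem plain_sum {n : ℕ} (hn : n ≤ 2) {z : V} (hz : T.depth g z = 0) (hL : T.minD g ≠ 0) :
    ∑ᶠ u ∈ {u | T.proj g u = z}, kerE T.q n (T.disp g u) =
      noFixVal n (T.minDeg g z) (T.minD g) := by
  have h := T.finsum_fib hg hz (kerE T.q n) (fun k hk => (kernels_eq_zero T.q hn hk).1) 1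
  simp only [Pi.one_apply, one_mul] at h
  rw [h, fib_kerE (by have := T.two_le; omega) hn hL (T.minDeg_shape hg hz hL)]

theorem plain_sum_eq_zero {n : ℕ} (hn : n ≤ 2) (z : V)
    (hnorm : ∀ z, T.depth g z = 0 → ¬ T.IsNormType g z) :
    ∑ᶠ u ∈ {u | T.proj g u = z}, kerE T.q n (T.disp g u) = 0 := by
  by_cases hz : T.depth g z = 0
  · have h := hnorm z hz
    simp only [IsNormType, not_or, not_and] at h
    rw [T.plain_sum hg hn hz h.1, noFixVal, if_neg]
    rintro (⟨-, h1⟩ | ⟨-, h1, h2⟩)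
    · exact h.2.1 h1
    · exact h.2.2 h1 (h2 ▸ dvd_mul_right 3 n)
  · rw [finsum_mem_congr (s := {u | T.proj g u = z}) (t := ∅) ?_ fun u _ => rfl, finsum_mem_empty]
    exact Set.eq_empty_iff_forall_notMem.mpr fun u hu => hz (hu ▸ T.depth_proj hg u)

variable {h : Equiv.Perm V} (hh : T.IsIsom h) (hgh : ∀ u, g (h u) = h (g u))
  (hsub : ∀ u, T.depth h u = 0 → T.depth g u = 0)
  (hdeg : ∀ z, T.depth h z = 0 → T.minDeg h z = 2)

include hh hgh hsub hdeg

theorem proj_eq_of_translation (hL : T.minD g ≠ 0) (u : V) :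
    T.proj h u = T.proj g u ∧ T.depth h u = T.depth g u := by
  obtain ⟨h1, h2⟩ := T.depth_add_proj hg hh hgh hsub u
  have hz : T.depth h (T.proj g u) = 0 :=
    (T.depth_iff_of_translation hg hh hgh hsub hL hdeg _).mp (T.depth_proj hg u)
  rw [h2, T.proj_eq_self hh hz]
  exact ⟨rfl, by omega⟩

theorem minDeg_translation (hL : T.minD g ≠ 0) {z : V} (hz : T.depth h z = 0) :
    T.minDeg g z = 2 := by
  rw [← hdeg z hz, minDeg, minDeg]
  simp only [T.depth_iff_of_translation hg hh hgh hsub hL hdeg]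

/-- The height identity of the plain side without fixed vertices. -/
theorem plain_height {n : ℕ} (hn : n ≤ 2) (hL : T.minD g ≠ 0) {z : V} (hz : T.depth h z = 0) :
    -3 * ∑ᶠ u ∈ {u | T.proj h u = z}, (T.depth h u : ℂ) * kerE T.q n (T.disp g u) =
      ∑ᶠ u ∈ {u | T.proj h u = z}, kerW T.q n (T.disp g u) := by
  simp only [fun u => (T.proj_eq_of_translation hg hh hgh hsub hdeg hL u).1,
    fun u => (T.proj_eq_of_translation hg hh hgh hsub hdeg hL u).2]
  have h2 := T.finsum_fib hg (hsub z hz) (kerW T.q n)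
    (fun k hk => (kernels_eq_zero T.q hn hk).2.2) 1
  simp only [Pi.one_apply, one_mul] at h2
  rw [T.finsum_fib hg (hsub z hz) (kerE T.q n) (fun k hk => (kernels_eq_zero T.q hn hk).1)
    (fun j => (j : ℂ)), h2, T.minDeg_translation hg hh hgh hsub hdeg hL hz]
  exact fib_height (by have := T.two_le; omega) hn hL

end RegTree

/-! ### The twisted side -/

variable {V V' : Type*} [Nonempty V] [Nonempty V'] (T : RegTree V) (T' : RegTree V')

/-- The data of a twisted class. -/
structure TwistData (i : V → V') (g : Equiv.Perm V) (g' f : Equiv.Perm V') : Prop where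
  hQ : T'.q = T.q ^ 3
  isom : T.IsIsom g
  isom' : T'.IsIsom g'
  isomF : T'.IsIsom f
  emb : ∀ u v, T'.d (i u) (i v) = T.d u v
  comm : ∀ u, g' (i u) = i (g u)
  cube : f ^ 3 = g'

variable {T T'} {i : V → V'} {g : Equiv.Perm V} {g' f : Equiv.Perm V'}

omit [Nonempty V] [Nonempty V'] in
theorem TwistData.injective (D : TwistData T T' i g g' f) : Function.Injective i := fun a b h =>
  (T.d_eq_zero a b).mp (by rw [← D.emb, h, T'.d_self])

theorem TwistData.minD_eq_zero_iff (D : TwistData T T' i g g' f) :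
    T'.minD f = 0 ↔ T.minD g = 0 := by
  obtain ⟨h1, -⟩ := T.embed_spec T' D.isom D.isom' D.emb D.comm
  refine ⟨fun h => ?_, fun h => ?_⟩
  · rw [← h1, ← D.cube]; exact T'.minD_cube_eq_zero D.isomF h
  · by_contra hne
    exact (T'.cube_spec D.isomF hne).1 (by rw [D.cube, h1, h])

theorem TwistData.translation_spec (D : TwistData T T' i g g' f) (hL : T.minD g ≠ 0) :
    (∀ v, T'.depth f v = 0 ↔ ∃ u, T.depth g u = 0 ∧ i u = v) ∧
      ∀ u, T.depth g u = 0 → T'.minDeg f (i u) = T.minDeg g u ∧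
        ((T.minDeg g u = 1 ∧ T'.minD f = 1 ∧ T.minD g = 1) ∨
          (T.minDeg g u = 2 ∧ T.minD g = 3 * T'.minD f)) := by
  obtain ⟨h1, h2⟩ := T.embed_spec T' D.isom D.isom' D.emb D.comm
  obtain ⟨h3, h4⟩ := h2 hL
  have hLf : T'.minD f ≠ 0 := fun e => hL (D.minD_eq_zero_iff.mp e)
  obtain ⟨-, c2, c3⟩ := T'.cube_spec D.isomF hLf
  rw [D.cube] at c2 c3
  have hmem : ∀ v, T'.depth f v = 0 ↔ ∃ u, T.depth g u = 0 ∧ i u = v := fun v =>
    (c2 v).symm.trans (h3 v)
  refine ⟨hmem, fun u hu => ?_⟩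
  have hiu : T'.depth f (i u) = 0 := (hmem _).mpr ⟨u, hu, rfl⟩
  obtain ⟨e1, e2⟩ := c3 _ hiu
  rw [h4 u hu] at e1
  refine ⟨e1.symm, ?_⟩
  rw [← e1, h1] at e2
  rcases T'.minDeg_shape D.isomF hiu hLf with ⟨a, b⟩ | a <;> rw [← e1] at a
  · exact Or.inl ⟨a, b, by rw [e2, if_pos a]⟩
  · exact Or.inr ⟨a, by rw [e2, if_neg (by omega)]⟩

theorem support_translation {n : ℕ} (hn : n ≤ 2) (D : TwistData T T' i g g' f)
    (hL : T.minD g ≠ 0) {v : V'} (hv : kerM T.q n (T'.disp f v) ≠ 0) : T'.depth f v = 0 := by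
  by_contra hc
  have := T'.disp_eq_depth D.isomF v
  have : T'.minD f ≠ 0 := fun e => hL (D.minD_eq_zero_iff.mp e)
  refine hv ?_
  interval_cases n <;> simp [kerM_zero, kerM_one, kerM_two, show T'.disp f v ≠ 0 by omega,
    show T'.disp f v ≠ 1 by omega, show T'.disp f v ≠ 2 by omega]

/-- The relabelling when there are no fixed vertices. -/
def transMap (T' : RegTree V') (i : V → V') (f : Equiv.Perm V') (v : V') : V :=
  Function.invFun i (T'.proj f v)

/-- **The twisted side without fixed vertices.** -/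
theorem twisted_translation {n : ℕ} (hn : n ≤ 2) (D : TwistData T T' i g g' f)
    (hL : T.minD g ≠ 0) :
    (∀ (t : Equiv.Perm V) (t' : Equiv.Perm V'), T'.IsIsom t' →
      (∀ v, t' (f v) = f (t' v)) → (∀ u, t' (i u) = i (t u)) →
        ∀ v, transMap T' i f (t' v) = t (transMap T' i f v)) ∧
    (∀ z, {v | transMap T' i f v = z ∧ kerM T.q n (T'.disp f v) ≠ 0}.Finite) ∧
    (∀ v, kerM T.q n (T'.disp f v) ≠ 0 →
      i (transMap T' i f v) = v ∧ T.depth g (transMap T' i f v) = 0) ∧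
    ∀ z, ∑ᶠ v ∈ {v | transMap T' i f v = z}, kerM T.q n (T'.disp f v) =
      ∑ᶠ u ∈ {u | T.proj g u = z}, kerE T.q n (T.disp g u) := by
  obtain ⟨hmem, hdeg⟩ := D.translation_spec hL
  have hproj : ∀ v, ∃ u, T.depth g u = 0 ∧ i u = T'.proj f v ∧ transMap T' i f v = u := fun v => by
    obtain ⟨u, hu, he⟩ := (hmem _).mp (T'.depth_proj D.isomF v)
    exact ⟨u, hu, he, by rw [transMap, ← he, Function.leftInverse_invFun D.injective u]⟩
  have hsupp : ∀ v, kerM T.q n (T'.disp f v) ≠ 0 →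
      i (transMap T' i f v) = v ∧ T.depth g (transMap T' i f v) = 0 := fun v hv => by
    obtain ⟨u, hu, he, hq⟩ := hproj v
    rw [hq, he, T'.proj_eq_self D.isomF (support_translation hn D hL hv)]
    exact ⟨rfl, hu⟩
  refine ⟨fun t t' ht' hc hti v => ?_, fun z => ?_, hsupp, fun z => ?_⟩
  · obtain ⟨u, -, he, hq⟩ := hproj v
    rw [hq, transMap, T'.proj_commute D.isomF ht' hc, ← he, hti,
      Function.leftInverse_invFun D.injective]
  · exact (Set.finite_singleton (i z)).subset fun v ⟨h1, h2⟩ => by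
      rw [← h1]; exact (hsupp v h2).1.symm
  by_cases hz : T.depth g z = 0
  · have hiz : T'.depth f (i z) = 0 := (hmem _).mpr ⟨z, hz, rfl⟩
    have hset : {v | transMap T' i f v = z} = {v | T'.proj f v = i z} := by
      ext v
      obtain ⟨u, -, he, hq⟩ := hproj v
      simp only [Set.mem_ofPred_eq, hq, ← he, D.injective.eq_iff]
    have hM := T'.finsum_fib D.isomF hiz (kerM T.q n)
      (fun k hk => (kernels_eq_zero T.q hn hk).2.1) 1
    simp only [Pi.one_apply, one_mul] at hM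
    obtain ⟨e, hcase⟩ := hdeg z hz
    rw [hset, hM, T.plain_sum D.isom hn hz hL, D.hQ, e]
    exact fib_kerM hn
      (fun e => hL (D.minD_eq_zero_iff.mp e)) hcase
  · have e1 : {v | transMap T' i f v = z} = (∅ : Set V') := by
      refine Set.eq_empty_iff_forall_notMem.mpr fun v hv => hz ?_
      obtain ⟨u, hu, -, hq⟩ := hproj v
      exact (show transMap T' i f v = z from hv) ▸ hq.symm ▸ hu
    have e2 : {u | T.proj g u = z} = (∅ : Set V) :=
      Set.eq_empty_iff_forall_notMem.mpr fun u hu => hz (hu ▸ T.depth_proj D.isom u)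
    simp [e1, e2]

/-- A bijection of the fixed sets. -/
structure FixData (T : RegTree V) (T' : RegTree V') (g : Equiv.Perm V) (f : Equiv.Perm V')
    (j : V → V') : Prop where
  emb : ∀ u v, T'.d (j u) (j v) = T.d u v
  fix : ∀ u, g u = u → f (j u) = j u
  surj : ∀ v, f v = v → ∃ u, g u = u ∧ j u = v

variable {j : V → V'}

omit [Nonempty V] [Nonempty V'] in
theorem FixData.injective (J : FixData T T' g f j) : Function.Injective j := fun a b h =>
  (T.d_eq_zero a b).mp (by rw [← J.emb, h, T'.d_self])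

theorem RegTree.depth_zero_iff_fixed (T : RegTree V) {g : Equiv.Perm V} (hg : T.IsIsom g)
    (hL : T.minD g = 0) (u : V) : T.depth g u = 0 ↔ g u = u := by
  rw [T.depth_eq_zero_iff hg, hL, RegTree.disp, T.d_eq_zero, eq_comm]

theorem FixData.minDeg_eq (J : FixData T T' g f j) (hg : T.IsIsom g) (hf : T'.IsIsom f)
    (hL : T.minD g = 0) (hLf : T'.minD f = 0) {u : V} :
    T'.minDeg f (j u) = T.minDeg g u := by
  rw [RegTree.minDeg, RegTree.minDeg, ← Set.ncard_image_of_injective _ J.injective]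
  congr 1
  ext v
  simp only [Set.mem_ofPred_eq, Set.mem_image, T.depth_zero_iff_fixed hg hL,
    T'.depth_zero_iff_fixed hf hLf]
  refine ⟨fun ⟨h1, h2⟩ => ?_, ?_⟩
  · obtain ⟨w, hw, rfl⟩ := J.surj v h2
    exact ⟨w, ⟨by rw [← J.emb, h1], hw⟩, rfl⟩
  · rintro ⟨w, ⟨h1, h2⟩, rfl⟩
    exact ⟨by rw [J.emb, h1], J.fix w h2⟩

/-- The relabelling through the fixed sets. -/
def fixMap (T' : RegTree V') (j : V → V') (f : Equiv.Perm V') (v : V') : V :=
  Function.invFun j (T'.proj f v)

theorem FixData.fixMap_spec (J : FixData T T' g f j) (hf : T'.IsIsom f) (hLf : T'.minD f = 0)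
    (v : V') : g (fixMap T' j f v) = fixMap T' j f v ∧ j (fixMap T' j f v) = T'.proj f v := by
  obtain ⟨u, hu, he⟩ := J.surj _ ((T'.depth_zero_iff_fixed hf hLf _).mp (T'.depth_proj hf v))
  rw [fixMap, ← he, Function.leftInverse_invFun J.injective u]
  exact ⟨hu, rfl⟩

/-- **The twisted side with fixed vertices.** -/
theorem twisted_fixed {n : ℕ} (hn : n ≤ 2) (D : TwistData T T' i g g' f)
    (J : FixData T T' g f j) (hL : T.minD g = 0) :
    (∀ (t : Equiv.Perm V) (t' : Equiv.Perm V'), T'.IsIsom t' →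
      (∀ v, t' (f v) = f (t' v)) → (∀ u, t' (j u) = j (t u)) →
        ∀ v, fixMap T' j f (t' v) = t (fixMap T' j f v)) ∧
    (∀ z, {v | fixMap T' j f v = z ∧ kerM T.q n (T'.disp f v) ≠ 0}.Finite) ∧
    ∀ z, ∑ᶠ v ∈ {v | fixMap T' j f v = z}, kerM T.q n (T'.disp f v) =
      ∑ᶠ u ∈ {u | T.proj g u = z}, kerE T.q n (T.disp g u) := by
  have hLf := D.minD_eq_zero_iff.mpr hL
  have hproj := J.fixMap_spec D.isomF hLf
  refine ⟨fun t t' ht' hc hti v => ?_, fun z => ?_, fun z => ?_⟩
  · obtain ⟨-, he⟩ := hproj v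
    rw [fixMap, T'.proj_commute D.isomF ht' hc, ← he, hti, Function.leftInverse_invFun J.injective]
  · by_cases hz : g z = z
    · refine (T'.fibre_finite D.isomF (z := j z) ((T'.depth_zero_iff_fixed D.isomF hLf _).mpr
        (J.fix z hz)) 3).subset fun v ⟨h1, h2⟩ => ⟨by rw [← (hproj v).2, h1], ?_⟩
      by_contra hc
      have := T'.disp_eq_depth D.isomF v
      exact h2 (kernels_eq_zero T.q hn (k := T'.disp f v) (by omega)).2.1
    · exact Set.finite_empty.subset fun v ⟨h1, _⟩ => hz (h1 ▸ (hproj v).1)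
  by_cases hz : g z = z
  · have hzd := (T.depth_zero_iff_fixed D.isom hL z).mpr hz
    have hjz := (T'.depth_zero_iff_fixed D.isomF hLf (j z)).mpr (J.fix z hz)
    have hset : {v | fixMap T' j f v = z} = {v | T'.proj f v = j z} := by
      ext v
      simp only [Set.mem_ofPred_eq, ← (hproj v).2, J.injective.eq_iff]
    have hM := T'.finsum_fib D.isomF hjz (kerM T.q n)
      (fun k hk => (kernels_eq_zero T.q hn hk).2.1) 1
    have hE := T.finsum_fib D.isom hzd (kerE T.q n) (fun k hk => (kernels_eq_zero T.q hn hk).1) 1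
    simp only [Pi.one_apply, one_mul] at hM hE
    rw [hset, hM, hE, J.minDeg_eq D.isom D.isomF hL hLf, D.hQ, hLf, hL]
    exact fib_fixed hn (T.minDeg_le D.isom z)
  · have e1 : {v | fixMap T' j f v = z} = (∅ : Set V') :=
      Set.eq_empty_iff_forall_notMem.mpr fun v hv =>
        hz ((show fixMap T' j f v = z from hv) ▸ (hproj v).1)
    have e2 : {u | T.proj g u = z} = (∅ : Set V) :=
      Set.eq_empty_iff_forall_notMem.mpr fun u hu =>
        hz ((show T.proj g u = z from hu) ▸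
          (T.depth_zero_iff_fixed D.isom hL _).mp (T.depth_proj D.isom u))
    simp [e1, e2]

variable {h : Equiv.Perm V} {h' : Equiv.Perm V'}

/-- The data of a diagonal class. -/
structure AxisData (T : RegTree V) (T' : RegTree V') (g : Equiv.Perm V) (f : Equiv.Perm V')
    (j : V → V') (h : Equiv.Perm V) (h' : Equiv.Perm V') : Prop where
  isom : T.IsIsom h
  isom' : T'.IsIsom h'
  comm : ∀ u, g (h u) = h (g u)
  commF : ∀ v, f (h' v) = h' (f v)
  sub : ∀ u, T.depth h u = 0 → T.depth g u = 0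
  deg : ∀ z, T.depth h z = 0 → T.minDeg h z = 2
  minD_ne : T.minD h ≠ 0
  commJ : ∀ u, h' (j u) = j (h u)

theorem finsum_mem_biUnion_fibre {W U : Type*} (p : W → U) (s : Finset U) (A : Set W)
    (hA : ∀ v, v ∈ A ↔ p v ∈ s) (F : W → ℂ)
    (hF : ∀ u ∈ s, ({v | p v = u} ∩ Function.support F).Finite) :
    ∑ᶠ v ∈ A, F v = ∑ u ∈ s, ∑ᶠ v ∈ {v | p v = u}, F v := by
  classical
  let t : Finset W := s.attach.biUnion fun u => (hF u u.2).toFinset
  rw [finsum_mem_eq_sum_of_inter_support_eq (t := t) F ?_]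
  · rw [← Finset.sum_attach s, Finset.sum_biUnion fun a _ b _ hne => ?_]
    · refine Finset.sum_congr rfl fun u _ => ?_
      rw [finsum_mem_eq_sum_of_inter_support_eq (t := (hF u u.2).toFinset) F
        (by simp [Set.inter_assoc])]
    · simp only [Function.onFun, Set.Finite.disjoint_toFinset]
      exact Set.disjoint_left.mpr fun v h1 h2 => hne (Subtype.ext (h1.1.symm.trans h2.1))
  · ext v
    simp only [t, Set.mem_inter_iff, Finset.coe_biUnion, Set.mem_iUnion, Set.Finite.coe_toFinset,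
      Set.mem_ofPred_eq, Finset.mem_coe, Finset.mem_attach, true_and, exists_prop, hA]
    exact ⟨fun ⟨h1, h2⟩ => ⟨⟨⟨p v, h1⟩, rfl, h2⟩, h2⟩, fun ⟨⟨u, h1, h2⟩, _⟩ => ⟨h1 ▸ u.2, h2⟩⟩

/-- The relabelling for a diagonal class with fixed vertices. -/
def axisMap (T : RegTree V) (T' : RegTree V') (j : V → V') (f : Equiv.Perm V')
    (h : Equiv.Perm V) (v : V') : V :=
  T.proj h (fixMap T' j f v)

/-- **A diagonal class with fixed vertices.** -/
theorem twisted_fixed_axis {n : ℕ} (hn : n ≤ 2) (D : TwistData T T' i g g' f)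
    (J : FixData T T' g f j) (A : AxisData T T' g f j h h') (hL : T.minD g = 0)
    (hF : ∀ z, {u | g u = u ∧ T.proj h u = z}.Finite) :
    (∀ (t : Equiv.Perm V) (t' : Equiv.Perm V'), T.IsIsom t → T'.IsIsom t' →
      (∀ v, t' (f v) = f (t' v)) → (∀ u, t' (j u) = j (t u)) → (∀ u, t (h u) = h (t u)) →
        ∀ v, axisMap T T' j f h (t' v) = t (axisMap T T' j f h v)) ∧
    (∀ z, {v | axisMap T T' j f h v = z ∧ kerM T.q n (T'.disp f v) ≠ 0}.Finite) ∧
    (∀ z, {u | T.proj h u = z ∧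
      (kerE T.q n (T.disp g u) ≠ 0 ∨ kerW T.q n (T.disp g u) ≠ 0)}.Finite) ∧
    ∀ z, (∑ᶠ v ∈ {v | axisMap T T' j f h v = z}, kerM T.q n (T'.disp f v) =
        ∑ᶠ u ∈ {u | T.proj h u = z}, kerE T.q n (T.disp g u)) ∧
      3 * ∑ᶠ v ∈ {v | axisMap T T' j f h v = z}, (T'.depth h' v : ℂ) * kerM T.q n (T'.disp f v)
        - 3 * ∑ᶠ u ∈ {u | T.proj h u = z}, (T.depth h u : ℂ) * kerE T.q n (T.disp g u) =
        ∑ᶠ u ∈ {u | T.proj h u = z}, kerW T.q n (T.disp g u) := by
  classical
  have hLf := D.minD_eq_zero_iff.mpr hL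
  have hproj := J.fixMap_spec D.isomF hLf
  have hg := D.isom
  have hf := D.isomF
  have hfix := T.depth_zero_iff_fixed hg hL
  have hfix' := T'.depth_zero_iff_fixed hf hLf
  obtain ⟨hjD, hjspec⟩ := T.embed_spec T' A.isom A.isom' J.emb A.commJ
  obtain ⟨hjmem, -⟩ := hjspec A.minD_ne
  have hsub' : ∀ v, T'.depth h' v = 0 → T'.depth f v = 0 := fun v hv => by
    obtain ⟨u, hu, rfl⟩ := (hjmem v).mp hv
    exact (hfix' _).mpr (J.fix u ((hfix u).mp (A.sub u hu)))
  have hdepJ : ∀ u, T'.depth h' (j u) = T.depth h u := fun u => by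
    simp only [RegTree.depth, RegTree.disp, hjD, A.commJ, J.emb]
  have hdepM : ∀ v, T'.depth h' v = T'.depth f v + T.depth h (fixMap T' j f v) := fun v => by
    rw [(T'.depth_add_proj hf A.isom' A.commF hsub' v).1, ← (hproj v).2, hdepJ]
  have hdepE : ∀ u, T.depth h u = T.depth g u + T.depth h (T.proj g u) ∧
      T.proj h u = T.proj h (T.proj g u) := T.depth_add_proj hg A.isom A.comm A.sub
  have hsuppM : ∀ v, kerM T.q n (T'.disp f v) ≠ 0 → T'.depth f v ≤ 3 := fun v hv => by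
    by_contra hc
    have := T'.disp_eq_depth hf v
    exact hv (kernels_eq_zero T.q hn (k := T'.disp f v) (by omega)).2.1
  refine ⟨fun t t' ht ht' hc hti hth v => ?_, fun z => ?_, fun z => ?_, fun z => ?_⟩
  · have := (hproj v).2
    rw [axisMap, axisMap, fixMap, T'.proj_commute hf ht' hc, ← this, hti,
      Function.leftInverse_invFun J.injective, T.proj_commute A.isom ht hth]
  · refine ((hF z).biUnion fun u hu => T'.fibre_finite hf (z := j u)
      ((hfix' _).mpr (J.fix u hu.1)) 3).subset fun v hv => ?_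
    simp only [Set.mem_iUnion, Set.mem_ofPred_eq]
    exact ⟨fixMap T' j f v, ⟨(hproj v).1, hv.1⟩, (hproj v).2.symm, hsuppM v hv.2⟩
  · refine ((hF z).biUnion fun u hu => T.fibre_finite hg (z := u) ((hfix u).mpr hu.1) 3).subset
      fun u hu => ?_
    simp only [Set.mem_iUnion, Set.mem_ofPred_eq]
    exact ⟨T.proj g u, ⟨(hfix _).mp (T.depth_proj hg u), by rw [← (hdepE u).2]; exact hu.1⟩, rfl,
      T.disp_support hg hn hu.2⟩
  by_cases hz : T.depth h z = 0
  swap
  · have e1 : {v | axisMap T T' j f h v = z} = (∅ : Set V') :=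
      Set.eq_empty_iff_forall_notMem.mpr fun v hv => hz (hv ▸ T.depth_proj A.isom _)
    have e2 : {u | T.proj h u = z} = (∅ : Set V) :=
      Set.eq_empty_iff_forall_notMem.mpr fun u hu => hz (hu ▸ T.depth_proj A.isom u)
    simp [e1, e2]
  set s := (hF z).toFinset with hs_def
  have hs : ∀ w, w ∈ s ↔ g w = w ∧ T.proj h w = z := fun w => (hF z).mem_toFinset
  -- both sides as sums over the fixed vertices
  have hM : ∀ w : ℕ → ℕ → ℂ, ∑ᶠ v ∈ {v | axisMap T T' j f h v = z},
      w (T.depth h (fixMap T' j f v)) (T'.depth f v) * kerM T.q n (T'.disp f v) =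
      ∑ u ∈ s, fib (T.q ^ 3) (T.minDeg g u) 0 (kerM T.q n) (w (T.depth h u)) := fun w => by
    rw [finsum_mem_biUnion_fibre (fixMap T' j f) s _ (fun v => by
      rw [hs]; exact ⟨fun hv => ⟨(hproj v).1, hv⟩, fun hv => hv.2⟩) _ fun u hu => ?_]
    · refine Finset.sum_congr rfl fun u hu => ?_
      have hu' := ((hs u).mp hu).1
      have hset : {v | fixMap T' j f v = u} = {v | T'.proj f v = j u} := by
        ext v; simp only [Set.mem_ofPred_eq, ← (hproj v).2, J.injective.eq_iff]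
      have := T'.finsum_fib hf (z := j u) ((hfix' _).mpr (J.fix u hu')) (kerM T.q n)
        (fun k hk => (kernels_eq_zero T.q hn hk).2.1) (w (T.depth h u))
      rw [J.minDeg_eq hg hf hL hLf, D.hQ, hLf] at this
      rw [← this, hset]
      refine finsum_mem_congr rfl fun v hv => ?_
      rw [show fixMap T' j f v = u from (Set.ext_iff.mp hset v).mpr hv]
    · refine (T'.fibre_finite hf ((hfix' _).mpr (J.fix u ((hs u).mp hu).1)) 3).subset fun v hv => ?_
      exact ⟨by rw [← (hproj v).2, hv.1], hsuppM v fun e =>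
        hv.2 (by show _ * _ = (0 : ℂ); rw [e, mul_zero])⟩
  have hE : ∀ (φ : ℕ → ℂ), (∀ k, 6 < k → φ k = 0) → ∀ w : ℕ → ℕ → ℂ,
      ∑ᶠ u ∈ {u | T.proj h u = z}, w (T.depth h (T.proj g u)) (T.depth g u) * φ (T.disp g u) =
        ∑ u ∈ s, fib T.q (T.minDeg g u) 0 φ (w (T.depth h u)) := fun φ hφ w => by
    rw [finsum_mem_biUnion_fibre (T.proj g) s _ (fun v => by
      rw [hs]; exact ⟨fun hv => ⟨(hfix _).mp (T.depth_proj hg v), by rw [← (hdepE v).2]; exact hv⟩,
        fun hv => (hdepE v).2.trans hv.2⟩) _ fun u hu => ?_]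
    · refine Finset.sum_congr rfl fun u hu => ?_
      have := T.finsum_fib hg ((hfix u).mpr ((hs u).mp hu).1) φ hφ (w (T.depth h u))
      rw [hL] at this
      rw [← this]
      exact finsum_mem_congr rfl fun v hv => by rw [show T.proj g v = u from hv]
    · refine (T.fibre_finite hg ((hfix _).mpr ((hs u).mp hu).1) 3).subset fun v hv => ⟨hv.1, ?_⟩
      by_contra hc
      exact hv.2 (by show _ * _ = (0 : ℂ)
                     rw [hφ _ (by have := T.disp_eq_depth hg v; omega), mul_zero])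
  have hkE := fun k hk => (kernels_eq_zero T.q hn (k := k) hk).1
  have hkW := fun k hk => (kernels_eq_zero T.q hn (k := k) hk).2.2
  have hM1 := hM fun _ => (1 : ℕ → ℂ)
  have hE1 := hE _ hkE fun _ => (1 : ℕ → ℂ)
  have hW1 := hE _ hkW fun _ => (1 : ℕ → ℂ)
  simp only [Pi.one_apply, one_mul] at hM1 hE1 hW1
  refine ⟨by
    rw [hM1, hE1]
    exact Finset.sum_congr rfl fun u hu => fib_fixed hn (T.minDeg_le hg u), ?_⟩
  rw [finsum_mem_congr rfl fun v (_ : v ∈ {v | axisMap T T' j f h v = z}) =>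
      show (T'.depth h' v : ℂ) * kerM T.q n (T'.disp f v) =
        ((T.depth h (fixMap T' j f v) : ℂ) + (T'.depth f v : ℂ)) * kerM T.q n (T'.disp f v) by
      rw [hdepM, Nat.cast_add]; ring,
    finsum_mem_congr rfl fun u (_ : u ∈ {u | T.proj h u = z}) =>
      show (T.depth h u : ℂ) * kerE T.q n (T.disp g u) =
        ((T.depth h (T.proj g u) : ℂ) + (T.depth g u : ℂ)) * kerE T.q n (T.disp g u) by
      rw [(hdepE u).1, Nat.cast_add]; ring,
    hM fun a b => (a : ℂ) + b, hE _ hkE fun a b => (a : ℂ) + b, hW1, ← sub_eq_zero,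
    Finset.mul_sum, Finset.mul_sum, ← Finset.sum_sub_distrib, ← Finset.sum_sub_distrib]
  rw [Finset.sum_congr rfl fun u (_ : u ∈ s) =>
    (fib_fixed_height hn (T.minDeg_le hg u) (T.depth h u : ℂ) :
      3 * fib (T.q ^ 3) (T.minDeg g u) 0 (kerM T.q n) (fun b => (T.depth h u : ℂ) + b)
        - 3 * fib T.q (T.minDeg g u) 0 (kerE T.q n) (fun b => (T.depth h u : ℂ) + b)
        - fib T.q (T.minDeg g u) 0 (kerW T.q n) 1 = _), ← Finset.sum_mul]
  have h0 := T.sum_minDeg_sub_two hg A.isom A.comm A.sub A.deg hz s fun w => by rw [hs, hfix]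
  have h1 : ((∑ w ∈ s, ((T.minDeg g w : ℤ) - 2) : ℤ) : ℂ) = 0 := by rw [h0, Int.cast_zero]
  push_cast at h1
  rw [h1, zero_mul]

end FLTAgent.LanglandsTunnell.Local
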