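import Fermat.Agent.LanglandsTunnell.Local.Tree

/-!
# Minimal sets: cubes, embeddings, and an isometry commuting with a translation

Minimal sets of isometries: their local shape, the cube (`cube_spec`), intertwining embeddings
(`embed_spec`), translations, and the edge count `sum_minDeg_sub_two`.
-/

set_option autoImplicit false
set_option linter.unusedSectionVars false

noncomputable section

namespace FLTAgent.LanglandsTunnell.Local

namespace RegTree

variable {V : Type*} (T : RegTree V) {g : Equiv.Perm V} (hg : T.IsIsom g) [Nonempty V]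

include hg

/-- Adjacent vertices of equal displacement are minimal. -/
theorem depth_eq_zero_of_adj {u v : V} (h : T.d u v = 1) (he : T.disp g u = T.disp g v) :
    T.depth g u = 0 := by
  rw [T.depth_eq_zero_iff hg]
  by_contra hne
  obtain ⟨p, -, h2, h3⟩ := T.exists_parent hg hne
  by_cases hv : v = p
  · subst hv; omega
  · have := h3 v h hv; omega

/-- A set of minimal vertices closed under minimal neighbours is the minimal set. -/
theorem mem_of_closed {S : Set V} {z : V} (hz : z ∈ S) (hzm : T.depth g z = 0)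
    (hcl : ∀ u ∈ S, ∀ v, T.d u v = 1 → T.depth g v = 0 → v ∈ S) {v : V}
    (hv : T.depth g v = 0) : v ∈ S := by
  have key : ∀ n, ∀ v, T.d z v = n → (T.depth g v = 0 → v ∈ S) ∧ (T.depth g v ≠ 0 →
      T.d z (T.parent g v) + 1 = n) := by
    intro n
    induction n with
    | zero =>
      intro v hv
      obtain rfl := (T.d_eq_zero z v).mp hv
      exact ⟨fun _ => hz, fun h => absurd hzm h⟩
    | succ n ih =>
      intro v hv
      obtain ⟨p, h1, h2, -⟩ := T.step v z n (T.d_comm z v ▸ hv)
      obtain ⟨hp0, hp1⟩ := ih p (T.d_comm p z ▸ h2)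
      have hrel : T.depth g p ≠ 0 → T.disp g v = T.disp g p + 2 := fun hp => by
        obtain ⟨h1', h2'⟩ := T.parent_spec hg fun e => hp ((T.depth_eq_zero_iff hg p).mpr e)
        refine T.disp_child hg (T.adj_comm h1') h2'.symm (T.adj_comm h1) fun e => ?_
        have := hp1 hp
        rw [← e] at this
        omega
      constructor
      · intro hv0
        by_cases hp : T.depth g p = 0
        · exact hcl p (hp0 hp) v (T.adj_comm h1) hv0
        · have := hrel hp
          have := T.disp_eq_depth hg v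
          have := T.disp_eq_depth hg p
          omega
      · intro hv0
        rw [T.parent_eq hg h1, T.d_comm, h2]
        by_cases hp : T.depth g p = 0
        · have := (T.disp_adj hg (T.adj_comm h1)).1
          have := T.disp_eq_depth hg v
          have := T.disp_eq_depth hg p
          omega
        · exact (hrel hp).symm
  exact (key _ v rfl).1 hv

/-- The two minimal neighbours when there is no fixed vertex. -/
theorem exists_minNbrs {u : V} (hu : T.depth g u = 0) {k : ℕ} (hL : T.minD g = k + 1) :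
    ∃ x x', T.d u x = 1 ∧ T.d u x' = 1 ∧ T.depth g x = 0 ∧ T.depth g x' = 0 ∧
      T.d x (g u) = k ∧ T.d (g x') u = k ∧
      ∀ v, T.d u v = 1 → T.depth g v = 0 → v = x ∨ v = x' := by
  have hD : T.d u (g u) = k + 1 := hL ▸ (T.depth_eq_zero_iff hg u).mp hu
  obtain ⟨x, hx, hxd, hxu⟩ := T.step u (g u) k hD
  obtain ⟨y, hy, hyd, hyu⟩ := T.step (g u) u k (T.d_comm u (g u) ▸ hD)
  have hxm : T.depth g x = 0 := by
    rw [T.depth_eq_zero_iff hg]
    have := T.minD_le g x
    have h := T.triangle x (g u) (g x)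
    rw [hxd, hg, hx] at h
    simp only [disp] at *
    omega
  have hx' : T.d u (g.symm y) = 1 := by
    rw [← hg, g.apply_symm_apply, hy]
  have hxm' : T.depth g (g.symm y) = 0 := by
    rw [T.depth_eq_zero_iff hg]
    have := T.minD_le g (g.symm y)
    have h := T.triangle (g.symm y) u y
    rw [T.d_comm u y, hyd, T.d_comm (g.symm y) u, hx'] at h
    simp only [disp, g.apply_symm_apply] at *
    omega
  refine ⟨x, g.symm y, hx, hx', hxm, hxm', hxd, by rw [g.apply_symm_apply, hyd], fun v hv hv0 => ?_⟩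
  by_contra hne
  push Not at hne
  have h1 : T.d v (g u) = k + 2 := hxu v hv hne.1
  have hyv : T.d y v = k + 1 := by
    rcases T.d_adj v hy with e | e
    · have := T.triangle y u v
      rw [T.d_comm (g u) v, h1] at e
      omega
    · rw [T.d_comm (g u) v, h1] at e
      omega
  have h2 : T.d (g v) v = k + 3 := T.step_away (T.d_comm v (g u) ▸ h1) hy hyv (by rw [hg, hv])
    fun e => hne.2 (g.injective (by rw [e, g.apply_symm_apply]))
  have := (T.depth_eq_zero_iff hg v).mp hv0
  rw [disp, T.d_comm, h2, hL] at this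
  omega

theorem minDeg_le_two {u : V} (hu : T.depth g u = 0) (hL : T.minD g ≠ 0) : T.minDeg g u ≤ 2 := by
  obtain ⟨k, hk⟩ := Nat.exists_eq_succ_of_ne_zero hL
  obtain ⟨x, x', -, -, -, -, -, -, h⟩ := T.exists_minNbrs hg hu hk
  refine (Set.ncard_le_ncard (t := {x, x'}) (fun v hv => h v hv.1 hv.2)).trans ?_
  exact (Set.ncard_insert_le _ _).trans (by simp)

/-- Translations and inversions. -/
theorem minDeg_cases {u : V} (hu : T.depth g u = 0) (hL : T.minD g ≠ 0) :
    (T.minDeg g u = 1 ∧ T.minD g = 1 ∧ g (g u) = u) ∨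
      (T.minDeg g u = 2 ∧ g (g u) ≠ u ∧ T.d u (g (g u)) = 2 * T.minD g ∧
        T.d u (g (g (g u))) = 3 * T.minD g) := by
  obtain ⟨k, hk⟩ := Nat.exists_eq_succ_of_ne_zero hL
  have hk : T.minD g = k + 1 := hk
  obtain ⟨x, x', hx, hx', hxm, hxm', hxd, hxd', h⟩ := T.exists_minNbrs hg hu hk
  have hset : {v | T.d u v = 1 ∧ T.depth g v = 0} = {x, x'} := by
    ext v
    refine ⟨fun hv => h v hv.1 hv.2, ?_⟩
    rintro (rfl | rfl)
    exacts [⟨hx, hxm⟩, ⟨hx', hxm'⟩]
  have hD : T.d u (g u) = k + 1 := hk ▸ (T.depth_eq_zero_iff hg u).mp hu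
  by_cases he : x = x'
  · subst he
    have hk0 : k = 0 := by
      by_contra hne
      obtain ⟨l, rfl⟩ := Nat.exists_eq_succ_of_ne_zero hne
      -- the geodesic from `x` to `g u` ends at `g x`
      obtain ⟨c, hc, hcd, -⟩ := T.step (g u) x l (T.d_comm x (g u) ▸ hxd)
      have h1 : T.d c u = l + 1 := by
        have h2 := T.triangle c x u
        have h3 := T.triangle u c (g u)
        rw [T.d_comm x u, hx, hcd] at h2
        rw [hD, T.d_comm c (g u), hc, T.d_comm u c] at h3
        omega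
      have hgx : T.d (g u) (g x) = 1 := by rw [hg, hx]
      have := T.step_unique (k := l + 1) (by rw [T.d_comm]; exact hD) hc h1 hgx hxd'
      subst this
      have hm := T.minD_le g x
      rw [disp, T.d_comm, hcd] at hm
      omega
    subst hk0
    left
    refine ⟨by rw [minDeg, hset, Set.pair_eq_singleton, Set.ncard_singleton], hk, ?_⟩
    rw [← (T.d_eq_zero _ _).mp hxd]
    exact (T.d_eq_zero _ _).mp hxd'
  · right
    have hne : g x' ≠ g x := fun e => he (g.injective e).symm
    have h2 : T.d u (g (g u)) = k + 1 + (k + 1) :=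
      T.d_concat (b := g u) hD (by rw [hg, hx']) hxd' (by rw [hg, hD]) (by rw [hg, hx])
        (by rw [hg, hxd]) hne
    have hx2 : T.d x (g (g u)) = 2 * k + 1 := by
      have h3 := T.triangle x (g u) (g (g u))
      have h4 := T.triangle u x (g (g u))
      rw [hxd, hg, hD] at h3
      rw [hx, h2] at h4
      omega
    have h3 : T.d u (g (g (g u))) = k + 1 + (2 * k + 1 + 1) :=
      T.d_concat (b := g u) hD (by rw [hg, hx']) hxd' (by rw [hg, h2]; omega) (by rw [hg, hx])
        (by rw [hg, hx2]) hne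
    refine ⟨by rw [minDeg, hset, Set.ncard_pair he], fun e => ?_, by omega, by omega⟩
    rw [e, T.d_self] at h2
    omega

/-- Minimal vertices of an isometry without fixed vertices are all of one type. -/
theorem minDeg_const (hL : T.minD g ≠ 0) {u v : V} (hu : T.depth g u = 0) (hv : T.depth g v = 0) :
    T.minDeg g u = T.minDeg g v := by
  suffices v ∈ {w | T.minDeg g u = T.minDeg g w ∧ T.depth g w = 0} from this.1
  refine T.mem_of_closed hg (S := {w | T.minDeg g u = T.minDeg g w ∧ T.depth g w = 0}) (z := u)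
    (show T.minDeg g u = T.minDeg g u ∧ T.depth g u = 0 from ⟨rfl, hu⟩) hu ?_ hv
  rintro a ⟨ha, ha0⟩ b hab hb0
  refine ⟨ha.trans ?_, hb0⟩
  obtain ⟨k, hk⟩ := Nat.exists_eq_succ_of_ne_zero hL
  have key : ∀ a b, T.d a b = 1 → T.depth g a = 0 → T.depth g b = 0 →
      T.minDeg g a = 1 → T.minDeg g b = 1 := by
    intro a b hab ha0 hb0 ha
    rcases T.minDeg_cases hg ha0 hL with ⟨-, h1, h2⟩ | ⟨h, -⟩
    · rcases T.minDeg_cases hg hb0 hL with ⟨h, -⟩ | ⟨-, hne, -⟩
      · exact h
      · obtain ⟨c, hc⟩ := Set.ncard_eq_one.mp ha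
        have hga : g a ∈ {w | T.d a w = 1 ∧ T.depth g w = 0} := ⟨by
          rw [← h1, ← (T.depth_eq_zero_iff hg a).mp ha0]; rfl, by
          rw [T.depth_commute hg hg (fun _ => rfl), ha0]⟩
        have hb : b ∈ {w | T.d a w = 1 ∧ T.depth g w = 0} := ⟨hab, hb0⟩
        rw [hc, Set.mem_singleton_iff] at hga hb
        exact absurd (by rw [hb, ← hga, h2]) hne
    · omega
  rcases T.minDeg_cases hg ha0 hL with ⟨h, -⟩ | ⟨h, -⟩
  · rw [h, key a b hab ha0 hb0 h]
  · rcases T.minDeg_cases hg hb0 hL with ⟨h', -⟩ | ⟨h', -⟩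
    · rw [key b a (T.adj_comm hab) hb0 ha0 h', h']
    · rw [h, h']

/-! ### Cubes -/

theorem isIsom_cube : T.IsIsom (g ^ 3) := fun u v => by
  simp only [pow_succ, pow_zero, one_mul, Equiv.Perm.mul_apply]
  rw [hg, hg, hg]

theorem minD_cube_eq_zero (h : T.minD g = 0) : T.minD (g ^ 3) = 0 := by
  obtain ⟨u, hu⟩ := (T.minD_eq_zero_iff g).mp h
  exact (T.minD_eq_zero_iff _).mpr ⟨u, by
    simp only [pow_succ, pow_zero, one_mul, Equiv.Perm.mul_apply, hu]⟩

/-- Without fixed vertices the cube has the same minimal set. -/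
theorem cube_spec (hL : T.minD g ≠ 0) :
    T.minD (g ^ 3) ≠ 0 ∧ (∀ u, T.depth (g ^ 3) u = 0 ↔ T.depth g u = 0) ∧
      ∀ z, T.depth g z = 0 → T.minDeg (g ^ 3) z = T.minDeg g z ∧
        T.minD (g ^ 3) = if T.minDeg g z = 1 then 1 else 3 * T.minD g := by
  have h3 := T.isIsom_cube hg
  have hdisp : ∀ z, T.depth g z = 0 →
      T.disp (g ^ 3) z = if T.minDeg g z = 1 then 1 else 3 * T.minD g := fun z hz => by
    simp only [disp, pow_succ, pow_zero, one_mul, Equiv.Perm.mul_apply]
    rcases T.minDeg_cases hg hz hL with ⟨h, h1, h2⟩ | ⟨h, -, -, h2⟩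
    · rw [if_pos h, h2, ← h1]
      exact (T.depth_eq_zero_iff hg z).mp hz
    · rw [if_neg (by omega), h2]
  have hmin : ∀ z, T.depth g z = 0 → T.depth (g ^ 3) z = 0 := fun z hz => by
    obtain ⟨k, hk⟩ := Nat.exists_eq_succ_of_ne_zero hL
    obtain ⟨x, -, hx, -, hxm, -⟩ := T.exists_minNbrs hg hz hk
    exact T.depth_eq_zero_of_adj h3 hx
      (by rw [hdisp z hz, hdisp x hxm, T.minDeg_const hg hL hz hxm])
  obtain ⟨z₀, hz₀⟩ := T.exists_disp_eq_minD g
  have hz₀ : T.depth g z₀ = 0 := (T.depth_eq_zero_iff hg _).mpr hz₀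
  have hval : ∀ z, T.depth g z = 0 →
      T.minD (g ^ 3) = if T.minDeg g z = 1 then 1 else 3 * T.minD g :=
    fun z hz => by rw [← hdisp z hz, (T.depth_eq_zero_iff h3 z).mp (hmin z hz)]
  have hne : T.minD (g ^ 3) ≠ 0 := by
    rw [hval z₀ hz₀]; split_ifs <;> omega
  have hsame : ∀ z, T.depth g z = 0 →
      {v | T.d z v = 1 ∧ T.depth (g ^ 3) v = 0} = {v | T.d z v = 1 ∧ T.depth g v = 0} := by
    intro z hz
    refine (Set.eq_of_subset_of_ncard_le
      (show {v | T.d z v = 1 ∧ T.depth g v = 0} ⊆ {v | T.d z v = 1 ∧ T.depth (g ^ 3) v = 0}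
      from fun v hv => ⟨hv.1, hmin v hv.2⟩) ?_
      ((T.nbrs_finite z).subset fun v (hv : T.d z v = 1 ∧ _) => hv.1)).symm
    show T.minDeg (g ^ 3) z ≤ T.minDeg g z
    rcases T.minDeg_cases hg hz hL with ⟨h, h1, h2⟩ | ⟨h, -⟩
    · rcases T.minDeg_cases h3 (hmin z hz) hne with ⟨h', -⟩ | ⟨-, h', -⟩
      · omega
      · refine absurd ?_ h'
        simp only [pow_succ, pow_zero, one_mul, Equiv.Perm.mul_apply, h2]
    · exact h ▸ T.minDeg_le_two h3 (hmin z hz) hne
  refine ⟨hne, fun u => ⟨fun hu => ?_, hmin u⟩, fun z hz =>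
    ⟨congrArg Set.ncard (hsame z hz), hval z hz⟩⟩
  refine T.mem_of_closed h3 (S := {w | T.depth g w = 0}) hz₀ (hmin z₀ hz₀) ?_ hu
  intro a ha b hab hb
  have : b ∈ {v | T.d a v = 1 ∧ T.depth g v = 0} := hsame a ha ▸ ⟨hab, hb⟩
  exact this.2

/-! ### An isometric embedding -/

omit hg in
/-- An isometric embedding of trees intertwining two isometries. -/
theorem embed_spec {V' : Type*} (T' : RegTree V') [Nonempty V'] {g' : Equiv.Perm V'}
    (hg : T.IsIsom g) (hg' : T'.IsIsom g') {i : V → V'} (hi : ∀ u v, T'.d (i u) (i v) = T.d u v)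
    (hc : ∀ u, g' (i u) = i (g u)) :
    T'.minD g' = T.minD g ∧ (T.minD g ≠ 0 →
      (∀ v, T'.depth g' v = 0 ↔ ∃ u, T.depth g u = 0 ∧ i u = v) ∧
        ∀ u, T.depth g u = 0 → T'.minDeg g' (i u) = T.minDeg g u) := by
  have hdisp : ∀ u, T'.disp g' (i u) = T.disp g u := fun u => by
    simp only [disp]; rw [hc, hi]
  have hinj : Function.Injective i := fun a b h =>
    (T.d_eq_zero a b).mp (by rw [← hi, h, T'.d_self])
  obtain ⟨z, hz⟩ := T.exists_disp_eq_minD g
  have hz0 := (T.depth_eq_zero_iff hg z).mpr hz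
  by_cases hL : T.minD g = 0
  · refine ⟨?_, fun h => absurd hL h⟩
    rw [hL]
    exact Nat.le_zero.mp (by rw [← hL, ← hz, ← hdisp]; exact T'.minD_le _ _)
  obtain ⟨k, hk⟩ := Nat.exists_eq_succ_of_ne_zero hL
  have hmin : ∀ u, T.depth g u = 0 → T'.depth g' (i u) = 0 := fun u hu => by
    obtain ⟨x, -, hx, -, hxm, -⟩ := T.exists_minNbrs hg hu hk
    exact T'.depth_eq_zero_of_adj hg' (v := i x) (by rw [hi, hx])
      (by rw [hdisp, hdisp, (T.depth_eq_zero_iff hg u).mp hu, (T.depth_eq_zero_iff hg x).mp hxm])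
  have hLL : T'.minD g' = T.minD g := by
    rw [← (T'.depth_eq_zero_iff hg' _).mp (hmin z hz0), hdisp, hz]
  have hnb : ∀ u, T.depth g u = 0 → ∀ v, T'.d (i u) v = 1 → T'.depth g' v = 0 →
      ∃ w, T.d u w = 1 ∧ T.depth g w = 0 ∧ i w = v := by
    intro u hu v hv hv0
    obtain ⟨x, x', hx, hx', hxm, hxm', hxd, hxd', -⟩ := T.exists_minNbrs hg hu hk
    obtain ⟨y, y', hy, hy', -, -, hyd, hyd', h⟩ := T'.exists_minNbrs hg' (hmin u hu) (hLL.trans hk)
    have hD : T'.d (i u) (g' (i u)) = k + 1 := by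
      rw [hc, hi]; exact ((T.depth_eq_zero_iff hg u).mp hu).trans hk
    have h1 : y = i x := T'.step_unique hD hy hyd (by rw [hi, hx]) (by rw [hc, hi, hxd])
    have h2 : g' y' = g' (i x') := T'.step_unique (T'.d_comm (i u) (g' (i u)) ▸ hD)
      (by rw [hg', hy']) hyd' (by rw [hg', hi, hx']) (by rw [hc, hi, hxd'])
    rcases h v hv hv0 with rfl | rfl
    · exact ⟨x, hx, hxm, h1.symm⟩
    · exact ⟨x', hx', hxm', (g'.injective h2).symm⟩
  refine ⟨hLL, fun _ => ⟨fun v => ⟨fun hv => ?_, ?_⟩, fun u hu => ?_⟩⟩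
  · refine T'.mem_of_closed hg' (S := {v | ∃ u, T.depth g u = 0 ∧ i u = v}) ⟨z, hz0, rfl⟩
      (hmin z hz0) ?_ hv
    rintro a ⟨u, hu, rfl⟩ b hab hb
    obtain ⟨w, -, hw, rfl⟩ := hnb u hu b hab hb
    exact ⟨w, hw, rfl⟩
  · rintro ⟨u, hu, rfl⟩
    exact hmin u hu
  · rw [minDeg, minDeg, ← Set.ncard_image_of_injective _ hinj]
    congr 1
    ext v
    refine ⟨fun hv => ?_, ?_⟩
    · obtain ⟨w, h1, h2, rfl⟩ := hnb u hu v hv.1 hv.2
      exact ⟨w, ⟨h1, h2⟩, rfl⟩
    · rintro ⟨w, ⟨h1, h2⟩, rfl⟩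
      exact ⟨by rw [hi, h1], hmin w h2⟩

/-! ### An isometry commuting with a translation along an axis -/

variable {h : Equiv.Perm V} (hh : T.IsIsom h) (hgh : ∀ u, g (h u) = h (g u))
  (hsub : ∀ u, T.depth h u = 0 → T.depth g u = 0)

include hh hgh hsub

theorem parent_eq_parent {u : V} (hu : T.depth g u ≠ 0) :
    T.depth h u ≠ 0 ∧ T.parent g u = T.parent h u := by
  have hh0 : T.depth h u ≠ 0 := fun e => hu (hsub u e)
  refine ⟨hh0, ?_⟩
  induction hn : T.depth h u generalizing u with
  | zero => exact absurd hn hh0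
  | succ n ih =>
    obtain ⟨h1, -⟩ := T.parent_spec hh fun e => hh0 ((T.depth_eq_zero_iff hh u).mpr e)
    have hd := T.depth_parent hh hh0
    refine T.parent_eq hg h1 ?_
    by_cases hp : T.depth g (T.parent h u) = 0
    · have := (T.disp_adj hg (T.adj_comm h1)).1
      have := T.disp_eq_depth hg u
      have := T.disp_eq_depth hg (T.parent h u)
      omega
    · have hp0 : T.depth h (T.parent h u) ≠ 0 := fun e => hp (hsub _ e)
      have e := ih hp hp0 (by omega)
      obtain ⟨h1', h2'⟩ := T.parent_spec hg fun e => hp ((T.depth_eq_zero_iff hg _).mpr e)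
      refine (T.disp_child hg (T.adj_comm h1') h2'.symm (T.adj_comm h1) fun eu => ?_).symm
      rw [e] at eu
      have := T.depth_parent hh hp0
      rw [← eu] at this
      omega

theorem depth_add_proj (u : V) :
    T.depth h u = T.depth g u + T.depth h (T.proj g u) ∧
      T.proj h u = T.proj h (T.proj g u) := by
  induction hn : T.depth g u generalizing u with
  | zero => rw [T.proj_eq_self hg hn]; exact ⟨(zero_add _).symm, rfl⟩
  | succ n ih =>
    obtain ⟨h1, h2⟩ := T.parent_eq_parent hg hh hgh hsub (u := u) (by omega)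
    have := T.depth_parent hg (u := u) (by omega)
    have := T.depth_parent hh h1
    obtain ⟨e1, e2⟩ := ih (T.parent g u) (by omega)
    rw [← T.proj_parent hg (by omega), ← e2, h2, T.proj_parent hh h1]
    refine ⟨?_, rfl⟩
    rw [h2] at e1
    omega

theorem depth_parent_fixed {u : V} (hu : T.depth g u = 0) (hu' : T.depth h u ≠ 0) :
    T.depth g (T.parent h u) = 0 := by
  by_contra hp
  obtain ⟨h0, e⟩ := T.parent_eq_parent hg hh hgh hsub hp
  obtain ⟨h1, -⟩ := T.parent_spec hh fun e => hu' ((T.depth_eq_zero_iff hh u).mpr e)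
  obtain ⟨h1', h2'⟩ := T.parent_spec hg fun e => hp ((T.depth_eq_zero_iff hg _).mpr e)
  have := T.disp_child hg (T.adj_comm h1') h2'.symm (T.adj_comm h1) fun eu => by
    rw [e] at eu
    have := T.depth_parent hh hu'
    have := T.depth_parent hh h0
    rw [← eu] at this
    omega
  have := T.disp_eq_depth hg u
  have := T.disp_eq_depth hg (T.parent h u)
  omega

/-- Without fixed vertices the two minimal sets agree. -/
theorem depth_iff_of_translation (hL : T.minD g ≠ 0)
    (hdeg : ∀ z, T.depth h z = 0 → T.minDeg h z = 2)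
    (u : V) : T.depth g u = 0 ↔ T.depth h u = 0 := by
  refine ⟨fun hu => ?_, hsub u⟩
  obtain ⟨z, hz⟩ := T.exists_disp_eq_minD h
  have hz0 := (T.depth_eq_zero_iff hh z).mpr hz
  refine T.mem_of_closed hg (S := {w | T.depth h w = 0}) hz0 (hsub z hz0) ?_ hu
  intro a ha b hab hb
  have : {v | T.d a v = 1 ∧ T.depth h v = 0} = {v | T.d a v = 1 ∧ T.depth g v = 0} :=
    Set.eq_of_subset_of_ncard_le (fun v hv => ⟨hv.1, hsub v hv.2⟩)
      ((T.minDeg_le_two hg (hsub a ha) hL).trans (hdeg a ha).ge)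
      ((T.nbrs_finite a).subset fun v hv => hv.1)
  have hb' : b ∈ {v | T.d a v = 1 ∧ T.depth h v = 0} := this ▸ ⟨hab, hb⟩
  exact hb'.2

/-- Counting edges inside a finite piece of the fixed set. -/
theorem sum_minDeg_sub_two (hdeg : ∀ z, T.depth h z = 0 → T.minDeg h z = 2) {z : V}
    (hz : T.depth h z = 0) (s : Finset V)
    (hs : ∀ w, w ∈ s ↔ T.depth g w = 0 ∧ T.proj h w = z) :
    ∑ w ∈ s, ((T.minDeg g w : ℤ) - 2) = 0 := by
  classical
  have hzs : z ∈ s := (hs z).mpr ⟨hsub z hz, T.proj_eq_self hh hz⟩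
  let C : V → Finset V := fun w => s.filter fun v => T.depth h v ≠ 0 ∧ T.parent h v = w
  have hCmem : ∀ w ∈ s, ∀ v, T.d w v = 1 → T.depth g v = 0 → T.depth h v ≠ 0 →
      T.parent h v = w → v ∈ C w := fun w hw v _ hv hv' he =>
    Finset.mem_filter.mpr ⟨(hs v).mpr ⟨hv, by
      rw [← T.proj_parent hh hv', he]; exact ((hs w).mp hw).2⟩, hv', he⟩
  have hdeg' : ∀ w ∈ s, T.minDeg g w =
      (C w).card + (if w = z then 2 else 1) := by
    intro w hw
    obtain ⟨hw0, hwz⟩ := (hs w).mp hw
    have hsplit : {v | T.d w v = 1 ∧ T.depth g v = 0} = ↑(C w) ∪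
        (if w = z then {v | T.d w v = 1 ∧ T.depth h v = 0} else {T.parent h w}) := by
      by_cases hwz' : w = z
      · subst hwz'
        rw [if_pos rfl]
        ext v
        simp only [Set.mem_ofPred_eq, Set.mem_union, Finset.mem_coe]
        constructor
        · rintro ⟨h1, h2⟩
          by_cases hv : T.depth h v = 0
          · exact Or.inr ⟨h1, hv⟩
          · refine Or.inl (hCmem w hw v h1 h2 hv (T.parent_eq hh (T.adj_comm h1) ?_))
            have := (T.disp_adj hh h1)
            have := T.disp_eq_depth hh v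
            have := T.disp_eq_depth hh w
            omega
        · rintro (hv | ⟨h1, hv⟩)
          · obtain ⟨hv1, hv2, hv3⟩ := Finset.mem_filter.mp hv
            refine ⟨?_, ((hs v).mp hv1).1⟩
            rw [← hv3]
            exact T.adj_comm (T.parent_spec hh fun e => hv2 ((T.depth_eq_zero_iff hh v).mpr e)).1
          · exact ⟨h1, hsub v hv⟩
      · rw [if_neg hwz']
        have hwd : T.depth h w ≠ 0 := fun e => hwz' (by rw [← hwz, T.proj_eq_self hh e])
        have hne : T.disp h w ≠ T.minD h := fun e => hwd ((T.depth_eq_zero_iff hh w).mpr e)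
        ext v
        simp only [Set.mem_ofPred_eq, Set.mem_union, Finset.mem_coe, Set.mem_singleton_iff]
        constructor
        · rintro ⟨h1, h2⟩
          by_cases hv : v = T.parent h w
          · exact Or.inr hv
          · left
            obtain ⟨p, hp1, hp2, hp3⟩ := T.exists_parent hh hne
            rw [T.parent_eq hh hp1 hp2] at hv
            have hvd := hp3 v h1 hv
            refine hCmem w hw v h1 h2 (fun e => ?_) (T.parent_eq hh (T.adj_comm h1) hvd.symm)
            have := (T.depth_eq_zero_iff hh v).mp e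
            have := T.minD_le h w
            omega
        · rintro (hv | rfl)
          · obtain ⟨hv1, hv2, hv3⟩ := Finset.mem_filter.mp hv
            refine ⟨?_, ((hs v).mp hv1).1⟩
            rw [← hv3]
            exact T.adj_comm (T.parent_spec hh fun e => hv2 ((T.depth_eq_zero_iff hh v).mpr e)).1
          · exact ⟨(T.parent_spec hh hne).1, T.depth_parent_fixed hg hh hgh hsub hw0 hwd⟩
    rw [minDeg, hsplit, Set.ncard_union_eq ?_ (Finset.finite_toSet _) ?_, Set.ncard_coe_finset]
    · congr 1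
      split_ifs with hwz'
      · exact hwz' ▸ hdeg z hz
      · exact Set.ncard_singleton _
    · refine Set.disjoint_left.mpr fun v hv hv' => ?_
      obtain ⟨-, hv2, hv3⟩ := Finset.mem_filter.mp hv
      split_ifs at hv' with hwz'
      · exact hv2 hv'.2
      · have hwd : T.depth h w ≠ 0 := fun e => hwz' (by rw [← hwz, T.proj_eq_self hh e])
        rw [Set.mem_singleton_iff] at hv'
        have h1 := T.depth_parent hh hwd
        have h2 := T.depth_parent hh hv2
        rw [hv3] at h2
        rw [← hv'] at h1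
        omega
    · split_ifs
      · exact (T.nbrs_finite w).subset fun v hv => hv.1
      · exact Set.finite_singleton _
  have hcard : ∑ w ∈ s, (C w).card = s.card - 1 := by
    rw [← Finset.card_erase_of_mem hzs, ← Finset.card_biUnion fun a _ b _ hne => ?_]
    · congr 1
      ext v
      simp only [Finset.mem_biUnion, C, Finset.mem_filter, Finset.mem_erase]
      refine ⟨fun ⟨w, _, hv, hv', _⟩ => ⟨fun e => hv' (e ▸ hz), hv⟩, fun ⟨hne, hv⟩ => ?_⟩
      have hv' : T.depth h v ≠ 0 := fun e => hne (by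
        rw [← ((hs v).mp hv).2, T.proj_eq_self hh e])
      exact ⟨T.parent h v, (hs _).mpr ⟨T.depth_parent_fixed hg hh hgh hsub ((hs v).mp hv).1 hv',
        by rw [T.proj_parent hh hv']; exact ((hs v).mp hv).2⟩, hv, hv', rfl⟩
    · exact Finset.disjoint_left.mpr fun v hva hvb => hne
        ((Finset.mem_filter.mp hva).2.2.symm.trans (Finset.mem_filter.mp hvb).2.2)
  have hpos : 1 ≤ s.card := Finset.card_pos.mpr ⟨z, hzs⟩
  have hite : ∑ w ∈ s, (if w = z then (2 : ℤ) else 1) = s.card + 1 := by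
    rw [← Finset.add_sum_erase s _ hzs, if_pos rfl, Finset.sum_congr rfl fun w hw =>
      if_neg (Finset.ne_of_mem_erase hw), Finset.sum_const, Finset.card_erase_of_mem hzs]
    simp only [nsmul_eq_mul, mul_one]
    rw [Nat.cast_sub hpos]
    push_cast
    ring
  rw [Finset.sum_sub_distrib, Finset.sum_congr rfl fun w hw => by rw [hdeg' w hw]]
  simp only [Nat.cast_add, Nat.cast_ite, Nat.cast_ofNat, Nat.cast_one]
  rw [Finset.sum_add_distrib, hite, ← Nat.cast_sum, hcard, Nat.cast_sub hpos]
  simp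
  ring

end RegTree

end FLTAgent.LanglandsTunnell.Local
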