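import Fermat.Agent.LanglandsTunnell.Local.TreeModel
import Fermat.Agent.LanglandsTunnell.Local.TreeMin
import Fermat.Agent.LanglandsTunnell.Basic

/-!
# The standard axis of the tree and diagonal isometries

The translation `axisPerm` along the standard axis; every vertex is a diagonal translate of a
unipotent one (`exists_diag_unip`), so a regular diagonal element has finitely many fixed
vertices over each axis vertex (`finite_fixed`).
-/

set_option autoImplicit false
set_option linter.unusedSectionVars false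

noncomputable section

namespace FLTAgent.LanglandsTunnell.Local

open Matrix FLTAgent.LanglandsTunnell

namespace IsUnifRing

variable {O L : Type} [CommRing O] [CommRing L] {φ : O →+* L} {π : O} (U : IsUnifRing φ π)

include U

theorem not_pi_inv : ¬ ∃ o, φ o = (↑U.pi_unit.unit⁻¹ : L) := by
  rintro ⟨o, ho⟩
  refine U.not_unit (IsUnit.of_mul_eq_one o (U.inj ?_))
  rw [map_mul, map_one, ho, IsUnit.mul_val_inv]

theorem nonempty_vert : Nonempty (Vert φ) := ⟨(1 : GL (Fin 2) L)⟩

omit U in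
/-- `diag(π, 1)`. -/
def axisGL (U : IsUnifRing φ π) : GL (Fin 2) L := diagUnit U.pi_unit.unit

omit U in
/-- The translation along the standard axis. -/
def axisPerm (U : IsUnifRing φ π) : Equiv.Perm (Vert φ) := actPerm U.axisGL

theorem axisGL_val : U.axisGL.1 = (!![π, 0; 0, 1] : Matrix (Fin 2) (Fin 2) O).map φ := by
  ext i j
  fin_cases i <;> fin_cases j <;> simp [axisGL, diagUnit]

theorem isIsom_axisPerm : (U.tree).IsIsom U.axisPerm := U.isIsom_actPerm _

theorem trace_of_mem {x : GL (Fin 2) L} (hx : x ∈ levelK φ 1) :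
    ∃ r, φ r = x.1.trace ^ 2 * (↑(GeneralLinearGroup.det x)⁻¹ : L) := by
  obtain ⟨c, k, hk, rfl⟩ := mem_levelK.mp hx
  obtain ⟨k₀, -, rfl⟩ := exists_units_of_mem_congrGroup U.inj hk
  refine ⟨k₀.1.trace ^ 2 * ↑(GeneralLinearGroup.det k₀)⁻¹, ?_⟩
  rw [← Units.mul_left_inj (GeneralLinearGroup.det
      (GeneralLinearGroup.scalar (Fin 2) c * GeneralLinearGroup.map φ k₀)),
    mul_assoc (_ ^ 2), Units.inv_mul, mul_one]
  simp only [GeneralLinearGroup.val_det_apply, Units.val_mul, GeneralLinearGroup.coe_scalar,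
    Matrix.scalar_apply, ← Matrix.smul_one_eq_diagonal, Matrix.smul_mul, Matrix.one_mul,
    Matrix.det_smul, Matrix.trace_smul, Fintype.card_fin, smul_eq_mul]
  have hdet : (GeneralLinearGroup.map φ k₀).1.det = φ k₀.1.det := (φ.map_det _).symm
  have htr : (GeneralLinearGroup.map φ k₀).1.trace = φ k₀.1.trace := by
    simp [Matrix.trace, Fin.sum_univ_two]
  rw [hdet, htr, map_mul, map_pow]
  have : φ ↑(GeneralLinearGroup.det k₀)⁻¹ * φ k₀.1.det = 1 := by
    rw [← map_mul, ← GeneralLinearGroup.val_det_apply, Units.inv_mul, map_one]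
  linear_combination ((φ k₀.1.trace) ^ 2 * (c : L) ^ 2) * this

theorem axis_pow_not_fixed {n : ℕ} (hn : n ≠ 0) (u : Vert φ) : actPerm (U.axisGL ^ n) u ≠ u := by
  induction u using QuotientGroup.induction_on with
  | H g =>
    intro he
    have hmem : g⁻¹ * (U.axisGL ^ n) * g ∈ levelK φ 1 := by
      have h := QuotientGroup.eq.mp
        (show ((U.axisGL ^ n * g : GL (Fin 2) L) : Vert φ) = g from he).symm
      rwa [mul_assoc]
    obtain ⟨r, hr⟩ := U.trace_of_mem hmem
    have hpow : ∀ n : ℕ, (U.axisGL ^ n).1 = !![φ π ^ n, 0; 0, 1] := fun n => by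
      induction n with
      | zero =>
        rw [pow_zero, pow_zero, Units.val_one]
        ext i j
        fin_cases i <;> fin_cases j <;> simp
      | succ n ih =>
        rw [pow_succ, Units.val_mul, ih, U.axisGL_val]
        ext i j
        fin_cases i <;> fin_cases j <;> simp [Matrix.mul_apply, Fin.sum_univ_two, pow_succ]
    rw [map_mul, map_mul, map_inv, mul_comm ((GeneralLinearGroup.det g)⁻¹),
      inv_mul_cancel_right, Units.val_mul, Matrix.trace_mul_comm, Units.val_mul, ← mul_assoc,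
      Units.mul_inv, one_mul, hpow, Matrix.trace_fin_two_of] at hr
    have hd : ((GeneralLinearGroup.det (U.axisGL ^ n) : Lˣ) : L) = φ π ^ n := by
      rw [GeneralLinearGroup.val_det_apply, hpow, Matrix.det_fin_two_of]; ring
    obtain ⟨m, rfl⟩ := Nat.exists_eq_succ_of_ne_zero hn
    refine U.not_pi_inv ⟨(r - π ^ (m + 1) - 2) * π ^ m, ?_⟩
    have hu : (↑(GeneralLinearGroup.det (U.axisGL ^ (m + 1)))⁻¹ : L) * φ π ^ (m + 1) = 1 := by
      rw [← hd, Units.inv_mul]
    refine (U.pi_unit).mul_left_cancel ?_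
    rw [IsUnit.mul_val_inv]
    set D : L := ↑(GeneralLinearGroup.det (U.axisGL ^ (m + 1)))⁻¹ with hD
    have hr' : φ r = (φ π ^ (m + 1) + 1) ^ 2 * D := hr
    rw [map_mul, map_sub, map_sub, map_pow, map_pow, map_ofNat, hr']
    linear_combination (φ π ^ (2 * (m + 1)) + 2 * φ π ^ (m + 1) + 1 - φ π * φ π ^ m * 0) * 0 * hu +
      (φ π ^ (m + 1) * (φ π ^ (m + 1) + 2)) * hu + hu

theorem minD_axis : (U.tree).minD U.axisPerm = 1 := by
  have := U.nonempty_vert
  have h0 : (U.tree).minD U.axisPerm ≠ 0 := fun e => by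
    obtain ⟨u, hu⟩ := ((U.tree).minD_eq_zero_iff _).mp e
    exact U.axis_pow_not_fixed one_ne_zero u (by rwa [pow_one])
  have h1 : (U.tree).disp U.axisPerm ((1 : GL (Fin 2) L) : Vert φ) = 1 := by
    show U.nd ((1 : GL (Fin 2) L)⁻¹ * (U.axisGL * 1)) = 1
    rw [inv_one, one_mul, mul_one]
    exact U.nd_eq (A := !![π, 0; 0, 1]) ⟨⟨1, 1, by simp⟩, ⟨1, by simp⟩, 1,
      by rw [U.axisGL_val, Units.val_one, one_smul]⟩
  have := (U.tree).minD_le U.axisPerm ((1 : GL (Fin 2) L) : Vert φ)
  omega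

theorem minDeg_axis {u : Vert φ} (hu : (U.tree).depth U.axisPerm u = 0) :
    (U.tree).minDeg U.axisPerm u = 2 := by
  have := U.nonempty_vert
  rcases (U.tree).minDeg_cases U.isIsom_axisPerm hu (by rw [U.minD_axis]; simp)
    with ⟨-, -, h⟩ | ⟨h, -⟩
  · refine absurd ?_ (U.axis_pow_not_fixed two_ne_zero u)
    rw [pow_two]
    show (U.axisGL * U.axisGL) • u = u
    rw [mul_smul]
    exact h
  · exact h

/-- An isometry commuting with the translation fixes or translates the axis. -/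
theorem axis_sub {g : Equiv.Perm (Vert φ)} (hg : (U.tree).IsIsom g)
    (hc : ∀ u, g (U.axisPerm u) = U.axisPerm (g u)) {u : Vert φ}
    (hu : (U.tree).depth U.axisPerm u = 0) : (U.tree).depth g u = 0 := by
  have := U.nonempty_vert
  have hh := U.isIsom_axisPerm
  have h2 : U.axisPerm (U.axisPerm u) ≠ u := by
    rcases (U.tree).minDeg_cases hh hu (by rw [U.minD_axis]; simp) with ⟨h, -⟩ | ⟨-, h, -⟩
    · rw [U.minDeg_axis hu] at h; omega
    · exact h
  have hd : (U.tree).d u (U.axisPerm u) = 1 := U.minD_axis ▸ ((U.tree).depth_eq_zero_iff hh u).mp hu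
  refine (U.tree).depth_eq_zero_of_adj hg hd ?_
  exact ((U.tree).disp_commute hg hh (fun v => (hc v).symm) u).symm

omit U in
/-- The unipotent element. -/
def unip (x : L) : GL (Fin 2) L := upperUnip x

theorem depth_unip (k : ℕ) :
    (U.tree).depth U.axisPerm ((unip ((↑U.pi_unit.unit⁻¹ : L) ^ k) : GL (Fin 2) L) : Vert φ) =
      k := by
  have := U.nonempty_vert
  cases k with
  | zero =>
    rw [(U.tree).depth_eq_zero_iff U.isIsom_axisPerm, U.minD_axis]
    show U.nd ((unip ((↑U.pi_unit.unit⁻¹ : L) ^ 0))⁻¹ *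
      (U.axisGL * unip ((↑U.pi_unit.unit⁻¹ : L) ^ 0))) = 1
    refine U.nd_eq (A := !![π, π - 1; 0, 1]) ⟨⟨1, 1, by simp⟩, ⟨1, by simp⟩, 1, ?_⟩
    rw [Units.val_one, one_smul, Units.val_mul, Units.val_mul, U.axisGL_val]
    ext i j
    fin_cases i <;> fin_cases j <;>
      simp [unip, upperUnip, Matrix.mul_apply, Fin.sum_univ_two]
    ring
  | succ k =>
    have h : (U.tree).disp U.axisPerm
        ((unip ((↑U.pi_unit.unit⁻¹ : L) ^ (k + 1)) : GL (Fin 2) L) : Vert φ) = 2 * (k + 1) + 1 := by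
      show U.nd ((unip ((↑U.pi_unit.unit⁻¹ : L) ^ (k + 1)))⁻¹ *
        (U.axisGL * unip ((↑U.pi_unit.unit⁻¹ : L) ^ (k + 1)))) = _
      refine U.nd_eq (A := !![π ^ (k + 2), π - 1; 0, π ^ (k + 1)])
        ⟨⟨0, 1, ?_⟩, ⟨1, ?_⟩, U.pi_unit.unit⁻¹ ^ (k + 1), ?_⟩
      · rcases U.unit_or (π - 1) with ⟨e, he⟩ | h
        · exact absurd (IsUnit.of_mul_eq_one (1 - e) (by linear_combination he)) U.not_unit
        · simpa using h
      · rw [Matrix.det_fin_two_of, Units.val_one]; ring
      · rw [Units.val_mul, Units.val_mul, U.axisGL_val, Units.val_pow_eq_pow_val]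
        have hp : (↑U.pi_unit.unit⁻¹ : L) * φ π = 1 := IsUnit.val_inv_mul _
        have hp' : (↑U.pi_unit.unit⁻¹ : L) ^ (k + 1) * φ π ^ (k + 1) = 1 := by
          rw [← mul_pow, hp, one_pow]
        ext i j
        fin_cases i <;> fin_cases j <;>
          simp [unip, upperUnip, Matrix.mul_apply, Fin.sum_univ_two]
        · linear_combination -φ π * hp'
        · ring
        · linear_combination -hp'
    have := (U.tree).disp_eq_depth U.isIsom_axisPerm
      ((unip ((↑U.pi_unit.unit⁻¹ : L) ^ (k + 1)) : GL (Fin 2) L) : Vert φ)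
    rw [h, U.minD_axis] at this
    omega

omit U in
/-- A diagonal element. -/
def diagGL (a d : Lˣ) : GL (Fin 2) L where
  val := !![(a : L), 0; 0, (d : L)]
  inv := !![((a⁻¹ : Lˣ) : L), 0; 0, ((d⁻¹ : Lˣ) : L)]
  val_inv := by ext i j; fin_cases i <;> fin_cases j <;> simp
  inv_val := by ext i j; fin_cases i <;> fin_cases j <;> simp

theorem diagGL_comm (a d : Lˣ) (u : Vert φ) :
    actPerm (diagGL a d) (U.axisPerm u) = U.axisPerm (actPerm (diagGL a d) u) := by
  show diagGL a d • U.axisGL • u = U.axisGL • diagGL a d • u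
  rw [smul_smul, smul_smul]
  congr 1
  refine Units.ext ?_
  rw [Units.val_mul, Units.val_mul, U.axisGL_val]
  ext i j
  fin_cases i <;> fin_cases j <;> simp [diagGL, Matrix.mul_apply, Fin.sum_univ_two, mul_comm]

/-- Every vertex is a diagonal translate of a unipotent one. -/
theorem exists_diag_unip (u : Vert φ) :
    ∃ (a d : Lˣ) (k : ℕ),
      u = ((diagGL a d * unip ((↑U.pi_unit.unit⁻¹ : L) ^ k) : GL (Fin 2) L) : Vert φ) ∧
        (U.tree).depth U.axisPerm u = k := by
  have := U.nonempty_vert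
  suffices ∃ (a d : Lˣ) (k : ℕ),
      u = ((diagGL a d * unip ((↑U.pi_unit.unit⁻¹ : L) ^ k) : GL (Fin 2) L) : Vert φ) by
    obtain ⟨a, d, k, rfl⟩ := this
    refine ⟨a, d, k, rfl, ?_⟩
    have := (U.tree).depth_commute U.isIsom_axisPerm (U.isIsom_actPerm (diagGL a d))
      (U.diagGL_comm a d) ((unip ((↑U.pi_unit.unit⁻¹ : L) ^ k) : GL (Fin 2) L) : Vert φ)
    exact this.trans (U.depth_unip k)
  induction u using QuotientGroup.induction_on with
  | H g =>
    obtain ⟨A, -, ⟨v, hv⟩, c, hc⟩ := U.nd_spec g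
    -- make the matrix upper triangular by a column operation
    obtain ⟨K, hK⟩ : ∃ K : GL (Fin 2) O, (A * K.1) 1 0 = 0 := by
      by_cases h0 : A 1 1 = 0
      · exact ⟨⟨!![0, 1; 1, 0], !![0, 1; 1, 0],
          by ext i j; fin_cases i <;> fin_cases j <;> simp,
          by ext i j; fin_cases i <;> fin_cases j <;> simp⟩,
          by simp [Matrix.mul_apply, Fin.sum_univ_two, h0]⟩
      by_cases h1 : A 1 0 = 0
      · exact ⟨1, by simp [h1]⟩
      obtain ⟨n, e, he⟩ := U.expand _ h1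
      obtain ⟨m, f, hf⟩ := U.expand _ h0
      rcases le_total m n with hle | hle
      · obtain ⟨l, rfl⟩ := Nat.exists_eq_add_of_le hle
        refine ⟨⟨!![1, 0; -(π ^ l * e * ↑f⁻¹), 1], !![1, 0; π ^ l * e * ↑f⁻¹, 1],
          by ext i j; fin_cases i <;> fin_cases j <;> simp,
          by ext i j; fin_cases i <;> fin_cases j <;> simp⟩, ?_⟩
        simp [Matrix.mul_apply, Fin.sum_univ_two, he, hf, pow_add]
        linear_combination (-(π ^ m * π ^ l * e)) * f.mul_inv
      · obtain ⟨l, rfl⟩ := Nat.exists_eq_add_of_le hle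
        refine ⟨⟨!![-(π ^ l * f * ↑e⁻¹), 1; 1, 0], !![0, 1; 1, π ^ l * f * ↑e⁻¹],
          by ext i j; fin_cases i <;> fin_cases j <;> simp,
          by ext i j; fin_cases i <;> fin_cases j <;> simp⟩, ?_⟩
        simp [Matrix.mul_apply, Fin.sum_univ_two, he, hf, pow_add]
        linear_combination (-(π ^ n * π ^ l * f)) * e.mul_inv
    have hmk : ∀ {x : GL (Fin 2) L} (k : GL (Fin 2) O),
        ((x * GeneralLinearGroup.map φ k : GL (Fin 2) L) : Vert φ) = (x : Vert φ) := fun k => by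
      rw [QuotientGroup.eq]
      refine le_sup_left (a := congrGroup φ 1) ?_
      rw [_root_.mul_inv_rev, inv_mul_cancel_right]
      exact inv_mem (map_mem_congrGroup (isCongrOne_of_isUnit isUnit_one _))
    rw [← hmk K]
    set g' := g * GeneralLinearGroup.map φ K
    have hg10 : g'.1 1 0 = 0 := by
      show ((g.1) * (K.1.map φ)) 1 0 = 0
      rw [hc, Matrix.smul_mul, ← Matrix.map_mul, Matrix.smul_apply, Matrix.map_apply, hK, map_zero,
        smul_zero]
    have hdet : IsUnit (g'.1 0 0 * g'.1 1 1) := by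
      have := (Matrix.isUnit_iff_isUnit_det _).mp g'.isUnit
      rwa [Matrix.det_fin_two, hg10, mul_zero, sub_zero] at this
    set a₀ := (isUnit_of_mul_isUnit_left hdet).unit with ha₀
    set d₀ := (isUnit_of_mul_isUnit_right hdet).unit with hd₀
    obtain ⟨n, o, ho⟩ := U.frac (↑a₀⁻¹ * g'.1 0 1)
    have hg' : g' = diagGL a₀ d₀ * unip (↑a₀⁻¹ * g'.1 0 1) := by
      refine Units.ext (Matrix.ext fun i j => ?_)
      fin_cases i <;> fin_cases j <;>
        simp [unip, upperUnip, diagGL, Matrix.mul_apply, Fin.sum_univ_two, hg10, ha₀, hd₀,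
          ← mul_assoc]
    rw [hg']
    have hint : ∀ (a d : Lˣ) (o : O), ∃ k,
        ((diagGL a d * unip (φ o) : GL (Fin 2) L) : Vert φ) =
          ((diagGL a d * unip ((↑U.pi_unit.unit⁻¹ : L) ^ k) : GL (Fin 2) L) : Vert φ) :=
        fun a d o => by
      refine ⟨0, ?_⟩
      rw [← hmk (x := diagGL a d * unip (φ o)) (upperUnip (R := O) (1 - o)), mul_assoc]
      congr 2
      refine Units.ext (Matrix.ext fun i j => ?_)
      fin_cases i <;> fin_cases j <;>
        simp [unip, upperUnip, Matrix.mul_apply, Fin.sum_univ_two]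
    by_cases ho0 : o = 0
    · refine ⟨a₀, d₀, ?_⟩
      rw [show (↑a₀⁻¹ * g'.1 0 1 : L) = φ 0 from (U.pi_unit.pow n).mul_left_cancel (by
        rw [ho, ho0, map_zero, mul_zero])]
      exact hint a₀ d₀ 0
    obtain ⟨m, w, rfl⟩ := U.expand o ho0
    rcases le_total n m with hle | hle
    · obtain ⟨l, rfl⟩ := Nat.exists_eq_add_of_le hle
      refine ⟨a₀, d₀, ?_⟩
      rw [show (↑a₀⁻¹ * g'.1 0 1 : L) = φ (π ^ l * w) from (U.pi_unit.pow n).mul_left_cancel (by
        rw [ho, pow_add, mul_assoc, map_mul (f := φ) (π ^ n), map_pow])]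
      exact hint a₀ d₀ _
    · obtain ⟨l, rfl⟩ := Nat.exists_eq_add_of_le hle
      set W := Units.map φ.toMonoidHom w
      refine ⟨a₀ * W, d₀, l, ?_⟩
      rw [show (↑a₀⁻¹ * g'.1 0 1 : L) = φ w * (↑U.pi_unit.unit⁻¹ : L) ^ l from
        (U.pi_unit.pow (m + l)).mul_left_cancel (by
          rw [ho, map_mul, map_pow, pow_add]
          have hp : (φ π * (↑U.pi_unit.unit⁻¹ : L)) ^ l = 1 := by rw [IsUnit.mul_val_inv, one_pow]
          linear_combination (-(φ π ^ m * φ w)) * hp + (φ π ^ m * φ w) * (mul_pow (φ π) _ l))]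
      rw [← hmk (x := diagGL a₀ d₀ * unip _) (diagUnit w)]
      congr 1
      refine Units.ext (Matrix.ext fun i j => ?_)
      fin_cases i <;> fin_cases j <;>
        simp [W, unip, upperUnip, diagGL, diagUnit, Matrix.mul_apply, Matrix.vecMul, dotProduct,
          Fin.sum_univ_two, mul_assoc]

/-- The vertices fixed by a regular diagonal element have bounded depth. -/
theorem exists_depth_bound {a d : Lˣ} (had : a ≠ d) :
    ∃ B, ∀ u, actPerm (diagGL a d) u = u → (U.tree).depth U.axisPerm u ≤ B := by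
  have := U.nonempty_vert
  obtain ⟨n, o, ho⟩ := U.frac ((a : L) * ↑d⁻¹ - 1)
  have ho0 : o ≠ 0 := fun h => by
    rw [h, map_zero] at ho
    have := (U.pi_unit.pow n).mul_right_eq_zero.mp ho
    exact had (Units.ext (by
      linear_combination (d : L) * this - (a : L) * d.inv_mul))
  obtain ⟨r, w, hw⟩ := U.expand o ho0
  refine ⟨r, fun u hu => ?_⟩
  obtain ⟨a', d', k, rfl, hk⟩ := U.exists_diag_unip u
  rw [hk]
  set x := unip ((↑U.pi_unit.unit⁻¹ : L) ^ k)
  have hmem : x⁻¹ * diagGL a d * x ∈ levelK φ 1 := by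
    have h := QuotientGroup.eq.mp
      (show ((diagGL a d * (diagGL a' d' * x) : GL (Fin 2) L) : Vert φ) =
      ((diagGL a' d' * x : GL (Fin 2) L) : Vert φ) from hu).symm
    have hcomm : diagGL a d * diagGL a' d' = diagGL a' d' * diagGL a d := by
      refine Units.ext (Matrix.ext fun i j => ?_)
      fin_cases i <;> fin_cases j <;> simp [diagGL, Matrix.mul_apply, Fin.sum_univ_two, mul_comm]
    rw [← mul_assoc (diagGL a d), hcomm] at h
    rwa [show x⁻¹ * diagGL a d * x = (diagGL a' d' * x)⁻¹ * (diagGL a' d' * diagGL a d * x)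
      by group]
  obtain ⟨c, k₁, hk₁, he⟩ := mem_levelK.mp hmem
  obtain ⟨K, -, rfl⟩ := exists_units_of_mem_congrGroup U.inj hk₁
  have he' : ∀ i j, (x⁻¹ * diagGL a d * x).1 i j = (c : L) * φ (K.1 i j) := fun i j => by
    rw [he]
    simp [GeneralLinearGroup.coe_scalar, Matrix.scalar_apply]
  have e00 := he' 0 0
  have e01 := he' 0 1
  have e10 := he' 1 0
  have e11 := he' 1 1
  simp [x, unip, upperUnip, diagGL, Matrix.mul_apply, Fin.sum_univ_two] at e00 e01 e10 e11
  have hK10 : K.1 1 0 = 0 :=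
    U.inj (by rw [map_zero]; exact (c.isUnit.mul_right_eq_zero).mp e10.symm)
  have hKu : IsUnit (K.1 0 0) ∧ IsUnit (K.1 1 1) := by
    have := (Matrix.isUnit_iff_isUnit_det _).mp K.isUnit
    rw [Matrix.det_fin_two, hK10, mul_zero, sub_zero] at this
    exact ⟨isUnit_of_mul_isUnit_left this, isUnit_of_mul_isUnit_right this⟩
  by_contra hlt
  obtain ⟨l, rfl⟩ : ∃ l, k = r + (l + 1) := ⟨k - r - 1, by omega⟩
  refine U.not_unit ?_
  have hP : φ π ^ (r + (l + 1)) * (↑U.pi_unit.unit⁻¹ : L) ^ (r + (l + 1)) = 1 := by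
    rw [← mul_pow, IsUnit.mul_val_inv, one_pow]
  have hkey : π ^ r * (w * K.1 1 1) = π ^ r * (π ^ (n + (l + 1)) * K.1 0 1) := U.inj (by
    rw [← mul_assoc, ← hw, ← mul_assoc, ← pow_add,
      show r + (n + (l + 1)) = n + (r + (l + 1)) by ring,
      map_mul, ← ho, map_mul, map_pow, pow_add]
    refine (c.isUnit).mul_left_cancel ?_
    linear_combination (φ π ^ n * φ π ^ (r + (l + 1))) * e01
      - (φ π ^ n * ((a : L) * ↑d⁻¹ - 1)) * e11 + φ π ^ n * (a : L) * d.inv_mul
      - φ π ^ n * ((a : L) - d) * hP)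
  have := U.pow_mul_cancel hkey
  rw [pow_add π n, pow_succ] at this
  refine isUnit_of_mul_isUnit_left (y := π ^ n * π ^ l * K.1 0 1) ?_
  rw [show π * (π ^ n * π ^ l * K.1 0 1) = π ^ n * (π ^ l * π) * K.1 0 1 by ring, ← this]
  exact w.isUnit.mul hKu.2

/-- Finiteness of the fixed vertices over an axis vertex. -/
theorem finite_fixed {a d : Lˣ} (had : a ≠ d) (z : Vert φ) :
    {u | actPerm (diagGL a d) u = u ∧ (U.tree).proj U.axisPerm u = z}.Finite := by
  have := U.nonempty_vert
  obtain ⟨B, hB⟩ := U.exists_depth_bound had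
  by_cases hz : (U.tree).depth U.axisPerm z = 0
  · exact ((U.tree).fibre_finite U.isIsom_axisPerm hz B).subset fun u hu => ⟨hu.2, hB u hu.1⟩
  · exact Set.finite_empty.subset fun u hu => hz (hu.2 ▸ (U.tree).depth_proj U.isIsom_axisPerm u)

end IsUnifRing

end FLTAgent.LanglandsTunnell.Local
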