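import Fermat.Agent.LanglandsTunnell.Local.InertPlace
import Fermat.Agent.LanglandsTunnell.Local.TreeAxis
import Fermat.Agent.LanglandsTunnell.Local.Place

/-!
# Operators on the tree are radial

The kernel of the operator is the adjacency kernel `adjKer`; its iterates are the radial kernels
of `InertKernels`, and at a uniformised place it is the neighbour kernel (`nbrKer_eq`).
-/

set_option autoImplicit false

noncomputable section

namespace FLTAgent.LanglandsTunnell.Local

open Matrix FLTAgent.LanglandsTunnell

namespace RegTree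

variable {V : Type*} (T : RegTree V)

/-- The sum of a radial function over the neighbours. -/
theorem finsum_nbrs (v w : V) (φ : ℕ → ℂ) :
    ∑ᶠ u ∈ {u | T.d v u = 1}, φ (T.d u w) = nstep T.q φ (T.d v w) := by
  classical
  rw [finsum_mem_eq_finite_toFinset_sum _ (T.nbrs_finite v)]
  have hcard : (T.nbrs_finite v).toFinset.card = T.q + 1 := by
    rw [← Set.ncard_eq_toFinset_card _ (T.nbrs_finite v), T.card_nbrs]
  rcases h : T.d v w with _ | k
  · obtain rfl := (T.d_eq_zero v w).mp h
    rw [Finset.sum_congr rfl fun u hu => by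
      rw [T.d_comm u v, show T.d v u = 1 from (T.nbrs_finite v).mem_toFinset.mp hu]]
    rw [Finset.sum_const, hcard, nsmul_eq_mul, nstep]
    push_cast
    ring
  · obtain ⟨a, ha, ha', hbad⟩ := T.step v w k h
    have hmem : a ∈ (T.nbrs_finite v).toFinset := (T.nbrs_finite v).mem_toFinset.mpr ha
    rw [← Finset.add_sum_erase _ _ hmem, Finset.sum_congr rfl fun u hu => by
      rw [hbad u ((T.nbrs_finite v).mem_toFinset.mp (Finset.mem_of_mem_erase hu))
        (Finset.ne_of_mem_erase hu)]]
    rw [ha', Finset.sum_const, Finset.card_erase_of_mem hmem, hcard, nsmul_eq_mul, nstep,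
      Nat.add_sub_cancel]

/-- The kernel of the operator. -/
def adjKer (u v : V) : ℂ := {v | T.d u v = 1}.indicator 1 v

theorem finRows_adjKer : SplitPlace.FinRows T.adjKer := fun u =>
  (T.nbrs_finite u).subset fun _ hv => Set.mem_of_indicator_ne_zero hv

theorem comp_adjKer (φ : ℕ → ℂ) :
    SplitPlace.comp T.adjKer (fun u v => φ (T.d u v)) = fun u v => nstep T.q φ (T.d u v) := by
  funext u w
  rw [SplitPlace.comp, ← T.finsum_nbrs, finsum_mem_def]
  exact finsum_congr fun z => by simp [adjKer, Set.indicator_apply]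

theorem idKer_eq : (idKer : V → V → ℂ) = fun u v => δ0 (T.d u v) := by
  funext u v
  rcases h : T.d u v with _ | k
  · rw [(T.d_eq_zero u v).mp h, idKer_self]; rfl
  · rw [idKer_ne fun e => by rw [e, T.d_self] at h; omega]; rfl

theorem iterKer_adjKer (n : ℕ) :
    iterKer T.adjKer n = fun u v => ((nstep T.q)^[n] δ0) (T.d u v) := by
  induction n with
  | zero => exact T.idKer_eq
  | succ n ih =>
    rw [iterKer, ih, T.comp_adjKer]
    funext u v
    rw [Function.iterate_succ_apply']

/-- The image of one letter of degree three. -/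
theorem descKer_eq :
    (fun u v : V => iterKer T.adjKer 3 u v + -(3 * (T.q : ℂ)) * iterKer T.adjKer 1 u v) =
      fun u v => kerE T.q 1 (T.d u v) := by
  funext u v
  rw [T.iterKer_adjKer, T.iterKer_adjKer]
  show nstep T.q (nstep T.q (nstep T.q δ0)) _ + -(3 * (T.q : ℂ)) * nstep T.q δ0 _ =
    descStep T.q δ0 _
  rw [descStep]
  ring

theorem kerM_one_eq (q : ℕ) (hq : T.q = q ^ 3) :
    iterKer T.adjKer 1 = fun u v => kerM q 1 (T.d u v) := by
  rw [T.iterKer_adjKer, hq]
  rfl

end RegTree

namespace IsUnifRing

variable {O L : Type} [CommRing O] [CommRing L] {φ : O →+* L} {π : O} (U : IsUnifRing φ π)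

include U

theorem stepGL_some (r : O ⧸ Ideal.span {π}) :
    U.stepGL (some r) = unip (φ (Quotient.out r)) * U.axisGL := by
  refine Units.ext (Matrix.ext fun i j => ?_)
  rw [Units.val_mul, U.axisGL_val, U.stepGL_val]
  fin_cases i <;> fin_cases j <;>
    simp [stepMat, unip, upperUnip, Matrix.mul_apply, Fin.sum_univ_two]

theorem nd_diag {π' : O} {ε : Oˣ} (h : π' = π * ε) {P : Lˣ} (hP : φ π' = P) :
    U.nd (diagUnit P) = 1 := by
  refine U.nd_eq (A := !![π', 0; 0, 1]) ⟨⟨1, 1, by simp⟩, ⟨ε, ?_⟩, 1, ?_⟩
  · simp [Matrix.det_fin_two, h]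
  · ext i j
    fin_cases i <;> fin_cases j <;> simp [diagUnit, hP]

/-- The neighbours by the uniformizer are the adjacent vertices. -/
theorem nbrKer_eq : nbrKer φ 1 (Ideal.span {π}) = (U.tree).adjKer := by
  have hset : ∀ x, nbrSet φ 1 (Ideal.span {π}) x = {v | (U.tree).d x v = 1} := by
    intro x
    induction x using QuotientGroup.induction_on with
    | H g =>
      ext v
      constructor
      · rintro ⟨g', k, P, o, hg', hk, ho, hI, rfl⟩
        obtain ⟨ε, hε⟩ : ∃ ε : Oˣ, o = π * ε := by
          obtain ⟨a, ha⟩ := Ideal.mem_span_singleton.mp (hI ▸ Ideal.mem_span_singleton_self o :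
            o ∈ Ideal.span {π})
          obtain ⟨b, hb⟩ := Ideal.mem_span_singleton.mp (hI.symm ▸ Ideal.mem_span_singleton_self π :
            π ∈ Ideal.span {o})
          have hab : a * b = 1 := by
            refine U.pow_mul_cancel (n := 1) ?_
            rw [pow_one, ← mul_assoc, ← ha, ← hb, mul_one]
          exact ⟨⟨a, b, hab, mul_comm a b ▸ hab⟩, ha⟩
        show (U.tree).d (g : Vert φ) _ = 1
        rw [← hg', U.tree_d, show g'⁻¹ * (g' * k * diagUnit P) = k * diagUnit P by group,
          U.nd_congr_mul hk, U.nd_diag hε ho]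
      · intro hv
        obtain ⟨i, rfl⟩ : v ∈ Set.range fun i => ((g * U.stepGL i : GL (Fin 2) L) : Vert φ) :=
          U.nbrs_eq g ▸ hv
        have hunip : ∀ a : O, unip (φ a) ∈ congrGroup φ 1 := fun a => by
          refine mem_congrGroup_of_isUnit (Y := !![1, a; 0, 1]) (isCongrOne_of_isUnit isUnit_one _)
            ?_ ?_
          · rw [Matrix.isUnit_iff_isUnit_det]; simp
          · ext i j; fin_cases i <;> fin_cases j <;> simp [unip, upperUnip]
        rcases i with _ | r
        · obtain ⟨w, hw1, hw2⟩ : ∃ w : GL (Fin 2) L, w ∈ congrGroup φ 1 ∧ w.1 = !![0, 1; 1, 0] := by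
            refine ⟨GeneralLinearGroup.map φ ⟨!![0, 1; 1, 0], !![0, 1; 1, 0],
              by ext i j; fin_cases i <;> fin_cases j <;> simp,
              by ext i j; fin_cases i <;> fin_cases j <;> simp⟩,
              map_mem_congrGroup (isCongrOne_of_isUnit isUnit_one _), ?_⟩
            ext i j; fin_cases i <;> fin_cases j <;> simp
          refine ⟨g, w, U.pi_unit.unit, π, rfl, hw1, U.pi_unit.unit_spec.symm, rfl, ?_⟩
          refine QuotientGroup.eq.mpr (le_sup_left (a := congrGroup φ 1) ?_)
          rw [show (g * w * diagUnit U.pi_unit.unit)⁻¹ * (g * U.stepGL none) =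
            (w * U.axisGL)⁻¹ * U.stepGL none by rw [axisGL]; group]
          have : U.stepGL none = w * U.axisGL * w := by
            refine Units.ext (Matrix.ext fun i j => ?_)
            rw [Units.val_mul, Units.val_mul, hw2, U.axisGL_val, U.stepGL_val]
            fin_cases i <;> fin_cases j <;>
              simp [stepMat, Matrix.mul_apply, Fin.sum_univ_two, Matrix.vecMul, dotProduct]
          rw [this, inv_mul_cancel_left]
          exact hw1
        · exact ⟨g, unip (φ (Quotient.out r)), U.pi_unit.unit, π, rfl, hunip _,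
            U.pi_unit.unit_spec.symm, rfl, by
              show _ = ((g * U.stepGL (some r) : GL (Fin 2) L) : Vert φ)
              rw [U.stepGL_some, mul_assoc]; rfl⟩
  funext x y
  rw [nbrKer, RegTree.adjKer, hset]

end IsUnifRing

end FLTAgent.LanglandsTunnell.Local
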