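import Fermat.Agent.LanglandsTunnell.Local.DescWords

/-!
# Kernels of lists of letters, and their coordinates

`listKer` composes the kernels of a list of letters; on a restricted product it factors over the
coordinates (`IsRestricted.listKer_prod`), and `locWord`, `locDesc` are of this form.
-/

set_option autoImplicit false

noncomputable section

namespace FLTAgent.LanglandsTunnell.Local

variable {L X : Type*}

/-- The composition of the kernels of the letters. -/
def listKer (step : L → X → X → ℂ) : List L → X → X → ℂ
  | [] => idKer
  | w :: ws => SplitPlace.comp (step w) (listKer step ws)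

theorem finRows_listKer {step : L → X → X → ℂ} :
    ∀ {ws : List L}, (∀ w ∈ ws, SplitPlace.FinRows (step w)) → SplitPlace.FinRows (listKer step ws)
  | [], _ => finRows_idKer
  | w :: _, h => (h w List.mem_cons_self).comp
      (finRows_listKer fun x hx => h x (List.mem_cons_of_mem _ hx))

theorem listKer_append {step : L → X → X → ℂ} :
    ∀ {A : List L} (B : List L), (∀ w ∈ A, SplitPlace.FinRows (step w)) →
      listKer step (A ++ B) = SplitPlace.comp (listKer step A) (listKer step B)
  | [], B, _ => by rw [List.nil_append, listKer, comp_idKer_left]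
  | w :: A, B, h => by
    have hA : ∀ x ∈ A, SplitPlace.FinRows (step x) := fun x hx => h x (List.mem_cons_of_mem _ hx)
    rw [List.cons_append, listKer, listKer, listKer_append B hA,
      SplitPlace.comp_assoc (h w List.mem_cons_self) (finRows_listKer hA)]

theorem listKer_eq_idKer {step : L → X → X → ℂ} :
    ∀ {ws : List L}, (∀ w ∈ ws, step w = idKer) → listKer step ws = idKer
  | [], _ => rfl
  | w :: ws, h => by
    rw [listKer, h w List.mem_cons_self, comp_idKer_left,
      listKer_eq_idKer fun x hx => h x (List.mem_cons_of_mem _ hx)]

/-- Letters acting trivially can be left out. -/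
theorem listKer_filter {step : L → X → X → ℂ} {P : L → Prop} [DecidablePred P] :
    ∀ {ws : List L}, (∀ w ∈ ws, ¬ P w → step w = idKer) →
      listKer step ws = listKer step (ws.filter fun w => decide (P w))
  | [], _ => rfl
  | w :: ws, h => by
    have h' : ∀ x ∈ ws, ¬ P x → step x = idKer := fun x hx => h x (List.mem_cons_of_mem _ hx)
    by_cases hw : P w
    · rw [List.filter_cons_of_pos (by simpa using hw), listKer, listKer, listKer_filter h']
    · rw [List.filter_cons_of_neg (by simpa using hw), listKer, h w List.mem_cons_self hw,
        comp_idKer_left, listKer_filter h']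

/-- Equal letters give powers. -/
theorem listKer_const {step : L → X → X → ℂ} {k : X → X → ℂ} :
    ∀ {ws : List L}, (∀ w ∈ ws, step w = k) → listKer step ws = iterKer k ws.length
  | [], _ => rfl
  | w :: ws, h => by
    rw [listKer, List.length_cons, iterKer, h w List.mem_cons_self,
      listKer_const fun x hx => h x (List.mem_cons_of_mem _ hx)]

theorem listKer_map {L' : Type*} (step : L' → X → X → ℂ) (f : L → L') :
    ∀ ws : List L, listKer step (ws.map f) = listKer (fun w => step (f w)) ws
  | [] => rfl
  | w :: ws => by rw [List.map_cons, listKer, listKer, listKer_map step f ws]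

variable {ι : Type*} [Fintype ι] {Y : ι → Type*} {base : ∀ i, Y i} {co : ∀ i, X → Y i}

/-- The identity is the product of the identities. -/
theorem IsRestricted.idKer_eq (hX : IsRestricted base co) (x x' : X) :
    idKer x x' = prodKer (fun i => (idKer : Y i → Y i → ℂ)) co x x' := by
  classical
  rw [prodKer, finprod_eq_prod_of_fintype]
  by_cases h : x = x'
  · rw [h, idKer_self, Finset.prod_eq_one fun i _ => idKer_self _]
  · obtain ⟨i, hi⟩ := not_forall.mp fun hall => h (hX.ext hall)
    rw [idKer_ne h]
    exact (Finset.prod_eq_zero (f := fun i => idKer (co i x) (co i x')) (Finset.mem_univ i)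
      (idKer_ne hi)).symm

/-- **Lists factor over coordinates.** -/
theorem IsRestricted.listKer_prod (hX : IsRestricted base co) {step : L → X → X → ℂ}
    {stepC : L → ∀ i, Y i → Y i → ℂ} :
    ∀ {ws : List L}, (∀ w ∈ ws, ∀ i, SplitPlace.FinRows (stepC w i)) →
      (∀ w ∈ ws, ∀ x x', step w x x' = prodKer (stepC w) co x x') →
      ∀ x x', listKer step ws x x' = prodKer (fun i => listKer (fun w => stepC w i) ws) co x x'
  | [], _, _, x, x' => hX.idKer_eq x x'
  | w :: ws, hfin, hstep, x, x' => by
    have hfin' : ∀ v ∈ ws, ∀ i, SplitPlace.FinRows (stepC v i) :=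
      fun v hv => hfin v (List.mem_cons_of_mem _ hv)
    have hstep' : ∀ v ∈ ws, ∀ x x', step v x x' = prodKer (stepC v) co x x' :=
      fun v hv => hstep v (List.mem_cons_of_mem _ hv)
    show ∑ᶠ u, step w x u * listKer step ws u x' = _
    rw [finsum_congr fun u => by
      rw [hstep w List.mem_cons_self, listKer_prod hX hfin' hstep' u x']]
    refine (hX.prodKer_comp (S := Finset.univ) (fun i hi => absurd (Finset.mem_univ i) hi)
      (fun i hi => absurd (Finset.mem_univ i) hi)
      (fun i _ => hfin w List.mem_cons_self i) x x').trans ?_
    rfl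

/-- Products of compositions. -/
theorem IsRestricted.comp_prod (hX : IsRestricted base co) {f g : X → X → ℂ}
    {fC gC : ∀ i, Y i → Y i → ℂ} (hfin : ∀ i, SplitPlace.FinRows (fC i))
    (hf : ∀ x x', f x x' = prodKer fC co x x') (hg : ∀ x x', g x x' = prodKer gC co x x')
    (x x' : X) :
    SplitPlace.comp f g x x' =
      prodKer (fun i => SplitPlace.comp (fC i) (gC i)) co x x' := by
  show ∑ᶠ u, f x u * g u x' = _
  rw [finsum_congr fun u => by rw [hf, hg]]
  exact (hX.prodKer_comp (S := Finset.univ) (fun i hi => absurd (Finset.mem_univ i) hi)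
    (fun i hi => absurd (Finset.mem_univ i) hi) (fun i _ => hfin i) x x').trans rfl

section Letters

open NumberField FLTAgent.LanglandsTunnell

variable {F : Type} [Field F] [NumberField F]

omit [NumberField F] in
theorem locWord_eq_listKer (N : ℕ) (p : Nat.Primes) :
    ∀ ws : List (Ideal (𝓞 F)), locWord N p ws = listKer (stepKer N p) ws
  | [] => rfl
  | w :: ws => by rw [locWord, listKer, locWord_eq_listKer N p ws]

theorem locDesc_eq_listKer {D : Datum} (N : ℕ) (p : Nat.Primes) :
    ∀ ws : List (Ideal (𝓞 D.M)), locDesc (D := D) N p ws = listKer (descStepKer (D := D) N p) ws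
  | [] => rfl
  | w :: ws => by rw [locDesc, listKer, locDesc_eq_listKer N p ws]

end Letters

end FLTAgent.LanglandsTunnell.Local
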