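import Fermat.Agent.LanglandsTunnell.Local.Levels

/-!
# The local setting of a cubic extension: twist, torus Hilbert 90, unit and ramified places

`LocalCubic` is the local setting with an automorphism of order three, with the maps `θ`, `ι` of
`GL(2)` and the norm `nrm`; `exists_twist_eq` is the torus Hilbert 90.
-/

set_option autoImplicit false

noncomputable section

namespace FLTAgent.LanglandsTunnell.Local

open Matrix

open scoped IsMulCommutative in
/-- The algebra generated by one element is commutative. -/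
abbrev adjoinSingletonCommRing (R : Type*) {A : Type*} [CommRing R] [Ring A] [Algebra R A] (x : A) :
    CommRing (Algebra.adjoin R {x}) :=
  have := Algebra.isMulCommutative_adjoin R (s := {x}) (by simp)
  inferInstance

/-- A ring map compatible with the scalars maps the algebra of a matrix to that of its image. -/
theorem map_mem_adjoin {R R' L L' F : Type*} [CommRing R] [CommRing R'] [CommRing L] [CommRing L']
    [Algebra R L] [Algebra R' L'] [FunLike F L L'] [RingHomClass F L L'] (s : F)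
    (hR : ∀ r : R, ∃ r' : R', s (algebraMap R L r) = algebraMap R' L' r')
    {M X : Matrix (Fin 2) (Fin 2) L} {M' : Matrix (Fin 2) (Fin 2) L'} (hM : M.map s = M')
    (hX : X ∈ Algebra.adjoin R {M}) : X.map s ∈ Algebra.adjoin R' {M'} := by
  induction hX using Algebra.adjoin_induction with
  | mem x hx =>
    rw [Set.mem_singleton_iff] at hx
    subst hx
    rw [hM]
    exact Algebra.self_mem_adjoin_singleton _ _
  | algebraMap r =>
    obtain ⟨r', h⟩ := hR r
    rw [show (algebraMap R (Matrix (Fin 2) (Fin 2) L) r).map s =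
      algebraMap R' (Matrix (Fin 2) (Fin 2) L') r' by
        ext i j; simp [Matrix.algebraMap_matrix_apply, apply_ite s, h]]
    exact Subalgebra.algebraMap_mem _ r'
  | add x y _ _ hx hy => rw [Matrix.map_add _ (map_add s)]; exact add_mem hx hy
  | mul x y _ _ hx hy => rw [Matrix.map_mul]; exact mul_mem hx hy

/-- The inverse of an invertible matrix lies in the algebra it generates. -/
theorem inv_mem_adjoin {R : Type*} [CommRing R] (κ : GL (Fin 2) R) :
    (κ⁻¹).1 ∈ Algebra.adjoin R {κ.1} := by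
  have hdd : ((κ.det⁻¹ : Rˣ) : R) * (κ.1 0 0 * κ.1 1 1 - κ.1 0 1 * κ.1 1 0) = 1 := by
    rw [← Matrix.det_fin_two]
    exact κ.det.inv_mul
  rw [show (κ⁻¹).1 = ((κ.det⁻¹ : Rˣ) : R) • (κ.1.trace • 1 - κ.1) from
    left_inv_eq_right_inv (a := κ.1) κ.inv_mul (by
      generalize ((κ.det⁻¹ : Rˣ) : R) = d at hdd ⊢
      ext i j
      fin_cases i <;> fin_cases j <;>
        simp [Matrix.mul_apply, Fin.sum_univ_two, Matrix.trace_fin_two] <;>
        [linear_combination hdd; ring; ring; linear_combination hdd])]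
  exact Subalgebra.smul_mem _ (sub_mem (Subalgebra.smul_mem _ (one_mem _) _)
    (Algebra.self_mem_adjoin_singleton _ _)) _

/-- The local data of a cubic extension with an automorphism of order three. -/
structure LocalCubic (OE LE OM LM : Type*) [CommRing OE] [CommRing LE] [CommRing OM]
    [CommRing LM] where
  φE : OE →+* LE
  φM : OM →+* LM
  j : LE →+* LM
  jO : OE →+* OM
  σ : LM ≃+* LM
  σO : OM ≃+* OM
  φE_inj : Function.Injective φE
  φM_inj : Function.Injective φM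
  j_inj : Function.Injective j
  comm_j : ∀ a, φM (jO a) = j (φE a)
  comm_σ : ∀ a, φM (σO a) = σ (φM a)
  σ_three : ∀ x, σ (σ (σ x)) = x
  σ_j : ∀ a, σ (j a) = j a
  fixed : ∀ x, σ x = x → ∃ a, j a = x
  fixedO : ∀ x, σO x = x → ∃ a, jO a = x
  dual : HasDualSystem (σ : LM →+* LM)
  sqClosed : ∀ x : LM, (∃ a, φM a = x ^ 2) → ∃ a, φM a = x

namespace LocalCubic

variable {OE LE OM LM : Type*} [CommRing OE] [CommRing LE] [CommRing OM] [CommRing LM]
  (S : LocalCubic OE LE OM LM)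

/-- The automorphism of `GL(2)`. -/
def θ : GL (Fin 2) LM ≃* GL (Fin 2) LM := Units.mapEquiv S.σ.mapMatrix.toMulEquiv

theorem σO_three (x : OM) : S.σO (S.σO (S.σO x)) = x :=
  S.φM_inj (by rw [S.comm_σ, S.comm_σ, S.comm_σ, S.σ_three])

/-- The inclusion of `GL(2)` over the ground. -/
def ι : GL (Fin 2) LE →* GL (Fin 2) LM := Matrix.GeneralLinearGroup.map S.j

theorem θ_val (g : GL (Fin 2) LM) : (S.θ g).1 = g.1.map S.σ := rfl

theorem ι_val (g : GL (Fin 2) LE) : (S.ι g).1 = g.1.map S.j := rfl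

theorem θ_three (g : GL (Fin 2) LM) : S.θ (S.θ (S.θ g)) = g := by
  refine Units.ext (Matrix.ext fun i j => ?_)
  simp [θ_val, S.σ_three]

theorem θ_ι (h : GL (Fin 2) LE) : S.θ (S.ι h) = S.ι h := by
  refine Units.ext (Matrix.ext fun i j => ?_)
  simp [θ_val, ι_val, S.σ_j]

theorem θ_scalar (u : LMˣ) : S.θ (GeneralLinearGroup.scalar (Fin 2) u)
    = GeneralLinearGroup.scalar (Fin 2) (Units.map S.σ.toMonoidHom u) := by
  refine Units.ext (Matrix.ext fun i j => ?_)
  simp [θ_val, GeneralLinearGroup.coe_scalar, Matrix.diagonal_apply, apply_ite S.σ]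

theorem ι_scalar (u : LEˣ) : S.ι (GeneralLinearGroup.scalar (Fin 2) u)
    = GeneralLinearGroup.scalar (Fin 2) (Units.map S.j.toMonoidHom u) :=
  Matrix.GeneralLinearGroup.map_scalar _ _

theorem exists_ι {g : GL (Fin 2) LM} (hg : S.θ g = g) : ∃ h, S.ι h = g := by
  have key : ∀ g : GL (Fin 2) LM, S.θ g = g → ∃ X : Matrix (Fin 2) (Fin 2) LE, X.map S.j = g.1 :=
    fun g hg => by
      have h : g.1.map S.σ = g.1 := congrArg Units.val hg
      choose a ha using fun i j => S.fixed (g.1 i j) (congrFun (congrFun h i) j)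
      exact ⟨Matrix.of a, Matrix.ext fun i j => ha i j⟩
  obtain ⟨X, hX⟩ := key g hg
  obtain ⟨Y, hY⟩ := key g⁻¹ (by rw [map_inv, hg])
  have inj : Function.Injective (fun X : Matrix (Fin 2) (Fin 2) LE => X.map S.j) :=
    fun a b hab => Matrix.ext fun i j => S.j_inj (congrFun (congrFun hab i) j)
  have h1 : ∀ X Y : Matrix (Fin 2) (Fin 2) LE, X.map S.j * Y.map S.j = 1 → X * Y = 1 :=
    fun X Y h => inj (by
      show (X * Y).map S.j = (1 : Matrix (Fin 2) (Fin 2) LE).map S.j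
      rw [Matrix.map_mul, h]
      ext i j
      simp [Matrix.one_apply, apply_ite S.j])
  refine ⟨⟨X, Y, h1 _ _ ?_, h1 _ _ ?_⟩, Units.ext hX⟩ <;> rw [hX, hY]
  exacts [g.mul_inv, g.inv_mul]

/-- The norm on `LM`. -/
def nrm (u : LMˣ) : LMˣ :=
  u * Units.map S.σ.toMonoidHom u * Units.map S.σ.toMonoidHom (Units.map S.σ.toMonoidHom u)

theorem tnorm_scalar (u : LMˣ) : tnorm S.θ (GeneralLinearGroup.scalar (Fin 2) u)
    = GeneralLinearGroup.scalar (Fin 2) (S.nrm u) := by
  simp only [tnorm, θ_scalar, nrm, map_mul]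

theorem σ_nrm (u : LMˣ) : S.σ (S.nrm u : LM) = S.nrm u := by
  simp only [nrm, Units.val_mul, Units.coe_map, map_mul]
  change S.σ (u : LM) * S.σ (S.σ u) * S.σ (S.σ (S.σ u)) = (u : LM) * S.σ u * S.σ (S.σ u)
  rw [S.σ_three]
  ring

theorem nrm_mul (u v : LMˣ) : S.nrm (u * v) = S.nrm u * S.nrm v := by
  simp only [nrm, map_mul]
  rw [mul_mul_mul_comm u v, mul_mul_mul_comm]

/-- A scalar with unit norm and square a unit times `σ x / x` is a unit times `σ y / y`. -/
theorem exists_eq_of_nrm {u x : LMˣ} {a b : OMˣ}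
    (hN : S.nrm u = Units.map S.φM.toMonoidHom a)
    (h2 : u ^ 2 * Units.map S.φM.toMonoidHom b * x = Units.map S.σ.toMonoidHom x) :
    ∃ (v : OMˣ) (y : LMˣ), u * y = Units.map S.φM.toMonoidHom v * Units.map S.σ.toMonoidHom y := by
  set f := Units.map S.φM.toMonoidHom
  set s := Units.map S.σ.toMonoidHom
  have hs : ∀ z, s (s (s z)) = z := fun z => Units.ext (S.σ_three _)
  refine ⟨a * b, s (s u) * u⁻¹ * x⁻¹, ?_⟩
  rw [nrm] at hN
  change u * s u * s (s u) = f a at hN
  rw [map_mul, map_mul, map_mul, map_inv, map_inv, hs, ← hN, ← h2]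
  refine Additive.ofMul.injective ?_
  simp only [ofMul_mul, ofMul_inv, ofMul_pow]
  abel

/-- `θ` preserves congruence subgroups with fixed level. -/
theorem θ_mem_congrGroup {N : OM} (hN : S.σO N = N) {g : GL (Fin 2) LM}
    (hg : g ∈ congrGroup S.φM N) : S.θ g ∈ congrGroup S.φM N := by
  have key : ∀ g : GL (Fin 2) LM, InCongr S.φM N g.1 → InCongr S.φM N (S.θ g).1 := fun g hg => by
    obtain ⟨Y, ⟨X, rfl⟩, h⟩ := hg
    refine ⟨1 + N • X.map S.σO, ⟨_, rfl⟩, ?_⟩
    rw [θ_val, ← h]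
    ext i j
    simp [Matrix.one_apply, apply_ite S.φM, apply_ite S.σ, ← S.comm_σ, map_add, map_mul, hN]
  exact ⟨key g hg.1, by rw [← map_inv]; exact key _ hg.2⟩

theorem θ_mem_levelK {N : OM} (hN : S.σO N = N) {g : GL (Fin 2) LM}
    (hg : g ∈ levelK S.φM N) : S.θ g ∈ levelK S.φM N := by
  obtain ⟨u, k, hk, rfl⟩ := mem_levelK.mp hg
  rw [map_mul, θ_scalar]
  exact mem_levelK.mpr ⟨_, _, S.θ_mem_congrGroup hN hk, rfl⟩

theorem σO_jO (n : OE) : S.σO (S.jO n) = S.jO n :=
  S.φM_inj (by rw [S.comm_σ, S.comm_j, S.σ_j])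

theorem ι_mem_congrGroup {n : OE} {g : GL (Fin 2) LE} (hg : g ∈ congrGroup S.φE n) :
    S.ι g ∈ congrGroup S.φM (S.jO n) := by
  have key : ∀ g : GL (Fin 2) LE, InCongr S.φE n g.1 → InCongr S.φM (S.jO n) (S.ι g).1 :=
    fun g hg => by
      obtain ⟨Y, ⟨X, rfl⟩, h⟩ := hg
      refine ⟨1 + S.jO n • X.map S.jO, ⟨_, rfl⟩, ?_⟩
      rw [ι_val, ← h]
      ext i j
      simp [Matrix.one_apply, apply_ite S.φM, apply_ite S.φE, apply_ite S.j, ← S.comm_j, map_add,
        map_mul]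
  exact ⟨key g hg.1, by rw [← map_inv]; exact key _ hg.2⟩

theorem ι_mem_levelK {n : OE} {g : GL (Fin 2) LE} (hg : g ∈ levelK S.φE n) :
    S.ι g ∈ levelK S.φM (S.jO n) := by
  obtain ⟨u, k, hk, rfl⟩ := mem_levelK.mp hg
  rw [map_mul, ι_scalar]
  exact mem_levelK.mpr ⟨_, _, S.ι_mem_congrGroup hk, rfl⟩

theorem isUnit_of_jO {a : OE} (h : IsUnit (S.jO a)) : IsUnit a := by
  obtain ⟨u, hu⟩ := h
  obtain ⟨b, hb⟩ := S.fixedO (↑u⁻¹ : OM) (by
    have h1 := congrArg S.σO u.mul_inv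
    rw [map_mul, map_one, hu, σO_jO, ← hu] at h1
    exact u.isUnit.mul_left_cancel (h1.trans u.mul_inv.symm))
  refine IsUnit.of_mul_eq_one b ?_
  have : Function.Injective S.jO := fun x y hxy => by
    have := congrArg S.φM hxy
    rw [S.comm_j, S.comm_j] at this
    exact S.φE_inj (S.j_inj this)
  exact this (by rw [map_mul, hb, ← hu, u.mul_inv, map_one])

/-- The torus Hilbert 90. -/
theorem exists_twist_eq [IsArtinianRing LM] (Γ : GL (Fin 2) LE) {δ t : GL (Fin 2) LM}
    (hδ : δ.1 ∈ Algebra.adjoin LM {(S.ι Γ).1}) (ht : t.1 ∈ Algebra.adjoin LM {(S.ι Γ).1})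
    (hN : tnorm S.θ δ = tnorm S.θ t) :
    ∃ b : GL (Fin 2) LM, b.1 ∈ Algebra.adjoin LM {(S.ι Γ).1} ∧ b⁻¹ * δ * S.θ b = t := by
  let A : Subalgebra LM (Matrix (Fin 2) (Fin 2) LM) := Algebra.adjoin LM {(S.ι Γ).1}
  let : CommRing A := adjoinSingletonCommRing LM _
  have hmem : ∀ x ∈ A, (x.map S.σ : Matrix (Fin 2) (Fin 2) LM) ∈ A := fun x =>
    map_mem_adjoin S.σ (fun r => ⟨S.σ r, rfl⟩) (congrArg Units.val (S.θ_ι Γ))
  let τ : A →+* A :=
    ((S.σ : LM →+* LM).mapMatrix.comp A.val.toRingHom).codRestrict A fun x => hmem _ x.2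
  have hτ : ∀ a, τ (τ (τ a)) = a := fun a => Subtype.ext (Matrix.ext fun i j => S.σ_three _)
  have : Module.Finite LM A := Algebra.finite_adjoin_simple_of_isIntegral
    ((Algebra.IsIntegral.of_finite LM (Matrix (Fin 2) (Fin 2) LM)).isIntegral _)
  have : IsArtinianRing A := IsArtinianRing.of_finite LM A
  have hd : HasDualSystem τ := S.dual.map (algebraMap LM A) τ fun a =>
    Subtype.ext (Matrix.ext fun i j => by
      simp [τ, Matrix.algebraMap_matrix_apply, apply_ite S.σ])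
  have hunit : ∀ g : GL (Fin 2) LM, ∀ hg : g.1 ∈ A, IsUnit (⟨g.1, hg⟩ : A) := fun g hg =>
    IsArtinianRing.isUnit_of_mem_nonZeroDivisors (mem_nonZeroDivisors_iff_right.mpr fun x hx =>
      Subtype.ext (g.isUnit.mul_left_eq_zero.mp (congrArg Subtype.val hx)))
  set d := (hunit δ hδ).unit
  set e := (hunit t ht).unit
  set x : Aˣ := d / e with hx
  have hNA : ∀ g : GL (Fin 2) LM, ∀ hg : g.1 ∈ A,
      (((⟨g.1, hg⟩ : A) * τ ⟨g.1, hg⟩ * τ (τ ⟨g.1, hg⟩) : A) : Matrix (Fin 2) (Fin 2) LM)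
        = (tnorm S.θ g).1 := fun g hg => rfl
  have hNde : (d : A) * τ d * τ (τ d) = (e : A) * τ e * τ (τ e) := by
    refine Subtype.ext ?_
    show (((⟨δ.1, hδ⟩ : A) * τ ⟨δ.1, hδ⟩ * τ (τ ⟨δ.1, hδ⟩) : A) : Matrix (Fin 2) (Fin 2) LM) = _
    rw [hNA δ hδ, hN]
    rfl
  let k : Matrix Unit Unit A := Matrix.of fun _ _ => (x : A)
  have h1 : (x : A) * e = d := by
    rw [hx, div_eq_mul_inv, Units.val_mul, mul_assoc, Units.inv_mul, mul_one]
  have h3 : (x : A) * τ x * τ (τ x) = 1 := by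
    refine ((e.isUnit.mul (e.isUnit.map τ)).mul ((e.isUnit.map τ).map τ)).mul_right_cancel ?_
    rw [one_mul]
    conv_rhs => rw [← hNde, ← h1, map_mul, map_mul]
    ring
  obtain ⟨b, hb, hkb⟩ := exists_twistSum_isUnit hd hτ (k := k) (by
    refine Matrix.ext fun i j => ?_
    simpa [k, Matrix.mul_apply, Matrix.one_apply] using h3)
  rw [Matrix.det_unique] at hb
  have hkb' := congrFun (congrFun hkb ()) ()
  simp only [Matrix.mul_apply, Fintype.univ_unit, Finset.sum_singleton, Matrix.map_apply, k,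
    Matrix.of_apply] at hkb'
  set β := b () ()
  obtain ⟨bu, hbu⟩ := (hb.map A.val : IsUnit ((β : A) : Matrix (Fin 2) (Fin 2) LM))
  refine ⟨bu, hbu ▸ β.2, ?_⟩
  rw [mul_assoc, inv_mul_eq_iff_eq_mul]
  refine Units.ext ?_
  rw [Units.val_mul, Units.val_mul, θ_val, hbu]
  have h2 : (d : A) * τ β = β * e := by
    rw [← h1, mul_right_comm, hkb']
  exact congrArg Subtype.val h2

end LocalCubic

end FLTAgent.LanglandsTunnell.Local
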