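import Mathlib

/-!
# Isometries of a regular tree, given by its distance

Displacement, the minimal set, the projection to it, and the sums over its fibres.
The main result is `finsum_fibre`.
-/

set_option autoImplicit false
set_option linter.unusedSectionVars false

noncomputable section

namespace FLTAgent.LanglandsTunnell.Local

/-- A regular tree of valency `q + 1`, described by its distance. -/
structure RegTree (V : Type*) where
  q : ℕ
  two_le : 2 ≤ q
  d : V → V → ℕ
  d_comm : ∀ u v, d u v = d v u
  d_eq_zero : ∀ u v, d u v = 0 ↔ u = v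
  nbrs_finite : ∀ u, {v | d u v = 1}.Finite
  card_nbrs : ∀ u, {v | d u v = 1}.ncard = q + 1
  step : ∀ u w k, d u w = k + 1 →
    ∃ u', d u u' = 1 ∧ d u' w = k ∧ ∀ u'', d u u'' = 1 → u'' ≠ u' → d u'' w = k + 2

namespace RegTree

variable {V : Type*} (T : RegTree V)

theorem d_self (u : V) : T.d u u = 0 := (T.d_eq_zero u u).mpr rfl

theorem adj_comm {u v : V} (h : T.d u v = 1) : T.d v u = 1 := T.d_comm u v ▸ h

theorem step_unique {u w a b : V} {k : ℕ} (h : T.d u w = k + 1) (ha : T.d u a = 1)
    (ha' : T.d a w = k) (hb : T.d u b = 1) (hb' : T.d b w = k) : a = b := by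
  obtain ⟨c, -, -, hc⟩ := T.step u w k h
  have key : ∀ x, T.d u x = 1 → T.d x w = k → x = c := fun x hx hx' => by
    by_contra hne
    have := hc x hx hne
    omega
  rw [key a ha ha', key b hb hb']

theorem step_away {u w a b : V} {k : ℕ} (h : T.d u w = k + 1) (ha : T.d u a = 1)
    (ha' : T.d a w = k) (hb : T.d u b = 1) (hne : b ≠ a) : T.d b w = k + 2 := by
  obtain ⟨c, h1, h2, hc⟩ := T.step u w k h
  exact hc b hb (by rwa [← T.step_unique h ha ha' h1 h2])

theorem d_adj {u u' : V} (w : V) (h : T.d u u' = 1) :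
    T.d u' w = T.d u w + 1 ∨ T.d u' w + 1 = T.d u w := by
  rcases Nat.eq_zero_or_pos (T.d u w) with h0 | h0
  · left
    obtain rfl := (T.d_eq_zero u w).mp h0
    rw [h0, T.adj_comm h]
  · obtain ⟨k, hk⟩ : ∃ k, T.d u w = k + 1 := ⟨T.d u w - 1, by omega⟩
    obtain ⟨c, -, h2, hc⟩ := T.step u w k hk
    by_cases he : u' = c
    · right; rw [he, h2, hk]
    · left; rw [hc u' h he, hk]

theorem triangle (a b c : V) : T.d a c ≤ T.d a b + T.d b c := by
  induction hn : T.d a b generalizing a with
  | zero => rw [(T.d_eq_zero a b).mp hn]; omega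
  | succ n ih =>
    obtain ⟨a', h1, h2, -⟩ := T.step a b n hn
    have := ih a' h2
    rcases T.d_adj c h1 with h | h <;> omega

/-- Geodesics which do not fold back concatenate. -/
theorem d_concat {a b c x y : V} {m n : ℕ} (hab : T.d a b = m + 1) (hx : T.d b x = 1)
    (hxa : T.d x a = m) (hbc : T.d b c = n + 1) (hy : T.d b y = 1) (hyc : T.d y c = n)
    (hne : x ≠ y) : T.d a c = m + 1 + (n + 1) := by
  induction n generalizing b x y m with
  | zero =>
    obtain rfl := (T.d_eq_zero y c).mp hyc
    rw [T.d_comm, T.step_away (T.d_comm b a ▸ hab) hx hxa hy hne.symm]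
  | succ n ih =>
    have h1 : T.d y a = m + 2 := T.step_away (T.d_comm b a ▸ hab) hx hxa hy hne.symm
    obtain ⟨y', hy', hy'c, -⟩ := T.step y c n hyc
    rw [ih (b := y) (x := b) (y := y') (m := m + 1) (T.d_comm a y ▸ h1) (T.adj_comm hy)
      (T.d_comm b a ▸ hab) hyc hy' hy'c fun he => by subst he; omega]
    omega

/-- An isometry. -/
def IsIsom (g : Equiv.Perm V) : Prop := ∀ u v, T.d (g u) (g v) = T.d u v

/-- The displacement. -/
def disp (g : Equiv.Perm V) (u : V) : ℕ := T.d u (g u)

/-- The minimal displacement. -/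
def minD (g : Equiv.Perm V) : ℕ := sInf (Set.range (T.disp g))

theorem minD_le (g : Equiv.Perm V) (u : V) : T.minD g ≤ T.disp g u := Nat.sInf_le ⟨u, rfl⟩

theorem exists_disp_eq_minD [Nonempty V] (g : Equiv.Perm V) : ∃ u, T.disp g u = T.minD g :=
  Nat.sInf_mem (Set.range_nonempty _)

theorem minD_eq_zero_iff [Nonempty V] (g : Equiv.Perm V) : T.minD g = 0 ↔ ∃ u, g u = u := by
  constructor
  · intro h
    obtain ⟨u, hu⟩ := T.exists_disp_eq_minD g
    exact ⟨u, ((T.d_eq_zero u (g u)).mp (by rw [← h, ← hu, disp])).symm⟩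
  · rintro ⟨u, hu⟩
    exact Nat.le_zero.mp ((T.minD_le g u).trans (by rw [disp, hu, T.d_self]))

variable {g : Equiv.Perm V} (hg : T.IsIsom g)

include hg

theorem disp_adj {u u' : V} (h : T.d u u' = 1) :
    T.disp g u' ≤ T.disp g u + 2 ∧ (T.disp g u' + T.disp g u) % 2 = 0 := by
  have h1 := T.d_adj (g u) h
  have h2 := T.d_adj u' (show T.d (g u) (g u') = 1 by rw [hg, h])
  rw [T.d_comm (g u) u', T.d_comm (g u') u'] at h2
  simp only [disp]
  omega

/-- Past a step away from the minimal set every further step moves away. -/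
theorem disp_child {u u' u'' : V} (h : T.d u u' = 1) (hD : T.disp g u' = T.disp g u + 2)
    (h' : T.d u' u'' = 1) (hne : u'' ≠ u) : T.disp g u'' = T.disp g u' + 2 := by
  simp only [disp] at hD ⊢
  have hgadj : T.d (g u) (g u') = 1 := by rw [hg, h]
  have h1 : T.d u' (g u) = T.d u (g u) + 1 := by
    rcases T.d_adj (g u) h with e | e
    · exact e
    · have := T.triangle u' (g u) (g u')
      omega
  have h2 : T.d u (g u') = T.d u (g u) + 1 := by
    rcases T.d_adj u hgadj with e | e
    · rw [T.d_comm, e, T.d_comm]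
    · have := T.triangle u' u (g u')
      have := T.adj_comm h
      rw [T.d_comm (g u') u, T.d_comm (g u) u] at e
      omega
  have h3 : T.d u'' (g u') = T.d u (g u) + 3 :=
    T.step_away (k := T.d u (g u) + 1) hD (T.adj_comm h) h2 h' hne
  have h4 : T.d (g u) u'' = T.d u (g u) + 2 := by
    rcases T.d_adj (g u) h' with e | e
    · rw [T.d_comm, e, h1]
    · have := T.triangle u'' (g u) (g u')
      omega
  rw [T.d_comm, T.step_away (u := g u') (w := u'') (a := g u) (k := T.d u (g u) + 2)
    (by rw [T.d_comm, h3]) (T.adj_comm hgadj) h4 (by rw [hg, h']) fun e => hne (g.injective e)]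
  omega

variable [Nonempty V]

/-- Every vertex outside the minimal set has a parent, and the other neighbours are children. -/
theorem exists_parent {u : V} (hu : T.disp g u ≠ T.minD g) :
    ∃ p, T.d u p = 1 ∧ T.disp g p + 2 = T.disp g u ∧
      ∀ v, T.d u v = 1 → v ≠ p → T.disp g v = T.disp g u + 2 := by
  obtain ⟨z, hz⟩ := T.exists_disp_eq_minD g
  have key : ∀ n, ∀ u, T.d z u = n → T.disp g u ≠ T.minD g →
      ∃ p, T.d u p = 1 ∧ T.d z p + 1 = n ∧ T.disp g p + 2 = T.disp g u := by
    intro n
    induction n with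
    | zero => exact fun u hu hne => absurd ((T.d_eq_zero z u).mp hu ▸ hz) hne
    | succ n ih =>
      intro u hu hne
      obtain ⟨p, h1, h2, -⟩ := T.step u z n (T.d_comm z u ▸ hu)
      refine ⟨p, h1, by rw [T.d_comm z p, h2], ?_⟩
      by_cases hp : T.disp g p = T.minD g
      · have := T.disp_adj hg (T.adj_comm h1)
        have := T.minD_le g u
        omega
      · obtain ⟨p', h1', h2', h3'⟩ := ih p (T.d_comm p z ▸ h2) hp
        have := T.disp_child hg (T.adj_comm h1') h3'.symm (T.adj_comm h1) fun e => by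
          rw [e] at hu; omega
        omega
  obtain ⟨p, h1, -, h2⟩ := key _ u rfl hu
  exact ⟨p, h1, h2, fun v hv hne => T.disp_child hg (T.adj_comm h1) h2.symm hv hne⟩

omit hg in
/-- The parent. -/
def parent (g : Equiv.Perm V) (u : V) : V :=
  letI := Classical.decEq V
  Classical.epsilon fun p => T.d u p = 1 ∧ T.disp g p + 2 = T.disp g u

theorem parent_spec {u : V} (hu : T.disp g u ≠ T.minD g) :
    T.d u (T.parent g u) = 1 ∧ T.disp g (T.parent g u) + 2 = T.disp g u := by
  obtain ⟨p, h1, h2, -⟩ := T.exists_parent hg hu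
  exact Classical.epsilon_spec (p := fun p => T.d u p = 1 ∧ T.disp g p + 2 = T.disp g u) ⟨p, h1, h2⟩

theorem parent_eq {u p : V} (h1 : T.d u p = 1) (h2 : T.disp g p + 2 = T.disp g u) :
    T.parent g u = p := by
  have hu : T.disp g u ≠ T.minD g := by have := T.minD_le g p; omega
  obtain ⟨h1', h2'⟩ := T.parent_spec hg hu
  obtain ⟨c, -, -, hc⟩ := T.exists_parent hg hu
  have key : ∀ x, T.d u x = 1 → T.disp g x + 2 = T.disp g u → x = c := fun x hx hx' => by
    by_contra hne
    have := hc x hx hne
    omega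
  rw [key _ h1' h2', key p h1 h2]

theorem parity (u : V) : (T.disp g u + T.minD g) % 2 = 0 := by
  induction hn : T.disp g u using Nat.strong_induction_on generalizing u with
  | _ n ih =>
    subst hn
    by_cases h : T.disp g u = T.minD g
    · omega
    · obtain ⟨-, h2⟩ := T.parent_spec hg h
      have := ih _ (by omega) (T.parent g u) rfl
      omega

omit hg in
/-- The distance to the minimal set. -/
def depth (g : Equiv.Perm V) (u : V) : ℕ := (T.disp g u - T.minD g) / 2

theorem disp_eq_depth (u : V) : T.disp g u = T.minD g + 2 * T.depth g u := by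
  have := T.parity hg u
  have := T.minD_le g u
  simp only [depth]
  omega

theorem depth_eq_zero_iff (u : V) : T.depth g u = 0 ↔ T.disp g u = T.minD g := by
  have := T.disp_eq_depth hg u
  omega

theorem depth_parent {u : V} (h : T.depth g u ≠ 0) :
    T.depth g (T.parent g u) + 1 = T.depth g u := by
  obtain ⟨-, h2⟩ := T.parent_spec hg fun e => h ((T.depth_eq_zero_iff hg u).mpr e)
  have := T.disp_eq_depth hg u
  have := T.disp_eq_depth hg (T.parent g u)
  omega

omit hg in
/-- The projection to the minimal set. -/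
def proj (g : Equiv.Perm V) (u : V) : V := (T.parent g)^[T.depth g u] u

theorem proj_eq_self {u : V} (h : T.depth g u = 0) : T.proj g u = u := by
  simp [proj, h]

theorem proj_parent {u : V} (h : T.depth g u ≠ 0) : T.proj g (T.parent g u) = T.proj g u := by
  conv_rhs => rw [proj, ← T.depth_parent hg h, Function.iterate_succ_apply]
  rfl

theorem depth_proj (u : V) : T.depth g (T.proj g u) = 0 := by
  induction hn : T.depth g u generalizing u with
  | zero => rwa [T.proj_eq_self hg hn]
  | succ n ih =>
    rw [← T.proj_parent hg (by omega)]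
    exact ih _ (by have := T.depth_parent hg (u := u) (by omega); omega)

variable {t : Equiv.Perm V}

theorem disp_commute (ht : T.IsIsom t) (hc : ∀ u, t (g u) = g (t u)) (u : V) :
    T.disp g (t u) = T.disp g u := by
  simp only [disp]
  rw [← hc, ht]

theorem depth_commute (ht : T.IsIsom t) (hc : ∀ u, t (g u) = g (t u)) (u : V) :
    T.depth g (t u) = T.depth g u := by
  rw [depth, T.disp_commute hg ht hc]
  rfl

theorem parent_commute (ht : T.IsIsom t) (hc : ∀ u, t (g u) = g (t u)) {u : V}
    (h : T.depth g u ≠ 0) : T.parent g (t u) = t (T.parent g u) := by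
  obtain ⟨h1, h2⟩ := T.parent_spec hg fun e => h ((T.depth_eq_zero_iff hg u).mpr e)
  exact T.parent_eq hg (by rw [ht, h1])
    (by rw [T.disp_commute hg ht hc, T.disp_commute hg ht hc, h2])

theorem proj_commute (ht : T.IsIsom t) (hc : ∀ u, t (g u) = g (t u)) (u : V) :
    T.proj g (t u) = t (T.proj g u) := by
  induction hn : T.depth g u generalizing u with
  | zero => rw [T.proj_eq_self hg hn, T.proj_eq_self hg (by rw [T.depth_commute hg ht hc, hn])]
  | succ n ih =>
    rw [← T.proj_parent hg (by rw [T.depth_commute hg ht hc, hn]; omega),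
      T.parent_commute hg ht hc (by omega), ih _ (by
        have := T.depth_parent hg (u := u) (by omega); omega), T.proj_parent hg (by omega)]

omit hg in
/-- The number of neighbours inside the minimal set. -/
def minDeg (g : Equiv.Perm V) (z : V) : ℕ := {v | T.d z v = 1 ∧ T.depth g v = 0}.ncard

theorem minDeg_le (z : V) : T.minDeg g z ≤ T.q + 1 := by
  rw [← T.card_nbrs z]
  exact Set.ncard_le_ncard (fun v hv => hv.1) (T.nbrs_finite z)

omit hg in
/-- The vertices of given depth over `z`. -/
def levelSet (g : Equiv.Perm V) (z : V) (j : ℕ) : Set V :=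
  {u | T.proj g u = z ∧ T.depth g u = j}

theorem levelSet_zero {z : V} (hz : T.depth g z = 0) : T.levelSet g z 0 = {z} := by
  ext u
  constructor
  · rintro ⟨h1, h2⟩
    rw [T.proj_eq_self hg h2] at h1
    exact h1
  · rintro rfl
    exact ⟨T.proj_eq_self hg hz, hz⟩

omit hg in
/-- The children of a vertex. -/
def children (g : Equiv.Perm V) (u : V) : Set V :=
  {v | T.d u v = 1 ∧ T.depth g v = T.depth g u + 1}

theorem ncard_children (u : V) : (T.children g u).ncard =
    if T.depth g u = 0 then T.q + 1 - T.minDeg g u else T.q := by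
  have hfin := T.nbrs_finite u
  split_ifs with h
  · have e : T.children g u = {v | T.d u v = 1} \ {v | T.d u v = 1 ∧ T.depth g v = 0} := by
      ext v
      simp only [children, Set.mem_ofPred_eq, Set.mem_sdiff, h]
      refine ⟨fun ⟨h1, h2⟩ => ⟨h1, fun h3 => by omega⟩, fun ⟨h1, h2⟩ => ⟨h1, ?_⟩⟩
      have := (T.disp_adj hg h1).1
      have := T.disp_eq_depth hg u
      have := T.disp_eq_depth hg v
      have : T.depth g v ≠ 0 := fun h0 => h2 ⟨h1, h0⟩
      omega
    rw [e, Set.ncard_sdiff (fun v hv => hv.1) (hfin.subset fun v hv => hv.1), T.card_nbrs]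
    rfl
  · obtain ⟨p, h1, h2, h3⟩ := T.exists_parent hg fun e => h ((T.depth_eq_zero_iff hg u).mpr e)
    have e : T.children g u = {v | T.d u v = 1} \ {p} := by
      ext v
      simp only [children, Set.mem_ofPred_eq, Set.mem_sdiff, Set.mem_singleton_iff]
      have hu := T.disp_eq_depth hg u
      have hv := T.disp_eq_depth hg v
      refine ⟨fun ⟨hv1, hv2⟩ => ⟨hv1, fun hvp => by subst hvp; omega⟩, fun ⟨hv1, hv2⟩ => ⟨hv1, ?_⟩⟩
      have := h3 v hv1 hv2
      omega
    rw [e, Set.ncard_sdiff_singleton_of_mem (s := {v | T.d u v = 1}) h1, T.card_nbrs,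
      Nat.add_sub_cancel]

theorem levelSet_succ {z : V} (j : ℕ) :
    T.levelSet g z (j + 1) = ⋃ u ∈ T.levelSet g z j, T.children g u := by
  ext v
  simp only [Set.mem_iUnion, exists_prop]
  constructor
  · rintro ⟨h1, h2⟩
    have hd := T.depth_parent hg (u := v) (by omega)
    obtain ⟨ha, -⟩ := T.parent_spec hg fun e => (show T.depth g v ≠ 0 by omega)
      ((T.depth_eq_zero_iff hg v).mpr e)
    exact ⟨T.parent g v, ⟨by rw [T.proj_parent hg (by omega), h1], by omega⟩, T.adj_comm ha,
      by omega⟩
  · rintro ⟨u, ⟨hu1, hu2⟩, hv1, hv2⟩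
    have hp : T.parent g v = u := T.parent_eq hg (T.adj_comm hv1) (by
      rw [T.disp_eq_depth hg u, T.disp_eq_depth hg v]; omega)
    exact ⟨by rw [← T.proj_parent hg (by omega), hp, hu1], by omega⟩

theorem pairwise_children {z : V} (j : ℕ) :
    (T.levelSet g z j).PairwiseDisjoint (T.children g) := by
  intro a ha b hb hne
  refine Set.disjoint_left.mpr fun v hva hvb => hne ?_
  have key : ∀ a ∈ T.levelSet g z j, v ∈ T.children g a → T.parent g v = a := fun a ha hva =>
    T.parent_eq hg (T.adj_comm hva.1) (by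
      rw [T.disp_eq_depth hg a, T.disp_eq_depth hg v, hva.2]; omega)
  rw [← key a ha hva, key b hb hvb]

theorem levelSet_finite {z : V} (hz : T.depth g z = 0) (j : ℕ) :
    (T.levelSet g z j).Finite := by
  induction j with
  | zero => rw [T.levelSet_zero hg hz]; exact Set.finite_singleton _
  | succ j ih =>
    rw [T.levelSet_succ hg]
    exact ih.biUnion fun u _ => (T.nbrs_finite u).subset fun v hv => hv.1

theorem ncard_levelSet {z : V} (hz : T.depth g z = 0) (j : ℕ) :
    (T.levelSet g z (j + 1)).ncard = (T.q + 1 - T.minDeg g z) * T.q ^ j := by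
  induction j with
  | zero =>
    rw [T.levelSet_succ hg, T.levelSet_zero hg hz, Set.biUnion_singleton, T.ncard_children hg,
      if_pos hz, pow_zero, mul_one]
  | succ j ih =>
    classical
    rw [T.levelSet_succ hg]
    set s := (T.levelSet_finite hg hz (j + 1)).toFinset with hs
    have hfin : ∀ u, (T.children g u).Finite := fun u =>
      (T.nbrs_finite u).subset fun v hv => hv.1
    have e : (⋃ u ∈ T.levelSet g z (j + 1), T.children g u)
        = ↑(s.biUnion fun u => (hfin u).toFinset) := by
      ext v; simp [hs]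
    rw [e, Set.ncard_coe_finset, Finset.card_biUnion fun a ha b hb hne => ?_]
    · rw [Finset.sum_congr rfl fun u hu => show (hfin u).toFinset.card = T.q by
        rw [← Set.ncard_eq_toFinset_card _ (hfin u), T.ncard_children hg, if_neg]
        have := ((T.levelSet_finite hg hz (j + 1)).mem_toFinset.mp hu).2
        omega]
      rw [Finset.sum_const, smul_eq_mul, hs,
        ← Set.ncard_eq_toFinset_card _ (T.levelSet_finite hg hz (j + 1)), ih, pow_succ, mul_assoc]
    · have := T.pairwise_children hg (z := z) (j + 1)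
        ((T.levelSet_finite hg hz _).mem_toFinset.mp ha)
        ((T.levelSet_finite hg hz _).mem_toFinset.mp hb) hne
      simpa [Function.onFun, Set.Finite.disjoint_toFinset] using this

theorem fibre_finite {z : V} (hz : T.depth g z = 0) (K : ℕ) :
    {u | T.proj g u = z ∧ T.depth g u ≤ K}.Finite := by
  refine ((Finset.range (K + 1)).finite_toSet.biUnion fun j _ => T.levelSet_finite hg hz j).subset
    fun u hu => ?_
  simp only [Set.mem_iUnion, Finset.coe_range, Set.mem_Iio, exists_prop]
  exact ⟨T.depth g u, Nat.lt_succ_of_le hu.2, hu.1, rfl⟩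

/-- **The sum over a fibre of the projection.** -/
theorem finsum_fibre {R : Type*} [CommRing R] {z : V} (hz : T.depth g z = 0) (φ : ℕ → R) (K : ℕ)
    (hφ : ∀ j, K < j → φ j = 0) :
    ∑ᶠ u ∈ {u | T.proj g u = z}, φ (T.depth g u) =
      φ 0 + ((T.q + 1 - T.minDeg g z : ℕ) : R) *
        ∑ j ∈ Finset.range K, (T.q : R) ^ j * φ (j + 1) := by
  classical
  let s := (Finset.range (K + 1)).biUnion fun j => (T.levelSet_finite hg hz j).toFinset
  rw [finsum_mem_eq_sum_of_inter_support_eq _ (t := s) ?_]
  · rw [Finset.sum_biUnion fun a _ b _ hne => ?_]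
    · have : ∀ j, ∑ u ∈ (T.levelSet_finite hg hz j).toFinset, φ (T.depth g u)
          = (T.levelSet g z j).ncard * φ j := fun j => by
        rw [Set.ncard_eq_toFinset_card _ (T.levelSet_finite hg hz j),
          Finset.sum_congr rfl fun u hu => by
            rw [((T.levelSet_finite hg hz j).mem_toFinset.mp hu).2],
          Finset.sum_const, nsmul_eq_mul]
      simp only [this]
      rw [Finset.sum_range_succ', Finset.mul_sum, add_comm]
      simp only [T.ncard_levelSet hg hz, T.levelSet_zero hg hz, Set.ncard_singleton, Nat.cast_one,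
        one_mul, Nat.cast_mul, Nat.cast_pow, mul_assoc]
    · simp only [Function.onFun, Set.Finite.disjoint_toFinset]
      exact Set.disjoint_left.mpr fun u ha hb => hne (ha.2 ▸ hb.2)
  · ext u
    simp only [Set.mem_inter_iff, Set.mem_ofPred_eq, Function.mem_support, s, Finset.coe_biUnion,
      Set.mem_iUnion, Set.Finite.coe_toFinset, Finset.coe_range, Set.mem_Iio, exists_prop]
    refine ⟨fun ⟨h1, h2⟩ => ⟨⟨T.depth g u, ?_, h1, rfl⟩, h2⟩, fun ⟨⟨j, _, h1, _⟩, h2⟩ => ⟨h1, h2⟩⟩
    by_contra hc
    exact h2 (hφ _ (by omega))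

end RegTree

end FLTAgent.LanglandsTunnell.Local
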