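import Fermat.Agent.LanglandsTunnell.Local.Levels
import Fermat.Agent.LanglandsTunnell.Local.Tree

/-!
# The tree of `GL(2)` over a complete discretely valued ring

Vertices are cosets modulo the integral group times the centre; the distance is the valuation of
the determinant of a primitive integral representative. The tree is `IsUnifRing.tree`.
-/

set_option autoImplicit false
set_option linter.unusedSectionVars false

noncomputable section

namespace FLTAgent.LanglandsTunnell.Local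

open Matrix

variable {O L : Type*} [CommRing O] [CommRing L] {φ : O →+* L} {π : O}

/-- A uniformised ring inside its fraction ring, with finite residue ring. -/
structure IsUnifRing (φ : O →+* L) (π : O) : Prop where
  inj : Function.Injective φ
  not_unit : ¬ IsUnit π
  unit_or : ∀ o : O, π ∣ o ∨ IsUnit o
  pi_unit : IsUnit (φ π)
  expand : ∀ o : O, o ≠ 0 → ∃ (n : ℕ) (u : Oˣ), o = π ^ n * u
  frac : ∀ x : L, ∃ (n : ℕ) (o : O), φ π ^ n * x = φ o
  finite : Finite (O ⧸ Ideal.span {π})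

namespace IsUnifRing

variable (U : IsUnifRing φ π)

include U

theorem nontrivialO : Nontrivial O :=
  ⟨⟨π, 1, fun h => U.not_unit (h ▸ isUnit_one)⟩⟩

theorem nontrivialL : Nontrivial L :=
  haveI := U.nontrivialO
  ⟨⟨φ 0, φ 1, fun h => zero_ne_one (U.inj h)⟩⟩

theorem pow_mul_cancel {n : ℕ} {a b : O} (h : π ^ n * a = π ^ n * b) : a = b := by
  refine U.inj ((U.pi_unit.pow n).mul_left_cancel ?_)
  rw [← map_pow, ← map_mul, h, map_mul]

theorem pow_unit_inj {n m : ℕ} {u v : Oˣ} (h : π ^ n * (u : O) = π ^ m * v) : n = m := by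
  by_contra hne
  wlog hlt : n < m generalizing n m u v
  · exact this h.symm (Ne.symm hne) (by omega)
  obtain ⟨l, rfl⟩ : ∃ l, m = n + (l + 1) := ⟨m - n - 1, by omega⟩
  rw [pow_add, mul_assoc] at h
  refine U.not_unit (isUnit_of_mul_isUnit_left (y := π ^ l * v) ?_)
  rw [← mul_assoc, ← pow_succ', ← U.pow_mul_cancel h]
  exact u.isUnit

omit U in
/-- A primitive matrix. -/
def Prim (A : Matrix (Fin 2) (Fin 2) O) : Prop := ∃ i j, IsUnit (A i j)

theorem prim_or (A : Matrix (Fin 2) (Fin 2) O) : Prim A ∨ ∃ A', A = π • A' := by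
  by_cases h : ∀ i j, π ∣ A i j
  · choose B hB using h
    exact Or.inr ⟨Matrix.of B, Matrix.ext fun i j => hB i j⟩
  · push Not at h
    obtain ⟨i, j, hij⟩ := h
    exact Or.inl ⟨i, j, (U.unit_or _).resolve_left hij⟩

theorem not_prim_smul (A : Matrix (Fin 2) (Fin 2) O) : ¬ Prim (π • A) := by
  rintro ⟨i, j, h⟩
  exact U.not_unit (isUnit_of_mul_isUnit_left h)

omit U in
/-- `X` has the primitive representative `A` of determinant valuation `n`. -/
def Rel (φ : O →+* L) (π : O) (X : GL (Fin 2) L) (A : Matrix (Fin 2) (Fin 2) O) (n : ℕ) : Prop :=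
  Prim A ∧ (∃ u : Oˣ, A.det = π ^ n * u) ∧ ∃ c : Lˣ, X.1 = (c : L) • A.map φ

theorem exists_rel (X : GL (Fin 2) L) : ∃ A n, Rel φ π X A n := by
  have := U.nontrivialL
  choose m o ho using fun i j => U.frac (X.1 i j)
  set N := ∑ i, ∑ j, m i j
  have hX : ∃ (A : Matrix (Fin 2) (Fin 2) O) (c : Lˣ), X.1 = (c : L) • A.map φ := by
    have hle : ∀ i j, m i j ≤ N := fun i j =>
      (Finset.single_le_sum (f := fun j => m i j) (fun _ _ => Nat.zero_le _)
        (Finset.mem_univ j)).trans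
      (Finset.single_le_sum (f := fun i => ∑ j, m i j) (fun _ _ => Nat.zero_le _)
        (Finset.mem_univ i))
    refine ⟨Matrix.of fun i j => π ^ (N - m i j) * o i j, ((U.pi_unit.pow N).unit)⁻¹, ?_⟩
    ext i j
    rw [Matrix.smul_apply, Matrix.map_apply, Matrix.of_apply, map_mul, map_pow, smul_eq_mul, ← ho,
      ← mul_assoc (φ π ^ (N - m i j)), ← pow_add, Nat.sub_add_cancel (hle i j), ← mul_assoc,
      IsUnit.val_inv_mul, one_mul]
  obtain ⟨A, c, hA⟩ := hX
  have hdet : A.det ≠ 0 := fun h0 => by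
    have : X.1.det = 0 := by
      rw [hA, Matrix.det_smul, show (A.map φ).det = φ A.det from (φ.map_det A).symm, h0, map_zero,
        mul_zero]
    exact ((Matrix.isUnit_iff_isUnit_det _).mp X.isUnit).ne_zero this
  obtain ⟨n, u, hn⟩ := U.expand _ hdet
  induction n using Nat.strong_induction_on generalizing A c u with
  | _ n ih =>
    rcases U.prim_or A with h | ⟨A', rfl⟩
    · exact ⟨A, n, h, ⟨u, hn⟩, c, hA⟩
    · rw [Matrix.det_smul, Fintype.card_fin] at hn
      have hd : A'.det ≠ 0 := fun h0 => hdet (by rw [Matrix.det_smul, h0, mul_zero])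
      obtain ⟨n', u', hn'⟩ := U.expand _ hd
      rw [hn', ← mul_assoc, ← pow_add] at hn
      have := U.pow_unit_inj hn
      refine ih n' (by omega) A' (c * U.pi_unit.unit) ?_ hd u' hn'
      rw [hA, Units.val_mul, IsUnit.unit_spec, mul_smul]
      congr 1
      ext i j
      simp

theorem rel_unique {X : GL (Fin 2) L} {A A' : Matrix (Fin 2) (Fin 2) O} {n n' : ℕ}
    (h : Rel φ π X A n) (h' : Rel φ π X A' n') : n = n' ∧ ∃ u : Oˣ, A = (u : O) • A' := by
  obtain ⟨hp, ⟨u, hu⟩, c, hc⟩ := h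
  obtain ⟨hp', ⟨u', hu'⟩, c', hc'⟩ := h'
  have he : A.map φ = ((c⁻¹ * c' : Lˣ) : L) • A'.map φ := by
    rw [Units.val_mul, mul_smul, ← hc', hc, smul_smul, Units.inv_mul, one_smul]
  obtain ⟨m, o, ho⟩ := U.frac ((c⁻¹ * c' : Lˣ) : L)
  have h1 : π ^ m • A = o • A' := Matrix.ext fun i j => U.inj (by
    have := congrFun (congrFun he i) j
    simp only [Matrix.map_apply, Matrix.smul_apply, smul_eq_mul] at this
    rw [Matrix.smul_apply, Matrix.smul_apply, smul_eq_mul, smul_eq_mul, map_mul, map_mul, map_pow,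
      this, ← mul_assoc, ho])
  obtain ⟨i₀, j₀, h₀⟩ := hp
  have ho0 : o ≠ 0 := fun h0 => by
    have := U.nontrivialO
    have := congrFun (congrFun h1 i₀) j₀
    rw [h0, zero_smul, Matrix.smul_apply, smul_eq_mul, Matrix.zero_apply, ← mul_zero (π ^ m)]
      at this
    exact h₀.ne_zero (U.pow_mul_cancel this)
  obtain ⟨l, v, rfl⟩ := U.expand o ho0
  have hml : m = l := by
    rcases lt_trichotomy m l with h | h | h
    · obtain ⟨d, rfl⟩ : ∃ d, l = m + (d + 1) := ⟨l - m - 1, by omega⟩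
      refine absurd h₀ fun h₀ => U.not_unit (isUnit_of_mul_isUnit_left
        (y := π ^ d * v * A' i₀ j₀) ?_)
      have := congrFun (congrFun h1 i₀) j₀
      rw [Matrix.smul_apply, Matrix.smul_apply, smul_eq_mul, smul_eq_mul, pow_add, mul_assoc,
        mul_assoc] at this
      rw [U.pow_mul_cancel this, pow_succ'] at h₀
      simpa [mul_assoc] using h₀
    · exact h
    · obtain ⟨d, rfl⟩ : ∃ d, m = l + (d + 1) := ⟨m - l - 1, by omega⟩
      obtain ⟨i₁, j₁, h₁⟩ := hp'
      refine absurd h₁ fun h₁ => U.not_unit (isUnit_of_mul_isUnit_left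
        (y := π ^ d * A i₁ j₁) ?_)
      have := congrFun (congrFun h1 i₁) j₁
      rw [Matrix.smul_apply, Matrix.smul_apply, smul_eq_mul, smul_eq_mul, pow_add, mul_assoc,
        mul_assoc] at this
      rw [← mul_assoc, ← pow_succ', U.pow_mul_cancel this]
      exact v.isUnit.mul h₁
  subst hml
  have hA : A = (v : O) • A' := Matrix.ext fun i j => U.pow_mul_cancel (n := m) (by
    have := congrFun (congrFun h1 i) j
    simpa [mul_assoc] using this)
  refine ⟨?_, v, hA⟩
  refine U.pow_unit_inj (u := u) (v := v ^ 2 * u') ?_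
  rw [← hu, hA, Matrix.det_smul, hu', Fintype.card_fin, Units.val_mul, Units.val_pow_eq_pow_val]
  ring

omit U in
/-- The distance from the base vertex. -/
def nd (U : IsUnifRing φ π) (X : GL (Fin 2) L) : ℕ := (U.exists_rel X).choose_spec.choose

theorem nd_spec (X : GL (Fin 2) L) : ∃ A, Rel φ π X A (U.nd X) :=
  ⟨_, (U.exists_rel X).choose_spec.choose_spec⟩

theorem nd_eq {X : GL (Fin 2) L} {A : Matrix (Fin 2) (Fin 2) O} {n : ℕ} (h : Rel φ π X A n) :
    U.nd X = n := by
  obtain ⟨A', h'⟩ := U.nd_spec X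
  exact (U.rel_unique h' h).1

theorem nd_inv (X : GL (Fin 2) L) : U.nd X⁻¹ = U.nd X := by
  obtain ⟨A, ⟨i, j, hij⟩, ⟨u, hu⟩, c, hc⟩ := U.nd_spec X
  refine U.nd_eq (A := A.adjugate) ⟨?_,
    ⟨u, by rw [Matrix.det_adjugate, Fintype.card_fin, pow_one, hu]⟩, ?_⟩
  · rw [Matrix.adjugate_fin_two]
    fin_cases i <;> fin_cases j
    · exact ⟨1, 1, by simpa using hij⟩
    · exact ⟨0, 1, by simpa using hij⟩
    · exact ⟨1, 0, by simpa using hij⟩
    · exact ⟨0, 0, by simpa using hij⟩
  · have hd : IsUnit (φ A.det) := by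
      rw [hu, map_mul, map_pow]; exact (U.pi_unit.pow _).mul (u.isUnit.map φ)
    refine ⟨c⁻¹ * hd.unit⁻¹, ?_⟩
    refine left_inv_eq_right_inv (a := X.1) X.inv_mul ?_
    rw [hc, Matrix.smul_mul, Matrix.mul_smul, smul_smul, ← Matrix.map_mul, Matrix.mul_adjugate,
      show (A.det • (1 : Matrix (Fin 2) (Fin 2) O)).map φ = φ A.det • (1 : Matrix (Fin 2) (Fin 2) L)
        by ext a b; simp [Matrix.one_apply, apply_ite φ], smul_smul,
      Units.val_mul, ← mul_assoc, Units.mul_inv, one_mul, IsUnit.val_inv_mul, one_smul]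

theorem nd_scalar_mul (z : Lˣ) (X : GL (Fin 2) L) :
    U.nd (GeneralLinearGroup.scalar (Fin 2) z * X) = U.nd X := by
  obtain ⟨A, hp, hu, c, hc⟩ := U.nd_spec X
  refine U.nd_eq ⟨hp, hu, z * c, ?_⟩
  rw [Units.val_mul, GeneralLinearGroup.coe_scalar, hc, Units.val_mul, mul_smul,
    Matrix.scalar_apply, ← Matrix.smul_one_eq_diagonal, Matrix.smul_mul, Matrix.one_mul]

theorem nd_congr_mul {k : GL (Fin 2) L} (hk : k ∈ congrGroup φ 1) (X : GL (Fin 2) L) :
    U.nd (k * X) = U.nd X := by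
  obtain ⟨k₀, -, rfl⟩ := exists_units_of_mem_congrGroup U.inj hk
  obtain ⟨A, hp, ⟨u, hu⟩, c, hc⟩ := U.nd_spec X
  refine U.nd_eq (A := k₀.1 * A) ⟨(U.prim_or _).resolve_right ?_,
    ⟨(k₀.isUnit.map Matrix.detMonoidHom).unit * u, ?_⟩, c, ?_⟩
  · rintro ⟨B, hB⟩
    refine U.not_prim_smul ((k₀⁻¹).1 * B) ?_
    rwa [← Matrix.mul_smul, ← hB, ← mul_assoc, ← Units.val_mul, inv_mul_cancel, Units.val_one,
      one_mul]
  · rw [Matrix.det_mul, hu, Units.val_mul, IsUnit.unit_spec, Matrix.coe_detMonoidHom]; ring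
  · rw [Units.val_mul, hc, Matrix.mul_smul, Matrix.map_mul]
    rfl

theorem nd_levelK_mul {k : GL (Fin 2) L} (hk : k ∈ levelK φ 1) (X : GL (Fin 2) L) :
    U.nd (k * X) = U.nd X := by
  obtain ⟨z, l, hl, rfl⟩ := mem_levelK.mp hk
  rw [mul_assoc, U.nd_scalar_mul, U.nd_congr_mul hl]

theorem nd_mul_levelK {k : GL (Fin 2) L} (hk : k ∈ levelK φ 1) (X : GL (Fin 2) L) :
    U.nd (X * k) = U.nd X := by
  rw [← U.nd_inv, _root_.mul_inv_rev, U.nd_levelK_mul (inv_mem hk), U.nd_inv]

theorem nd_eq_zero_iff (X : GL (Fin 2) L) : U.nd X = 0 ↔ X ∈ levelK φ 1 := by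
  constructor
  · intro h
    obtain ⟨A, -, ⟨u, hu⟩, c, hc⟩ := U.nd_spec X
    rw [h, pow_zero, one_mul] at hu
    have hA : IsUnit A := (Matrix.isUnit_iff_isUnit_det _).mpr (hu ▸ u.isUnit)
    refine mem_levelK.mpr ⟨c, GeneralLinearGroup.map φ hA.unit,
      map_mem_congrGroup (isCongrOne_of_isUnit isUnit_one _), Units.ext ?_⟩
    rw [Units.val_mul, GeneralLinearGroup.coe_scalar, hc, Matrix.scalar_apply,
      ← Matrix.smul_one_eq_diagonal,
      Matrix.smul_mul, Matrix.one_mul]
    rfl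
  · intro h
    have := U.nontrivialO
    rw [← mul_one X, U.nd_levelK_mul h]
    refine U.nd_eq (A := 1) ⟨⟨0, 0, by simp⟩, ⟨1, by simp⟩, 1, ?_⟩
    ext a b
    simp [Matrix.one_apply]

/-! ### Neighbours -/

omit U in
/-- The representatives of the lines. -/
def stepMat (π : O) : Option (O ⧸ Ideal.span {π}) → Matrix (Fin 2) (Fin 2) O
  | none => !![1, 0; 0, π]
  | some r => !![π, Quotient.out r; 0, 1]

omit U in
theorem det_stepMat (π : O) (i : Option (O ⧸ Ideal.span {π})) : (stepMat π i).det = π := by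
  cases i <;> simp [stepMat, Matrix.det_fin_two]

theorem mk_eq_iff {a : O} {r : O ⧸ Ideal.span {π}} :
    π ∣ a - Quotient.out r ↔ Ideal.Quotient.mk _ a = r := by
  conv_rhs => rw [← Quotient.out_eq r]
  rw [← Ideal.mem_span_singleton]
  exact (Ideal.Quotient.eq (I := Ideal.span {π})).symm

theorem exists_step {A : Matrix (Fin 2) (Fin 2) O} (hd : π ∣ A.det) :
    ∃ i C, A = stepMat π i * C := by
  by_cases h : π ∣ A 1 0 ∧ π ∣ A 1 1
  · obtain ⟨⟨a, ha⟩, ⟨b, hb⟩⟩ := h
    refine ⟨none, !![A 0 0, A 0 1; a, b], ?_⟩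
    ext i j; fin_cases i <;> fin_cases j <;> simp [stepMat, ha, hb]
  obtain ⟨j, hj⟩ : ∃ j, IsUnit (A 1 j) := by
    by_contra hc
    push Not at hc
    exact h ⟨(U.unit_or _).resolve_right (hc 0), (U.unit_or _).resolve_right (hc 1)⟩
  set r := Ideal.Quotient.mk (Ideal.span {π}) (A 0 j * ↑hj.unit⁻¹)
  have hr : π ∣ A 0 j * ↑hj.unit⁻¹ - Quotient.out r := U.mk_eq_iff.mpr rfl
  have key : ∀ l, π ∣ A 0 l - Quotient.out r * A 1 l := by
    have hjj : π ∣ A 0 j - Quotient.out r * A 1 j := by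
      obtain ⟨e, he⟩ := hr
      exact ⟨e * A 1 j, by linear_combination A 1 j * he - A 0 j * hj.val_inv_mul⟩
    intro l
    rw [Matrix.det_fin_two] at hd
    obtain ⟨e, he⟩ := hd
    obtain ⟨e', he'⟩ := hjj
    fin_cases l <;> fin_cases j
    · exact ⟨e', he'⟩
    · refine ⟨(e + e' * A 1 0) * ↑hj.unit⁻¹, ?_⟩
      have hu := hj.val_inv_mul
      simp only [Fin.zero_eta, Fin.mk_one, Fin.isValue] at *
      linear_combination ↑hj.unit⁻¹ * (he + A 1 0 * he') - (A 0 0 - Quotient.out r * A 1 0) * hu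
    · refine ⟨(e' * A 1 1 - e) * ↑hj.unit⁻¹, ?_⟩
      have hu := hj.val_inv_mul
      simp only [Fin.zero_eta, Fin.mk_one, Fin.isValue] at *
      linear_combination ↑hj.unit⁻¹ * (A 1 1 * he' - he) - (A 0 1 - Quotient.out r * A 1 1) * hu
    · exact ⟨e', he'⟩
  choose a ha using key
  refine ⟨some r, !![a 0, a 1; A 1 0, A 1 1], ?_⟩
  ext i l; fin_cases i <;> fin_cases l <;> simp [stepMat, ← ha]

theorem step_inj {A C C' : Matrix (Fin 2) (Fin 2) O} (hA : Prim A)
    {i j : Option (O ⧸ Ideal.span {π})} (h : A = stepMat π i * C) (h' : A = stepMat π j * C') :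
    i = j := by
  obtain ⟨a, b, hab⟩ := hA
  have hnd : ¬ π ∣ A a b := fun hd => U.not_unit (isUnit_of_dvd_unit hd hab)
  have hnone : ∀ {C : Matrix (Fin 2) (Fin 2) O}, A = stepMat π none * C → ∀ l, π ∣ A 1 l :=
    fun hC l => by subst hC; fin_cases l <;> simp [stepMat, Matrix.mul_apply]
  have hsome : ∀ {C : Matrix (Fin 2) (Fin 2) O} {r}, A = stepMat π (some r) * C →
      ∀ l, π ∣ A 0 l - Quotient.out r * A 1 l :=
    fun hC l => by subst hC; fin_cases l <;> simp [stepMat, Matrix.mul_apply]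
  have key : (∀ l, π ∣ A 1 l) → ∀ r : O ⧸ Ideal.span {π},
      (∀ l, π ∣ A 0 l - Quotient.out r * A 1 l) → False := by
    intro h1 r h2
    fin_cases a
    · refine hnd ?_
      have := dvd_add (h2 b) ((h1 b).mul_left (Quotient.out r))
      simpa using this
    · exact hnd (h1 b)
  cases i with
  | none =>
    cases j with
    | none => rfl
    | some r => exact (key (hnone h) r (hsome h')).elim
  | some r =>
    cases j with
    | none => exact (key (hnone h') r (hsome h)).elim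
    | some s =>
      by_contra hne
      refine key (fun l => ?_) r (hsome h)
      have h3 : π ∣ (Quotient.out s - Quotient.out r) * A 1 l := by
        have := dvd_sub (hsome h l) (hsome h' l)
        convert this using 1; ring
      rcases U.unit_or (Quotient.out s - Quotient.out r) with hd | hu
      · exact absurd (congrArg some (((U.mk_eq_iff).mp hd).symm.trans (Quotient.out_eq s))) hne
      · exact hu.dvd_mul_left.mp h3

omit U in
/-- The representatives inside `GL(2, L)`. -/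
def stepGL (U : IsUnifRing φ π) (i : Option (O ⧸ Ideal.span {π})) : GL (Fin 2) L :=
  GeneralLinearGroup.mk'' ((stepMat π i).map φ) (by
    rw [show ((stepMat π i).map φ).det = φ (stepMat π i).det from (φ.map_det _).symm, det_stepMat]
    exact U.pi_unit)

theorem stepGL_val (i : Option (O ⧸ Ideal.span {π})) :
    (U.stepGL i).1 = (stepMat π i).map φ := rfl

theorem prim_stepMat (i : Option (O ⧸ Ideal.span {π})) : Prim (stepMat π i) := by
  cases i
  · exact ⟨0, 0, by simp [stepMat]⟩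
  · exact ⟨1, 1, by simp [stepMat]⟩

theorem nd_stepGL (i : Option (O ⧸ Ideal.span {π})) : U.nd (U.stepGL i) = 1 :=
  U.nd_eq ⟨U.prim_stepMat i, ⟨1, by rw [det_stepMat, pow_one, Units.val_one, mul_one]⟩, 1, by
    rw [U.stepGL_val, Units.val_one, one_smul]⟩

theorem exists_mul_stepGL {X : GL (Fin 2) L} {k : ℕ} (h : U.nd X = k + 1) :
    ∃ i, U.nd ((U.stepGL i)⁻¹ * X) = k ∧ ∀ j, j ≠ i → U.nd ((U.stepGL j)⁻¹ * X) = k + 2 := by
  obtain ⟨A, hp, ⟨u, hu⟩, c, hc⟩ := U.nd_spec X
  rw [h] at hu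
  obtain ⟨i, C, hC⟩ := U.exists_step (hu ▸ Dvd.dvd.mul_right (dvd_pow_self π k.succ_ne_zero) _)
  refine ⟨i, ?_, fun j hj => ?_⟩
  · refine U.nd_eq (A := C) ⟨(U.prim_or _).resolve_right ?_, ⟨u, ?_⟩, c, ?_⟩
    · rintro ⟨C', rfl⟩
      exact U.not_prim_smul (stepMat π i * C') (by rwa [← Matrix.mul_smul, ← hC])
    · refine U.pow_mul_cancel (n := 1) ?_
      rw [pow_one, ← mul_assoc, ← pow_succ', ← hu, hC, Matrix.det_mul, det_stepMat]
    · rw [Units.val_mul, hc, hC, Matrix.map_mul, ← U.stepGL_val, Matrix.mul_smul,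
        ← Matrix.mul_assoc, ← Units.val_mul, inv_mul_cancel, Units.val_one, Matrix.one_mul]
  · refine U.nd_eq (A := (stepMat π j).adjugate * A) ⟨(U.prim_or _).resolve_right ?_, ⟨u, ?_⟩,
      c * (U.pi_unit.unit)⁻¹, ?_⟩
    · rintro ⟨C', hC'⟩
      refine hj (U.step_inj hp (C := C') ?_ hC)
      refine Matrix.ext fun a b => U.pow_mul_cancel (n := 1) ?_
      have := congrArg (fun M : Matrix (Fin 2) (Fin 2) O => (stepMat π j * M) a b) hC'
      beta_reduce at this
      simp only [← Matrix.mul_assoc, Matrix.mul_adjugate, det_stepMat, Matrix.smul_mul,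
        Matrix.one_mul, Matrix.mul_smul, Matrix.smul_apply, smul_eq_mul] at this
      rw [pow_one, this]
    · rw [Matrix.det_mul, Matrix.det_adjugate, det_stepMat, hu, Fintype.card_fin, pow_one,
        pow_succ' π (k + 1), mul_assoc]
    · rw [Units.val_mul, hc, Matrix.mul_smul, Matrix.map_mul, Units.val_mul, mul_smul]
      congr 1
      refine ((U.stepGL j).isUnit.mul_right_inj).mp ?_
      rw [← Matrix.mul_assoc, ← Units.val_mul, mul_inv_cancel, Units.val_one, Matrix.one_mul,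
        Matrix.mul_smul, ← Matrix.mul_assoc, U.stepGL_val, ← Matrix.map_mul,
        Matrix.mul_adjugate, det_stepMat,
        show (π • (1 : Matrix (Fin 2) (Fin 2) O)).map φ = φ π • (1 : Matrix (Fin 2) (Fin 2) L) by
          ext a b; simp [Matrix.one_apply, apply_ite φ],
        Matrix.smul_mul, Matrix.one_mul, smul_smul, IsUnit.val_inv_mul, one_smul]

/-! ### The tree -/

omit U in
variable (φ) in
/-- The vertices. -/
abbrev Vert : Type _ := GL (Fin 2) L ⧸ levelK φ 1

omit U in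
/-- The distance. -/
def dist (U : IsUnifRing φ π) : Vert φ → Vert φ → ℕ :=
  Quotient.lift₂ (fun g h => U.nd (g⁻¹ * h)) fun a b a' b' ha hb => by
    have ha' : a⁻¹ * a' ∈ levelK φ 1 := QuotientGroup.leftRel_apply.mp ha
    have hb' : b⁻¹ * b' ∈ levelK φ 1 := QuotientGroup.leftRel_apply.mp hb
    show U.nd (a⁻¹ * b) = U.nd (a'⁻¹ * b')
    rw [show a'⁻¹ * b' = (a⁻¹ * a')⁻¹ * (a⁻¹ * b * (b⁻¹ * b')) by group,
      U.nd_levelK_mul (inv_mem ha'), U.nd_mul_levelK hb']

theorem dist_mk (g h : GL (Fin 2) L) : U.dist (g : Vert φ) (h : Vert φ) = U.nd (g⁻¹ * h) := rfl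

theorem dist_eq_zero (u v : Vert φ) : U.dist u v = 0 ↔ u = v := by
  induction u using QuotientGroup.induction_on with
  | H g =>
    induction v using QuotientGroup.induction_on with
    | H h => rw [U.dist_mk, U.nd_eq_zero_iff, QuotientGroup.eq]

theorem nbrs_eq (g : GL (Fin 2) L) :
    {v | U.dist (g : Vert φ) v = 1} = Set.range fun i =>
      ((g * U.stepGL i : GL (Fin 2) L) : Vert φ) := by
  ext v
  induction v using QuotientGroup.induction_on with
  | H h =>
    refine ⟨fun hv => ?_, ?_⟩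
    · obtain ⟨i, hi, -⟩ := U.exists_mul_stepGL (k := 0) hv
      exact ⟨i, (U.dist_eq_zero _ _).mp (by rwa [U.dist_mk, _root_.mul_inv_rev, mul_assoc])⟩
    · rintro ⟨i, hi⟩
      show U.dist (g : Vert φ) (h : Vert φ) = 1
      rw [← hi, U.dist_mk, inv_mul_cancel_left, U.nd_stepGL]

theorem injective_step (g : GL (Fin 2) L) :
    Function.Injective fun i => ((g * U.stepGL i : GL (Fin 2) L) : Vert φ) := by
  intro i j hij
  by_contra hne
  obtain ⟨i₀, -, h2⟩ := U.exists_mul_stepGL (k := 0) (U.nd_stepGL j)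
  have hz : ∀ l, U.nd ((U.stepGL l)⁻¹ * U.stepGL j) = 0 → l = i₀ := fun l hl => by
    by_contra hl'
    exact absurd hl (by rw [h2 l hl']; simp)
  have h := QuotientGroup.eq.mp hij
  rw [show (g * U.stepGL i)⁻¹ * (g * U.stepGL j) = (U.stepGL i)⁻¹ * U.stepGL j by group] at h
  exact hne ((hz i ((U.nd_eq_zero_iff _).mpr h)).trans
    (hz j ((U.nd_eq_zero_iff _).mpr (by rw [inv_mul_cancel]; exact one_mem _))).symm)

theorem two_le_card : 2 ≤ Nat.card (O ⧸ Ideal.span {π}) := by
  have := U.finite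
  have : Nontrivial (O ⧸ Ideal.span {π}) :=
    Ideal.Quotient.nontrivial_iff.mpr fun h => U.not_unit (Ideal.span_singleton_eq_top.mp h)
  exact Finite.one_lt_card

omit U in
/-- **The tree.** -/
def tree (U : IsUnifRing φ π) : RegTree (Vert φ) where
  q := Nat.card (O ⧸ Ideal.span {π})
  two_le := U.two_le_card
  d := U.dist
  d_comm u v := by
    induction u using QuotientGroup.induction_on with
    | H g =>
      induction v using QuotientGroup.induction_on with
      | H h => rw [U.dist_mk, U.dist_mk, ← U.nd_inv, _root_.mul_inv_rev, inv_inv]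
  d_eq_zero := U.dist_eq_zero
  nbrs_finite u := by
    have := U.finite
    induction u using QuotientGroup.induction_on with
    | H g => rw [U.nbrs_eq]; exact Set.finite_range _
  card_nbrs u := by
    have := U.finite
    induction u using QuotientGroup.induction_on with
    | H g =>
      have := Fintype.ofFinite (O ⧸ Ideal.span {π})
      rw [U.nbrs_eq, Set.ncard_range_of_injective (U.injective_step g), Nat.card_eq_fintype_card,
        Fintype.card_option, Nat.card_eq_fintype_card]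
  step u w k h := by
    induction u using QuotientGroup.induction_on with
    | H g =>
      induction w using QuotientGroup.induction_on with
      | H x =>
        obtain ⟨i, h1, h2⟩ := U.exists_mul_stepGL (X := g⁻¹ * x) h
        refine ⟨((g * U.stepGL i : GL (Fin 2) L) : Vert φ), ?_, ?_, fun v hv hne => ?_⟩
        · rw [U.dist_mk, inv_mul_cancel_left, U.nd_stepGL]
        · rw [U.dist_mk, _root_.mul_inv_rev, mul_assoc, h1]
        · obtain ⟨j, rfl⟩ : v ∈ Set.range fun i => ((g * U.stepGL i : GL (Fin 2) L) : Vert φ) :=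
            U.nbrs_eq g ▸ hv
          rw [U.dist_mk, _root_.mul_inv_rev, mul_assoc, h2 j fun e => hne (by rw [e])]

theorem tree_d (g h : GL (Fin 2) L) :
    (U.tree).d (g : Vert φ) (h : Vert φ) = U.nd (g⁻¹ * h) := rfl

omit U in
/-- The action of a group element. -/
def actPerm (g : GL (Fin 2) L) : Equiv.Perm (Vert φ) := MulAction.toPerm g

theorem isIsom_actPerm (g : GL (Fin 2) L) : (U.tree).IsIsom (actPerm g) := fun u v => by
  induction u using QuotientGroup.induction_on with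
  | H a =>
    induction v using QuotientGroup.induction_on with
    | H b =>
      show U.nd ((g * a)⁻¹ * (g * b)) = U.nd (a⁻¹ * b)
      rw [show (g * a)⁻¹ * (g * b) = a⁻¹ * b by group]

/-! ### Maps of trees -/

variable {O' L' : Type*} [CommRing O'] [CommRing L'] {φ' : O' →+* L'} {π' : O'}

theorem nd_map (U' : IsUnifRing φ' π') (F : L →+* L') (Fo : O →+* O')
    (hF : ∀ o, φ' (Fo o) = F (φ o)) (hπ : ∃ u : O'ˣ, Fo π = π' * u) (X : GL (Fin 2) L) :
    U'.nd (GeneralLinearGroup.map F X) = U.nd X := by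
  obtain ⟨A, ⟨i, j, hij⟩, ⟨u, hu⟩, c, hc⟩ := U.nd_spec X
  obtain ⟨w, hw⟩ := hπ
  refine U'.nd_eq (A := A.map Fo) ⟨⟨i, j, hij.map Fo⟩,
    ⟨w ^ U.nd X * Units.map Fo.toMonoidHom u, ?_⟩, Units.map F.toMonoidHom c, ?_⟩
  · rw [show (A.map Fo).det = Fo A.det from (Fo.map_det A).symm, hu, map_mul, map_pow, hw, mul_pow,
      Units.val_mul, Units.val_pow_eq_pow_val, mul_assoc]
    rfl
  · ext a b
    show F (X.1 a b) = _
    rw [hc]
    simp [hF]

omit U in
/-- The map of trees. -/
def mapVert (U : IsUnifRing φ π) (U' : IsUnifRing φ' π') (F : L →+* L') (Fo : O →+* O')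
    (hF : ∀ o, φ' (Fo o) = F (φ o)) (hπ : ∃ u : O'ˣ, Fo π = π' * u) : Vert φ → Vert φ' :=
  Quotient.map' (GeneralLinearGroup.map F) fun a b hab => by
    rw [QuotientGroup.leftRel_apply] at hab ⊢
    rw [← map_inv, ← map_mul, ← U'.nd_eq_zero_iff, U.nd_map U' F Fo hF hπ, U.nd_eq_zero_iff]
    exact hab

theorem mapVert_mk (U' : IsUnifRing φ' π') (F : L →+* L') (Fo : O →+* O')
    (hF : ∀ o, φ' (Fo o) = F (φ o)) (hπ : ∃ u : O'ˣ, Fo π = π' * u) (g : GL (Fin 2) L) :
    U.mapVert U' F Fo hF hπ (g : Vert φ) = (GeneralLinearGroup.map F g : Vert φ') := rfl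

theorem dist_mapVert (U' : IsUnifRing φ' π') (F : L →+* L') (Fo : O →+* O')
    (hF : ∀ o, φ' (Fo o) = F (φ o)) (hπ : ∃ u : O'ˣ, Fo π = π' * u) (u v : Vert φ) :
    (U'.tree).d (U.mapVert U' F Fo hF hπ u) (U.mapVert U' F Fo hF hπ v) = (U.tree).d u v := by
  induction u using QuotientGroup.induction_on with
  | H a =>
    induction v using QuotientGroup.induction_on with
    | H b =>
      rw [mapVert_mk, mapVert_mk, U'.tree_d, U.tree_d, ← map_inv, ← map_mul,
        U.nd_map U' F Fo hF hπ]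

end IsUnifRing

end FLTAgent.LanglandsTunnell.Local
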