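import Fermat.Agent.LanglandsTunnell.Local.Corner
import Fermat.Agent.LanglandsTunnell.Local.HeckeComponents
import Fermat.Agent.LanglandsTunnell.Local.TreeModel
import Fermat.Agent.LanglandsTunnell.Isolation.LocalPlace

/-!
# The factors of `𝓞 F ⊗ ℤ_p` at the primes over `p`

`IsPlaceCnr` says that an idempotent cuts out the factor of a prime; such idempotents exist
(`exists_isPlaceCnr`), form complete families and give uniformised factors
(`IsPlaceCnr.exists_isUnifRing`).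
-/

set_option autoImplicit false

noncomputable section

namespace FLTAgent.LanglandsTunnell.Local

open scoped TensorProduct
open NumberField FLTAgent.LanglandsTunnell

variable {F : Type} [Field F] [NumberField F] {p : Nat.Primes} {w w' : Ideal (𝓞 F)}

/-- `e` cuts out the factor of `w`. -/
structure IsPlaceCnr (p : Nat.Primes) (w : Ideal (𝓞 F)) (e : Op F p) : Prop where
  idem : IsIdempotentElem e
  prime : w.IsPrime
  mem : ((p : ℕ) : 𝓞 F) ∈ w
  one_sub : 1 - e ∈ w.map (incOp (p : ℕ))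
  other : ∀ w' : Ideal (𝓞 F), w'.IsPrime → ((p : ℕ) : 𝓞 F) ∈ w' → w' ≠ w →
    e ∈ w'.map (incOp (p : ℕ))

omit [NumberField F] in
theorem natCast_mem_unique {q : Nat.Primes} (hw : w.IsPrime) (hp : ((p : ℕ) : 𝓞 F) ∈ w)
    (hq : ((q : ℕ) : 𝓞 F) ∈ w) : q = p := by
  by_contra hne
  have hcop : Nat.Coprime q p :=
    (Nat.coprime_primes q.2 p.2).mpr fun h => hne (Subtype.ext h)
  obtain ⟨a, b, hab⟩ := Nat.Coprime.isCoprime hcop
  refine hw.ne_top (Ideal.eq_top_iff_one _ |>.mpr ?_)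
  have h1 : (((a * (q : ℕ) + b * (p : ℕ) : ℤ)) : 𝓞 F) ∈ w := by
    push_cast
    exact add_mem (Ideal.mul_mem_left _ _ hq) (Ideal.mul_mem_left _ _ hp)
  rwa [hab, Int.cast_one] at h1

theorem exists_isPlaceCnr (hw : w.IsPrime) (hw0 : w ≠ ⊥) (hp : ((p : ℕ) : 𝓞 F) ∈ w) :
    ∃ e : Op F p, IsPlaceCnr p w e := by
  obtain ⟨q, ε, hε⟩ := LanglandsTunnell.Isolation.exists_isPlaceIdem hw hw0
  obtain rfl : q = p := natCast_mem_unique hw hp hε.mem
  refine ⟨compOH q ε, by rw [IsIdempotentElem, ← map_mul, hε.mul_self], hw, hp, ?_,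
    fun w' hw' hp' hne => ?_⟩
  · have h := Ideal.mem_map_of_mem (compOH q) hε.one_sub_mem
    rwa [map_sub, map_one, map_idealOH] at h
  · obtain ⟨x, ⟨d, hd⟩, hx⟩ := hε.approx 1
    have hJ : w' ⊔ w = ⊤ := (hw'.isMaximal (fun h => q.2.ne_zero (Nat.cast_eq_zero.mp
      (Ideal.mem_bot.mp (h ▸ hp'))))).coprime_of_ne (hw.isMaximal hw0) hne
    have hxw : x ∈ w' := by
      have := hx w' hJ ((Ideal.span_singleton_le_iff_mem _).mpr hp')
      rwa [pow_one] at this
    rw [pow_one] at hd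
    rw [show compOH q ε = ((q : ℕ) : Op F q) * d + incOp (q : ℕ) x by
      rw [← hd]; exact (sub_add_cancel _ _).symm]
    refine add_mem (Ideal.mul_mem_right _ _ ?_) (Ideal.mem_map_of_mem _ hxw)
    rw [← map_natCast (incOp (F := F) (q : ℕ))]
    exact Ideal.mem_map_of_mem _ hp'

/-- A maximal ideal of the component lies over a prime containing `p`. -/
theorem exists_prime_of_isMaximal {m : Ideal (Op F p)} (hm : m.IsMaximal) :
    ∃ w' : Ideal (𝓞 F), w'.IsPrime ∧ ((p : ℕ) : 𝓞 F) ∈ w' ∧ w'.map (incOp (p : ℕ)) ≤ m := by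
  have hp : ((p : ℕ) : Op F p) ∈ m := by
    by_contra h
    obtain ⟨y, z, hz, he⟩ := hm.exists_inv h
    have hu : IsUnit z := by
      rw [show z = 1 + ((p : ℕ) : Op F p) * -y by linear_combination he]
      exact isPComplete_op.isUnit_one_add _
    exact hm.ne_top (Ideal.eq_top_of_isUnit_mem _ hz hu)
  refine ⟨m.comap (incOp (p : ℕ)), hm.isPrime.comap _, ?_, Ideal.map_comap_le⟩
  rw [Ideal.mem_comap, map_natCast]
  exact hp

theorem eq_zero_of_idem {f : Op F p} (hf : IsIdempotentElem f)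
    (h : ∀ w' : Ideal (𝓞 F), w'.IsPrime → ((p : ℕ) : 𝓞 F) ∈ w' → f ∈ w'.map (incOp (p : ℕ))) :
    f = 0 := by
  have hu : IsUnit (1 - f) := by
    by_contra hu
    obtain ⟨m, hm, hmem⟩ := exists_max_ideal_of_mem_nonunits hu
    obtain ⟨w', hw', hp', hle⟩ := exists_prime_of_isMaximal hm
    exact hm.ne_top
      ((Ideal.eq_top_iff_one _).mpr (by simpa using add_mem hmem (hle (h w' hw' hp'))))
  refine hu.mul_left_eq_zero.mp ?_
  linear_combination -hf.eq

theorem IsPlaceCnr.mul_eq_zero {e e' : Op F p} (h : IsPlaceCnr p w e) (h' : IsPlaceCnr p w' e')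
    (hne : w ≠ w') : e * e' = 0 :=
  eq_zero_of_idem (h.idem.mul h'.idem) fun v hv hpv => by
    by_cases hvw : v = w
    · exact Ideal.mul_mem_left _ _ (h'.other v hv hpv (hvw ▸ hne))
    · exact Ideal.mul_mem_right _ _ (h.other v hv hpv hvw)

theorem IsPlaceCnr.complete {ι : Type*} [Fintype ι] {ws : ι → Ideal (𝓞 F)} {e : ι → Op F p}
    (hinj : Function.Injective ws) (h : ∀ i, IsPlaceCnr p (ws i) (e i))
    (hall : ∀ v : Ideal (𝓞 F), v.IsPrime → ((p : ℕ) : 𝓞 F) ∈ v → ∃ i, ws i = v) :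
    CompleteOrthogonalIdempotents e := by
  classical
  have ho : OrthogonalIdempotents e :=
    ⟨fun i => (h i).idem, fun i j hij => (h i).mul_eq_zero (h j) (hinj.ne hij)⟩
  refine ⟨ho, sub_eq_zero.mp (neg_eq_zero.mp (?_ : -(∑ i, e i - 1) = 0))⟩
  refine eq_zero_of_idem ?_ fun v hv hpv => ?_
  · rw [neg_sub]
    exact ho.isIdempotentElem_sum.one_sub
  · obtain ⟨i, rfl⟩ := hall v hv hpv
    rw [neg_sub, ← Finset.add_sum_erase _ _ (Finset.mem_univ i), ← sub_sub]
    exact sub_mem (h i).one_sub (sum_mem fun j hj =>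
      (h j).other _ hv hpv (hinj.ne (Finset.ne_of_mem_erase hj).symm))

theorem comap_map_incOp (hp : ((p : ℕ) : 𝓞 F) ∈ w) (hw0 : w ≠ ⊥) {a : 𝓞 F}
    (h : incOp (p : ℕ) a ∈ w.map (incOp (p : ℕ))) : a ∈ w := by
  have h' : (a ⊗ₜ[ℤ] (1 : Zhat)) ∈ idealOH w := (mem_idealOH_iff_comp hp).mpr h
  exact (tmul_one_mem_idealOH_iff hw0).mp h'

/-- **The factor is uniformised, with residue ring `𝓞 F ⧸ w`.** -/
theorem IsPlaceCnr.exists_isUnifRing {e : Op F p} (h : IsPlaceCnr p w e) {N : ℕ}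
    {π : (AF F)ˣ} (hπ : IsUniformizerAt (Ideal.span {(N : 𝓞 F)}) w π) :
    ∃ (o : Op F p), φp F p o = compAF p (π : AF F) ∧
      Ideal.span {o} = w.map (incOp (p : ℕ)) ∧
      IsUnifRing (cnrMap (φp F p) e) (cmk e o) ∧
      Nat.card (Cnr e ⧸ Ideal.span {cmk e o}) = Ideal.absNorm w := by
  have := h.prime
  have hw0 : w ≠ ⊥ := fun h0 => p.2.ne_zero (Nat.cast_eq_zero.mp (Ideal.mem_bot.mp (h0 ▸ h.mem)))
  have hwmax : w.IsMaximal := h.prime.isMaximal hw0
  obtain ⟨⟨o, hoπ, hspan⟩, -⟩ := comp_isUniformizerAt h.mem hπ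
  refine ⟨o, hoπ, hspan, ?_⟩
  have homem : o ∈ w.map (incOp (p : ℕ)) := hspan ▸ Ideal.mem_span_singleton_self o
  have hpw : ((p : ℕ) : Op F p) ∈ w.map (incOp (p : ℕ)) := by
    rw [← map_natCast (incOp (F := F) (p : ℕ))]
    exact Ideal.mem_map_of_mem _ h.mem
  have hmax : ∀ m : Ideal (Op F p), m.IsMaximal → 1 - e ∈ m → w.map (incOp (p : ℕ)) ≤ m := by
    intro m hm hem
    obtain ⟨w', hw', hp', hle⟩ := exists_prime_of_isMaximal hm
    by_cases hne : w' = w
    · exact hne ▸ hle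
    · exact absurd ((Ideal.eq_top_iff_one _).mpr (by
        simpa using add_mem hem (hle (h.other w' hw' hp' hne)))) hm.ne_top
  have hsurj : Function.Surjective
      ((Ideal.Quotient.mk (Ideal.span {cmk e o})).comp
        ((cmk e).comp (incOp (F := F) (p : ℕ)))) := by
    intro x
    obtain ⟨y, rfl⟩ := Ideal.Quotient.mk_surjective x
    obtain ⟨z, rfl⟩ := cmk_surjective y
    obtain ⟨a, r, hr⟩ := exists_sub_tmul_one 1 z
    refine ⟨a, (Ideal.Quotient.eq.mpr ?_).symm⟩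
    rw [RingHom.comp_apply, ← map_sub, Ideal.mem_span_singleton]
    refine map_dvd (cmk e) (Ideal.mem_span_singleton.mp (hspan ▸ ?_ : _ ∈ Ideal.span {o}))
    rw [hr, show incOp (p : ℕ) a = a ⊗ₜ[ℤ] (1 : ℤ_[(p : ℕ)]) from rfl, add_sub_cancel_left, pow_one]
    exact Ideal.mul_mem_right _ _ hpw
  have hker : ∀ a, cmk e o ∣ cmk e (incOp (p : ℕ) a) → a ∈ w := fun a ha => by
    obtain ⟨c, hc⟩ := ha
    obtain ⟨c, rfl⟩ := cmk_surjective c
    rw [← map_mul, cmk_eq_iff h.idem] at hc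
    refine comap_map_incOp h.mem hw0 ?_
    rw [show incOp (p : ℕ) a = e * (o * c) + (1 - e) * incOp (p : ℕ) a by linear_combination hc]
    exact add_mem (Ideal.mul_mem_left _ _ (Ideal.mul_mem_right _ _ homem))
      (Ideal.mul_mem_right _ _ h.one_sub)
  have hcard : Nat.card (Cnr e ⧸ Ideal.span {cmk e o}) = Ideal.absNorm w := by
    set f := (Ideal.Quotient.mk (Ideal.span {cmk e o})).comp
      ((cmk e).comp (incOp (F := F) (p : ℕ)))
    have hk : RingHom.ker f = w := by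
      refine le_antisymm (fun a ha => hker a (Ideal.mem_span_singleton.mp
        (Ideal.Quotient.eq_zero_iff_mem.mp ha))) fun a ha => ?_
      refine Ideal.Quotient.eq_zero_iff_mem.mpr (Ideal.mem_span_singleton.mpr (map_dvd (cmk e) ?_))
      exact Ideal.mem_span_singleton.mp (hspan ▸ Ideal.mem_map_of_mem _ ha)
    rw [← Nat.card_congr (RingHom.quotientKerEquivOfSurjective hsurj).toEquiv, hk]
    rfl
  have hfin : Finite (Cnr e ⧸ Ideal.span {cmk e o}) := Nat.finite_of_card_ne_zero (by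
    rw [hcard]; exact fun h0 => hw0 (Ideal.absNorm_eq_zero_iff.mp h0))
  have hnu : ¬ IsUnit (cmk e o) := fun hu => h.prime.ne_top ((Ideal.eq_top_iff_one _).mpr
    (hker 1 (by rw [map_one, map_one]; exact isUnit_iff_dvd_one.mp hu)))
  have hunit : ∀ x : Cnr e, cmk e o ∣ x ∨ IsUnit x := by
    intro x
    by_contra hc
    push Not at hc
    obtain ⟨m', hm', hx⟩ := exists_max_ideal_of_mem_nonunits hc.2
    have hom : cmk e o ∈ m' := by
      have := hmax (m'.comap (cmk e)) (Ideal.comap_isMaximal_of_surjective _ cmk_surjective) (by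
        rw [Ideal.mem_comap, map_sub, map_one, cmk_self, sub_self]; exact zero_mem _) homem
      exact this
    obtain ⟨a, ha⟩ := hsurj (Ideal.Quotient.mk _ x)
    have hax : cmk e (incOp (p : ℕ) a) - x ∈ Ideal.span {cmk e o} := Ideal.Quotient.eq.mp ha
    by_cases haw : a ∈ w
    · refine hc.1 ?_
      rw [show x = cmk e (incOp (p : ℕ) a) - (cmk e (incOp (p : ℕ) a) - x) by ring]
      exact dvd_sub (map_dvd (cmk e) (Ideal.mem_span_singleton.mp
        (hspan ▸ Ideal.mem_map_of_mem _ haw))) (Ideal.mem_span_singleton.mp hax)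
    · obtain ⟨b, i, hi, hbi⟩ := hwmax.exists_inv haw
      have ha' : cmk e (incOp (p : ℕ) a) ∈ m' := by
        have := add_mem (Ideal.span_singleton_le_iff_mem m' |>.mpr hom hax) hx
        simpa using this
      refine hm'.ne_top ((Ideal.eq_top_iff_one _).mpr ?_)
      have h1 : cmk e (incOp (p : ℕ) (b * a + i)) = 1 := by rw [hbi, map_one, map_one]
      rw [← h1, map_add, map_add, map_mul, map_mul]
      refine add_mem (Ideal.mul_mem_left _ _ ha') ((Ideal.span_singleton_le_iff_mem m').mpr hom ?_)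
      exact Ideal.mem_span_singleton.mpr (map_dvd (cmk e) (Ideal.mem_span_singleton.mp
        (hspan ▸ Ideal.mem_map_of_mem _ hi)))
  have hp' : ∀ x : Lp F p, ∃ (n : ℕ) (y : Op F p), φp F p ((p : ℕ) : Op F p) ^ n * x = φp F p y :=
    fun x => by
      obtain ⟨k, y, hy⟩ := exists_pow_mul_eq_φp x
      exact ⟨k, y, by rw [map_natCast, hy]⟩
  obtain ⟨c, hcp⟩ := Ideal.mem_span_singleton.mp (hspan ▸ hpw : ((p : ℕ) : Op F p) ∈ Ideal.span {o})
  have hfinp : Finite (Op F p ⧸ Ideal.span {((p : ℕ) : Op F p)}) :=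
    LocalCubic.finite_quotient_padic
  have hnil : ∀ x : Cnr e, (∀ n, cmk e o ^ n ∣ x) → x = 0 := by
    -- powers of the uniformiser are eventually divisible by `p`
    let I : Ideal (Cnr e) := Ideal.span {cmk e ((p : ℕ) : Op F p)}
    have : Finite (Cnr e ⧸ I) := Finite.of_surjective
      (Ideal.quotientMap I (cmk e) (by
        rw [Ideal.span_singleton_le_iff_mem, Ideal.mem_comap]
        exact Ideal.mem_span_singleton_self _) :
          Op F p ⧸ Ideal.span {((p : ℕ) : Op F p)} →+* Cnr e ⧸ I)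
      fun y => by
        obtain ⟨y, rfl⟩ := Ideal.Quotient.mk_surjective y
        obtain ⟨y, rfl⟩ := cmk_surjective y
        exact ⟨Ideal.Quotient.mk _ y, rfl⟩
    obtain ⟨a, b, hab, heq⟩ :=
      Finite.exists_ne_map_eq_of_infinite fun n : ℕ => Ideal.Quotient.mk I (cmk e o ^ n)
    obtain ⟨n₀, hn₀⟩ : ∃ n₀, cmk e ((p : ℕ) : Op F p) ∣ cmk e o ^ n₀ := by
      wlog hlt : a < b generalizing a b
      · exact this b a hab.symm heq.symm (by omega)
      obtain ⟨d, rfl⟩ : ∃ d, b = a + (d + 1) := ⟨b - a - 1, by omega⟩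
      refine ⟨a, Ideal.mem_span_singleton.mp ?_⟩
      have h2 : cmk e o ^ a * (1 - cmk e o ^ (d + 1)) ∈ I := by
        rw [mul_sub, mul_one, ← pow_add]; exact Ideal.Quotient.eq.mp heq
      rcases hunit (1 - cmk e o ^ (d + 1)) with hd | hu
      · refine absurd (isUnit_of_dvd_one ?_) hnu
        have := dvd_add hd (dvd_pow_self (cmk e o) d.succ_ne_zero)
        simpa using this
      · exact ((Ideal.mul_unit_mem_iff_mem I hu).mp h2)
    intro x hx
    obtain ⟨x, rfl⟩ := cmk_surjective x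
    refine cmk_eq_zero_of_mul_eq_zero h.idem
      ((isPComplete_op (F := F) (p := (p : ℕ))).haus _ fun n => ?_)
    have hdd : cmk e ((p : ℕ) : Op F p) ^ n ∣ cmk e x :=
      (pow_dvd_pow_of_dvd hn₀ n).trans (by rw [← pow_mul]; exact hx (n₀ * n))
    obtain ⟨d, hd⟩ := hdd
    obtain ⟨d, rfl⟩ := cmk_surjective d
    rw [← map_pow, ← map_mul, cmk_eq_iff h.idem] at hd
    exact ⟨e * d, by rw [hd]; ring⟩
  have hexp : ∀ x : Cnr e, x ≠ 0 → ∃ (n : ℕ) (u : (Cnr e)ˣ), x = cmk e o ^ n * u := by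
    intro x hx
    obtain ⟨n, hn⟩ : ∃ n, ¬ cmk e o ^ n ∣ x := by
      by_contra hc
      push Not at hc
      exact hx (hnil x hc)
    induction n generalizing x with
    | zero => exact absurd (one_dvd x) (by simp at hn)
    | succ n ih =>
      rcases hunit x with ⟨y, rfl⟩ | hu
      · obtain ⟨m, u, hm⟩ := ih y (right_ne_zero_of_mul hx) fun hd =>
          hn (by rw [pow_succ']; exact mul_dvd_mul_left _ hd)
        exact ⟨m + 1, u, by rw [hm, pow_succ']; ring⟩
      · exact ⟨0, hu.unit, by rw [pow_zero, one_mul, IsUnit.unit_spec]⟩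
  refine ⟨⟨cnrMap_injective φp_injective h.idem, hnu, hunit, ?_, hexp, ?_, hfin⟩, hcard⟩
  · rw [cnrMap_cmk]
    refine IsUnit.map _ ?_
    refine isUnit_of_mul_isUnit_left (y := φp F p c) ?_
    rw [← map_mul, ← hcp, map_natCast]
    exact isUnit_natCast_Lp p.2.ne_zero
  · intro x
    obtain ⟨x, rfl⟩ := cmk_surjective x
    obtain ⟨n, y, hy⟩ := hp' x
    have hpne : cmk e ((p : ℕ) : Op F p) ≠ 0 := fun h0 => by
      have hu : IsUnit (cmk (φp F p e) (φp F p ((p : ℕ) : Op F p))) := by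
        refine IsUnit.map _ ?_
        rw [map_natCast]
        exact isUnit_natCast_Lp p.2.ne_zero
      rw [← cnrMap_cmk, h0, map_zero, isUnit_zero_iff] at hu
      refine hnu (IsUnit.of_mul_eq_one 1 (cnrMap_injective φp_injective h.idem ?_))
      exact eq_of_zero_eq_one hu _ _
    obtain ⟨m, u, hm⟩ := hexp _ hpne
    refine ⟨m * n, (↑(u ^ n)⁻¹ : Cnr e) * cmk e y, ?_⟩
    refine ((u ^ n).isUnit.map (cnrMap (φp F p) e)).mul_left_cancel ?_
    rw [← map_mul (cnrMap (φp F p) e) (↑(u ^ n) : Cnr e) (↑(u ^ n)⁻¹ * cmk e y),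
      ← mul_assoc (↑(u ^ n) : Cnr e), Units.mul_inv, one_mul, cnrMap_cmk (φp F p) e y, ← hy,
      map_mul (cmk (φp F p e)), map_pow (cmk (φp F p e)), ← cnrMap_cmk (φp F p) e _, hm,
      map_mul (cnrMap (φp F p) e), map_pow (cnrMap (φp F p) e), mul_pow, Units.val_pow_eq_pow_val,
      map_pow (cnrMap (φp F p) e), pow_mul]
    ring

end FLTAgent.LanglandsTunnell.Local
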