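import Fermat.Agent.LanglandsTunnell.Local.CornerLift
import Fermat.Agent.LanglandsTunnell.Local.Heights
import Fermat.Agent.LanglandsTunnell.Local.Places

/-!
# The height at one component

`locHeight` is the height at one component; the finite height is the sum of the component heights
(`adelicHeight_eq_sum`, `finHeight_eq_finsum`), which form a height pair
(`isHeightPair_locHeight`).
-/

set_option autoImplicit false

noncomputable section

namespace FLTAgent.LanglandsTunnell.Local

open scoped TensorProduct
open Matrix NumberField FLTAgent.LanglandsTunnell FLTAgent.LanglandsTunnell.Geom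

variable {F : Type} [Field F] [NumberField F]

/-- The matrix with one nontrivial component. -/
def singleGL (p : Nat.Primes) : GL (Fin 2) (Lp F p) →* GL (Fin 2) (AF F) where
  toFun x := (exists_gl_single (F := F) p x).choose
  map_one' := gl_ext fun q => by
    rcases eq_or_ne q p with rfl | hq
    · rw [(exists_gl_single (F := F) q 1).choose_spec.1, map_one]
    · rw [(exists_gl_single (F := F) p 1).choose_spec.2 q hq, map_one]
  map_mul' x y := gl_ext fun q => by
    rcases eq_or_ne q p with rfl | hq
    · rw [map_mul, (exists_gl_single (F := F) q (x * y)).choose_spec.1,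
        (exists_gl_single (F := F) q x).choose_spec.1,
        (exists_gl_single (F := F) q y).choose_spec.1]
    · rw [map_mul, (exists_gl_single (F := F) p (x * y)).choose_spec.2 q hq,
        (exists_gl_single (F := F) p x).choose_spec.2 q hq,
        (exists_gl_single (F := F) p y).choose_spec.2 q hq, one_mul]

theorem compGL_singleGL (p : Nat.Primes) (x : GL (Fin 2) (Lp F p)) :
    compGL p (singleGL p x) = x :=
  (exists_gl_single (F := F) p x).choose_spec.1

theorem compGL_singleGL_of_ne {p q : Nat.Primes} (hq : q ≠ p) (x : GL (Fin 2) (Lp F p)) :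
    compGL q (singleGL p x) = 1 :=
  (exists_gl_single (F := F) p x).choose_spec.2 q hq

theorem adelicHeight_eq_of_coset {N : ℕ} {g h : GL (Fin 2) (AF F)}
    (heq : (g : FinPt F (Ideal.span {(N : 𝓞 F)})) = (h : FinPt F (Ideal.span {(N : 𝓞 F)}))) :
    adelicHeight g = adelicHeight h := by
  obtain ⟨k, hk, z, rfl⟩ := exists_level_decomp heq
  exact (adelicHeight_mul_right g (bounded_of_congrOne hk) z).symm

/-- The height at the component `p`. -/
def locHeight (p : Nat.Primes) (x : GL (Fin 2) (Lp F p)) : ℝ := adelicHeight (singleGL p x)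

theorem locHeight_one (p : Nat.Primes) : locHeight (F := F) p 1 = 0 := by
  rw [locHeight, map_one]; exact adelicHeight_one

theorem locHeight_mul_level (p : Nat.Primes) (g k : GL (Fin 2) (Lp F p))
    (hk : k ∈ levelK (φp F p) 1) : locHeight p (g * k) = locHeight p g := by
  refine (adelicHeight_eq_of_coset (N := 1) (QuotientGroup.eq.mpr ?_)).symm
  rw [← map_inv, ← map_mul, inv_mul_cancel_left]
  refine (mem_levelGroup_iff_comp one_ne_zero).mpr fun q => ?_
  rcases eq_or_ne q p with rfl | hq
  · rw [compGL_singleGL, Nat.cast_one]; exact hk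
  · rw [compGL_singleGL_of_ne hq]; exact one_mem _

theorem locHeight_out {N : ℕ} (p : Nat.Primes) (g : GL (Fin 2) (Lp F p)) :
    locHeight p (g : LocPt F N p).out = locHeight p g := by
  obtain ⟨k, hk⟩ := QuotientGroup.mk_out_eq_mul (levelK (φp F p) (N : Op F p)) g
  rw [hk]
  exact locHeight_mul_level p g _ (levelK_le_one _ k.2)

theorem locHeight_diag (p : Nat.Primes) (d g : GL (Fin 2) (Lp F p)) (hd : IsDiag2 d) :
    locHeight p (d * g) = locHeight p g := by
  have key : ∀ i j, i ≠ j → d.1 i j = 0 → (singleGL p d).1 i j = 0 := fun i j hij h =>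
    af_ext fun q => by
      rw [map_zero, ← compGL_val]
      rcases eq_or_ne q p with rfl | hq
      · rw [compGL_singleGL, h]
      · rw [compGL_singleGL_of_ne hq, Units.val_one, Matrix.one_apply_ne hij]
  rw [locHeight, map_mul]
  exact adelicHeight_diag_mul (key 0 1 (by decide) hd.1) (key 1 0 (by decide) hd.2) _

theorem exists_af_single (p : Nat.Primes) (y : Lp F p) :
    ∃ a : AF F, compAF p a = y ∧ ∀ q : Nat.Primes, q ≠ p → compAF q a = 0 := by
  classical
  obtain ⟨a, ha⟩ := exists_af_comp (F := F)
    (Function.update (fun q : Nat.Primes => (0 : Lp F q)) p y) {p} fun q hq =>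
      ⟨0, by rw [map_zero, Function.update_of_ne (Finset.notMem_singleton.mp hq)]⟩
  exact ⟨a, by rw [ha, Function.update_self], fun q hq => by rw [ha, Function.update_of_ne hq]⟩

theorem exists_single_idem (p : Nat.Primes) {η : Op F p} (hη : η * η = η) :
    ∃ e : AF F, e ∈ intAF F ∧ e * e = e ∧ compAF p e = φp F p η ∧
      ∀ q : Nat.Primes, q ≠ p → compAF q e = 0 := by
  obtain ⟨e, hep, heq⟩ := exists_af_single p (φp F p η)
  refine ⟨e, mem_intAF_iff_comp.mpr fun q => ?_, af_ext fun q => ?_, hep, heq⟩
  · rcases eq_or_ne q p with rfl | hq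
    · exact ⟨η, hep.symm⟩
    · exact ⟨0, by rw [map_zero, heq q hq]⟩
  · rcases eq_or_ne q p with rfl | hq
    · rw [map_mul (compAF q), hep, ← map_mul, hη]
    · rw [map_mul (compAF q), heq q hq, mul_zero]

theorem locHeight_exchange (p : Nat.Primes) (η : Op F p) (g g' h h' : GL (Fin 2) (Lp F p))
    (hη : η * η = η) (hh : h.1 = φp F p η • g.1 + (1 - φp F p η) • g'.1)
    (hh' : h'.1 = φp F p η • g'.1 + (1 - φp F p η) • g.1) :
    locHeight p h + locHeight p h' = locHeight p g + locHeight p g' := by
  obtain ⟨e, hei, he2, hep, heq⟩ := exists_single_idem p hη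
  have key : ∀ {g g' h : GL (Fin 2) (Lp F p)},
      h.1 = φp F p η • g.1 + (1 - φp F p η) • g'.1 →
      (singleGL p h).1 = e • (singleGL p g).1 + (1 - e) • (singleGL p g').1 := by
    intro g g' h hh
    refine Matrix.ext fun i j => af_ext fun q => ?_
    simp only [Matrix.add_apply, Matrix.smul_apply, smul_eq_mul, map_add (compAF q),
      map_mul (compAF q), map_sub (compAF q), map_one (compAF q), ← compGL_val]
    rcases eq_or_ne q p with rfl | hq
    · rw [compGL_singleGL, compGL_singleGL, compGL_singleGL, hep, hh]
      simp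
    · rw [compGL_singleGL_of_ne hq, compGL_singleGL_of_ne hq, compGL_singleGL_of_ne hq, heq q hq]
      ring
  exact coeff_exchange hei he2 (key hh) (key hh')

/-- The height is the sum of the heights of the components. -/
theorem adelicHeight_eq_sum : ∀ (S : Finset Nat.Primes) (g : GL (Fin 2) (AF F)),
    (∀ p : Nat.Primes, p ∉ S → compGL p g ∈ levelK (φp F p) 1) →
      adelicHeight g = ∑ p ∈ S, locHeight p (compGL p g) := by
  classical
  intro S
  induction S using Finset.induction_on with
  | empty =>
    intro g hg
    rw [Finset.sum_empty, ← adelicHeight_one (F := F)]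
    refine adelicHeight_eq_of_coset (N := 1) (QuotientGroup.eq.mpr ?_)
    rw [mul_one]
    refine inv_mem ((mem_levelGroup_iff_comp one_ne_zero).mpr fun q => ?_)
    rw [Nat.cast_one]
    exact hg q (Finset.notMem_empty q)
  | insert p S hp ih =>
    intro g hg
    obtain ⟨e, hei, he2, hep, heq⟩ := exists_single_idem (F := F) p (η := 1) (one_mul 1)
    rw [map_one] at hep
    set g' : GL (Fin 2) (AF F) := g * (singleGL p (compGL p g))⁻¹
    have hp1 : compGL p g' = 1 := by
      simp only [g', map_mul, map_inv, compGL_singleGL, mul_inv_cancel]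
    have hq' : ∀ q : Nat.Primes, q ≠ p → compGL q g' = compGL q g := fun q hq => by
      simp only [g', map_mul, map_inv, compGL_singleGL_of_ne hq, inv_one, mul_one]
    have h1 : (singleGL p (compGL p g)).1 = e • g.1 + (1 - e) • (1 : GL (Fin 2) (AF F)).1 := by
      refine Matrix.ext fun i j => af_ext fun q => ?_
      simp only [Matrix.add_apply, Matrix.smul_apply, smul_eq_mul, map_add (compAF q),
        map_mul (compAF q), map_sub (compAF q), map_one (compAF q), ← compGL_val,
        map_one (compGL q)]
      rcases eq_or_ne q p with rfl | hq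
      · rw [compGL_singleGL, hep]; ring
      · rw [compGL_singleGL_of_ne hq, heq q hq]; ring
    have h2 : g'.1 = e • (1 : GL (Fin 2) (AF F)).1 + (1 - e) • g.1 := by
      refine Matrix.ext fun i j => af_ext fun q => ?_
      simp only [Matrix.add_apply, Matrix.smul_apply, smul_eq_mul, map_add (compAF q),
        map_mul (compAF q), map_sub (compAF q), map_one (compAF q), ← compGL_val,
        map_one (compGL q)]
      rcases eq_or_ne q p with rfl | hq
      · rw [hp1, hep]; ring
      · rw [hq' q hq, heq q hq]; ring
    have hx := coeff_exchange hei he2 h1 h2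
    rw [adelicHeight_one, add_zero] at hx
    have hrec := ih g' fun q hq => by
      rcases eq_or_ne q p with rfl | hne
      · rw [hp1]; exact one_mem _
      · rw [hq' q hne]
        exact hg q fun hm => (Finset.mem_insert.mp hm).elim hne hq
    rw [Finset.sum_insert hp, ← hx, hrec, locHeight]
    refine congrArg (_ + ·) (Finset.sum_congr rfl fun q hq => ?_)
    rw [hq' q fun h => hp (h ▸ hq)]

/-- The finite height is the sum over the components. -/
theorem finHeight_eq_finsum {ι : Type} [Fintype ι] (Φ : PlaceChoice F ι) {N : ℕ} (hN : N ≠ 0)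
    (v : FinPt F (Ideal.span {(N : 𝓞 F)})) :
    {p : Nat.Primes | locHeight p (compPt hN p v).out ≠ 0}.Finite ∧
      finHeight Φ v = ∑ᶠ p : Nat.Primes, locHeight p (compPt hN p v).out := by
  obtain ⟨g, rfl⟩ := QuotientGroup.mk_surjective v
  obtain ⟨S, hS⟩ := exists_finset_congr 1 one_ne_zero g
  have hmem : ∀ q : Nat.Primes, q ∉ S → compGL q g ∈ levelK (φp F q) 1 := fun q hq => by
    have h := hS q hq
    rw [Nat.cast_one] at h
    exact le_sup_left (a := congrGroup (φp F q) 1) h
  have hsub : {p : Nat.Primes | locHeight p (compGL p g) ≠ 0} ⊆ ↑S := fun q hq => by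
    by_contra hqS
    refine hq ?_
    rw [show compGL q g = 1 * compGL q g from (one_mul _).symm,
      locHeight_mul_level q 1 _ (hmem q hqS), locHeight_one]
  simp only [compPt_mk, locHeight_out]
  refine ⟨(Finset.finite_toSet S).subset hsub, ?_⟩
  rw [finHeight_mk, adelicHeight_eq_sum S g hmem, finsum_eq_sum_of_support_subset _ hsub]

theorem locHeight_base {N : ℕ} (p : Nat.Primes) :
    locHeight p ((1 : GL (Fin 2) (Lp F p)) : LocPt F N p).out = 0 := by
  rw [locHeight_out, locHeight_one]

/-! ### The pair of a cubic extension -/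

omit [NumberField F] in
theorem compAF_map_eq {F' : Type} [Field F'] [NumberField F'] (f : F →+* F') (p : Nat.Primes)
    (x : AF F) : compAF p (mapAF f x) = mapLp f (compAF p x) := by
  induction x using TensorProduct.induction_on with
  | zero => simp
  | tmul a z => rfl
  | add x y hx hy => simp only [map_add, hx, hy]

theorem singleGL_map {F' : Type} [Field F'] [NumberField F'] (f : F →+* F') (p : Nat.Primes)
    (x : GL (Fin 2) (Lp F p)) :
    singleGL p (GeneralLinearGroup.map (mapLp f) x) =
      GeneralLinearGroup.map (mapAF f).toRingHom (singleGL p x) := by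
  refine gl_ext fun q => Units.ext (Matrix.ext fun i j => Eq.symm ?_)
  refine (compAF_map_eq f q _).trans ?_
  rcases eq_or_ne q p with rfl | hq
  · rw [← compGL_val, compGL_singleGL, compGL_singleGL]
    rfl
  · rw [← compGL_val, compGL_singleGL_of_ne hq, compGL_singleGL_of_ne hq]
    simp [Matrix.one_apply, apply_ite (mapLp f)]

/-- Heights under a map of number fields. -/
theorem adelicHeight_map {F' : Type} [Field F'] [NumberField F'] (f : F →+* F') {d : ℕ}
    (hdeg : Module.finrank ℚ F' = d * Module.finrank ℚ F) (g : GL (Fin 2) (AF F)) :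
    adelicHeight (GeneralLinearGroup.map (mapAF f).toRingHom g) = d * adelicHeight g := by
  have hs : ∀ j, (stdVec j : Fin 2 → F') = f ∘ (stdVec j : Fin 2 → F) := fun j =>
    funext fun i => by fin_cases i <;> fin_cases j <;> simp [stdVec]
  simp only [adelicHeight, hs, nrm_coordFrac_map f hdeg g (stdVec_ne_zero _),
    nrm_ideleFrac_map_det f hdeg g, Real.log_pow]
  ring

theorem finrank_incl {D : Datum} (P : ExtPlaces D) :
    Module.finrank ℚ D.M = 3 * Module.finrank ℚ D.E := by
  rw [← two_mul_card P.placesE, ← two_mul_card P.placesM]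
  simp

/-- **The component heights form a height pair.** -/
theorem isHeightPair_locHeight {E M : Type} [Field E] [Field M] [NumberField E] [NumberField M]
    {f : E →+* M} {s : M ≃+* M} (h : CubicData f s)
    (hdeg : Module.finrank ℚ M = 3 * Module.finrank ℚ E) (p : Nat.Primes) :
    (h.localCubic (p : ℕ)).IsHeightPair (locHeight (F := E) p) (locHeight (F := M) p) where
  rightE g k hk := locHeight_mul_level p g k hk
  rightM g k hk := locHeight_mul_level p g k hk
  diagE d g hd := locHeight_diag p d g hd
  diagM d g hd := locHeight_diag p d g hd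
  oneE := locHeight_one p
  oneM := locHeight_one p
  incl g := by
    show adelicHeight (singleGL p (GeneralLinearGroup.map (mapLp f) g)) = _
    rw [singleGL_map, adelicHeight_map f hdeg]
    norm_num [locHeight]
  twist g := by
    show adelicHeight (singleGL p _) = adelicHeight (singleGL p g)
    rw [show ((h.localCubic (p : ℕ)).θ g) = GeneralLinearGroup.map (mapLp s.toRingHom) g from
      Units.ext rfl, singleGL_map, adelicHeight_map _ (d := 1) (one_mul _).symm, Nat.cast_one,
      one_mul]
  exchange := locHeight_exchange p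
  exchangeE := locHeight_exchange p

/-- The height of a unipotent with pole of order `k` in the factor of `w`. -/
theorem cornerHeight_unip {n w : Ideal (𝓞 F)} {p : Nat.Primes} {e : Op F p}
    (h : IsPlaceCnr p w e) {π : (AF F)ˣ} (hπ : IsUniformizerAt n w π) (k : ℕ)
    {y : Cnr (φp F p e)} (hy : cmk (φp F p e) (compAF p (π : AF F)) ^ k * y = 1) :
    cornerHeight (h.idem.map (φp F p)) (locHeight p) (upperUnip (R := Cnr (φp F p e)) y) =
      2 * k * Real.log (Ideal.absNorm w) := by
  have hw0 : w ≠ ⊥ := fun h0 => p.2.ne_zero (Nat.cast_eq_zero.mp (Ideal.mem_bot.mp (h0 ▸ h.mem)))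
  obtain ⟨π₀, hπ₀, -, hspan⟩ := isUniformizerAt_iff.mp hπ
  have hgen : ∀ q : Nat.Primes,
      w.map (incOp (q : ℕ)) = Ideal.span {compOH q π₀} := fun q => by
    rw [← map_idealOH, hspan, Ideal.map_span, Set.image_singleton]
  have hcomp : ∀ q : Nat.Primes, compAF q (π : AF F) = φp F q (compOH q π₀) := fun q => by
    rw [← hπ₀, compAF_intHom]
  have hinv : ∀ q : Nat.Primes,
      compAF q ((((π ^ k)⁻¹ : (AF F)ˣ) : AF F)) * compAF q (π : AF F) ^ k = 1 := fun q => by
    rw [← map_pow (compAF q), ← map_mul (compAF q), ← Units.val_pow_eq_pow_val, ← Units.val_mul,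
      inv_mul_cancel, Units.val_one, map_one (compAF q)]
  set yt := Function.surjInv cmk_surjective y with hyt
  obtain ⟨x, hxp, hxq⟩ := exists_af_single p (φp F p e * yt)
  have hclift : clift (h.idem.map (φp F p)) (upperUnip (R := Cnr (φp F p e)) y) =
      upperUnip (R := Lp F p) (φp F p e * yt) := by
    refine clift_eq _ (Units.ext (Matrix.ext fun i j => ?_)) fun i j => ?_
    · show cmk (φp F p e) ((upperUnip (R := Lp F p) (φp F p e * yt)).1 i j) = _
      fin_cases i <;> fin_cases j <;>
        simp [upperUnip, cmk_self, hyt, Function.surjInv_eq cmk_surjective]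
    · fin_cases i <;> fin_cases j <;> simp [upperUnip]
      rw [← mul_assoc, sub_mul, one_mul, (h.idem.map (φp F p)).eq, sub_self, zero_mul]
  have hgl : singleGL p (upperUnip (R := Lp F p) (φp F p e * yt)) = upperUnip (R := AF F) x := by
    refine gl_ext fun q => Units.ext (Matrix.ext fun i j => ?_)
    rw [compGL_val q (upperUnip (R := AF F) x)]
    rcases eq_or_ne q p with rfl | hq
    · rw [compGL_singleGL]
      fin_cases i <;> fin_cases j <;> simp [upperUnip, hxp]
    · rw [compGL_singleGL_of_ne hq]
      fin_cases i <;> fin_cases j <;> simp [upperUnip, hxq q hq]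
  rw [cornerHeight, hclift, locHeight, hgl]
  refine adelicHeight_upperUnip hw0 hπ k (mem_intAF_iff_comp.mpr fun q => ?_)
  rw [map_sub (compAF q)]
  rcases eq_or_ne q p with rfl | hq
  · obtain ⟨c, hc⟩ := Ideal.mem_span_singleton.mp (hgen q ▸ h.one_sub :
      1 - e ∈ Ideal.span {compOH q π₀})
    have hpow : 1 - e = (1 - e) * (compOH q π₀ ^ k * c ^ k) := by
      rw [← mul_pow, ← hc, ← pow_succ', h.idem.one_sub.pow_succ_eq]
    refine ⟨-((1 - e) * c ^ k), ?_⟩
    have hy' : φp F q e * (compAF q (π : AF F) ^ k * yt) = φp F q e * 1 := by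
      refine (cmk_eq_iff (h.idem.map (φp F q))).mp ?_
      rw [map_mul, map_pow, hyt, Function.surjInv_eq cmk_surjective, hy, map_one]
    have hpow' := congrArg (φp F q) hpow
    simp only [map_sub, map_one, map_mul, map_pow, ← hcomp] at hpow'
    rw [hxp, map_neg, map_mul, map_sub, map_one, map_pow]
    have hu := hinv q
    set u := compAF q (π : AF F) ^ k
    set v := compAF q ((((π ^ k)⁻¹ : (AF F)ˣ) : AF F))
    linear_combination v * hpow' - v * hy' + (φp F q e * yt + (1 - φp F q e) * φp F q c ^ k) * hu
  · have hunit : IsUnit (compOH q π₀) := by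
      rw [← Ideal.span_singleton_eq_top, ← hgen q, incOp_eq_top_of_ne h.mem hq]
    obtain ⟨b, hb⟩ := (hunit.pow k).exists_right_inv
    refine ⟨-b, ?_⟩
    have hb' := congrArg (φp F q) hb
    simp only [map_mul, map_pow, map_one, ← hcomp] at hb'
    rw [hxq q hq, map_neg]
    linear_combination -compAF q ((((π ^ k)⁻¹ : (AF F)ˣ) : AF F)) * hb' + φp F q b * hinv q

end FLTAgent.LanglandsTunnell.Local
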