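import Fermat.Agent.LanglandsTunnell.Local.SplitCoords
import Fermat.Agent.LanglandsTunnell.Matrices

/-!
# The comparison at a split place of a cubic setting

`Q : PlainLocal` does not move anything; the twisted side reads the three coordinates
(`IsSplitIdem.plain`, `IsSplitIdem.twist`).
-/

set_option autoImplicit false

noncomputable section

namespace FLTAgent.LanglandsTunnell.Local

open Matrix Function FLTAgent.LanglandsTunnell

/-! ### Kernels -/

section Kernels

variable {X : Type*}

theorem finRows_idKer : SplitPlace.FinRows (idKer : X → X → ℂ) := fun x =>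
  (Set.finite_singleton x).subset fun _ hy => by
    by_contra h
    exact hy (idKer_ne fun e => h e.symm)

theorem comp_idKer_left (k : X → X → ℂ) : SplitPlace.comp idKer k = k := by
  funext x y
  rw [SplitPlace.comp, finsum_eq_single _ x fun z hz => by rw [idKer_ne hz.symm, zero_mul],
    idKer_self, one_mul]

theorem comp_idKer_right (k : X → X → ℂ) : SplitPlace.comp k idKer = k := by
  funext x y
  rw [SplitPlace.comp, finsum_eq_single _ y fun z hz => by rw [idKer_ne hz, mul_zero],
    idKer_self, mul_one]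

theorem finRows_iterKer {k : X → X → ℂ} (hk : SplitPlace.FinRows k) :
    ∀ a, SplitPlace.FinRows (iterKer k a)
  | 0 => finRows_idKer
  | a + 1 => hk.comp (finRows_iterKer hk a)

theorem comp_iterKer {k : X → X → ℂ} (hk : SplitPlace.FinRows k) :
    ∀ a b, SplitPlace.comp (iterKer k a) (iterKer k b) = iterKer k (a + b)
  | 0, b => by rw [Nat.zero_add]; exact comp_idKer_left _
  | a + 1, b => by
    rw [Nat.add_right_comm]
    show SplitPlace.comp (SplitPlace.comp k (iterKer k a)) _ = SplitPlace.comp k _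
    rw [SplitPlace.comp_assoc hk (finRows_iterKer hk a), comp_iterKer hk a b]

theorem iterKer_smul {G : Type*} [Group G] [MulAction G X] {k : X → X → ℂ}
    (hk : ∀ (g : G) x y, k (g • x) (g • y) = k x y) :
    ∀ (a : ℕ) (g : G) (x y : X), iterKer k a (g • x) (g • y) = iterKer k a x y
  | 0, g, x, y => by
    by_cases h : x = y
    · subst h
      show idKer (g • x) (g • x) = idKer x x
      rw [idKer_self, idKer_self]
    · show idKer (g • x) (g • y) = idKer x y
      rw [idKer_ne h, idKer_ne fun e => h (smul_left_cancel g e)]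
  | a + 1, g, x, y => by
    show ∑ᶠ z, k (g • x) z * iterKer k a z (g • y) = ∑ᶠ z, k x z * iterKer k a z y
    rw [← finsum_comp_equiv (MulAction.toPerm g)]
    exact finsum_congr fun z => by
      rw [MulAction.toPerm_apply, hk, iterKer_smul hk a]

theorem nbrKer_smul {O L : Type} [CommRing O] [CommRing L] (φ : O →+* L) (N : O) (I : Ideal O)
    (c : GL (Fin 2) L) (x y : QPt φ N) : nbrKer φ N I (c • x) (c • y) = nbrKer φ N I x y := by
  have key : ∀ (c : GL (Fin 2) L) (x y : QPt φ N),
      y ∈ nbrSet φ N I x → c • y ∈ nbrSet φ N I (c • x) := by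
    rintro c x y ⟨g, k, π, o, rfl, hk, ho, hI, rfl⟩
    refine ⟨c * g, k, π, o, ?_, hk, ho, hI, ?_⟩
    · rw [MulAction.Quotient.smul_coe, smul_eq_mul]
    · rw [MulAction.Quotient.smul_coe, smul_eq_mul]
      exact congrArg QuotientGroup.mk (by group)
  by_cases h : y ∈ nbrSet φ N I x
  · rw [nbrKer, nbrKer, Set.indicator_of_mem h, Set.indicator_of_mem (key c x y h)]
    rfl
  · have h' : c • y ∉ nbrSet φ N I (c • x) := fun hc => h (by simpa using key c⁻¹ _ _ hc)
    rw [nbrKer, nbrKer, Set.indicator_of_notMem h, Set.indicator_of_notMem h']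

variable {X' : Type*} (ψ : X' ≃ (Fin 3 → X))

/-- The product of three kernels in coordinates. -/
def coordKer (f : Fin 3 → X → X → ℂ) (v v' : X') : ℂ := ∏ l, f l (ψ v l) (ψ v' l)

theorem finRows_coordKer {f : Fin 3 → X → X → ℂ} (hf : ∀ l, SplitPlace.FinRows (f l)) :
    SplitPlace.FinRows (coordKer ψ f) := fun v => by
  refine ((Set.Finite.pi' fun l => hf l (ψ v l)).preimage ψ.injective.injOn).subset
    fun v' hv' l => ?_
  exact Finset.prod_ne_zero_iff.mp hv' l (Finset.mem_univ l)

theorem comp_coordKer {f g : Fin 3 → X → X → ℂ} (hf : ∀ l, SplitPlace.FinRows (f l)) :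
    SplitPlace.comp (coordKer ψ f) (coordKer ψ g) =
      coordKer ψ fun l => SplitPlace.comp (f l) (g l) := by
  classical
  funext v v'
  let T : Fin 3 → Finset X := fun l => (hf l (ψ v l)).toFinset
  rw [SplitPlace.comp, ← finsum_comp_equiv ψ.symm,
    finsum_eq_sum_of_support_subset _ (s := Fintype.piFinset T) fun x hx => ?_]
  · simp only [coordKer, SplitPlace.comp, Equiv.apply_symm_apply, ← Finset.prod_mul_distrib]
    rw [← Finset.prod_univ_sum T fun l z => f l (ψ v l) z * g l z (ψ v' l)]
    refine Finset.prod_congr rfl fun l _ => ?_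
    exact (finsum_eq_sum_of_support_subset _ fun z hz =>
      (hf l (ψ v l)).mem_toFinset.mpr (left_ne_zero_of_mul hz)).symm
  · have hx' : coordKer ψ f v (ψ.symm x) ≠ 0 := left_ne_zero_of_mul hx
    rw [coordKer, Finset.prod_ne_zero_iff] at hx'
    refine Fintype.mem_piFinset.mpr fun l => (hf l (ψ v l)).mem_toFinset.mpr ?_
    have := hx' l (Finset.mem_univ l)
    rwa [Equiv.apply_symm_apply] at this

theorem idKer_eq_coordKer : (idKer : X' → X' → ℂ) = coordKer ψ fun _ => idKer := by
  funext v v'
  by_cases h : v = v'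
  · subst h
    rw [idKer_self, coordKer]
    exact (Finset.prod_eq_one fun l _ => idKer_self _).symm
  · obtain ⟨l, hl⟩ := Function.ne_iff.mp (ψ.injective.ne h)
    rw [idKer_ne h, coordKer]
    exact (Finset.prod_eq_zero (f := fun l => idKer (ψ v l) (ψ v' l)) (Finset.mem_univ l)
      (idKer_ne hl)).symm

end Kernels

theorem diagUnit_mem_congr {O L : Type} [CommRing O] [CommRing L] {φ : O →+* L} {n o : O}
    (hn : IsUnit n) (ho : IsUnit o) {π : Lˣ} (h : φ o = π) : diagUnit π ∈ congrGroup φ n := by
  refine mem_congrGroup_of_isUnit (Y := (diagUnit ho.unit).1) (isCongrOne_of_isUnit hn _)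
    (diagUnit ho.unit).isUnit (Matrix.ext fun r c => ?_)
  fin_cases r <;> fin_cases c <;> simp [diagUnit, h]

theorem isDiag2_of_mem_adjoin {R : Type} [CommRing R] {γ g : GL (Fin 2) R} (hγ : IsDiag2 γ)
    (h : g.1 ∈ Algebra.adjoin R {γ.1}) : IsDiag2 g := by
  suffices ∀ x ∈ Algebra.adjoin R {γ.1}, x 0 1 = 0 ∧ x 1 0 = 0 from this _ h
  intro x hx
  induction hx using Algebra.adjoin_induction with
  | mem x hx => rw [Set.mem_singleton_iff] at hx; subst hx; exact hγ
  | algebraMap r => simp [Matrix.algebraMap_matrix_apply]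
  | add x y _ _ hx hy => simp [hx.1, hx.2, hy.1, hy.2]
  | mul x y _ _ hx hy => simp [Matrix.mul_apply, hx.1, hx.2, hy.1, hy.2]

/-! ### The split place -/

namespace LocalCubic

variable {OE LE OM LM : Type} [CommRing OE] [CommRing LE] [CommRing OM] [CommRing LM]
  {S : LocalCubic OE LE OM LM} {η : OM} (hη : S.IsSplitIdem η) {n : OE} {I : Ideal OE}
include hη

/-- The ideal of `I` placed in the coordinate `i`. -/
def IsSplitIdem.coordIdeal (_hη : S.IsSplitIdem η) (I : Ideal OE) (i : Fin 3) : Ideal OM :=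
  Ideal.span {x | ∃ o ∈ I, x = S.eta η i * S.jO o + (1 - S.eta η i)}

theorem IsSplitIdem.span_coordIdeal {o : OE} (ho : Ideal.span {o} = I) (i : Fin 3) :
    hη.coordIdeal I i = Ideal.span {S.eta η i * S.jO o + (1 - S.eta η i)} := by
  refine le_antisymm (Ideal.span_le.mpr ?_)
    ((Ideal.span_singleton_le_iff_mem _).mpr (Ideal.subset_span
      ⟨o, ho ▸ Ideal.mem_span_singleton_self o, rfl⟩))
  rintro _ ⟨a, ha, rfl⟩
  rw [← ho, Ideal.mem_span_singleton] at ha
  obtain ⟨b, rfl⟩ := ha
  refine Ideal.mem_span_singleton.mpr ⟨S.eta η i * S.jO b + (1 - S.eta η i), ?_⟩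
  have := (hη.eta_complete.idem i).eq
  rw [map_mul]
  linear_combination -(S.jO o * S.jO b - S.jO o - S.jO b + 1) * this

theorem IsSplitIdem.nbrKer_coordIdeal (hn : IsUnit n) {o : OE} (ho : Ideal.span {o} = I)
    (i : Fin 3) :
    nbrKer S.φM (S.jO n) (hη.coordIdeal I i) =
      coordKer (hη.pts n) (Function.update (fun _ => idKer) i (nbrKer S.φE n I)) := by
  classical
  have hgen : ∀ (l : Fin 3),
      hη.coordO l (S.eta η i * S.jO o + (1 - S.eta η i)) = if l = i then o else 1 := fun l => by
    simp only [map_add, map_mul, map_sub, map_one, hη.coordO_eta, hη.coordO_jO]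
    split_ifs <;> ring
  have hmem : ∀ v v' : QPt S.φM (S.jO n), v' ∈ nbrSet S.φM (S.jO n) (hη.coordIdeal I i) v ↔
      hη.pts n v' i ∈ nbrSet S.φE n I (hη.pts n v i) ∧
        ∀ l, l ≠ i → hη.pts n v l = hη.pts n v' l := by
    intro v v'
    constructor
    · rintro ⟨g, k, π, o', rfl, hk, hπ, hI, rfl⟩
      rw [hη.span_coordIdeal ho i] at hI
      have hspan : ∀ l, Ideal.span {hη.coordO l o'} = Ideal.span {if l = i then o else 1} :=
        fun l => by
          rw [← hgen l, ← Set.image_singleton, ← Ideal.map_span, hI, Ideal.map_span,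
            Set.image_singleton]
      have hπl : ∀ l, hη.gl l (diagUnit π) =
          diagUnit (Units.map (hη.coord l).toMonoidHom π) := fun l =>
        map_diagUnit (hη.coord l) π
      have hφ : ∀ l, S.φE (hη.coordO l o') =
          (Units.map (hη.coord l).toMonoidHom π : LEˣ) := fun l => by
        rw [hη.φE_coordO, hπ]; rfl
      refine ⟨⟨hη.gl i g, hη.gl i k, Units.map (hη.coord i).toMonoidHom π, hη.coordO i o', rfl,
        hη.gl_mem_congrGroup hk i, hφ i, by rw [hspan i, if_pos rfl, ho], ?_⟩, fun l hl => ?_⟩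
      · rw [hη.pts_mk, map_mul, map_mul, hπl]
      · rw [hη.pts_mk, hη.pts_mk, map_mul, map_mul, hπl, QuotientGroup.eq, mul_assoc,
          inv_mul_cancel_left]
        have hu : IsUnit (hη.coordO l o') := by
          rw [← Ideal.span_singleton_eq_top, hspan l, if_neg hl, Ideal.span_singleton_one]
        exact mul_mem (le_sup_left (b := Subgroup.center _) (hη.gl_mem_congrGroup hk l))
          (le_sup_left (b := Subgroup.center _) (diagUnit_mem_congr hn hu (hφ l)))
    · rintro ⟨⟨gi, ki, πi, oi, hgi, hki, hoi, hI, hv'⟩, hother⟩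
      obtain ⟨G₀, rfl⟩ := QuotientGroup.mk_surjective v
      obtain ⟨G, hG⟩ := hη.gl_exists (Function.update (fun l => hη.gl l G₀) i gi)
      obtain ⟨K, hK⟩ := hη.gl_exists (Function.update (fun _ => (1 : GL (Fin 2) LE)) i ki)
      set o' := S.eta η i * S.jO oi + (1 - S.eta η i) with ho'
      have hc : ∀ l, hη.coord l (S.φM o') = if l = i then (πi : LE) else 1 := fun l => by
        rw [← hη.φE_coordO, ho']
        simp only [map_add, map_mul, map_sub, map_one, hη.coordO_eta, hη.coordO_jO]
        split_ifs <;> simp [hoi]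
      have hu : IsUnit (S.φM o') := by
        refine IsUnit.of_mul_eq_one
          (S.φM (S.eta η i) * S.j (↑πi⁻¹ : LE) + (1 - S.φM (S.eta η i))) ?_
        refine hη.coord_ext fun l => ?_
        simp only [map_mul, map_add, map_sub, map_one, hc, hη.coord_eta, hη.coord_j]
        split_ifs <;> simp
      refine ⟨G, K, hu.unit, o', ?_, hη.mem_congrGroup fun l => ?_, rfl, ?_, ?_⟩
      · refine (hη.pts n).injective (funext fun l => ?_)
        rw [hη.pts_mk, hη.pts_mk, hG]
        rcases eq_or_ne l i with rfl | hl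
        · rw [Function.update_self, hgi, hη.pts_mk]
        · rw [Function.update_of_ne hl]
      · rw [hK]
        rcases eq_or_ne l i with rfl | hl
        · rw [Function.update_self]; exact hki
        · rw [Function.update_of_ne hl]; exact one_mem _
      · exact (hη.span_coordIdeal hI i).symm
      · refine (hη.pts n).injective (funext fun l => ?_)
        rw [hη.pts_mk, map_mul, map_mul, hG, hK]
        rcases eq_or_ne l i with rfl | hl
        · rw [Function.update_self, Function.update_self, ← hv']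
          refine congrArg (fun d => ((gi * ki * d : GL (Fin 2) LE) : QPt S.φE n)) ?_
          refine (map_diagUnit (hη.coord l) _).trans (congrArg diagUnit (Units.ext ?_))
          exact (hc l).trans (if_pos rfl)
        · rw [Function.update_of_ne hl, Function.update_of_ne hl, ← hother l hl, hη.pts_mk, mul_one]
          refine congrArg QuotientGroup.mk ?_
          have hd : hη.gl l (diagUnit hu.unit) = 1 := by
            refine (map_diagUnit (hη.coord l) _).trans ?_
            exact (congrArg diagUnit (show Units.map (hη.coord l).toMonoidHom hu.unit = 1 from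
              Units.ext ((hc l).trans (if_neg hl)))).trans diagUnit_one
          rw [hd, mul_one]
  funext v v'
  rw [coordKer]
  by_cases h : v' ∈ nbrSet S.φM (S.jO n) (hη.coordIdeal I i) v
  · rw [nbrKer, Set.indicator_of_mem h, Pi.one_apply]
    refine (Finset.prod_eq_one fun l _ => ?_).symm
    obtain ⟨h1, h2⟩ := (hmem v v').mp h
    rcases eq_or_ne l i with rfl | hl
    · rw [Function.update_self, nbrKer, Set.indicator_of_mem h1, Pi.one_apply]
    · rw [Function.update_of_ne hl, h2 l hl, idKer_self]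
  · rw [nbrKer, Set.indicator_of_notMem h]
    refine (Eq.symm ?_)
    rw [hmem] at h
    by_cases h1 : hη.pts n v' i ∈ nbrSet S.φE n I (hη.pts n v i)
    · obtain ⟨l, hl, hne⟩ : ∃ l, l ≠ i ∧ hη.pts n v l ≠ hη.pts n v' l := by
        by_contra hc
        push Not at hc
        exact h ⟨h1, hc⟩
      exact Finset.prod_eq_zero (Finset.mem_univ l) (by rw [Function.update_of_ne hl, idKer_ne hne])
    · exact Finset.prod_eq_zero (Finset.mem_univ i)
        (by rw [Function.update_self, nbrKer, Set.indicator_of_notMem h1])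

/-- The twisted kernel: the three iterated operators in the coordinates. -/
def IsSplitIdem.km (n : OE) (I : Ideal OE) (m : Fin 3 → ℕ) :
    QPt S.φM (S.jO n) → QPt S.φM (S.jO n) → ℂ :=
  coordKer (hη.pts n) fun l => iterKer (nbrKer S.φE n I) (m l)

/-- At a split place every class is a norm from its centraliser. -/
theorem IsSplitIdem.isNormAt (γ : GL (Fin 2) LE) : S.IsNormAt γ := by
  obtain ⟨X, hX⟩ := hη.gl_exists ![γ, 1, 1]
  refine ⟨1, X, hη.gl_ext fun i => ?_, hη.gl_ext fun i => ?_⟩
  · simp only [map_mul, hη.gl_ι, hX]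
    fin_cases i <;> simp
  · simp only [tnorm, map_mul, hη.gl_θ, hη.gl_ι, map_one, one_mul, hX]
    fin_cases i <;> simp [show (0 : Fin 3) + 1 = 1 from rfl, show (1 : Fin 3) + 1 = 2 from rfl,
      show (2 : Fin 3) + 1 = 0 from rfl]

variable {hE : GL (Fin 2) LE → ℝ} {hM : GL (Fin 2) LM → ℝ}

/-- The plain side at a split place. -/
def IsSplitIdem.plain (γ : GL (Fin 2) LE) (isDiag : Prop) (hE : GL (Fin 2) LE → ℝ) (N : ℕ) :
    PlainLocal 1 (fun u : QPt S.φE n => γ • u) (iterKer (nbrKer S.φE n I) N) 0
      (S.commPairs n (S.jO n) γ) isDiag (S.IsNormAt γ) (fun u => hE u.out) where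
  proj := id
  proj_comm _ _ _ := rfl
  finite z := (Set.finite_singleton z).subset fun _ hu => hu.1
  norm_or := Or.inl (hη.isNormAt γ)
  dE _ := 0
  dE_nonneg _ := le_rfl
  height _ _ := (add_zero _).symm
  height_nonnorm _ h := absurd (hη.isNormAt γ) h

/-- The split setting of the coordinates. -/
def IsSplitIdem.setting (hfin : SplitPlace.FinRows (nbrKer S.φE n I)) (m : Fin 3 → ℕ) :
    SplitSetting (GL (Fin 2) LE) (QPt S.φE n) (QPt S.φM (S.jO n)) where
  ψ := hη.pts n
  k i := iterKer (nbrKer S.φE n I) (m i)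
  k_smul i g x y := iterKer_smul (nbrKer_smul S.φE n I) (m i) g x y
  finRows i := finRows_iterKer hfin (m i)
  k_comm i j := by rw [comp_iterKer hfin, comp_iterKer hfin, add_comm]

theorem IsSplitIdem.setting_pe (hfin : SplitPlace.FinRows (nbrKer S.φE n I)) (m : Fin 3 → ℕ) :
    (hη.setting hfin m).pe = iterKer (nbrKer S.φE n I) (m 0 + m 1 + m 2) := by
  simp only [SplitSetting.pe, setting, comp_iterKer hfin]

omit hη in
theorem scalar_smul_qpt (z : LEˣ) (γ : GL (Fin 2) LE) (x : QPt S.φE n) :
    (GeneralLinearGroup.scalar (Fin 2) z * γ) • x = γ • x := by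
  induction x using QuotientGroup.induction_on with
  | H g =>
    rw [MulAction.Quotient.smul_coe, MulAction.Quotient.smul_coe, QuotientGroup.eq, smul_eq_mul,
      smul_eq_mul]
    have hz : ∀ x, x * GeneralLinearGroup.scalar (Fin 2) z =
        GeneralLinearGroup.scalar (Fin 2) z * x :=
      Subgroup.mem_center_iff.mp (scalar_mem_center z)
    rw [show GeneralLinearGroup.scalar (Fin 2) z * γ * g =
      γ * g * GeneralLinearGroup.scalar (Fin 2) z by rw [hz, mul_assoc]]
    simp only [_root_.mul_inv_rev, mul_assoc, inv_mul_cancel_left, inv_mul_cancel, mul_one]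
    exact inv_mem (le_sup_right (a := congrGroup S.φE n) (scalar_mem_center z))

variable {γ : GL (Fin 2) LE} {δ : GL (Fin 2) LM}

theorem IsSplitIdem.gl_mem_adjoin (hδ : δ.1 ∈ Algebra.adjoin LM {(S.ι γ).1}) (i : Fin 3) :
    (hη.gl i δ).1 ∈ Algebra.adjoin LE {γ.1} := by
  suffices ∀ x ∈ Algebra.adjoin LM {(S.ι γ).1},
      (x.map (hη.coord i) : Matrix (Fin 2) (Fin 2) LE) ∈ Algebra.adjoin LE {γ.1} from this _ hδ
  intro x hx
  induction hx using Algebra.adjoin_induction with
  | mem x hx =>
    rw [Set.mem_singleton_iff] at hx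
    subst hx
    rw [show (S.ι γ).1.map (hη.coord i) = γ.1 from congrArg Units.val (hη.gl_ι i γ)]
    exact Algebra.self_mem_adjoin_singleton _ _
  | algebraMap r =>
    rw [show (algebraMap LM (Matrix (Fin 2) (Fin 2) LM) r).map (hη.coord i) =
      algebraMap LE (Matrix (Fin 2) (Fin 2) LE) (hη.coord i r) from by
        ext a b; simp [Matrix.algebraMap_matrix_apply, apply_ite (hη.coord i)]]
    exact Subalgebra.algebraMap_mem _ _
  | add x y _ _ hx hy => rw [Matrix.map_add _ (map_add (hη.coord i))]; exact add_mem hx hy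
  | mul x y _ _ hx hy => rw [Matrix.map_mul]; exact mul_mem hx hy

theorem IsSplitIdem.gl_prod {z : LEˣ}
    (hN : tnorm S.θ δ = S.ι (GeneralLinearGroup.scalar (Fin 2) z * γ)) :
    hη.gl 0 δ * hη.gl 1 δ * hη.gl 2 δ = GeneralLinearGroup.scalar (Fin 2) z * γ := by
  have := congrArg (hη.gl 0) hN
  rw [hη.gl_ι, tnorm, map_mul, map_mul, hη.gl_θ, hη.gl_θ, hη.gl_θ] at this
  exact this

/-- The twisted side at a split place. -/
def IsSplitIdem.twist (H : S.IsHeightPair hE hM) (hfin : SplitPlace.FinRows (nbrKer S.φE n I))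
    (m : Fin 3 → ℕ) {isDiag : Prop} (hdiag : isDiag → IsDiag2 γ) {z : LEˣ}
    (hδ : δ.1 ∈ Algebra.adjoin LM {(S.ι γ).1})
    (hN : tnorm S.θ δ = S.ι (GeneralLinearGroup.scalar (Fin 2) z * γ)) :
    TwistLocal (hη.plain (n := n) (I := I) γ isDiag hE (m 0 + m 1 + m 2))
      (S.twMap (S.jO n) δ) (hη.km n I m) (fun v => hM v.out) where
  q := (hη.setting hfin m).coord fun i => hη.gl i δ
  q_comm i t ht v _ := by
    obtain ⟨c, hc, rfl⟩ := ht
    have hca : ∀ l, Commute c (hη.gl l δ) := fun l =>
      Units.ext (Algebra.commute_of_mem_adjoin_singleton_of_commute (hη.gl_mem_adjoin hδ l)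
        (congrArg Units.val hc.eq)).eq
    have h2 : ∀ l, hη.pts n (S.ι c • v) l = c • hη.pts n v l := fun l => hη.pts_ι_smul n c v l
    fin_cases i <;>
      simp only [SplitSetting.coord, setting, MulAction.toPerm_apply, h2, Matrix.cons_val_zero,
        Matrix.cons_val_one, Matrix.cons_val, Fin.zero_eta, Fin.mk_one, Fin.reduceFinMk,
        ← mul_smul, (hca 0).eq, ((hca 0).mul_right (hca 1)).eq]
  finite i u := ((hη.setting hfin m).sum_coord (f := S.twMap (S.jO n) δ)
    (hη.pts_twMap n δ) (hη.gl_prod hN) i u).1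
  sum_eq i u := by
    have h := ((hη.setting hfin m).sum_coord (f := S.twMap (S.jO n) δ)
      (hη.pts_twMap n δ) (hη.gl_prod hN) i u).2
    refine h.trans ?_
    rw [hη.setting_pe, scalar_smul_qpt, Complex.ofReal_one, one_mul]
    exact (SplitSetting.fibre_id u fun u => iterKer (nbrKer S.φE n I) _ u (γ • u)).symm
  dM _ := 0
  dM_nonneg _ := le_rfl
  height hd v _ := by
    induction v using QuotientGroup.induction_on with
    | H g =>
      have hinv : ∀ l, IsDiag2 (hη.gl l δ) :=
        fun l => isDiag2_of_mem_adjoin (hdiag hd) (hη.gl_mem_adjoin hδ l)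
      rw [H.outM, hη.height_sum H, Fin.sum_univ_three, Fin.sum_univ_three, add_zero]
      simp only [SplitSetting.coord, setting, Matrix.cons_val_zero, Matrix.cons_val_one,
        Matrix.cons_val, hη.pts_mk, mul_smul, MulAction.Quotient.smul_coe, smul_eq_mul, H.outE,
        H.diagE _ _ (hinv 0), H.diagE _ _ (hinv 1)]
  identity _ u := by
    simp [plain]

end LocalCubic

end FLTAgent.LanglandsTunnell.Local
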