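import Fermat.Agent.LanglandsTunnell.Local.Place
import Fermat.Agent.LanglandsTunnell.Local.SplitCorner
import Fermat.Agent.LanglandsTunnell.Local.Places
import Fermat.Agent.LanglandsTunnell.Isolation.KernelCalc

/-!
# Word kernels factor over the rational primes

A word kernel is the product over the rational primes of the local words `locWord`
(`wordKernel_eq_prod`); likewise for combinations of words (`combKer`, `combKer_single`).
-/

set_option autoImplicit false

noncomputable section

namespace FLTAgent.LanglandsTunnell.Local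

open scoped TensorProduct
open NumberField FLTAgent.LanglandsTunnell

variable {F : Type} [Field F] [NumberField F] {N : ℕ}

/-- The points at level `N` are a restricted product. -/
theorem isRestricted_compPt (hN : N ≠ 0) :
    IsRestricted (fun p : Nat.Primes => ((1 : GL (Fin 2) (Lp F p)) : LocPt F N p))
      (fun p : Nat.Primes => compPt hN p) where
  ext h := finPt_ext hN h
  cofinite v := exists_finset_compPt_one hN v
  exists_eq x S hS := exists_finPt_comp hN x S hS

/-- A prime of `F` prime to `N`. -/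
def IsGoodPrime (N : ℕ) (w : Ideal (𝓞 F)) : Prop :=
  w.IsPrime ∧ w ≠ ⊥ ∧ ∀ p : Nat.Primes, ((p : ℕ) : 𝓞 F) ∈ w → ¬ (p : ℕ) ∣ N

theorem IsGoodPrime.exists_mem {w : Ideal (𝓞 F)} (hw : IsGoodPrime N w) :
    ∃ p : Nat.Primes, ((p : ℕ) : 𝓞 F) ∈ w := by
  obtain ⟨q, ε, hε⟩ := LanglandsTunnell.Isolation.exists_isPlaceIdem hw.1 hw.2.1
  exact ⟨q, hε.mem⟩

open scoped Classical in
/-- The operator of one letter at one prime. -/
def stepKer (N : ℕ) (p : Nat.Primes) (w : Ideal (𝓞 F)) : LocPt F N p → LocPt F N p → ℂ :=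
  if ((p : ℕ) : 𝓞 F) ∈ w then nbrKer (φp F p) (N : Op F p) (w.map (incOp (p : ℕ))) else idKer

/-- A word at one prime. -/
def locWord (N : ℕ) (p : Nat.Primes) : List (Ideal (𝓞 F)) → LocPt F N p → LocPt F N p → ℂ
  | [] => idKer
  | w :: ws => SplitPlace.comp (stepKer N p w) (locWord N p ws)

omit [NumberField F] in
theorem locNbrs_eq (N : ℕ) (p : Nat.Primes) (w : Ideal (𝓞 F)) (x : LocPt F N p) :
    locNbrs N p w x = nbrSet (φp F p) (N : Op F p) (w.map (incOp (p : ℕ))) x := by
  ext x'
  constructor
  · rintro ⟨g, k, π, h1, h2, ⟨o, h3, h4⟩, h5⟩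
    exact ⟨g, k, π, o, h1, h2, h3, h4, h5⟩
  · rintro ⟨g, k, π, o, h1, h2, h3, h4, h5⟩
    exact ⟨g, k, π, h1, h2, ⟨o, h3, h4⟩, h5⟩

theorem finite_locNbrs (hN : N ≠ 0) {p : Nat.Primes} {w : Ideal (𝓞 F)} (hw : IsGoodPrime N w)
    (hp : ((p : ℕ) : 𝓞 F) ∈ w) (x : LocPt F N p) : (locNbrs N p w x).Finite := by
  classical
  obtain ⟨v, hv⟩ := (isRestricted_compPt hN).exists_eq
    (Function.update (fun q : Nat.Primes => ((1 : GL (Fin 2) (Lp F q)) : LocPt F N q)) p x) {p}
    fun q hq => Function.update_of_ne (Finset.notMem_singleton.mp hq) _ _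
  have hn : (Ideal.span {(N : 𝓞 F)}) ≠ ⊥ := by simpa using hN
  refine ((LanglandsTunnell.Geom.finite_nbrs hn hw.2.1 v).image (compPt hN p)).subset
    fun x' hx' => ?_
  obtain ⟨v', hv'⟩ := (isRestricted_compPt hN).exists_eq
    (Function.update (fun q : Nat.Primes => ((1 : GL (Fin 2) (Lp F q)) : LocPt F N q)) p x') {p}
    fun q hq => Function.update_of_ne (Finset.notMem_singleton.mp hq) _ _
  refine ⟨v', (mem_nbrs_iff_comp hN (hw.2.2 p hp) hp).mpr ⟨fun q hq => ?_, ?_⟩, ?_⟩
  · rw [hv, hv', Function.update_of_ne hq, Function.update_of_ne hq]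
  · rw [hv, hv', Function.update_self, Function.update_self]; exact hx'
  · rw [hv', Function.update_self]

theorem finRows_stepKer (hN : N ≠ 0) {p : Nat.Primes} {w : Ideal (𝓞 F)} (hw : IsGoodPrime N w) :
    SplitPlace.FinRows (stepKer N p w) := by
  classical
  intro x
  by_cases hp : ((p : ℕ) : 𝓞 F) ∈ w
  · refine (finite_locNbrs hN hw hp x).subset fun y hy => ?_
    rw [stepKer, if_pos hp, Function.mem_support, nbrKer, ← locNbrs_eq] at hy
    exact Set.mem_of_indicator_ne_zero hy
  · rw [stepKer, if_neg hp]; exact finRows_idKer x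

theorem finRows_locWord (hN : N ≠ 0) {p : Nat.Primes} :
    ∀ {ws : List (Ideal (𝓞 F))}, (∀ w ∈ ws, IsGoodPrime N w) → SplitPlace.FinRows (locWord N p ws)
  | [], _ => finRows_idKer
  | w :: _, h => (finRows_stepKer hN (h w List.mem_cons_self)).comp
      (finRows_locWord hN fun x hx => h x (List.mem_cons_of_mem _ hx))

omit [NumberField F] in
theorem locWord_eq_idKer {p : Nat.Primes} :
    ∀ {ws : List (Ideal (𝓞 F))}, (∀ w ∈ ws, ((p : ℕ) : 𝓞 F) ∉ w) → locWord N p ws = idKer
  | [], _ => rfl
  | w :: ws, h => by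
    rw [locWord, stepKer, if_neg (h w List.mem_cons_self), comp_idKer_left,
      locWord_eq_idKer fun x hx => h x (List.mem_cons_of_mem _ hx)]

theorem isDiagOutside_of_eq {P : Type*} {X : P → Type*} {f : ∀ p, X p → X p → ℂ} {S : Finset P}
    (h : ∀ p ∉ S, f p = idKer) : IsDiagOutside f S := fun p hp x y =>
  ⟨fun e => by rw [h p hp, e, idKer_self], fun e => by rw [h p hp, idKer_ne e]⟩

open scoped Classical in
/-- A product supported at one prime. -/
theorem IsRestricted.prodKer_single {P V : Type*} {X : P → Type*} {base : ∀ p, X p}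
    {c : ∀ p, V → X p} (h : IsRestricted base c) {f : ∀ p, X p → X p → ℂ} {p₀ : P}
    (hf : ∀ p, p ≠ p₀ → f p = idKer) (v v' : V) :
    prodKer f c v v' = if ∀ p, p ≠ p₀ → c p v = c p v' then f p₀ (c p₀ v) (c p₀ v') else 0 := by
  have hd : IsDiagOutside f {p₀} := isDiagOutside_of_eq fun p hp =>
    hf p (Finset.notMem_singleton.mp hp)
  split_ifs with hq
  · rw [prodKer_eq_prod hd fun p hp => hq p (Finset.notMem_singleton.mp hp), Finset.prod_singleton]
  · push Not at hq
    obtain ⟨p, hp, hne⟩ := hq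
    exact h.prodKer_eq_zero hd (Finset.notMem_singleton.mpr hp) hne

theorem prodKer_idKer (hN : N ≠ 0) (v v' : FinPt F (Ideal.span {(N : 𝓞 F)})) :
    prodKer (fun p : Nat.Primes => (idKer : LocPt F N p → LocPt F N p → ℂ)) (fun p => compPt hN p)
      v v' = idKer v v' := by
  have hd : IsDiagOutside (fun p : Nat.Primes => (idKer : LocPt F N p → LocPt F N p → ℂ)) ∅ :=
    isDiagOutside_of_eq fun p _ => rfl
  by_cases h : v = v'
  · rw [prodKer_eq_prod hd (fun p _ => by rw [h]), h, idKer_self,
      Finset.prod_empty]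
  · obtain ⟨p, hp⟩ := not_forall.mp fun hall => h (finPt_ext hN hall)
    rw [idKer_ne h, (isRestricted_compPt hN).prodKer_eq_zero hd (Finset.notMem_empty p) hp]

theorem nbrs_indicator (hN : N ≠ 0) {w : Ideal (𝓞 F)} (hw : IsGoodPrime N w)
    (v v' : FinPt F (Ideal.span {(N : 𝓞 F)})) :
    (nbrs (Ideal.span {(N : 𝓞 F)}) w v).indicator (fun _ => (1 : ℂ)) v' =
      prodKer (fun p : Nat.Primes => stepKer N p w) (fun p => compPt hN p) v v' := by
  classical
  obtain ⟨p₀, hp₀⟩ := hw.exists_mem
  rw [(isRestricted_compPt hN).prodKer_single (f := fun p : Nat.Primes => stepKer N p w) (p₀ := p₀)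
    fun p hp => if_neg fun h => hp (natCast_mem_unique hw.1 hp₀ h), stepKer, if_pos hp₀,
    Set.indicator_apply, mem_nbrs_iff_comp hN (hw.2.2 p₀ hp₀) hp₀, locNbrs_eq, nbrKer]
  by_cases h : ∀ q : Nat.Primes, q ≠ p₀ → compPt hN q v' = compPt hN q v
  · rw [if_pos fun q hq => (h q hq).symm, Set.indicator_apply]
    by_cases h' : compPt hN p₀ v' ∈
        nbrSet (φp F p₀) (N : Op F p₀) (w.map (incOp (p₀ : ℕ))) (compPt hN p₀ v)
    · rw [if_pos ⟨h, h'⟩, if_pos h']; rfl
    · rw [if_neg fun hh => h' hh.2, if_neg h']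
  · rw [if_neg fun hh => h hh.1, if_neg fun hh => h fun q hq => (hh q hq).symm]

/-- **A word kernel is the product of its local words.** -/
theorem wordKernel_eq_prod (hN : N ≠ 0) {ws : List (Ideal (𝓞 F))}
    (hws : ∀ w ∈ ws, IsGoodPrime N w) (v v' : FinPt F (Ideal.span {(N : 𝓞 F)})) :
    wordKernel (Ideal.span {(N : 𝓞 F)}) ws v v' =
      prodKer (fun p : Nat.Primes => locWord N p ws) (fun p => compPt hN p) v v' := by
  classical
  induction ws generalizing v with
  | nil =>
    refine Eq.trans ?_ (prodKer_idKer hN v v').symm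
    rw [wordKernel]
    by_cases h : v = v'
    · rw [if_pos h, h, idKer_self]
    · rw [if_neg h, idKer_ne h]
  | cons w ws ih =>
    have hw := hws w List.mem_cons_self
    have hws' : ∀ x ∈ ws, IsGoodPrime N x := fun x hx => hws x (List.mem_cons_of_mem _ hx)
    choose g hg using fun x : {x // x ∈ w :: ws} => (hws x.1 x.2).exists_mem
    let S : Finset Nat.Primes := Finset.univ.image g
    have hS : ∀ x ∈ w :: ws, ∀ p : Nat.Primes, p ∉ S → ((p : ℕ) : 𝓞 F) ∉ x := fun x hx p hp h =>
      hp (Finset.mem_image.mpr ⟨⟨x, hx⟩, Finset.mem_univ _,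
        (natCast_mem_unique (hws x hx).1 (hg ⟨x, hx⟩) h).symm⟩)
    calc wordKernel (Ideal.span {(N : 𝓞 F)}) (w :: ws) v v'
        = ∑ᶠ u, (nbrs (Ideal.span {(N : 𝓞 F)}) w v).indicator (fun _ => (1 : ℂ)) u *
            wordKernel (Ideal.span {(N : 𝓞 F)}) ws u v' := by
          rw [wordKernel, finsum_mem_def]
          exact finsum_congr fun u => by simp [Set.indicator_apply]
      _ = ∑ᶠ u, prodKer (fun p : Nat.Primes => stepKer N p w) (fun p => compPt hN p) v u *
            prodKer (fun p : Nat.Primes => locWord N p ws) (fun p => compPt hN p) u v' :=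
          finsum_congr fun u => by rw [nbrs_indicator hN hw, ih hws']
      _ = _ := (isRestricted_compPt hN).prodKer_comp (S := S)
          (isDiagOutside_of_eq fun p hp => if_neg (hS w List.mem_cons_self p hp))
          (isDiagOutside_of_eq fun p hp =>
            locWord_eq_idKer fun x hx => hS x (List.mem_cons_of_mem _ hx) p hp)
          (fun p _ => finRows_stepKer hN hw) v v'

/-! ### Combinations -/

/-- The kernel of a combination of words. -/
def combKer (n : Ideal (𝓞 F)) (L : List (ℂ × List (Ideal (𝓞 F)))) (u u' : FinPt F n) : ℂ :=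
  (L.map fun a => a.1 * wordKernel n a.2 u u').sum

/-- The product of two combinations. -/
def combMul (A B : List (ℂ × List (Ideal (𝓞 F)))) : List (ℂ × List (Ideal (𝓞 F))) :=
  A.flatMap fun a => B.map fun b => (a.1 * b.1, a.2 ++ b.2)

/-- A combination at one prime. -/
def locComb (N : ℕ) (p : Nat.Primes) (L : List (ℂ × List (Ideal (𝓞 F))))
    (x y : LocPt F N p) : ℂ :=
  (L.map fun a => a.1 * locWord N p a.2 x y).sum

theorem combKer_finite {n : Ideal (𝓞 F)} (hn : n ≠ ⊥) {L : List (ℂ × List (Ideal (𝓞 F)))}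
    (hL : ∀ a ∈ L, ∀ w ∈ a.2, w ≠ ⊥) (v : FinPt F n) :
    (Function.support (combKer n L v)).Finite := by
  induction L with
  | nil => simp [combKer, Function.support]
  | cons a L ih =>
    refine
      ((LanglandsTunnell.Isolation.wordKernel_ne_zero_finite hn (hL a List.mem_cons_self) v).union
      (ih fun b hb => hL b (List.mem_cons_of_mem _ hb))).subset fun u hu => ?_
    by_contra hc
    simp only [Set.mem_union, Function.mem_support, Set.mem_ofPred_eq, not_or, not_not] at hc
    refine hu ?_
    have h2 : (L.map fun b => b.1 * wordKernel n b.2 v u).sum = 0 := hc.2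
    simp [combKer, List.sum_cons, hc.1, h2]

theorem combKer_combMul {n : Ideal (𝓞 F)} (hn : n ≠ ⊥) {A : List (ℂ × List (Ideal (𝓞 F)))}
    (B : List (ℂ × List (Ideal (𝓞 F)))) (hA : ∀ a ∈ A, ∀ w ∈ a.2, w ≠ ⊥) (v v' : FinPt F n) :
    combKer n (combMul A B) v v' = ∑ᶠ u, combKer n A v u * combKer n B u v' := by
  induction A with
  | nil => simp [combKer, combMul]
  | cons a A ih =>
    have ha := hA a List.mem_cons_self
    have hA' : ∀ b ∈ A, ∀ w ∈ b.2, w ≠ ⊥ := fun b hb => hA b (List.mem_cons_of_mem _ hb)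
    have hf := LanglandsTunnell.Isolation.wordKernel_ne_zero_finite hn ha v
    have h1 : ∀ B : List (ℂ × List (Ideal (𝓞 F))),
        ((B.map fun b => (a.1 * b.1, a.2 ++ b.2)).map fun c => c.1 * wordKernel n c.2 v v').sum =
          a.1 * ∑ᶠ u, wordKernel n a.2 v u * combKer n B u v' := fun B => by
      induction B with
      | nil => simp [combKer]
      | cons b B ihB =>
        have e : ∀ u, wordKernel n a.2 v u * combKer n (b :: B) u v' =
            b.1 * (wordKernel n a.2 v u * wordKernel n b.2 u v') +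
              wordKernel n a.2 v u * combKer n B u v' := fun u => by
          simp only [combKer, List.map_cons, List.sum_cons]; ring
        rw [finsum_congr e, finsum_add_distrib, ← mul_finsum,
          LanglandsTunnell.Isolation.finsum_wordKernel_mul hn ha, List.map_cons, List.map_cons,
          List.sum_cons, ihB]
        · ring
        · exact hf.subset fun u hu => left_ne_zero_of_mul (right_ne_zero_of_mul hu)
        · exact hf.subset fun u hu => left_ne_zero_of_mul hu
    have h2 : ∀ u, combKer n (a :: A) v u * combKer n B u v' =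
        a.1 * (wordKernel n a.2 v u * combKer n B u v') + combKer n A v u * combKer n B u v' :=
      fun u => by simp only [combKer, List.map_cons, List.sum_cons]; ring
    rw [finsum_congr h2, finsum_add_distrib, ← mul_finsum, ← h1, ← ih hA']
    · simp [combKer, combMul, List.sum_append]
    · exact hf.subset fun u hu => left_ne_zero_of_mul (right_ne_zero_of_mul hu)
    · exact (combKer_finite hn hA' v).subset fun u hu => left_ne_zero_of_mul hu

theorem finRows_locComb (hN : N ≠ 0) {p : Nat.Primes} {L : List (ℂ × List (Ideal (𝓞 F)))}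
    (hL : ∀ a ∈ L, ∀ w ∈ a.2, IsGoodPrime N w) : SplitPlace.FinRows (locComb N p L) := fun x => by
  induction L with
  | nil => simp [locComb, Function.support]
  | cons a L ih =>
    refine ((finRows_locWord hN (hL a List.mem_cons_self) x).union
      (ih fun b hb => hL b (List.mem_cons_of_mem _ hb))).subset fun u hu => ?_
    by_contra hc
    simp only [Set.mem_union, Function.mem_support, not_or, not_not] at hc
    refine hu ?_
    have h2 : (L.map fun b => b.1 * locWord N p b.2 x u).sum = 0 := hc.2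
    simp [locComb, List.sum_cons, hc.1, h2]

/-- A combination supported at one prime. -/
theorem combKer_single (hN : N ≠ 0) {L : List (ℂ × List (Ideal (𝓞 F)))}
    (hL : ∀ a ∈ L, ∀ w ∈ a.2, IsGoodPrime N w) {p₀ : Nat.Primes}
    (hp : ∀ a ∈ L, ∀ w ∈ a.2, ((p₀ : ℕ) : 𝓞 F) ∈ w) (v v' : FinPt F (Ideal.span {(N : 𝓞 F)})) :
    combKer (Ideal.span {(N : 𝓞 F)}) L v v' =
      prodKer (fun p : Nat.Primes => if p = p₀ then locComb N p L else idKer)
        (fun p => compPt hN p) v v' := by
  classical
  rw [(isRestricted_compPt hN).prodKer_single (p₀ := p₀) fun p hp => if_neg hp, if_pos rfl]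
  have : ∀ a ∈ L, wordKernel (Ideal.span {(N : 𝓞 F)}) a.2 v v' =
      if ∀ p : Nat.Primes, p ≠ p₀ → compPt hN p v = compPt hN p v' then
        locWord N p₀ a.2 (compPt hN p₀ v) (compPt hN p₀ v') else 0 := fun a ha => by
    rw [wordKernel_eq_prod hN (hL a ha), (isRestricted_compPt hN).prodKer_single (p₀ := p₀)
      fun p hp' => locWord_eq_idKer fun w hw h =>
        hp' (natCast_mem_unique (hL a ha w hw).1 (hp a ha w hw) h)]
  rw [combKer, List.map_congr_left fun a ha => by rw [this a ha]]
  split_ifs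
  · rfl
  · simp

end FLTAgent.LanglandsTunnell.Local
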