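import Fermat.Agent.LanglandsTunnell.Local.PrimeSpec
import Fermat.Agent.LanglandsTunnell.Local.SplitCorner
import Fermat.Agent.LanglandsTunnell.Local.Places

/-!
# The places over a rational prime

`PlaceSystem` is a complete family of idempotents at the places of the ground field, each inert or
split; it is constructed in `PlaceSplit` (`exists_placeSystem`).
-/

set_option autoImplicit false

noncomputable section

namespace FLTAgent.LanglandsTunnell.Local

open scoped TensorProduct
open FLTAgent.LanglandsTunnell NumberField Matrix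

variable (D : Datum) {σ : D.M ≃ₐ[ℚ] D.M}

/-- The image of a prime in a factor. -/
abbrev cnrIdeal {F : Type} [Field F] [NumberField F] {p : Nat.Primes} (e : Op F p)
    (w : Ideal (𝓞 F)) : Ideal (Cnr e) :=
  (w.map (incOp (p : ℕ))).map (cmk e)

/-- An inert place: one prime above it. -/
def IsInertPlace (h : CubicData D.incl σ.toRingEquiv) (p : Nat.Primes) (v : Ideal (𝓞 D.E))
    (e : Op D.E p) (w : Ideal (𝓞 D.M)) : Prop :=
  IsPlaceCnr p w ((h.localCubic (p : ℕ)).jO e) ∧ D.under w = v ∧ D.DegreeThree w ∧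
    (∀ w' : Ideal (𝓞 D.M), w'.IsPrime → D.under w' = v → w' = w) ∧
    ∀ he : IsIdempotentElem e, cnrIdeal ((h.localCubic (p : ℕ)).jO e) w =
      (cnrIdeal e v).map ((h.localCubic (p : ℕ)).corner he).jO

/-- A split place: three primes above it, one in each coordinate. -/
def IsSplitPlace (h : CubicData D.incl σ.toRingEquiv) (p : Nat.Primes) (v : Ideal (𝓞 D.E))
    (e : Op D.E p) (η : Op D.M p) (w : Fin 3 → Ideal (𝓞 D.M)) : Prop :=
  (∀ w' : Ideal (𝓞 D.M), w'.IsPrime → D.under w' = v → ∃ l, w l = w') ∧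
  (∀ l, D.DegreeOne (w l) ∧ D.under (w l) = v) ∧ Function.Injective w ∧
    ∀ he : IsIdempotentElem e,
      ∃ hη : ((h.localCubic (p : ℕ)).corner he).IsSplitIdem (cmk ((h.localCubic (p : ℕ)).jO e) η),
        ∀ l, cnrIdeal ((h.localCubic (p : ℕ)).jO e) (w l) = hη.coordIdeal (cnrIdeal e v) l

/-- The places over `p`. -/
structure PlaceSystem (h : CubicData D.incl σ.toRingEquiv) (p : Nat.Primes) : Type 1 where
  ι : Type
  fintype : Fintype ι
  v : ι → Ideal (𝓞 D.E)
  e : ι → Op D.E p
  cnr : ∀ i, IsPlaceCnr p (v i) (e i)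
  injective : Function.Injective v
  exhaust : ∀ u : Ideal (𝓞 D.E), u.IsPrime → ((p : ℕ) : 𝓞 D.E) ∈ u → ∃ i, v i = u
  type : ∀ i, (∃ w, IsInertPlace D h p (v i) (e i) w) ∨ ∃ η w, IsSplitPlace D h p (v i) (e i) η w

variable {D}

theorem PlaceSystem.complete {h : CubicData D.incl σ.toRingEquiv} {p : Nat.Primes}
    (P : PlaceSystem D h p) :
    @CompleteOrthogonalIdempotents (Op D.E p) _ P.ι P.fintype P.e :=
  @IsPlaceCnr.complete _ _ _ _ P.ι P.fintype _ _ P.injective P.cnr P.exhaust

end FLTAgent.LanglandsTunnell.Local
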