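import Fermat.Agent.LanglandsTunnell.Local.CornerData
import Fermat.Agent.LanglandsTunnell.Local.PlaceSystem
import Fermat.Agent.LanglandsTunnell.AdelicUnits

/-!
# The data of an inert place over `p`

The factor settings `placeCubic` at one place with their heights, uniformizers at an inert place,
and the data there without letters and with one (`nonempty_inertPlaceData`).
-/

set_option autoImplicit false

noncomputable section

namespace FLTAgent.LanglandsTunnell.Local

open scoped TensorProduct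
open FLTAgent.LanglandsTunnell NumberField Matrix

namespace IsUnifRing

variable {O L : Type} [CommRing O] [CommRing L] {φ : O →+* L} {π π' : O}

/-- Associated generators give the same uniformised ring. -/
theorem of_associated (U : IsUnifRing φ π) (ε : Oˣ) (h : π' = π * ε) : IsUnifRing φ π' := by
  have hI : Ideal.span {π'} = Ideal.span {π} := by
    rw [h]; exact Ideal.span_singleton_mul_right_unit ε.isUnit π
  refine ⟨U.inj, fun hu => U.not_unit ?_, fun o => ?_, ?_, fun o ho => ?_, fun x => ?_,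
    hI ▸ U.finite⟩
  · rw [h] at hu; exact isUnit_of_mul_isUnit_left hu
  · refine (U.unit_or o).imp_left fun hd => ?_
    rw [h]; exact ε.isUnit.mul_right_dvd.mpr hd
  · rw [h, map_mul]; exact U.pi_unit.mul (ε.isUnit.map φ)
  · obtain ⟨n, u, hu⟩ := U.expand o ho
    refine ⟨n, (ε ^ n)⁻¹ * u, ?_⟩
    rw [hu, h, mul_pow, Units.val_mul, ← Units.val_pow_eq_pow_val, mul_assoc,
      Units.mul_inv_cancel_left]
  · obtain ⟨n, o, ho⟩ := U.frac x
    exact ⟨n, o * (ε : O) ^ n, by rw [h, map_mul, mul_pow, map_mul, map_pow, ← ho]; ring⟩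

end IsUnifRing

/-- The inverse of an integral unit scales a unipotent without changing a height. -/
theorem height_unip_unit {O L : Type} [CommRing O] [CommRing L] {φ : O →+* L}
    (H : GL (Fin 2) L → ℝ) (hright : ∀ g k, k ∈ levelK φ 1 → H (g * k) = H g)
    (hdiag : ∀ d g, IsDiag2 d → H (d * g) = H g) (u : Oˣ) (x : L) :
    H (IsUnifRing.unip (φ u * x)) = H (IsUnifRing.unip x) := by
  let d := IsUnifRing.diagGL (Units.map φ.toMonoidHom u) 1
  have hd : IsDiag2 d := ⟨by simp [d, IsUnifRing.diagGL], by simp [d, IsUnifRing.diagGL]⟩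
  have hk : d ∈ levelK φ 1 := by
    refine le_sup_left (a := congrGroup φ 1) (mem_congrGroup_of_isUnit (Y := !![(u : O), 0; 0, 1])
      (isCongrOne_of_isUnit isUnit_one _) ?_ ?_)
    · rw [Matrix.isUnit_iff_isUnit_det]; simp
    · ext i j; fin_cases i <;> fin_cases j <;> simp [d, IsUnifRing.diagGL]
  have he : IsUnifRing.unip (φ u * x) * d = d * IsUnifRing.unip x := by
    refine Units.ext (Matrix.ext fun i j => ?_)
    fin_cases i <;> fin_cases j <;>
      simp [d, IsUnifRing.diagGL, IsUnifRing.unip, upperUnip, Matrix.mul_apply, Fin.sum_univ_two]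
  rw [← hright _ d hk, he, hdiag d _ hd]

variable {D : Datum} {σ : D.M ≃ₐ[ℚ] D.M} (h : CubicData D.incl σ.toRingEquiv) {p : Nat.Primes}
  {v : Ideal (𝓞 D.E)} {e : Op D.E p} {w : Ideal (𝓞 D.M)}

/-- The factor setting at one place. -/
abbrev placeCubic (p : Nat.Primes) {e : Op D.E p} (he : IsIdempotentElem e) :=
  (h.localCubic (p : ℕ)).corner he

/-- The heights of the factor. -/
abbrev placeHE (p : Nat.Primes) {e : Op D.E p} (he : IsIdempotentElem e) :
    GL (Fin 2) (Cnr ((h.localCubic (p : ℕ)).φE e)) → ℝ :=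
  cornerHeight (he.map (h.localCubic (p : ℕ)).φE) (locHeight p)

/-- The heights of the factor over the extension. -/
abbrev placeHM (p : Nat.Primes) {e : Op D.E p} (he : IsIdempotentElem e) :
    GL (Fin 2) (Cnr ((h.localCubic (p : ℕ)).φM ((h.localCubic (p : ℕ)).jO e))) → ℝ :=
  cornerHeight ((he.map (h.localCubic (p : ℕ)).jO).map (h.localCubic (p : ℕ)).φM) (locHeight p)

theorem isHeightPair_place (P : ExtPlaces D) (p : Nat.Primes) {e : Op D.E p}
    (he : IsIdempotentElem e) :
    (placeCubic h p he).IsHeightPair (placeHE h p he) (placeHM h p he) :=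
  LocalCubic.IsHeightPair.corner (isHeightPair_locHeight h (finrank_incl P) p) he

/-- A uniformizer at a place of a number field. -/
theorem exists_place_unif {F : Type} [Field F] [NumberField F] {u : Ideal (𝓞 F)} {e : Op F p}
    (hc : IsPlaceCnr p u e) :
    ∃ (o : Op F p) (π : (AF F)ˣ), IsUniformizerAt (Ideal.span {((1 : ℕ) : 𝓞 F)}) u π ∧
      φp F p o = compAF p (π : AF F) ∧ Ideal.span {o} = u.map (incOp (p : ℕ)) ∧
      IsUnifRing (cnrMap (φp F p) e) (cmk e o) ∧
      Nat.card (Cnr e ⧸ Ideal.span {cmk e o}) = Ideal.absNorm u := by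
  have hu0 : u ≠ ⊥ := fun h0 =>
    p.2.ne_zero (Nat.cast_eq_zero.mp (Ideal.mem_bot.mp (h0 ▸ hc.mem)))
  obtain ⟨π, hπ⟩ := exists_isUniformizerAt_prime (n := Ideal.span {((1 : ℕ) : 𝓞 F)}) hc.prime hu0
    fun hd => hc.prime.ne_top (top_unique (le_trans (by simp) (Ideal.dvd_iff_le.mp hd)))
  obtain ⟨o, h1, h2, h3, h4⟩ := hc.exists_isUnifRing hπ
  exact ⟨o, π, hπ, h1, h2, h3, h4⟩

/-- The image of a prime in its factor is generated by the uniformizer. -/
theorem cnrIdeal_eq_span {F : Type} [Field F] [NumberField F] {u : Ideal (𝓞 F)} {e o : Op F p}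
    (ho : Ideal.span {o} = u.map (incOp (p : ℕ))) : cnrIdeal e u = Ideal.span {cmk e o} := by
  rw [cnrIdeal, ← ho, Ideal.map_span, Set.image_singleton]

/-- The uniformizers of an inert place. -/
theorem inertPlace_setup (P : ExtPlaces D) (hv : IsPlaceCnr p v e)
    (hw : IsInertPlace D h p v e w) :
    ∃ (π : Cnr e) (U : IsUnifRing (placeCubic h p hv.idem).φE π)
      (U' : IsUnifRing (placeCubic h p hv.idem).φM ((placeCubic h p hv.idem).jO π)),
      Ideal.span {π} = cnrIdeal e v ∧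
      Ideal.span {(placeCubic h p hv.idem).jO π} = cnrIdeal ((h.localCubic (p : ℕ)).jO e) w ∧
      Nat.card (Cnr e ⧸ Ideal.span {π}) = Ideal.absNorm v ∧
      Nat.card (Cnr ((h.localCubic (p : ℕ)).jO e) ⧸ Ideal.span {(placeCubic h p hv.idem).jO π}) =
        Nat.card (Cnr e ⧸ Ideal.span {π}) ^ 3 ∧
      (∀ k : ℕ, placeHE h p hv.idem (IsUnifRing.unip ((↑U.pi_unit.unit⁻¹ :
          Cnr ((h.localCubic (p : ℕ)).φE e)) ^ k)) = 2 * Real.log (Ideal.absNorm v) * k) ∧
      ∀ k : ℕ, placeHM h p hv.idem (IsUnifRing.unip ((↑U'.pi_unit.unit⁻¹ :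
          Cnr ((h.localCubic (p : ℕ)).φM ((h.localCubic (p : ℕ)).jO e))) ^ k)) =
        3 * (2 * Real.log (Ideal.absNorm v)) * k := by
  obtain ⟨hwc, hwv, hdeg, -, himg⟩ := hw
  obtain ⟨o, πE, hπE, hoE, hsE, UE, hcE⟩ := exists_place_unif hv
  obtain ⟨o', πM, hπM, hoM, hsM, UM, hcM⟩ := exists_place_unif hwc
  set π : Cnr e := cmk e o with hπ
  set S := placeCubic h p hv.idem
  have hspan : Ideal.span {S.jO π} = Ideal.span {cmk ((h.localCubic (p : ℕ)).jO e) o'} := by
    rw [← cnrIdeal_eq_span hsM, himg hv.idem, cnrIdeal_eq_span hsE, Ideal.map_span,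
      Set.image_singleton]
  obtain ⟨a, ha⟩ := Ideal.mem_span_singleton.mp
    (hspan ▸ Ideal.mem_span_singleton_self (S.jO π) :
      S.jO π ∈ Ideal.span {cmk ((h.localCubic (p : ℕ)).jO e) o'})
  obtain ⟨b, hb⟩ := Ideal.mem_span_singleton.mp
    (hspan.symm ▸ Ideal.mem_span_singleton_self (cmk ((h.localCubic (p : ℕ)).jO e) o') :
      cmk ((h.localCubic (p : ℕ)).jO e) o' ∈ Ideal.span {S.jO π})
  have hab : a * b = 1 := UM.pow_mul_cancel (n := 1) (by
    rw [pow_one, mul_one, ← mul_assoc, ← ha, ← hb])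
  let ε : (Cnr ((h.localCubic (p : ℕ)).jO e))ˣ := ⟨a, b, hab, mul_comm a b ▸ hab⟩
  have U' : IsUnifRing S.φM (S.jO π) := UM.of_associated ε ha
  have hq : Ideal.absNorm w = Ideal.absNorm v ^ 3 := hwv ▸ hdeg.2.2
  refine ⟨π, UE, U', (cnrIdeal_eq_span hsE).symm, hspan.trans (cnrIdeal_eq_span hsM).symm, hcE,
    ?_, fun k => ?_, fun k => ?_⟩
  · rw [hspan, hcM, hcE, hq]
  · rw [show (2 : ℝ) * Real.log (Ideal.absNorm v) * k = 2 * k * Real.log (Ideal.absNorm v) by ring]
    refine cornerHeight_unip hv hπE k ?_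
    refine (mul_pow _ _ k).symm.trans ((congrArg (· ^ k) ?_).trans (one_pow k))
    rw [← hoE]
    exact UE.pi_unit.mul_val_inv
  · have hH := isHeightPair_place h P p hv.idem
    set x : Cnr ((h.localCubic (p : ℕ)).φM ((h.localCubic (p : ℕ)).jO e)) :=
      (↑U'.pi_unit.unit⁻¹ : _) ^ k
    rw [← height_unip_unit (φ := S.φM) (placeHM h p hv.idem) hH.rightM hH.diagM (ε ^ k) x,
      show (3 : ℝ) * (2 * Real.log (Ideal.absNorm v)) * k =
        2 * k * Real.log ((Ideal.absNorm v ^ 3 : ℕ) : ℝ) by push_cast; rw [Real.log_pow]; ring,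
      ← hq]
    refine cornerHeight_unip hwc hπM k ?_
    rw [Units.val_pow_eq_pow_val, map_pow]
    refine (congrArg (_ * ·) (mul_pow _ _ k).symm).trans ?_
    refine (mul_pow _ _ k).symm.trans ((congrArg (· ^ k) ?_).trans (one_pow k))
    rw [← mul_assoc, ← hoM]
    show cnrMap (φp D.M p) _ (cmk _ o') * cnrMap (φp D.M p) _ a * _ = 1
    rw [← map_mul, ← ha]
    exact U'.pi_unit.mul_val_inv

variable (P : ExtPlaces D) (hd : HasDualSystem
  ((autOp σ.toRingEquiv : Op D.M p ≃+* Op D.M p) : Op D.M p →+* Op D.M p))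

include P hd in
/-- **The data at an inert place**: without letters, and with one. -/
theorem nonempty_inertPlaceData (hv : IsPlaceCnr p v e) (hw : IsInertPlace D h p v e w)
    {γ : GL (Fin 2) (Cnr ((h.localCubic (p : ℕ)).φE e))} {isDiag : Prop}
    (hdiag : isDiag → IsDiag2 γ) (hreg : IsUnit (γ.1.trace ^ 2 - 4 * γ.1.det)) :
    Nonempty ((placeCubic h p hv.idem).CornerData 1 γ isDiag (placeHE h p hv.idem)
      (placeHM h p hv.idem) idKer 0 idKer) ∧
    Nonempty ((placeCubic h p hv.idem).CornerData 1 γ isDiag (placeHE h p hv.idem)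
      (placeHM h p hv.idem)
      ((placeCubic h p hv.idem).inertDesc (Ideal.absNorm v)
        (nbrKer (placeCubic h p hv.idem).φE 1 (cnrIdeal e v)))
      (fun x y =>
        ((-(3 * ((Ideal.absNorm v : ℝ) - 1) * (2 * Real.log (Ideal.absNorm v))) : ℝ) : ℂ) *
        iterKer (nbrKer (placeCubic h p hv.idem).φE 1 (cnrIdeal e v)) 1 x y)
      (iterKer (nbrKer (placeCubic h p hv.idem).φM ((placeCubic h p hv.idem).jO 1)
        (cnrIdeal ((h.localCubic (p : ℕ)).jO e) w)) 1)) := by
  obtain ⟨π, U, U', hsE, hsM, hcE, hq, hlE, hlM⟩ := inertPlace_setup h P hv hw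
  set S := placeCubic h p hv.idem
  have := isTorsionFree_cnr (p := (p : ℕ)) (hv.idem.map (h.localCubic (p : ℕ)).jO)
  have := isTorsionFree_cnr (p := (p : ℕ)) hv.idem
  have : Module.Finite ℤ_[(p : ℕ)] (Cnr e) :=
    Module.Finite.of_surjective (Ideal.Quotient.mkₐ ℤ_[(p : ℕ)] _).toLinearMap
      Ideal.Quotient.mk_surjective
  have : Module.Finite ℤ_[(p : ℕ)] (Cnr ((h.localCubic (p : ℕ)).jO e)) :=
    Module.Finite.of_surjective (Ideal.Quotient.mkₐ ℤ_[(p : ℕ)] _).toLinearMap
      Ideal.Quotient.mk_surjective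
  have : IsArtinianRing (Cnr ((h.localCubic (p : ℕ)).φM ((h.localCubic (p : ℕ)).jO e))) :=
    Function.Surjective.isArtinianRing cmk_surjective
  have hdS := (h.localCubic (p : ℕ)).corner_dual hv.idem hd
  have hpM :
      IsUnit (((p : ℕ) : Cnr ((h.localCubic (p : ℕ)).φM ((h.localCubic (p : ℕ)).jO e)))) := by
    rw [← map_natCast (cmk ((h.localCubic (p : ℕ)).φM ((h.localCubic (p : ℕ)).jO e)))]
    exact (isUnit_natCast_Lp p.2.ne_zero).map _
  have hpE : IsUnit (((p : ℕ) : Cnr ((h.localCubic (p : ℕ)).φE e))) := by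
    rw [← map_natCast (cmk ((h.localCubic (p : ℕ)).φE e))]
    exact (isUnit_natCast_Lp p.2.ne_zero).map _
  have hcomp : IsPComplete (((p : ℕ) : Cnr e)) := isPComplete_padic (p : ℕ)
  have hlam : (0 : ℝ) ≤ 2 * Real.log (Ideal.absNorm v) :=
    mul_nonneg zero_le_two (Real.log_natCast_nonneg _)
  have hH := isHeightPair_place h P p hv.idem
  refine ⟨LocalCubic.nonempty_inertData_zero S U U' hq hH hdS hpM hpE hcomp hdiag hreg hlam hlE hlM,
    ?_⟩
  rw [← hsE, ← hsM, ← hcE]
  rw [← hcE] at hlam hlE hlM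
  exact LocalCubic.nonempty_inertData_one S U U' hq hH hdS hpM hpE hcomp hdiag hreg hlam hlE hlM

end FLTAgent.LanglandsTunnell.Local
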