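import Fermat.Agent.LanglandsTunnell.Local.SplitCorner
import Fermat.Agent.LanglandsTunnell.Local.CornerLift
import Fermat.Agent.LanglandsTunnell.Local.RestrictedSum

/-!
# Points and neighbours along a complete orthogonal family of idempotents

The points at a unit level are families of points of the factors, and the neighbours by an ideal
which is trivial in all factors but one are the neighbours in that factor.
See `cnrPts`, `nbrKer_cnr_map`, `isNormAt_iff_corner`.
-/

set_option autoImplicit false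

noncomputable section

namespace FLTAgent.LanglandsTunnell.Local

open Matrix FLTAgent.LanglandsTunnell

variable {ι A B : Type} [CommRing A] [CommRing B] [Fintype ι] {φ : A →+* B} {e : ι → A}
  (hφ : Function.Injective φ) (he : CompleteOrthogonalIdempotents e)

include hφ he in
theorem mem_congrGroup_of_cgl {N : A} {g : GL (Fin 2) B}
    (h : ∀ i, cgl (φ (e i)) g ∈ congrGroup (cnrMap φ (e i)) (cmk (e i) N)) :
    g ∈ congrGroup φ N := by
  choose K hK1 hK2 using fun i =>
    exists_units_of_mem_congrGroup (cnrMap_injective hφ (he.idem i)) (h i)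
  obtain ⟨K₀, hK₀⟩ := cgl_exists he K
  choose X hX using hK1
  choose X' hX' using fun r c => cnr_exists he fun i => X i r c
  have hK0 : IsCongrOne N K₀.1 := ⟨Matrix.of X', Matrix.ext fun r c => cnr_ext he fun i => by
    refine (congrArg (fun m : GL (Fin 2) (Cnr (e i)) => m.1 r c) (hK₀ i)).trans ?_
    show (K i).1 r c = _
    rw [hX i]
    simp [Matrix.one_apply, apply_ite (cmk (e i)), hX']⟩
  have hg : g = GeneralLinearGroup.map φ K₀ := cgl_ext (he.map φ) fun i => by
    refine (hK2 i).symm.trans ?_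
    rw [← hK₀ i]
    rfl
  exact hg ▸ map_mem_congrGroup hK0

/-- **A point is the family of its components.** -/
def cnrPts (N : A) : QPt φ N ≃ ∀ i, QPt (cnrMap φ (e i)) (cmk (e i) N) :=
  Equiv.ofBijective (fun x i => Quotient.map' (cgl (φ (e i))) (fun g h hgh => by
      rw [QuotientGroup.leftRel_apply] at hgh ⊢
      rw [← map_inv, ← map_mul]
      exact cgl_mem_levelK hgh) x)
    ⟨fun x y h => by
      induction x using QuotientGroup.induction_on with
      | H g =>
        induction y using QuotientGroup.induction_on with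
        | H g' =>
          refine QuotientGroup.eq.mpr (mem_levelK_of_cgl hφ he fun i => ?_)
          rw [map_mul, map_inv]
          exact QuotientGroup.eq.mp (congrFun h i),
      fun f => by
        choose g hg using fun i => QuotientGroup.mk_surjective (f i)
        obtain ⟨G, hG⟩ := cgl_exists (he.map φ) g
        exact ⟨(G : QPt φ N), funext fun i => (congrArg QuotientGroup.mk (hG i)).trans (hg i)⟩⟩

theorem cnrPts_mk (N : A) (g : GL (Fin 2) B) (i : ι) :
    cnrPts hφ he N (g : QPt φ N) i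
      = (cgl (φ (e i)) g : QPt (cnrMap φ (e i)) (cmk (e i) N)) := rfl

include hφ he in
/-- **The neighbours by an ideal which is trivial outside one factor.** -/
theorem mem_nbrSet_cnr {N : A} (hN : IsUnit N) {o : A} {i₀ : ι}
    (ho : ∀ j, j ≠ i₀ → IsUnit (cmk (e j) o)) (x x' : QPt φ N) :
    x' ∈ nbrSet φ N (Ideal.span {o}) x ↔
      cnrPts hφ he N x' i₀ ∈ nbrSet (cnrMap φ (e i₀)) (cmk (e i₀) N)
          (Ideal.span {cmk (e i₀) o}) (cnrPts hφ he N x i₀) ∧
        ∀ j, j ≠ i₀ → cnrPts hφ he N x j = cnrPts hφ he N x' j := by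
  classical
  have heB : CompleteOrthogonalIdempotents (φ ∘ e) := he.map φ
  have hd : ∀ (j : ι) (π : Bˣ), cgl (φ (e j)) (diagUnit π) =
      diagUnit (Units.map (cmk (φ (e j))).toMonoidHom π) := fun j π => map_diagUnit _ π
  have hstay : ∀ j (g k : GL (Fin 2) B) (π : (Cnr (φ (e j)))ˣ) (a : Cnr (e j)),
      cgl (φ (e j)) k ∈ congrGroup (cnrMap φ (e j)) (cmk (e j) N) → IsUnit a →
      cnrMap φ (e j) a = π →
      ((cgl (φ (e j)) g * cgl (φ (e j)) k * diagUnit π : GL (Fin 2) (Cnr (φ (e j)))) :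
          QPt (cnrMap φ (e j)) (cmk (e j) N)) = (cgl (φ (e j)) g : GL (Fin 2) (Cnr (φ (e j)))) :=
    fun j g k π a hk ha hπ => by
      rw [QuotientGroup.eq, mul_assoc, _root_.mul_inv_rev, inv_mul_cancel_right]
      exact inv_mem (mul_mem (le_sup_left (b := Subgroup.center _) hk)
        (le_sup_left (b := Subgroup.center _) (diagUnit_mem_congr (hN.map _) ha hπ)))
  constructor
  · rintro ⟨g, k, π, o', rfl, hk, hπ, hI, rfl⟩
    have hspan : ∀ j, Ideal.span {cmk (e j) o'} = Ideal.span {cmk (e j) o} := fun j => by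
      have h := congrArg (Ideal.map (cmk (e j))) hI
      rwa [Ideal.map_span, Ideal.map_span, Set.image_singleton, Set.image_singleton] at h
    have hφj : ∀ j, cnrMap φ (e j) (cmk (e j) o') =
        (Units.map (cmk (φ (e j))).toMonoidHom π : (Cnr (φ (e j)))ˣ) := fun j => by
      rw [cnrMap_cmk, hπ]; rfl
    refine ⟨⟨cgl (φ (e i₀)) g, cgl (φ (e i₀)) k, _, cmk (e i₀) o', rfl,
      cgl_mem_congrGroup hk, hφj i₀, hspan i₀, ?_⟩, fun j hj => ?_⟩
    · rw [cnrPts_mk, map_mul, map_mul, hd]
    · rw [cnrPts_mk, cnrPts_mk, map_mul, map_mul, hd]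
      refine (hstay j g k _ _ (cgl_mem_congrGroup hk) ?_ (hφj j)).symm
      rw [← Ideal.span_singleton_eq_top, hspan j, Ideal.span_singleton_eq_top]
      exact ho j hj
  · rintro ⟨⟨gi, ki, πi, oi, hgi, hki, hoi, hI, hv'⟩, hother⟩
    obtain ⟨G₀, rfl⟩ := QuotientGroup.mk_surjective x
    obtain ⟨G, hG⟩ := cgl_exists heB
      (Function.update (fun j => cgl (φ (e j)) G₀) i₀ gi)
    obtain ⟨K, hK⟩ := cgl_exists heB
      (Function.update (fun j => (1 : GL (Fin 2) (Cnr ((φ ∘ e) j)))) i₀ ki)
    obtain ⟨o', ho'⟩ := cnr_exists he (Function.update (fun j => cmk (e j) o) i₀ oi)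
    have ho'i : cmk (e i₀) o' = oi := by rw [ho', Function.update_self]
    have ho'j : ∀ j, j ≠ i₀ → cmk (e j) o' = cmk (e j) o := fun j hj => by
      rw [ho', Function.update_of_ne hj]
    have hu0 : ∀ j, ∃ b : Cnr (φ (e j)), cmk (φ (e j)) (φ o') * b = 1 := fun j => by
      rw [← cnrMap_cmk]
      by_cases hj : j = i₀
      · subst hj
        rw [ho'i, hoi]
        exact ⟨_, πi.mul_inv⟩
      · rw [ho'j j hj]
        exact isUnit_iff_exists_inv.mp ((ho j hj).map _)
    choose bb hbb using hu0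
    obtain ⟨c, hc⟩ := cnr_exists heB bb
    have hu : IsUnit (φ o') := IsUnit.of_mul_eq_one c (cnr_ext heB fun j => by
      show cmk (φ (e j)) _ = cmk (φ (e j)) _
      rw [map_mul, map_one]
      exact (congrArg (cmk (φ (e j)) (φ o') * ·) (hc j)).trans (hbb j))
    refine ⟨G, K, hu.unit, o', ?_, ?_, rfl, le_antisymm ?_ ?_, ?_⟩
    · refine (cnrPts hφ he N).injective (funext fun j => ?_)
      rw [cnrPts_mk, cnrPts_mk]
      refine (congrArg QuotientGroup.mk (hG j)).trans ?_
      by_cases hj : j = i₀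
      · subst hj; rw [Function.update_self]; exact hgi
      · rw [Function.update_of_ne hj]
    · refine mem_congrGroup_of_cgl hφ he fun j => ?_
      rw [show cgl (φ (e j)) K = _ from hK j]
      by_cases hj : j = i₀
      · subst hj; rw [Function.update_self]; exact hki
      · rw [Function.update_of_ne hj]; exact one_mem _
    · rw [Ideal.span_singleton_le_iff_mem, Ideal.mem_span_singleton]
      have hd' : ∀ j, ∃ r, cmk (e j) o' = cmk (e j) o * r := fun j => by
        by_cases hj : j = i₀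
        · subst hj
          rw [ho'i]
          exact Ideal.mem_span_singleton.mp (hI ▸ Ideal.mem_span_singleton_self oi)
        · exact ⟨1, by rw [ho'j j hj, mul_one]⟩
      choose r hr using hd'
      obtain ⟨R, hR⟩ := cnr_exists he r
      exact ⟨R, cnr_ext he fun j => by rw [map_mul, hR, hr]⟩
    · rw [Ideal.span_singleton_le_iff_mem, Ideal.mem_span_singleton]
      have hd' : ∀ j, ∃ r, cmk (e j) o = cmk (e j) o' * r := fun j => by
        by_cases hj : j = i₀
        · subst hj
          rw [ho'i]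
          exact Ideal.mem_span_singleton.mp (hI.symm ▸ Ideal.mem_span_singleton_self _)
        · exact ⟨1, by rw [ho'j j hj, mul_one]⟩
      choose r hr using hd'
      obtain ⟨R, hR⟩ := cnr_exists he r
      exact ⟨R, cnr_ext he fun j => by rw [map_mul, hR, hr]⟩
    · refine (cnrPts hφ he N).injective (funext fun j => ?_)
      rw [cnrPts_mk, map_mul, map_mul, hd]
      by_cases hj : j = i₀
      · subst hj
        rw [show cgl (φ (e j)) G = _ from hG j, show cgl (φ (e j)) K = _ from hK j,
          Function.update_self, Function.update_self, ← hv']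
        refine congrArg (fun d => ((gi * ki * diagUnit d : GL (Fin 2) _) :
          QPt (cnrMap φ (e j)) (cmk (e j) N))) (Units.ext ?_)
        show cmk (φ (e j)) (φ o') = _
        rw [← cnrMap_cmk, ho'i, hoi]
      · rw [← hother j hj, cnrPts_mk]
        refine (hstay j G K _ (cmk (e j) o') ?_ (ho'j j hj ▸ ho j hj) ?_).trans ?_
        · rw [show cgl (φ (e j)) K = _ from hK j, Function.update_of_ne hj]
          exact one_mem _
        · rw [cnrMap_cmk]; rfl
        · rw [show cgl (φ (e j)) G = _ from hG j, Function.update_of_ne hj]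

include hφ he in
/-- The kernel of such an ideal is a product over the factors. -/
theorem nbrKer_cnr [DecidableEq ι] {N : A} (hN : IsUnit N) {o : A} {i₀ : ι}
    (ho : ∀ j, j ≠ i₀ → IsUnit (cmk (e j) o)) (x x' : QPt φ N) :
    nbrKer φ N (Ideal.span {o}) x x' =
      ∏ j, (if j = i₀ then nbrKer (cnrMap φ (e j)) (cmk (e j) N) (Ideal.span {cmk (e j) o})
        else idKer) (cnrPts hφ he N x j) (cnrPts hφ he N x' j) := by
  by_cases h : x' ∈ nbrSet φ N (Ideal.span {o}) x
  · obtain ⟨h1, h2⟩ := (mem_nbrSet_cnr hφ he hN ho x x').mp h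
    rw [nbrKer, Set.indicator_of_mem h, Pi.one_apply]
    refine (Finset.prod_eq_one fun j _ => ?_).symm
    by_cases hj : j = i₀
    · subst hj; rw [if_pos rfl, nbrKer, Set.indicator_of_mem h1, Pi.one_apply]
    · rw [if_neg hj, h2 j hj, idKer_self]
  · rw [nbrKer, Set.indicator_of_notMem h]
    rw [mem_nbrSet_cnr hφ he hN ho x x'] at h
    symm
    by_cases h1 : cnrPts hφ he N x' i₀ ∈ nbrSet (cnrMap φ (e i₀)) (cmk (e i₀) N)
        (Ideal.span {cmk (e i₀) o}) (cnrPts hφ he N x i₀)
    · obtain ⟨j, hj, hne⟩ : ∃ j, j ≠ i₀ ∧ cnrPts hφ he N x j ≠ cnrPts hφ he N x' j := by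
        by_contra hc
        push Not at hc
        exact h ⟨h1, hc⟩
      exact Finset.prod_eq_zero (Finset.mem_univ j) (by rw [if_neg hj, idKer_ne hne])
    · exact Finset.prod_eq_zero (Finset.mem_univ i₀)
        (by rw [if_pos rfl, nbrKer, Set.indicator_of_notMem h1])

/-- The unit ideal moves nothing at a unit level. -/
theorem nbrKer_top {O L : Type} [CommRing O] [CommRing L] {ψ : O →+* L} {n : O} (hn : IsUnit n) :
    nbrKer ψ n ⊤ = idKer := by
  funext x x'
  have hmem : x' ∈ nbrSet ψ n ⊤ x ↔ x = x' := by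
    refine ⟨?_, ?_⟩
    · rintro ⟨g, k, π, o, rfl, hk, hπ, hI, rfl⟩
      rw [QuotientGroup.eq, mul_assoc, inv_mul_cancel_left]
      exact mul_mem (le_sup_left (b := Subgroup.center _) hk)
        (le_sup_left (b := Subgroup.center _)
          (diagUnit_mem_congr hn (Ideal.span_singleton_eq_top.mp hI) hπ))
    · rintro rfl
      obtain ⟨g, rfl⟩ := QuotientGroup.mk_surjective x
      exact ⟨g, 1, 1, 1, rfl, one_mem _, by rw [map_one, Units.val_one],
        Ideal.span_singleton_one, by rw [diagUnit_one, mul_one, mul_one]⟩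
  by_cases h : x = x'
  · rw [nbrKer, Set.indicator_of_mem (hmem.mpr h), Pi.one_apply, h, idKer_self]
  · rw [nbrKer, Set.indicator_of_notMem (mt hmem.mp h), idKer_ne h]

include hφ he in
/-- **The general product formula**: all factors but one see the unit ideal. -/
theorem nbrKer_cnr_map {N : A} (hN : IsUnit N) {I : Ideal A}
    (hI : ∃ o, Ideal.span {o} = I) {i₀ : ι} (ho : ∀ j, j ≠ i₀ → I.map (cmk (e j)) = ⊤)
    (x x' : QPt φ N) :
    nbrKer φ N I x x' = ∏ j, nbrKer (cnrMap φ (e j)) (cmk (e j) N) (I.map (cmk (e j)))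
      (cnrPts hφ he N x j) (cnrPts hφ he N x' j) := by
  classical
  obtain ⟨o, rfl⟩ := hI
  have hmap : ∀ j, (Ideal.span {o}).map (cmk (e j)) = Ideal.span {cmk (e j) o} := fun j => by
    rw [Ideal.map_span, Set.image_singleton]
  have hu : ∀ j, j ≠ i₀ → IsUnit (cmk (e j) o) := fun j hj => by
    rw [← Ideal.span_singleton_eq_top, ← hmap]; exact ho j hj
  rw [nbrKer_cnr hφ he hN hu x x']
  refine Finset.prod_congr rfl fun j _ => ?_
  by_cases hj : j = i₀
  · subst hj; rw [if_pos rfl, hmap]
  · rw [if_neg hj, ho j hj, nbrKer_top (hN.map _)]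

/-! ### Levels which agree with the level of `N` -/

variable {N m : A} (hl : levelK φ N = levelK φ m)

/-- The components of a point at a level which agrees with that of `m`. -/
def cnrCoord (x : QPt φ N) (i : ι) : QPt (cnrMap φ (e i)) (cmk (e i) m) :=
  cnrPts hφ he m (Subgroup.quotientEquivOfEq hl x) i

theorem cnrCoord_mk (g : GL (Fin 2) B) (i : ι) :
    cnrCoord hφ he hl (g : QPt φ N) i
      = (cgl (φ (e i)) g : QPt (cnrMap φ (e i)) (cmk (e i) m)) := rfl

theorem cnrCoord_smul (g : GL (Fin 2) B) (x : QPt φ N) (i : ι) :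
    cnrCoord hφ he hl (g • x) i = cgl (φ (e i)) g • cnrCoord hφ he hl x i := by
  induction x using QuotientGroup.induction_on with
  | H h => exact congrArg QuotientGroup.mk (map_mul (cgl (φ (e i))) g h)

theorem cnrCoord_injective : Function.Injective (cnrCoord hφ he hl) :=
  (cnrPts hφ he m).injective.comp (Subgroup.quotientEquivOfEq hl).injective

theorem isRestricted_cnrCoord :
    IsRestricted (fun i => ((1 : GL (Fin 2) (Cnr (φ (e i)))) :
      QPt (cnrMap φ (e i)) (cmk (e i) m))) (fun i x => cnrCoord hφ he hl x i) where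
  ext h := cnrCoord_injective hφ he hl (funext h)
  cofinite _ := ⟨Finset.univ, fun i hi => absurd (Finset.mem_univ i) hi⟩
  exists_eq x _ _ :=
    ⟨(Subgroup.quotientEquivOfEq hl).symm ((cnrPts hφ he m).symm x), fun i => by
      rw [cnrCoord, Equiv.apply_symm_apply, Equiv.apply_symm_apply]⟩

/-! ### Cubic settings -/

namespace LocalCubic

variable {OE LE OM LM : Type} [CommRing OE] [CommRing LE] [CommRing OM] [CommRing LM]
  (S : LocalCubic OE LE OM LM)

theorem cgl_θ {a : OE} (ha : IsIdempotentElem a) (g : GL (Fin 2) LM) :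
    cgl (S.φM (S.jO a)) (S.θ g) = (S.corner ha).θ (cgl (S.φM (S.jO a)) g) :=
  Units.ext (Matrix.ext fun _ _ => rfl)

theorem cgl_ι {a : OE} (ha : IsIdempotentElem a) (g : GL (Fin 2) LE) :
    cgl (S.φM (S.jO a)) (S.ι g) = (S.corner ha).ι (cgl (S.φE a) g) :=
  Units.ext (Matrix.ext fun _ _ => rfl)

theorem cgl_tnorm {a : OE} (ha : IsIdempotentElem a) (X : GL (Fin 2) LM) :
    cgl (S.φM (S.jO a)) (tnorm S.θ X) = tnorm (S.corner ha).θ (cgl (S.φM (S.jO a)) X) := by
  rw [tnorm, tnorm, map_mul, map_mul]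
  simp only [cgl_θ S ha]

variable {κ : Type} [Fintype κ] {ev : κ → OE} (hev : CompleteOrthogonalIdempotents ev)

include hev in
theorem complete_jO : CompleteOrthogonalIdempotents fun i => S.jO (ev i) := hev.map S.jO

theorem cnrCoord_twMap {n' m' : OM} (hl : levelK S.φM n' = levelK S.φM m') (hn : S.σO n' = n')
    (hm : S.σO m' = m') (δ : GL (Fin 2) LM) (v : QPt S.φM n') (i : κ) :
    cnrCoord S.φM_inj (S.complete_jO hev) hl (S.twMap n' δ v) i =
      (S.corner (hev.idem i)).twMap (cmk (S.jO (ev i)) m') (cgl (S.φM (S.jO (ev i))) δ)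
        (cnrCoord S.φM_inj (S.complete_jO hev) hl v i) := by
  induction v using QuotientGroup.induction_on with
  | H g =>
    rw [S.twMap_mk hn, cnrCoord_mk, cnrCoord_mk, map_mul, cgl_θ S (hev.idem i)]
    refine ((S.corner (hev.idem i)).twMap_mk ?_ _ _).symm
    exact congrArg (cmk _) hm

theorem cnrCoord_commPairs {n m₀ : OE} {n' m' : OM} (hlE : levelK S.φE n = levelK S.φE m₀)
    (hlM : levelK S.φM n' = levelK S.φM m') {γ : GL (Fin 2) LE}
    {t : Equiv.Perm (QPt S.φE n) × Equiv.Perm (QPt S.φM n')} (ht : t ∈ S.commPairs n n' γ)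
    (i : κ) :
    ∃ t' ∈ (S.corner (hev.idem i)).commPairs (cmk (ev i) m₀) (cmk (S.jO (ev i)) m')
        (cgl (S.φE (ev i)) γ),
      (∀ u, cnrCoord S.φE_inj hev hlE (t.1 u) i = t'.1 (cnrCoord S.φE_inj hev hlE u i)) ∧
        ∀ v, cnrCoord S.φM_inj (S.complete_jO hev) hlM (t.2 v) i =
          t'.2 (cnrCoord S.φM_inj (S.complete_jO hev) hlM v i) := by
  obtain ⟨c, hc, rfl⟩ := ht
  refine ⟨_, ⟨cgl (S.φE (ev i)) c, hc.map _, rfl⟩, fun u => cnrCoord_smul _ _ _ c u i, fun v => ?_⟩
  refine (cnrCoord_smul _ _ _ (S.ι c) v i).trans ?_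
  rw [cgl_ι S (hev.idem i)]
  rfl

include hev in
/-- **The norm condition is checked on the factors.** -/
theorem isNormAt_iff_corner (γ : GL (Fin 2) LE) :
    S.IsNormAt γ ↔ ∀ i, (S.corner (hev.idem i)).IsNormAt (cgl (S.φE (ev i)) γ) := by
  constructor
  · rintro ⟨z, X, hc, hN⟩ i
    refine ⟨Units.map (cmk (S.φE (ev i))).toMonoidHom z, cgl (S.φM (S.jO (ev i))) X, ?_, ?_⟩
    · rw [← cgl_ι S (hev.idem i), ← map_mul, ← map_mul, hc]
    · rw [← cgl_tnorm S (hev.idem i), hN, cgl_ι S (hev.idem i), map_mul]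
      exact congrArg (fun s => (S.corner (hev.idem i)).ι (s * cgl (S.φE (ev i)) γ))
        (GeneralLinearGroup.map_scalar _ _)
  · intro h
    choose z X hc hN using h
    have hE : CompleteOrthogonalIdempotents (S.φE ∘ ev) := hev.map S.φE
    have hM : CompleteOrthogonalIdempotents fun i => S.φM (S.jO (ev i)) :=
      (S.complete_jO hev).map S.φM
    obtain ⟨z₀, hz₀⟩ := cnr_exists hE fun i => ((z i : (Cnr (S.φE (ev i)))ˣ) : Cnr (S.φE (ev i)))
    obtain ⟨z₁, hz₁⟩ := cnr_exists hE fun i =>
      (((z i)⁻¹ : (Cnr (S.φE (ev i)))ˣ) : Cnr (S.φE (ev i)))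
    obtain ⟨X₀, hX₀⟩ := cgl_exists hM X
    have h1 : z₀ * z₁ = 1 := cnr_ext hE fun i => by
      rw [map_mul, hz₀, hz₁, map_one]
      exact (z i).mul_inv
    refine ⟨⟨z₀, z₁, h1, by rw [mul_comm]; exact h1⟩, X₀, cgl_ext hM fun i => ?_,
      cgl_ext hM fun i => ?_⟩
    · rw [map_mul, map_mul, hX₀, cgl_ι S (hev.idem i)]
      exact hc i
    · rw [cgl_tnorm S (hev.idem i), hX₀, cgl_ι S (hev.idem i), map_mul, hN]
      refine congrArg (fun s => (S.corner (hev.idem i)).ι (s * cgl (S.φE (ev i)) γ)) ?_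
      refine Eq.trans (congrArg _ ?_) (GeneralLinearGroup.map_scalar _ _).symm
      exact Units.ext (hz₀ i).symm

end LocalCubic

end FLTAgent.LanglandsTunnell.Local
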