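import Fermat.Agent.LanglandsTunnell.Local.PrimeSpec
import Fermat.Agent.LanglandsTunnell.Local.RamifiedPrimes
import Fermat.Agent.LanglandsTunnell.Local.PlaceSystem

/-!
# The places of `E` and `M` over a rational prime with trivial inertia

The idempotents of the places of `E` over `p`, and for each of them the dichotomy inert or split
in the cubic extension `M`. `exists_placeSystem` assembles them into a `PlaceSystem`.
-/

set_option autoImplicit false

noncomputable section

namespace FLTAgent.LanglandsTunnell.Local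

open scoped TensorProduct
open FLTAgent.LanglandsTunnell FLTAgent.LanglandsTunnell.Isolation NumberField Matrix

/-! ### The places of one field over `p` -/

section OneField

variable {F F' : Type} [Field F] [NumberField F] [Field F'] [NumberField F'] {p : Nat.Primes}

theorem ne_bot_of_prime_natCast_mem {w : Ideal (𝓞 F)} (hp : ((p : ℕ) : 𝓞 F) ∈ w) : w ≠ ⊥ := by
  rintro rfl
  exact p.2.ne_zero (Nat.cast_eq_zero.mp (Ideal.mem_bot.mp hp))

/-- The places over `p`. -/
abbrev PlacesAt (F : Type) [Field F] (p : Nat.Primes) : Type :=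
  {v : Ideal (𝓞 F) // v.IsPrime ∧ ((p : ℕ) : 𝓞 F) ∈ v}

instance finite_placesAt : Finite (PlacesAt F p) := by
  have h0 : Ideal.span {((p : ℕ) : 𝓞 F)} ≠ ⊥ := by simpa using p.2.ne_zero
  have := UniqueFactorizationMonoid.fintypeSubtypeDvd _ h0
  exact Finite.of_injective
    (fun v : PlacesAt F p => (⟨v.1, Ideal.dvd_iff_le.mpr
      ((Ideal.span_singleton_le_iff_mem _).mpr v.2.2)⟩ :
        {w // w ∣ Ideal.span {((p : ℕ) : 𝓞 F)}}))
    fun v v' h => Subtype.ext (by simpa using congrArg Subtype.val h)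

instance fintype_placesAt : Fintype (PlacesAt F p) := Fintype.ofFinite _

/-- The idempotent of a place. -/
def placeIdem (v : PlacesAt F p) : Op F p :=
  (exists_isPlaceCnr v.2.1 (ne_bot_of_prime_natCast_mem v.2.2) v.2.2).choose

theorem isPlaceCnr_placeIdem (v : PlacesAt F p) : IsPlaceCnr p v.1 (placeIdem v) :=
  (exists_isPlaceCnr v.2.1 (ne_bot_of_prime_natCast_mem v.2.2) v.2.2).choose_spec

omit [NumberField F] [NumberField F'] in
theorem incOp_mapRingHom (f : F →+* F') :
    (incOp (F := F') (p : ℕ)).comp (RingOfIntegers.mapRingHom f) =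
      (mapOp f).comp (incOp (p : ℕ)) :=
  RingHom.ext fun _ => rfl

omit [NumberField F] [NumberField F'] in
theorem map_incOp_map (f : F →+* F') (J : Ideal (𝓞 F)) :
    (J.map (RingOfIntegers.mapRingHom f)).map (incOp (p : ℕ)) =
      (J.map (incOp (p : ℕ))).map (mapOp f) := by
  rw [Ideal.map_map, Ideal.map_map, incOp_mapRingHom]

variable {w : Ideal (𝓞 F)} {e : Op F p}

/-- A prime other than `w` sees the unit ideal in the factor of `w`. -/
theorem IsPlaceCnr.map_cmk_eq_top (he : IsPlaceCnr p w e) {K : Ideal (𝓞 F)} (hK : ¬ K ≤ w) :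
    (K.map (incOp (p : ℕ))).map (cmk e) = ⊤ := by
  by_contra hne
  obtain ⟨m, hm, hle⟩ := Ideal.exists_le_maximal _ hne
  have := hm
  have hmax : (m.comap (cmk e)).IsMaximal := Ideal.comap_isMaximal_of_surjective _ cmk_surjective
  have h1 : 1 - e ∈ m.comap (cmk e) := by
    rw [Ideal.mem_comap, map_sub, map_one, cmk_self, sub_self]; exact zero_mem _
  obtain ⟨w', hw', hp', hle'⟩ := exists_prime_of_isMaximal hmax
  by_cases hne' : w' = w
  · subst hne'
    refine hK ?_
    have h2 : w' ≤ (m.comap (cmk e)).comap (incOp (p : ℕ)) := Ideal.map_le_iff_le_comap.mp hle'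
    rw [(hw'.isMaximal (ne_bot_of_prime_natCast_mem hp')).eq_of_le
      (Ideal.IsPrime.ne_top (hmax.isPrime.comap _)) h2]
    exact Ideal.map_le_iff_le_comap.mp (Ideal.map_le_iff_le_comap.mp hle)
  · refine hmax.ne_top ((Ideal.eq_top_iff_one _).mpr ?_)
    simpa using add_mem h1 (hle' (he.other w' hw' hp' hne'))

/-- Two idempotents congruent at every prime over `p` agree. -/
theorem eq_of_idem_congr {f f' : Op F p} (hf : IsIdempotentElem f) (hf' : IsIdempotentElem f')
    (h : ∀ w' : Ideal (𝓞 F), w'.IsPrime → ((p : ℕ) : 𝓞 F) ∈ w' →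
      f - f' ∈ w'.map (incOp (p : ℕ))) : f = f' := by
  have h1 : f * (1 - f') = 0 := eq_zero_of_idem (hf.mul hf'.one_sub) fun w' hw' hp' => by
    rw [show f * (1 - f') = (f - f') * (1 - f') by linear_combination -hf'.eq]
    exact Ideal.mul_mem_right _ _ (h w' hw' hp')
  have h2 : f' * (1 - f) = 0 := eq_zero_of_idem (hf'.mul hf.one_sub) fun w' hw' hp' => by
    rw [show f' * (1 - f) = -(f - f') * (1 - f) by linear_combination -hf.eq]
    exact Ideal.mul_mem_right _ _ (neg_mem (h w' hw' hp'))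
  linear_combination h1 - h2

/-- A generator in the component. -/
theorem exists_span_incOp (hw : w.IsPrime) (hp : ((p : ℕ) : 𝓞 F) ∈ w) :
    ∃ o : Op F p, Ideal.span {o} = w.map (incOp (p : ℕ)) := by
  have hn : ¬ w ∣ Ideal.span {((1 : ℕ) : 𝓞 F)} := fun h => hw.ne_top (top_le_iff.mp (by
    rw [← Ideal.span_singleton_one]
    simpa using Ideal.dvd_iff_le.mp h))
  obtain ⟨π, hπ⟩ := exists_isUniformizerAt_prime (n := Ideal.span {((1 : ℕ) : 𝓞 F)}) hw
    (ne_bot_of_prime_natCast_mem hp) hn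
  obtain ⟨⟨o, -, ho⟩, -⟩ := comp_isUniformizerAt (N := 1) hp hπ
  exact ⟨o, ho⟩

omit [NumberField F] in
/-- The ideal of `w`, from a generator in its factor. -/
theorem IsPlaceCnr.map_eq_span (he : IsPlaceCnr p w e) {g : Op F p}
    (hg : g ∈ w.map (incOp (p : ℕ)))
    (h : (w.map (incOp (p : ℕ))).map (cmk e) ≤ Ideal.span {cmk e g}) :
    w.map (incOp (p : ℕ)) = Ideal.span {e * g + (1 - e)} := by
  refine le_antisymm (fun x hx => ?_) ((Ideal.span_singleton_le_iff_mem _).mpr
    (add_mem (Ideal.mul_mem_left _ _ hg) he.one_sub))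
  obtain ⟨r, hr⟩ := Ideal.mem_span_singleton.mp (h (Ideal.mem_map_of_mem _ hx))
  obtain ⟨r, rfl⟩ := cmk_surjective r
  rw [← map_mul, cmk_eq_iff he.idem] at hr
  refine Ideal.mem_span_singleton.mpr ⟨e * r + (1 - e) * x, ?_⟩
  linear_combination hr + (-g * r + g * x + r - x) * he.idem.eq

end OneField

/-! ### The cubic extension -/

section Cubic

variable {D : Datum} {σ : D.M ≃ₐ[ℚ] D.M}

/-- `σ` on the integers. -/
abbrev sigO (σ : D.M ≃ₐ[ℚ] D.M) : 𝓞 D.M →+* 𝓞 D.M :=
  RingOfIntegers.mapRingHom σ.toRingEquiv.toRingHom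

/-- The conjugate of an ideal. -/
abbrev sigI (σ : D.M ≃ₐ[ℚ] D.M) (w : Ideal (𝓞 D.M)) : Ideal (𝓞 D.M) := w.map (sigO σ)

variable (h : CubicData D.incl σ.toRingEquiv)
include h

theorem sigO_cube (a : 𝓞 D.M) : sigO σ (sigO σ (sigO σ a)) = a := RingOfIntegers.ext (h.cube _)

theorem sigO_incl (c : 𝓞 D.E) :
    sigO σ (RingOfIntegers.mapRingHom D.incl c) = RingOfIntegers.mapRingHom D.incl c :=
  RingOfIntegers.ext (h.map _)

theorem mem_sigI {w : Ideal (𝓞 D.M)} {a : 𝓞 D.M} : a ∈ sigI σ w ↔ sigO σ (sigO σ a) ∈ w := by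
  rw [Ideal.mem_map_iff_of_surjective _ fun b => ⟨sigO σ (sigO σ b), sigO_cube h b⟩]
  exact ⟨fun ⟨b, hb, he⟩ => by rwa [← he, sigO_cube h],
    fun ha => ⟨_, ha, sigO_cube h a⟩⟩

theorem sigI_cube (w : Ideal (𝓞 D.M)) : sigI σ (sigI σ (sigI σ w)) = w := by
  ext a
  rw [mem_sigI h, mem_sigI h, mem_sigI h, sigO_cube h, sigO_cube h]

theorem sigI_isPrime {w : Ideal (𝓞 D.M)} (hw : w.IsPrime) : (sigI σ w).IsPrime := by
  have e : sigI σ w = w.comap ((sigO σ).comp (sigO σ)) := by ext a; exact mem_sigI h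
  rw [e]
  exact hw.comap _

theorem under_sigI (w : Ideal (𝓞 D.M)) : D.under (sigI σ w) = D.under w := by
  ext c
  rw [Datum.under, Datum.under, Ideal.mem_comap, Ideal.mem_comap, mem_sigI h, sigO_incl h,
    sigO_incl h]

theorem exists_incl_of_fixed {a : 𝓞 D.M} (ha : sigO σ a = a) :
    ∃ c : 𝓞 D.E, RingOfIntegers.mapRingHom D.incl c = a := by
  obtain ⟨e, he⟩ := h.fixed (a : D.M) (congrArg (fun x : 𝓞 D.M => (x : D.M)) ha)
  have hint : IsIntegral ℤ e := (isIntegral_algHom_iff D.incl.toIntAlgHom D.incl.injective).mp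
    (show IsIntegral ℤ (D.incl e) from he ▸ a.2)
  exact ⟨⟨e, hint⟩, RingOfIntegers.ext he⟩

/-- Only the conjugates of `w` lie over the place under `w`. -/
theorem mem_conj_of_under_eq {w w' : Ideal (𝓞 D.M)} (hw : w.IsPrime) (hw0 : w ≠ ⊥)
    (hw' : w'.IsPrime) (hw'0 : w' ≠ ⊥) (he : D.under w' = D.under w) :
    w' = w ∨ w' = sigI σ w ∨ w' = sigI σ (sigI σ w) := by
  by_contra hne
  push Not at hne
  obtain ⟨h0, h1, h2⟩ := hne
  have hmax' := hw'.isMaximal hw'0
  have hnle : ∀ {u : Ideal (𝓞 D.M)}, u.IsPrime → u ≠ ⊥ → w' ≠ u → ¬ u ≤ w' :=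
    fun {u} hu hu0 hu' hle =>
    hu' ((hu.isMaximal hu0).eq_of_le hw'.ne_top hle).symm
  have hs0 : ∀ {u : Ideal (𝓞 D.M)}, u ≠ ⊥ → sigI σ u ≠ ⊥ := fun {u} hu hs => hu (by
    rw [← sigI_cube h u, hs]; simp [sigI, Ideal.map_bot])
  have hprod : ¬ w * sigI σ w * sigI σ (sigI σ w) ≤ w' := fun hle => by
    rcases hw'.mul_le.mp hle with hle | hle
    · rcases hw'.mul_le.mp hle with hle | hle
      · exact hnle hw hw0 h0 hle
      · exact hnle (sigI_isPrime h hw) (hs0 hw0) h1 hle
    · exact hnle (sigI_isPrime h (sigI_isPrime h hw)) (hs0 (hs0 hw0)) h2 hle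
  have htop : w' ⊔ w * sigI σ w * sigI σ (sigI σ w) = ⊤ :=
    hmax'.out.2 _ (lt_of_le_of_ne le_sup_left fun e => hprod (le_sup_right.trans_eq e.symm))
  obtain ⟨a, ha, b, hb, hab⟩ := Submodule.mem_sup.mp ((Ideal.eq_top_iff_one _).mp htop)
  have hb1 : b ∈ w * sigI σ w := Ideal.mul_le_left hb
  obtain ⟨c, hc⟩ := exists_incl_of_fixed h (a := a * sigO σ a * sigO σ (sigO σ a)) (by
    rw [map_mul, map_mul, sigO_cube h]; ring)
  have hcw : c ∈ D.under w := he ▸ (show RingOfIntegers.mapRingHom D.incl c ∈ w' from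
    hc.symm ▸ Ideal.mul_mem_right _ _ (Ideal.mul_mem_right _ _ ha))
  have hN : a * sigO σ a * sigO σ (sigO σ a) ∈ w := hc ▸ Ideal.mem_comap.mp hcw
  rcases hw.mem_or_mem hN with hN | hN
  · rcases hw.mem_or_mem hN with hN | hN
    · exact hw.ne_top ((Ideal.eq_top_iff_one _).mpr
        (hab ▸ add_mem hN (Ideal.mul_le_left hb1)))
    · refine (sigI_isPrime h (sigI_isPrime h hw)).ne_top ((Ideal.eq_top_iff_one _).mpr
        (hab ▸ add_mem ?_ (Ideal.mul_le_right hb)))
      rw [mem_sigI h, mem_sigI h, sigO_cube h]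
      exact hN
  · refine (sigI_isPrime h hw).ne_top ((Ideal.eq_top_iff_one _).mpr
      (hab ▸ add_mem ?_ (Ideal.mul_le_right hb1)))
    rw [mem_sigI h]
    exact hN

/-- A fixed prime does not have residue degree one without inertia. -/
theorem not_degreeOne_of_fixed {w : Ideal (𝓞 D.M)} (hfixw : sigI σ w = w)
    (hin : ∃ a : 𝓞 D.M, a - sigO σ a ∉ w) : ¬ D.DegreeOne w := by
  rintro ⟨hw, hw0, hN⟩
  have := hw
  have hv0 := LanglandsTunnell.Isolation.under_ne_bot D hw0
  have : Finite (𝓞 D.E ⧸ D.under w) := Ideal.finiteQuotientOfFreeOfNeBot _ hv0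
  have : Finite (𝓞 D.M ⧸ w) := Ideal.finiteQuotientOfFreeOfNeBot _ hw0
  have hinj : Function.Injective
      (Ideal.quotientMap w (RingOfIntegers.mapRingHom D.incl) (le_refl (D.under w))) :=
    Ideal.quotientMap_injective
  have hsurj := (hinj.bijective_of_nat_card_le (by
    simpa [Ideal.absNorm_apply, Submodule.cardQuot_apply] using hN.le)).2
  obtain ⟨a, ha⟩ := hin
  obtain ⟨c, hc⟩ := hsurj (Ideal.Quotient.mk w a)
  obtain ⟨c, rfl⟩ := Ideal.Quotient.mk_surjective c
  rw [Ideal.quotientMap_mk, Ideal.Quotient.eq] at hc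
  refine ha ?_
  have h2 : sigO σ (RingOfIntegers.mapRingHom D.incl c - a) ∈ w := by
    rw [← hfixw]
    exact Ideal.mem_map_of_mem _ hc
  rw [map_sub, sigO_incl h] at h2
  rw [show a - sigO σ a = (RingOfIntegers.mapRingHom D.incl c - sigO σ a)
    - (RingOfIntegers.mapRingHom D.incl c - a) by ring]
  exact sub_mem h2 hc

theorem IsPlaceCnr.sigI {p : Nat.Primes} {w : Ideal (𝓞 D.M)} {e : Op D.M p}
    (he : IsPlaceCnr p w e) :
    IsPlaceCnr p (sigI σ w) ((h.localCubic (p : ℕ)).σO e) := by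
  have key : ∀ {u : Ideal (𝓞 D.M)} {x : Op D.M p}, x ∈ u.map (incOp (p : ℕ)) →
      (h.localCubic (p : ℕ)).σO x ∈
        (FLTAgent.LanglandsTunnell.Local.sigI σ u).map (incOp (p : ℕ)) := fun {u x} hx => by
    rw [map_incOp_map σ.toRingEquiv.toRingHom u]
    exact Ideal.mem_map_of_mem _ hx
  refine ⟨he.idem.map _, sigI_isPrime h he.prime, ?_, ?_, fun w' hw' hp' hne => ?_⟩
  · simpa using Ideal.mem_map_of_mem (sigO σ) he.mem
  · have := key he.one_sub
    rwa [map_sub, map_one] at this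
  · have hne' : FLTAgent.LanglandsTunnell.Local.sigI σ
        (FLTAgent.LanglandsTunnell.Local.sigI σ w') ≠ w := fun e => hne (by
      rw [← e, sigI_cube h])
    have hp'' : ((p : ℕ) : 𝓞 D.M) ∈ FLTAgent.LanglandsTunnell.Local.sigI σ
        (FLTAgent.LanglandsTunnell.Local.sigI σ w') := by
      simpa using Ideal.mem_map_of_mem (sigO σ) (Ideal.mem_map_of_mem (sigO σ) hp')
    have := key (he.other _ (sigI_isPrime h (sigI_isPrime h hw')) hp'' hne')
    rwa [sigI_cube h] at this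

end Cubic

section Dichotomy

variable {D : Datum} {σ : D.M ≃ₐ[ℚ] D.M} {p : Nat.Primes}

/-- The idempotent of a place of `E`, on `M`. -/
abbrev liftIdem (v : PlacesAt D.E p) : Op D.M p := mapOp D.incl (placeIdem v)

theorem map_under_le (w : Ideal (𝓞 D.M)) (J : Ideal (𝓞 D.E)) (h : J ≤ D.under w) :
    (J.map (incOp (p : ℕ))).map (mapOp D.incl) ≤ w.map (incOp (p : ℕ)) := by
  rw [← map_incOp_map D.incl J]
  exact Ideal.map_mono (Ideal.map_le_iff_le_comap.mpr h)

theorem one_sub_liftIdem_mem {w : Ideal (𝓞 D.M)} {v : PlacesAt D.E p} (h : D.under w = v.1) :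
    1 - liftIdem v ∈ w.map (incOp (p : ℕ)) := by
  refine map_under_le w _ (le_of_eq h.symm) ?_
  have := Ideal.mem_map_of_mem (mapOp D.incl) (isPlaceCnr_placeIdem v).one_sub
  rwa [map_sub, map_one] at this

theorem liftIdem_mem {w : Ideal (𝓞 D.M)} (hw : w.IsPrime) (hp : ((p : ℕ) : 𝓞 D.M) ∈ w)
    {v : PlacesAt D.E p} (h : D.under w ≠ v.1) : liftIdem v ∈ w.map (incOp (p : ℕ)) :=
  map_under_le w _ le_rfl (Ideal.mem_map_of_mem _
    ((isPlaceCnr_placeIdem v).other _ (hw.comap _) ((natCast_mem_under D).mpr hp) h))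

/-- The inert case. -/
structure IsInertAt (h : CubicData D.incl σ.toRingEquiv) (v : PlacesAt D.E p)
    (w : Ideal (𝓞 D.M)) : Prop where
  cnr : IsPlaceCnr p w (liftIdem v)
  under : D.under w = v.1
  fixed : sigI σ w = w
  degree : D.DegreeThree w
  norm : Ideal.absNorm w = Ideal.absNorm v.1 ^ 3
  only : ∀ w' : Ideal (𝓞 D.M), w'.IsPrime → w' ≠ ⊥ → D.under w' = v.1 → w' = w
  gen : (w.map (incOp (p : ℕ))).map (cmk (liftIdem v)) =
    ((v.1.map (incOp (p : ℕ))).map (cmk (placeIdem v))).map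
      ((h.localCubic (p : ℕ)).corner (isPlaceCnr_placeIdem v).idem).jO

/-- The split case: `η` and the three primes. -/
structure IsSplitAt (h : CubicData D.incl σ.toRingEquiv) (v : PlacesAt D.E p) (η : Op D.M p)
    (ws : Fin 3 → Ideal (𝓞 D.M)) : Prop where
  idem : ((h.localCubic (p : ℕ)).corner (isPlaceCnr_placeIdem v).idem).IsSplitIdem
    (cmk (liftIdem v) η)
  cnr : ∀ i, IsPlaceCnr p (ws i) ((h.localCubic (p : ℕ)).eta η i)
  under : ∀ i, D.under (ws i) = v.1
  inj : Function.Injective ws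
  all : ∀ w' : Ideal (𝓞 D.M), w'.IsPrime → w' ≠ ⊥ → D.under w' = v.1 → ∃ i, ws i = w'
  degree : ∀ i, D.DegreeOne (ws i)
  norm : ∀ i, Ideal.absNorm (ws i) = Ideal.absNorm v.1
  shift : ∀ i, sigI σ (ws (i + 1)) = ws i
  gen : ∀ i, ((ws i).map (incOp (p : ℕ))).map (cmk (liftIdem v)) =
    idem.coordIdeal ((v.1.map (incOp (p : ℕ))).map (cmk (placeIdem v))) i

variable (hne : σ ≠ AlgEquiv.refl) (hfix : ∀ x, σ (D.incl x) = D.incl x)
  (h : CubicData D.incl σ.toRingEquiv)
  (hin : ∀ w : Ideal (𝓞 D.M), w.IsPrime → ((p : ℕ) : 𝓞 D.M) ∈ w →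
    (∃ a : 𝓞 D.M, a - sigO σ a ∉ w) ∧ ∃ a : 𝓞 D.M, a - sigO σ (sigO σ a) ∉ w)

include hne hfix hin

theorem not_isRamPrime_of_inertia {w : Ideal (𝓞 D.M)} (hw : w.IsPrime)
    (hp : ((p : ℕ) : 𝓞 D.M) ∈ w) : ¬ IsRamPrime D w := by
  have := hw
  have : FiniteDimensional D.E D.M := Module.Finite.of_restrictScalars_finite ℚ D.E D.M
  have := isGalois_EM hne hfix
  rw [← inertia_eq_bot_iff hne hfix (ne_bot_of_prime_natCast_mem hp), eq_bot_iff]
  intro g hg
  have htop : g ∈ Subgroup.zpowers (overE hfix) := by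
    rw [Subgroup.eq_top_of_card_eq (Subgroup.zpowers (overE hfix))
      ((zpowers_overE hne hfix).1.trans
        (((IsGalois.card_aut_eq_finrank D.E D.M).trans (finrank_EM D)).symm))]
    trivial
  have hg' : ∀ a : 𝓞 D.M, a - g • a ∈ w := fun a => by
    simpa using neg_mem (hg a)
  obtain ⟨k, hk, rfl⟩ : ∃ k < orderOf (overE hfix), overE hfix ^ k = g := by
    classical
    rw [← mem_powers_iff_mem_zpowers, mem_powers_iff_mem_range_orderOf] at htop
    simpa using htop
  have ho : orderOf (overE hfix) = 3 :=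
    Nat.card_zpowers (overE hfix) ▸ (zpowers_overE hne hfix).1
  rw [ho] at hk
  interval_cases k
  · exact Subgroup.mem_bot.mpr (pow_zero _)
  · obtain ⟨a, ha⟩ := (hin w hw hp).1
    refine absurd (hg' a) ?_
    rw [pow_one]
    exact ha
  · obtain ⟨a, ha⟩ := (hin w hw hp).2
    exact absurd (hg' a) ha

include h

omit h in
theorem map_cmk_place_eq {w : Ideal (𝓞 D.M)} {e : Op D.M p} (he : IsPlaceCnr p w e) :
    (w.map (incOp (p : ℕ))).map (cmk e) =
      (((D.under w).map (incOp (p : ℕ))).map (mapOp D.incl)).map (cmk e) := by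
  obtain ⟨K, hK⟩ : ∃ K, (D.under w).map (RingOfIntegers.mapRingHom D.incl) = w * K :=
    Ideal.dvd_iff_le.mpr Ideal.map_comap_le
  have hKw : ¬ K ≤ w := fun hle => not_isRamPrime_of_inertia hne hfix hin he.prime he.mem (by
    rw [IsRamPrime, hK, pow_two]
    exact Ideal.mul_mono le_rfl hle)
  rw [← map_incOp_map D.incl (D.under w), hK, Ideal.map_mul, Ideal.map_mul,
    he.map_cmk_eq_top hKw, Ideal.mul_top]

/-- A fixed prime is inert. -/
theorem isInertAt_of_fixed {w : Ideal (𝓞 D.M)} (hw : w.IsPrime) (hp : ((p : ℕ) : 𝓞 D.M) ∈ w)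
    {v : PlacesAt D.E p} (hu : D.under w = v.1) (hfixw : sigI σ w = w) : IsInertAt h v w := by
  have := hw
  have hw0 := ne_bot_of_prime_natCast_mem hp
  have honly : ∀ w' : Ideal (𝓞 D.M), w'.IsPrime → w' ≠ ⊥ → D.under w' = v.1 → w' = w :=
    fun w' hw' hw'0 he => by
      rcases mem_conj_of_under_eq h hw hw0 hw' hw'0 (he.trans hu.symm) with e | e | e
      · exact e
      · exact e.trans hfixw
      · exact e.trans (by rw [hfixw, hfixw])
  have h3 : D.DegreeThree w :=
    (degreeOne_or_three hw0 (not_isRamPrime_of_inertia hne hfix hin hw hp)).resolve_left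
      (not_degreeOne_of_fixed h hfixw (hin w hw hp).1)
  have hc : IsPlaceCnr p w (liftIdem v) :=
    ⟨(isPlaceCnr_placeIdem v).idem.map _, hw, hp, one_sub_liftIdem_mem hu,
      fun w' hw' hp' hne' => liftIdem_mem hw' hp' fun e =>
        hne' (honly w' hw' (ne_bot_of_prime_natCast_mem hp') e)⟩
  refine ⟨hc, hu, hfixw, h3, by rw [h3.2.2, hu], honly, ?_⟩
  rw [map_cmk_place_eq hne hfix hin hc, hu, Ideal.map_map, Ideal.map_map, Ideal.map_map,
    Ideal.map_map]
  exact congrArg (fun f => Ideal.map f v.1) (RingHom.ext fun _ => rfl)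

/-- A prime which moves splits. -/
theorem isSplitAt_of_moved {w : Ideal (𝓞 D.M)} (hw : w.IsPrime) (hp : ((p : ℕ) : 𝓞 D.M) ∈ w)
    {v : PlacesAt D.E p} (hu : D.under w = v.1) (hmov : sigI σ w ≠ w) :
    ∃ η, IsSplitAt h v η ![w, sigI σ (sigI σ w), sigI σ w] := by
  classical
  have hw0 := ne_bot_of_prime_natCast_mem hp
  set ws : Fin 3 → Ideal (𝓞 D.M) := ![w, sigI σ (sigI σ w), sigI σ w] with hws
  obtain ⟨η, hη⟩ := exists_isPlaceCnr hw (ne_bot_of_prime_natCast_mem hp) hp
  have hcnr : ∀ i, IsPlaceCnr p (ws i) ((h.localCubic (p : ℕ)).eta η i) := fun i => by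
    fin_cases i
    · exact hη
    · exact IsPlaceCnr.sigI h (IsPlaceCnr.sigI h hη)
    · exact IsPlaceCnr.sigI h hη
  have hunder : ∀ i, D.under (ws i) = v.1 := fun i => by
    fin_cases i
    · exact hu
    · exact (under_sigI h _).trans ((under_sigI h _).trans hu)
    · exact (under_sigI h _).trans hu
  have hinj : Function.Injective ws := by
    have h20 : sigI σ (sigI σ w) ≠ w := fun e => hmov (by
      have := congrArg (sigI σ) e
      rw [sigI_cube h] at this
      exact this.symm)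
    have h12 : sigI σ (sigI σ w) ≠ sigI σ w := fun e => h20 (by
      have := congrArg (fun u => sigI σ (sigI σ u)) e
      simp only [sigI_cube h] at this
      exact absurd this hmov)
    intro i j hij
    fin_cases i <;> fin_cases j <;> simp [hws] at hij ⊢
    exacts [h20 hij.symm, hmov hij.symm, h20 hij, h12 hij, hmov hij, h12 hij.symm]
  have hall : ∀ w' : Ideal (𝓞 D.M), w'.IsPrime → w' ≠ ⊥ → D.under w' = v.1 → ∃ i, ws i = w' :=
    fun w' hw' hw'0 he => by
      rcases mem_conj_of_under_eq h hw hw0 hw' hw'0 (he.trans hu.symm) with e | e | e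
      · exact ⟨0, e.symm⟩
      · exact ⟨2, e.symm⟩
      · exact ⟨1, e.symm⟩
  have hdeg : ∀ i, D.DegreeOne (ws i) := fun i => by
    have := (hcnr i).prime
    have hwi0 := ne_bot_of_prime_natCast_mem (hcnr i).mem
    have hunr := not_isRamPrime_of_inertia hne hfix hin (hcnr i).prime (hcnr i).mem
    obtain ⟨-, A, -, -, -, hA⟩ := LanglandsTunnell.CFT.exists_placeOver (ws i) hwi0
    have := under_isPrime D (ws i)
    obtain ⟨g, hg, hAg⟩ := LanglandsTunnell.CFT.exists_frobenius_over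
      (LanglandsTunnell.Isolation.under_ne_bot D hwi0) (A := A) (hA.under (val_incl D))
    obtain ⟨h1, h3⟩ := degree_of_frob hwi0 hunr hA ((fixingSubgroup_E D) ▸ hg) hAg
    by_cases hgM : g ∈ D.galM
    · exact (h1 hgM).1
    · refine absurd ((h3 hgM).2.2 (ws (i + 1)) (hcnr _).prime
        (ne_bot_of_prime_natCast_mem (hcnr _).mem) ((hunder _).trans (hunder i).symm)) ?_
      exact fun e => by simpa using hinj e
  have hsum : ∑ i, (h.localCubic (p : ℕ)).eta η i = liftIdem v := by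
    have ho : OrthogonalIdempotents ((h.localCubic (p : ℕ)).eta η) :=
      ⟨fun i => (hcnr i).idem, fun i j hij => (hcnr i).mul_eq_zero (hcnr j) (hinj.ne hij)⟩
    refine eq_of_idem_congr ho.isIdempotentElem_sum ((isPlaceCnr_placeIdem v).idem.map _)
      fun w' hw' hp' => ?_
    by_cases he : D.under w' = v.1
    · obtain ⟨i, rfl⟩ := hall w' hw' (ne_bot_of_prime_natCast_mem hp') he
      rw [← Finset.add_sum_erase _ _ (Finset.mem_univ i),
        show (h.localCubic (p : ℕ)).eta η i +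
            ∑ j ∈ Finset.univ.erase i, (h.localCubic (p : ℕ)).eta η j - liftIdem v =
          ∑ j ∈ Finset.univ.erase i, (h.localCubic (p : ℕ)).eta η j + ((1 - liftIdem v) -
            (1 - (h.localCubic (p : ℕ)).eta η i)) by ring]
      exact add_mem (sum_mem fun j hj => (hcnr j).other _ (hcnr i).prime (hcnr i).mem
        (hinj.ne (Finset.ne_of_mem_erase hj).symm))
        (sub_mem (one_sub_liftIdem_mem (hunder i)) (hcnr i).one_sub)
    · exact sub_mem (sum_mem fun j _ => (hcnr j).other w' hw' hp' fun e => he (e ▸ hunder j))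
        (liftIdem_mem hw' hp' he)
  have hid : ((h.localCubic (p : ℕ)).corner (isPlaceCnr_placeIdem v).idem).IsSplitIdem
      (cmk (liftIdem v) η) := by
    have hperm := (CompleteOrthogonalIdempotents.equiv (Equiv.swap (1 : Fin 3) 2) (R := _)
      (e := fun i => cmk (liftIdem v) ((h.localCubic (p : ℕ)).eta η i))).mpr
      ⟨⟨fun i => (hcnr i).idem.map _, fun i j hij => by
        show cmk (liftIdem v) _ * cmk (liftIdem v) _ = 0
        rw [← map_mul, (hcnr i).mul_eq_zero (hcnr j) (hinj.ne hij), map_zero]⟩, by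
        rw [← map_sum, hsum, cmk_self]⟩
    constructor
    refine cast (congrArg CompleteOrthogonalIdempotents (funext fun i => ?_)) hperm
    fin_cases i <;> rfl
  have heta : ∀ i, ((h.localCubic (p : ℕ)).corner (isPlaceCnr_placeIdem v).idem).eta
      (cmk (liftIdem v) η) i = cmk (liftIdem v) ((h.localCubic (p : ℕ)).eta η i) := fun i => by
    fin_cases i <;> rfl
  refine ⟨η, hid, hcnr, hunder, hinj, hall, hdeg, fun i => by rw [(hdeg i).2.2, hunder i],
    fun i => ?_, fun i => ?_⟩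
  · fin_cases i
    · exact sigI_cube h w
    · rfl
    · rfl
  · obtain ⟨o, ho⟩ := exists_span_incOp v.2.1 v.2.2
    have hvI : (v.1.map (incOp (p : ℕ))).map (cmk (placeIdem v)) =
        Ideal.span {cmk (placeIdem v) o} := by rw [← ho, Ideal.map_span, Set.image_singleton]
    have hg : mapOp D.incl o ∈ (ws i).map (incOp (p : ℕ)) :=
      map_under_le _ _ (hunder i).symm.le
        (Ideal.mem_map_of_mem _ (ho ▸ Ideal.mem_span_singleton_self o))
    have h2 : ((ws i).map (incOp (p : ℕ))).map (cmk ((h.localCubic (p : ℕ)).eta η i)) ≤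
        Ideal.span {cmk ((h.localCubic (p : ℕ)).eta η i) (mapOp D.incl o)} := by
      rw [map_cmk_place_eq hne hfix hin (hcnr i), hunder i, ← ho, Ideal.map_span,
        Set.image_singleton, Ideal.map_span, Set.image_singleton]
    rw [(hcnr i).map_eq_span hg h2, hid.span_coordIdeal hvI.symm i, Ideal.map_span,
      Set.image_singleton, heta]
    exact congrArg (fun x => Ideal.span {x}) (by
      rw [map_add, map_mul, map_sub, map_one]; rfl)

/-- **Every place of `E` over `p` is inert or split.** -/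
theorem inert_or_split (v : PlacesAt D.E p) :
    (∃ w, IsInertAt h v w) ∨ ∃ η ws, IsSplitAt h v η ws := by
  have hv0 := ne_bot_of_prime_natCast_mem v.2.2
  have hJ : v.1.map (RingOfIntegers.mapRingHom D.incl) ≠ ⊤ := fun e => v.2.1.ne_top
    (Ideal.absNorm_eq_one_iff.mp ((Nat.pow_eq_one.mp (by
      rw [← absNorm_map D v.1, e, Ideal.absNorm_top])).resolve_right (by norm_num)))
  obtain ⟨w, hw, hle⟩ := Ideal.exists_le_maximal _ hJ
  have := hw.isPrime
  have := v.2.1
  have hu : D.under w = v.1 :=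
    ((v.2.1.isMaximal hv0).eq_of_le (hw.isPrime.comap _).ne_top
      (Ideal.map_le_iff_le_comap.mp hle)).symm
  have hp : ((p : ℕ) : 𝓞 D.M) ∈ w := (natCast_mem_under D).mp (hu ▸ v.2.2)
  by_cases hm : sigI σ w = w
  · exact Or.inl ⟨w, isInertAt_of_fixed hne hfix h hin hw.isPrime hp hu hm⟩
  · obtain ⟨η, hη⟩ := isSplitAt_of_moved hne hfix h hin hw.isPrime hp hu hm
    exact Or.inr ⟨η, _, hη⟩

/-- **The places over a prime with trivial inertia.** -/
theorem exists_placeSystem : Nonempty (PlaceSystem D h p) := by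
  refine ⟨⟨PlacesAt D.E p, inferInstance, Subtype.val, placeIdem, isPlaceCnr_placeIdem,
    Subtype.val_injective, fun u hu hp => ⟨⟨u, hu, hp⟩, rfl⟩, fun v => ?_⟩⟩
  have hne0 : ∀ w' : Ideal (𝓞 D.M), D.under w' = v.1 → w' ≠ ⊥ := by
    rintro w' he rfl
    refine ne_bot_of_prime_natCast_mem v.2.2 (he.symm.trans ?_)
    exact Ideal.comap_bot_of_injective _ (FaithfulSMul.algebraMap_injective (𝓞 D.E) (𝓞 D.M))
  rcases inert_or_split hne hfix h hin v with ⟨w, hw⟩ | ⟨η, ws, hw⟩
  · exact Or.inl ⟨w, hw.cnr, hw.under, hw.degree,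
      fun w' hw' he => hw.only w' hw' (hne0 w' he) he, fun _ => hw.gen⟩
  · exact Or.inr ⟨η, ws, fun w' hw' he => hw.all w' hw' (hne0 w' he) he,
      fun l => ⟨hw.degree l, hw.under l⟩, hw.inj, fun _ => ⟨hw.idem, hw.gen⟩⟩

end Dichotomy

/-! ### Classes at `p` -/

section Classes

variable {D : Datum} {σ : D.M ≃ₐ[ℚ] D.M} (h : CubicData D.incl σ.toRingEquiv) (p : Nat.Primes)

/-- The discriminant of a regular class is invertible at `p`. -/
theorem isUnit_disc_gammaAt {γ : GL (Fin 2) D.E} (hreg : IsRegularMat D γ) :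
    IsUnit ((gammaAt D p γ).1.trace ^ 2 - 4 * (gammaAt D p γ).1.det) := by
  have hu : IsUnit (((compAF p).toRingHom.comp (toAF D.E)) (γ.1.trace ^ 2 - 4 * γ.1.det)) :=
    (isUnit_iff_ne_zero.mpr (sub_ne_zero.mpr hreg)).map _
  have h1 : (gammaAt D p γ).1 = γ.1.map ((compAF p).toRingHom.comp (toAF D.E)) := rfl
  rw [h1]
  simpa [Matrix.trace_fin_two, Matrix.det_fin_two, map_ofNat] using hu

end Classes

end FLTAgent.LanglandsTunnell.Local
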