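import Fermat.Agent.LanglandsTunnell.Local.PlaceData
import Fermat.Agent.LanglandsTunnell.Local.PlaceDecomp
import Fermat.Agent.LanglandsTunnell.Local.PlaceSplit
import Fermat.Agent.LanglandsTunnell.Local.ListKernels

/-!
# The kernels at a rational prime in the coordinates of its places

For a place system the coordinates `coE`, `coM` turn the local operators and words at the prime
into products over the places (`stepKer_eq_prodE`, `stepKer_eq_prodM`, `descStepKer_eq_prod`).
-/

set_option autoImplicit false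

noncomputable section

namespace FLTAgent.LanglandsTunnell.Local

open scoped TensorProduct
open FLTAgent.LanglandsTunnell NumberField Matrix

/-! ### Generalities -/

section General

/-- Levels with the same congruence subgroup. -/
theorem levelK_eq_of_congr {O L : Type} [CommRing O] [CommRing L] {φ : O →+* L} {N m : O}
    (hc : congrGroup φ N = congrGroup φ m) : levelK φ N = levelK φ m := by
  rw [levelK, levelK, hc]

/-- Neighbours at levels with the same congruence subgroup. -/
theorem nbrKer_congr_level {O L : Type} [CommRing O] [CommRing L] {φ : O →+* L} {N m : O}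
    (hc : congrGroup φ N = congrGroup φ m) (hl : levelK φ N = levelK φ m) (I : Ideal O)
    (x x' : QPt φ N) :
    nbrKer φ N I x x' = nbrKer φ m I (Subgroup.quotientEquivOfEq hl x)
      (Subgroup.quotientEquivOfEq hl x') := by
  set E := Subgroup.quotientEquivOfEq hl
  have hE : ∀ g : GL (Fin 2) L, E (g : QPt φ N) = (g : QPt φ m) := fun g => rfl
  have h : x' ∈ nbrSet φ N I x ↔ E x' ∈ nbrSet φ m I (E x) := by
    constructor
    · rintro ⟨g, k, π, o, rfl, hk, h3, h4, rfl⟩
      exact ⟨g, k, π, o, (hE g).symm, hc ▸ hk, h3, h4, (hE _).symm⟩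
    · rintro ⟨g, k, π, o, h1, hk, h3, h4, h5⟩
      exact ⟨g, k, π, o, E.injective ((hE g).trans h1), hc.symm ▸ hk, h3, h4,
        E.injective ((hE _).trans h5)⟩
  by_cases hx : x' ∈ nbrSet φ N I x
  · rw [nbrKer, nbrKer, Set.indicator_of_mem hx, Set.indicator_of_mem (h.mp hx)]
    rfl
  · rw [nbrKer, nbrKer, Set.indicator_of_notMem hx, Set.indicator_of_notMem (mt h.mpr hx)]

variable {L X : Type*}

theorem idKer_smul {G : Type*} [Group G] [MulAction G X] (g : G) (x y : X) :
    idKer (g • x) (g • y) = idKer x y :=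
  iterKer_smul (k := (idKer : X → X → ℂ)) (G := G) (fun g x y => by
    by_cases h : x = y
    · rw [h, idKer_self, idKer_self]
    · rw [idKer_ne h, idKer_ne fun e => h (smul_left_cancel g e)]) 0 g x y

theorem listKer_smul {G : Type*} [Group G] [MulAction G X] {step : L → X → X → ℂ} :
    ∀ {ws : List L}, (∀ w ∈ ws, ∀ (g : G) x y, step w (g • x) (g • y) = step w x y) →
      ∀ (g : G) (x y : X), listKer step ws (g • x) (g • y) = listKer step ws x y
  | [], _, g, x, y => idKer_smul g x y
  | w :: ws, h, g, x, y => by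
    show ∑ᶠ z, step w (g • x) z * listKer step ws z (g • y) = ∑ᶠ z, step w x z * listKer step ws z y
    rw [← finsum_comp_equiv (MulAction.toPerm g)]
    exact finsum_congr fun z => by
      rw [MulAction.toPerm_apply, h w List.mem_cons_self,
        listKer_smul fun v hv => h v (List.mem_cons_of_mem _ hv)]

theorem listKer_coordKer {X' : Type*} (ψ : X' ≃ (Fin 3 → X)) {f : L → Fin 3 → X → X → ℂ} :
    ∀ {ws : List L}, (∀ w ∈ ws, ∀ l, SplitPlace.FinRows (f w l)) →
      listKer (fun w => coordKer ψ (f w)) ws = coordKer ψ fun l => listKer (fun w => f w l) ws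
  | [], _ => idKer_eq_coordKer ψ
  | w :: ws, h => by
    rw [listKer, listKer_coordKer ψ fun v hv => h v (List.mem_cons_of_mem _ hv),
      comp_coordKer ψ (h w List.mem_cons_self)]
    rfl

theorem listKer_congr {step step' : L → X → X → ℂ} :
    ∀ {ws : List L}, (∀ w ∈ ws, step w = step' w) → listKer step ws = listKer step' ws
  | [], _ => rfl
  | w :: ws, h => by
    rw [listKer, listKer, h w List.mem_cons_self,
      listKer_congr fun v hv => h v (List.mem_cons_of_mem _ hv)]

/-- One slot of a finite product of kernels. -/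
theorem prodKer_slot {ι V : Type*} [Fintype ι] [DecidableEq ι] {Y : ι → Type*}
    (f : ∀ i, Y i → Y i → ℂ) (co : ∀ i, V → Y i) (q : ι) (v v' : V) :
    prodKer f co v v' =
      f q (co q v) (co q v') * ∏ i ∈ Finset.univ.erase q, f i (co i v) (co i v') := by
  rw [prodKer, finprod_eq_prod_of_fintype]
  exact (Finset.mul_prod_erase Finset.univ _ (Finset.mem_univ q)).symm

theorem length_eq_count {α : Type*} [DecidableEq α] {w : Fin 3 → α} (hw : Function.Injective w) :
    ∀ {L : List α}, (∀ x ∈ L, ∃ l, w l = x) →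
      L.length = L.count (w 0) + L.count (w 1) + L.count (w 2)
  | [], _ => rfl
  | a :: L, h => by
    obtain ⟨l, rfl⟩ := h a List.mem_cons_self
    have ih := length_eq_count hw fun x hx => h x (List.mem_cons_of_mem _ hx)
    simp only [List.length_cons, List.count_cons, beq_iff_eq, hw.eq_iff]
    fin_cases l <;> simp <;> omega

theorem generalLinearGroup_map_mem_adjoin {R R' : Type} [CommRing R] [CommRing R'] (f : R →+* R')
    {γ δ : GL (Fin 2) R} (h : δ.1 ∈ Algebra.adjoin R {γ.1}) :
    (GeneralLinearGroup.map f δ).1 ∈ Algebra.adjoin R' {(GeneralLinearGroup.map f γ).1} :=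
  map_mem_adjoin f (fun r => ⟨f r, rfl⟩) rfl h

end General

/-! ### The coordinates -/

variable {D : Datum} {σ : D.M ≃ₐ[ℚ] D.M} {h : CubicData D.incl σ.toRingEquiv} {p : Nat.Primes}

instance (PS : PlaceSystem D h p) : Fintype PS.ι := PS.fintype

/-- The levels of `N` and `N'` are those of `n`. -/
structure LevelAt (h : CubicData D.incl σ.toRingEquiv) (p : Nat.Primes) (N N' : ℕ)
    (n : Op D.E p) : Prop where
  congrE : congrGroup (h.localCubic (p : ℕ)).φE (N : Op D.E p) =
    congrGroup (h.localCubic (p : ℕ)).φE n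
  congrM : congrGroup (h.localCubic (p : ℕ)).φM (N' : Op D.M p) =
    congrGroup (h.localCubic (p : ℕ)).φM ((h.localCubic (p : ℕ)).jO n)

variable (PS : PlaceSystem D h p) (n : Op D.E p)

namespace PlaceSystem

/-- The setting at one place. -/
abbrev setting (i : PS.ι) := placeCubic h p (PS.cnr i).idem

/-- The group of one place over `E`. -/
abbrev GrpE (i : PS.ι) : Type := GL (Fin 2) (Cnr ((h.localCubic (p : ℕ)).φE (PS.e i)))

/-- The points of one place over `E`. -/
abbrev PtE (i : PS.ι) : Type := QPt (PS.setting i).φE (cmk (PS.e i) n)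

/-- The points of one place over `M`. -/
abbrev PtM (i : PS.ι) : Type :=
  QPt (PS.setting i).φM ((PS.setting i).jO (cmk (PS.e i) n))

variable {n} {N N' : ℕ} (hl : LevelAt h p N N' n)

/-- The coordinates over `E`. -/
def coE (i : PS.ι) (x : LocPt D.E N p) : PS.PtE n i :=
  cnrCoord (h.localCubic (p : ℕ)).φE_inj PS.complete (levelK_eq_of_congr hl.congrE) x i

/-- The coordinates over `M`. -/
def coM (i : PS.ι) (x : LocPt D.M N' p) : PS.PtM n i :=
  cnrCoord (h.localCubic (p : ℕ)).φM_inj ((h.localCubic (p : ℕ)).complete_jO PS.complete)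
    (levelK_eq_of_congr hl.congrM) x i

theorem isRestricted_coE :
    IsRestricted (fun i => ((1 : PS.GrpE i) : PS.PtE n i)) (PS.coE hl) :=
  isRestricted_cnrCoord (h.localCubic (p : ℕ)).φE_inj PS.complete (levelK_eq_of_congr hl.congrE)

theorem isRestricted_coM :
    IsRestricted (fun i =>
      ((1 : GL (Fin 2) (Cnr ((h.localCubic (p : ℕ)).φM ((h.localCubic (p : ℕ)).jO (PS.e i))))) :
        PS.PtM n i)) (PS.coM hl) :=
  isRestricted_cnrCoord (h.localCubic (p : ℕ)).φM_inj
    ((h.localCubic (p : ℕ)).complete_jO PS.complete) (levelK_eq_of_congr hl.congrM)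

/-! ### The letters in the coordinates -/

variable (n)

/-- The operator of the place. -/
def kE (i : PS.ι) : PS.PtE n i → PS.PtE n i → ℂ :=
  nbrKer (PS.setting i).φE (cmk (PS.e i) n) (cnrIdeal (PS.e i) (PS.v i))

open scoped Classical in
/-- A letter of `E` at one place. -/
def stepE (v : Ideal (𝓞 D.E)) (i : PS.ι) : PS.PtE n i → PS.PtE n i → ℂ :=
  if v = PS.v i then PS.kE n i else idKer

open scoped Classical in
/-- A letter of `M` at one place. -/
def stepM (w : Ideal (𝓞 D.M)) (i : PS.ι) : PS.PtM n i → PS.PtM n i → ℂ :=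
  if D.under w = PS.v i then nbrKer (PS.setting i).φM ((PS.setting i).jO (cmk (PS.e i) n))
    (cnrIdeal ((h.localCubic (p : ℕ)).jO (PS.e i)) w) else idKer

open scoped Classical in
/-- The image of a letter at one place. -/
def stepD (w : Ideal (𝓞 D.M)) (i : PS.ι) : PS.PtE n i → PS.PtE n i → ℂ :=
  if D.under w = PS.v i then
    fun x y => ((D.descPrime w).map fun a => a.1 * iterKer (PS.kE n i) a.2.length x y).sum
  else idKer

open scoped Classical in
/-- The correction at one place. -/
def k2At (W : List (Ideal (𝓞 D.M))) (i : PS.ι) (x y : PS.PtE n i) : ℂ :=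
  ∑ w ∈ W.toFinset.filter (fun w => D.DegreeThree w ∧ D.under w = PS.v i),
    (kappa w : ℂ) * iterKer (PS.kE n i) 1 x y

theorem mem_v (i : PS.ι) : ((p : ℕ) : 𝓞 D.E) ∈ PS.v i := (PS.cnr i).mem

theorem mem_of_under {w : Ideal (𝓞 D.M)} {i : PS.ι} (hw : D.under w = PS.v i) :
    ((p : ℕ) : 𝓞 D.M) ∈ w := (natCast_mem_under D).mp (hw ▸ PS.mem_v i)

theorem exists_index {w : Ideal (𝓞 D.M)} (hw : w.IsPrime) (hp : ((p : ℕ) : 𝓞 D.M) ∈ w) :
    ∃ q, D.under w = PS.v q := by
  obtain ⟨q, hq⟩ := PS.exhaust (D.under w) (hw.comap _) ((natCast_mem_under D).mpr hp)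
  exact ⟨q, hq.symm⟩

theorem kE_smul (i : PS.ι) (g : PS.GrpE i) (x y : PS.PtE n i) :
    PS.kE n i (g • x) (g • y) = PS.kE n i x y := nbrKer_smul _ _ _ g x y

theorem stepE_smul (v : Ideal (𝓞 D.E)) (i : PS.ι) (g : PS.GrpE i) (x y : PS.PtE n i) :
    PS.stepE n v i (g • x) (g • y) = PS.stepE n v i x y := by
  by_cases hv : v = PS.v i
  · rw [stepE, if_pos hv]; exact PS.kE_smul n i g x y
  · rw [stepE, if_neg hv]; exact idKer_smul g x y

theorem finRows_kE (hn : n = 1) (i : PS.ι) : SplitPlace.FinRows (PS.kE n i) := by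
  subst hn
  obtain ⟨o, π, -, -, ho, U, -⟩ := exists_place_unif (PS.cnr i)
  show SplitPlace.FinRows (nbrKer (PS.setting i).φE 1 (cnrIdeal (PS.e i) (PS.v i)))
  rw [cnrIdeal_eq_span ho]
  exact (IsUnifRing.nbrKer_eq (φ := (PS.setting i).φE) U).symm ▸ (U.tree).finRows_adjKer

theorem finRows_stepE {v : Ideal (𝓞 D.E)} (hv : ((p : ℕ) : 𝓞 D.E) ∈ v → n = 1) (i : PS.ι) :
    SplitPlace.FinRows (PS.stepE n v i) := by
  by_cases hvi : v = PS.v i
  · rw [stepE, if_pos hvi]; exact PS.finRows_kE n (hv (hvi ▸ PS.mem_v i)) i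
  · rw [stepE, if_neg hvi]; exact finRows_idKer

variable {n}

/-- A letter of `E` in the coordinates. -/
theorem stepKer_eq_prodE {v : Ideal (𝓞 D.E)} (hv : v.IsPrime)
    (hn : ((p : ℕ) : 𝓞 D.E) ∈ v → n = 1) (x x' : LocPt D.E N p) :
    stepKer N p v x x' = prodKer (PS.stepE n v) (PS.coE hl) x x' := by
  classical
  by_cases hp : ((p : ℕ) : 𝓞 D.E) ∈ v
  · have hu : IsUnit n := hn hp ▸ isUnit_one
    obtain ⟨q, rfl⟩ := PS.exhaust v hv hp
    have htop : ∀ j, j ≠ q → ((PS.v q).map (incOp (p : ℕ))).map (cmk (PS.e j)) = ⊤ := fun j hj => by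
      refine (Ideal.eq_top_iff_one _).mpr ?_
      rw [← cmk_self (e := PS.e j)]
      exact Ideal.mem_map_of_mem _ ((PS.cnr j).other _ hv hp (PS.injective.ne (Ne.symm hj)))
    rw [stepKer, if_pos hp, prodKer, finprod_eq_prod_of_fintype]
    refine (nbrKer_congr_level (φ := (h.localCubic (p : ℕ)).φE) hl.congrE
      (levelK_eq_of_congr hl.congrE) _ x x').trans ?_
    refine (nbrKer_cnr_map (h.localCubic (p : ℕ)).φE_inj PS.complete hu
      (exists_span_incOp hv hp) (i₀ := q) htop _ _).trans (Finset.prod_congr rfl fun j _ => ?_)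
    by_cases hj : j = q
    · subst hj
      rw [stepE, if_pos rfl]
      rfl
    · rw [stepE, if_neg (PS.injective.ne (Ne.symm hj)), htop j hj, nbrKer_top (hu.map _)]
      rfl
  · rw [stepKer, if_neg hp, (PS.isRestricted_coE hl).idKer_eq x x']
    refine congrArg (fun f => prodKer f (PS.coE hl) x x') (funext fun i => ?_)
    rw [stepE, if_neg (show ¬ v = PS.v i from fun e => hp (e ▸ PS.mem_v i))]

/-- A letter of `M` in the coordinates. -/
theorem stepKer_eq_prodM {w : Ideal (𝓞 D.M)} (hw : w.IsPrime)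
    (hn : ((p : ℕ) : 𝓞 D.M) ∈ w → n = 1) (x x' : LocPt D.M N' p) :
    stepKer N' p w x x' = prodKer (PS.stepM n w) (PS.coM hl) x x' := by
  classical
  by_cases hp : ((p : ℕ) : 𝓞 D.M) ∈ w
  · have hu : IsUnit ((h.localCubic (p : ℕ)).jO n) := (hn hp ▸ isUnit_one : IsUnit n).map _
    obtain ⟨q, hq⟩ := PS.exists_index hw hp
    have htop : ∀ j, j ≠ q → (w.map (incOp (p : ℕ))).map
        (cmk ((h.localCubic (p : ℕ)).jO (PS.e j))) = ⊤ := fun j hj => by
      refine (Ideal.eq_top_iff_one _).mpr ?_
      rw [← cmk_self (e := (h.localCubic (p : ℕ)).jO (PS.e j))]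
      refine Ideal.mem_map_of_mem _ (map_under_le w (D.under w) le_rfl (Ideal.mem_map_of_mem _ ?_))
      exact (PS.cnr j).other _ (hw.comap _) ((natCast_mem_under D).mpr hp)
        (hq ▸ PS.injective.ne (Ne.symm hj))
    rw [stepKer, if_pos hp, prodKer, finprod_eq_prod_of_fintype]
    refine (nbrKer_congr_level (φ := (h.localCubic (p : ℕ)).φM) hl.congrM
      (levelK_eq_of_congr hl.congrM) _ x x').trans ?_
    refine (nbrKer_cnr_map (h.localCubic (p : ℕ)).φM_inj
      ((h.localCubic (p : ℕ)).complete_jO PS.complete) hu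
      (exists_span_incOp hw hp) (i₀ := q) htop _ _).trans (Finset.prod_congr rfl fun j _ => ?_)
    by_cases hj : j = q
    · subst hj
      rw [stepM, if_pos hq]
      rfl
    · rw [stepM, if_neg fun e => hj (PS.injective (e.symm.trans hq)), htop j hj,
        nbrKer_top (hu.map _)]
      rfl
  · rw [stepKer, if_neg hp, (PS.isRestricted_coM hl).idKer_eq x x']
    refine congrArg (fun f => prodKer f (PS.coM hl) x x') (funext fun i => ?_)
    rw [stepM, if_neg fun e => hp (PS.mem_of_under e)]

/-- A word of `E` in the coordinates. -/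
theorem locWord_eq_prodE {ws : List (Ideal (𝓞 D.E))}
    (hws : ∀ v ∈ ws, v.IsPrime ∧ (((p : ℕ) : 𝓞 D.E) ∈ v → n = 1)) (x x' : LocPt D.E N p) :
    locWord N p ws x x' =
      prodKer (fun i => listKer (fun v => PS.stepE n v i) ws) (PS.coE hl) x x' := by
  rw [locWord_eq_listKer]
  exact (PS.isRestricted_coE hl).listKer_prod
    (fun v hv i => PS.finRows_stepE n (hws v hv).2 i)
    (fun v hv x x' => PS.stepKer_eq_prodE hl (hws v hv).1 (hws v hv).2 x x') x x'

/-- The image of a letter in the coordinates. -/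
theorem descStepKer_eq_prod {w : Ideal (𝓞 D.M)} (hw : w.IsPrime)
    (hn : ((p : ℕ) : 𝓞 D.M) ∈ w → n = 1) (x x' : LocPt D.E N p) :
    descStepKer N p w x x' = prodKer (PS.stepD n w) (PS.coE hl) x x' := by
  classical
  by_cases hp : ((p : ℕ) : 𝓞 D.M) ∈ w
  · obtain ⟨q, hq⟩ := PS.exists_index hw hp
    rw [descStepKer, if_pos hp, prodKer_slot _ _ q, stepD, if_pos hq, ← List.sum_map_mul_right,
      locComb]
    refine congrArg List.sum (List.map_congr_left fun a ha => ?_)
    rw [mul_assoc]
    refine congrArg (a.1 * ·) ?_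
    rw [PS.locWord_eq_prodE hl (fun v hv => descPrime_mem ha hv ▸
      ⟨hw.comap _, fun hv' => hn ((natCast_mem_under D).mp hv')⟩) x x', prodKer_slot _ _ q,
      listKer_const (k := PS.kE n q) fun v hv => by rw [stepE, if_pos (descPrime_mem ha hv ▸ hq)]]
    refine congrArg (_ * ·) (Finset.prod_congr rfl fun j hj => ?_)
    have hjq : D.under w ≠ PS.v j := fun e =>
      Finset.ne_of_mem_erase hj (PS.injective (e.symm.trans hq))
    rw [listKer_eq_idKer fun v hv => by rw [stepE, if_neg (descPrime_mem ha hv ▸ hjq)], stepD,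
      if_neg hjq]
  · rw [descStepKer, if_neg hp, (PS.isRestricted_coE hl).idKer_eq x x']
    refine congrArg (fun f => prodKer f (PS.coE hl) x x') (funext fun i => ?_)
    rw [stepD, if_neg fun e => hp (PS.mem_of_under e)]

end PlaceSystem

end FLTAgent.LanglandsTunnell.Local
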