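import Fermat.Agent.LanglandsTunnell.Local.PrimeSpec
import Fermat.Agent.LanglandsTunnell.Local.WholePlace

/-!
# The comparison at the primes without letters

At a prime of `R` and at an idle prime both sides carry the identity on the plain side.
See `nonempty_primeData_of_idle`.
-/

set_option autoImplicit false

noncomputable section

namespace FLTAgent.LanglandsTunnell.Local

open scoped TensorProduct
open FLTAgent.LanglandsTunnell NumberField Matrix
open FLTAgent.LanglandsTunnell.Trace (qMat exists_qMat_of_commute qMat_map)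

variable {D : Datum} {σ : D.M ≃ₐ[ℚ] D.M}

theorem primeTriv_isDiag2 {γ : GL (Fin 2) D.E} (hγ : IsDiagMat γ) (p : Nat.Primes) :
    IsDiag2 (gammaAt D p γ) := by
  constructor
  · show compAF p (toAF D.E (γ.1 0 1)) = 0
    rw [hγ.1, map_zero (toAF D.E), map_zero (compAF p)]
  · show compAF p (toAF D.E (γ.1 1 0)) = 0
    rw [hγ.2, map_zero (toAF D.E), map_zero (compAF p)]

theorem primeTriv_ι_gammaAt (h : CubicData D.incl σ.toRingEquiv) (p : Nat.Primes)
    (γ : GL (Fin 2) D.E) :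
    (h.localCubic (p : ℕ)).ι (gammaAt D p γ) =
      GeneralLinearGroup.map ((compAF p).toRingHom.comp (toAF D.M))
        (GeneralLinearGroup.map D.incl γ) :=
  Units.ext (Matrix.ext fun i j => by
    show mapLp D.incl (compAF p (toAF D.E (γ.1 i j))) = compAF p (toAF D.M (D.incl (γ.1 i j)))
    rfl)

/-- The component of a norm lies in the torus of the component of the class. -/
theorem primeTriv_mem_adjoin (h : CubicData D.incl σ.toRingEquiv) (p : Nat.Primes)
    {γ : GL (Fin 2) D.E} (hγ : IsRegularMat D γ) {δ : GL (Fin 2) D.M}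
    (hδ : IsNormOf D σ γ δ) :
    (deltaAt D p δ).1 ∈
      Algebra.adjoin (Lp D.M p) {((h.localCubic (p : ℕ)).ι (gammaAt D p γ)).1} := by
  set G := (GeneralLinearGroup.map D.incl γ).1 with hG
  have hGmap : G = γ.1.map D.incl := rfl
  have hD : IsUnit (G.trace ^ 2 - 4 * G.det) := by
    refine isUnit_iff_ne_zero.mpr (sub_ne_zero.mpr fun h0 => hγ (D.incl.injective ?_))
    rw [map_pow, map_mul, map_ofNat]
    simpa [hGmap, Matrix.trace_fin_two, Matrix.det_fin_two] using h0
  obtain ⟨⟨a, b⟩, hab⟩ := exists_qMat_of_commute hD (congrArg Units.val hδ.1.eq)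
  have hdel : (deltaAt D p δ).1 = δ.1.map ((compAF p).toRingHom.comp (toAF D.M)) :=
    Matrix.ext fun _ _ => rfl
  rw [primeTriv_ι_gammaAt, hdel, hab, qMat_map]
  refine add_mem (Subalgebra.smul_mem _ (one_mem _) _) (Subalgebra.smul_mem _ ?_ _)
  exact Algebra.self_mem_adjoin_singleton _ _

/-- The component of the norm equation. -/
theorem primeTriv_tnorm (h : CubicData D.incl σ.toRingEquiv) (p : Nat.Primes)
    {γ : GL (Fin 2) D.E} {δ : GL (Fin 2) D.M} (hδ : IsNormOf D σ γ δ) :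
    ∃ z : (Lp D.E p)ˣ, tnorm (h.localCubic (p : ℕ)).θ (deltaAt D p δ) =
      (h.localCubic (p : ℕ)).ι (GeneralLinearGroup.scalar (Fin 2) z * gammaAt D p γ) := by
  obtain ⟨-, z, hz⟩ := hδ
  refine ⟨Units.map ((compAF p).toRingHom.comp (toAF D.E)).toMonoidHom z, ?_⟩
  set g := GeneralLinearGroup.map (n := Fin 2) ((compAF p).toRingHom.comp (toAF D.M))
  have hθ : ∀ x : GL (Fin 2) D.M, g (GeneralLinearGroup.map σ.toAlgHom.toRingHom x) =
      (h.localCubic (p : ℕ)).θ (g x) := fun x => Units.ext (Matrix.ext fun i j => by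
    show compAF p (toAF D.M (σ (x.1 i j))) = mapLp _ (compAF p (toAF D.M (x.1 i j)))
    rfl)
  have hdel : deltaAt D p δ = g δ := Units.ext (Matrix.ext fun _ _ => rfl)
  have e := congrArg g hz
  simp only [map_mul, hθ] at e
  rw [hdel, tnorm, e, map_mul ((h.localCubic (p : ℕ)).ι), primeTriv_ι_gammaAt]
  congr 1
  rw [LocalCubic.ι_scalar, Matrix.GeneralLinearGroup.map_scalar,
    Matrix.GeneralLinearGroup.map_scalar]
  exact congrArg (GeneralLinearGroup.scalar (Fin 2)) (Units.ext rfl)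

variable (P : ExtPlaces D) {h : CubicData D.incl σ.toRingEquiv} {R : Finset Nat.Primes}
  {N₀ N₁ N N' : ℕ} {c : Nat.Primes → ℝ} (hL : LevelFacts D h R N₀ N₁ N N' c)
  {A W B : List (Ideal (𝓞 D.M))} {γ : GL (Fin 2) D.E} (hγ : IsRegularMat D γ) {p : Nat.Primes}

theorem primeTriv_corrKer (hp : ∀ w ∈ W, ((p : ℕ) : 𝓞 D.M) ∉ w) :
    corrKer (D := D) N p A W B = 0 := by
  classical
  funext x y
  rw [corrKer, Finset.filter_eq_empty_iff.mpr fun w hw h' => hp w (List.mem_toFinset.mp hw) h'.2,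
    Finset.sum_empty]
  rfl

include P hL hγ in
/-- (1) A place of `R`. -/
theorem nonempty_primeData_of_mem (hok : ∀ w ∈ A ++ W ++ B, D.TestOK N' w) (hp : p ∈ R) :
    Nonempty (PrimeData D h R N₀ N₁ N N' c A W B γ p) := by
  classical
  have hno : ∀ w ∈ A ++ W ++ B, ((p : ℕ) : 𝓞 D.M) ∉ w := fun w hw hpw =>
    (isGoodPrime_of_testOK hL.dvd (hok w hw)).1.2.2 p hpw (hL.mem p hp)
  have hram := hL.ram p hp
  suffices hh : ∃ Q : PlainLocal (primeC R c p) (fun x : LocPt D.E N p => gammaAt D p γ • x)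
      (locDesc N p (A ++ W ++ B)) (corrKer N p A W B)
      ((h.localCubic (p : ℕ)).commPairs (N : Op D.E p) (N' : Op D.M p) (gammaAt D p γ))
      (IsDiagMat γ) ((h.localCubic (p : ℕ)).IsNormAt (gammaAt D p γ))
      (fun x => locHeight p x.out),
      (∀ x, Q.proj x = x) ∧ ∀ δ, IsNormOf D σ γ δ → Nonempty (TwistLocal Q
        ((h.localCubic (p : ℕ)).twMap (N' : Op D.M p) (deltaAt D p δ))
        (twistedLocKer h R N₀ N₁ N' (A ++ W ++ B) p) (fun v => locHeight p v.out)) by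
    obtain ⟨Q, hid, hQ⟩ := hh
    have hni : ¬ IsIdle D R N' (A ++ W ++ B) p := fun hi => hi.1 hp
    exact ⟨⟨Q, fun hi => absurd hi hni,
      fun _ _ z => (Set.finite_singleton z).subset fun x hx => (hid x).symm.trans hx.1, fun δ hδ =>
      ⟨(hQ δ hδ).some, fun hi => absurd hi hni⟩⟩⟩
  rw [locDesc_eq_idKer hno, primeTriv_corrKer fun w hw => hno w (by simp [hw]),
    show primeC R c p = c p from if_pos hp,
    show twistedLocKer h R N₀ N₁ N' (A ++ W ++ B) p = ramLocKer h p N₀ N₁ N' from if_pos hp]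
  refine ⟨idPlain (c p) _ _ (IsDiagMat γ) _ _ fun hx => hram.isNormAt hx, fun _ => rfl,
    fun δ hδ => ?_⟩
  obtain ⟨z, hz⟩ := primeTriv_tnorm h p hδ
  obtain ⟨T, -⟩ := hram.exists_twistLocal (isHeightPair_locHeight h (finrank_incl P) p)
    (fun hd => primeTriv_isDiag2 hd p) (fun hx => hram.isNormAt hx)
    (primeTriv_mem_adjoin h p hγ hδ) hz
  exact ⟨T⟩

include P hL hγ in
/-- (2) An idle place. -/
theorem nonempty_primeData_of_idle (hidle : IsIdle D R N' (A ++ W ++ B) p) :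
    Nonempty (PrimeData D h R N₀ N₁ N N' c A W B γ p) := by
  classical
  obtain ⟨hpR, hpN, hno⟩ := hidle
  set S := h.localCubic (p : ℕ)
  have hd : HasDualSystem (S.σO : Op D.M p →+* Op D.M p) :=
    hasDualSystem_autOp σ.toRingEquiv (fun w hw hpw => (hL.inertia p hpR w hw hpw).1)
      (fun w hw hpw => (hL.inertia p hpR w hw hpw).2)
  have hn : levelK (φp D.E p) (N : Op D.E p) = levelK (φp D.E p) 1 :=
    le_antisymm (levelK_le_one _)
      (levelK_le_of_dvd (isUnit_natCast_Op fun h' => hpN (h'.trans hL.dvd)).dvd)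
  have hn' : levelK (φp D.M p) (N' : Op D.M p) = levelK (φp D.M p) 1 :=
    le_antisymm (levelK_le_one _) (levelK_le_of_dvd (isUnit_natCast_Op hpN).dvd)
  have hpu : IsUnit ((p : ℕ) : Lp D.M p) := isUnit_natCast_Lp p.2.ne_zero
  suffices hh : ∃ Q : PlainLocal (primeC R c p) (fun x : LocPt D.E N p => gammaAt D p γ • x)
      (locDesc N p (A ++ W ++ B)) (corrKer N p A W B)
      ((h.localCubic (p : ℕ)).commPairs (N : Op D.E p) (N' : Op D.M p) (gammaAt D p γ))
      (IsDiagMat γ) ((h.localCubic (p : ℕ)).IsNormAt (gammaAt D p γ))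
      (fun x => locHeight p x.out),
      ((∀ x, Q.proj x = x) ∧ ∀ x, Q.dE x = 0) ∧ ∀ δ, IsNormOf D σ γ δ → ∃ T : TwistLocal Q
        ((h.localCubic (p : ℕ)).twMap (N' : Op D.M p) (deltaAt D p δ))
        (twistedLocKer h R N₀ N₁ N' (A ++ W ++ B) p) (fun v => locHeight p v.out),
        (∀ v, T.dM v = 0) ∧ (IsGoodAt D p γ δ → ∀ i,
          T.q i ((1 : GL (Fin 2) (Lp D.M p)) : LocPt D.M N' p) =
            ((1 : GL (Fin 2) (Lp D.E p)) : LocPt D.E N p)) by
    obtain ⟨Q, hQ, hT⟩ := hh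
    exact ⟨⟨Q, fun _ => hQ,
      fun _ _ z => (Set.finite_singleton z).subset fun x hx => (hQ.1 x).symm.trans hx.1, fun δ hδ =>
      ⟨(hT δ hδ).choose, fun _ => (hT δ hδ).choose_spec⟩⟩⟩
  rw [locDesc_eq_idKer hno, primeTriv_corrKer fun w hw => hno w (by simp [hw]),
    show primeC R c p = 1 from if_neg hpR,
    show twistedLocKer h R N₀ N₁ N' (A ++ W ++ B) p = idKer from
      (if_neg hpR).trans (locWord_eq_idKer hno)]
  have hnorm : ∀ hx : ∃ x : LocPt D.E N p, gammaAt D p γ • x = x,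
      S.IsNormAt (gammaAt D p γ) := S.isNormAt_of_fixed hd hpu hn
  refine ⟨idPlain 1 _ _ (IsDiagMat γ) _ _ hnorm, ⟨fun _ => rfl, fun _ => rfl⟩, fun δ hδ => ?_⟩
  obtain ⟨z, hz⟩ := primeTriv_tnorm h p hδ
  exact S.exists_twistLocal_whole hd hpu (isHeightPair_locHeight h (finrank_incl P) p) hn hn'
    (fun hd' => primeTriv_isDiag2 hd' p) hnorm (primeTriv_mem_adjoin h p hγ hδ) hz

end FLTAgent.LanglandsTunnell.Local
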