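import Fermat.Agent.LanglandsTunnell.Local.PrimePlace
import Fermat.Agent.LanglandsTunnell.Local.PrimeTrivial
import Fermat.Agent.LanglandsTunnell.Local.FinProduct

/-!
# The comparison at a prime with letters or in the level

The points are the product over the places above the prime, and so are all kernels; the correction
is the sum over the inert places with a letter. See `nonempty_primeData`.
-/

set_option autoImplicit false

noncomputable section

namespace FLTAgent.LanglandsTunnell.Local

open scoped TensorProduct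
open FLTAgent.LanglandsTunnell NumberField Matrix

variable {D : Datum} {σ : D.M ≃ₐ[ℚ] D.M} {h : CubicData D.incl σ.toRingEquiv} {p : Nat.Primes}

namespace PlaceSystem

variable (PS : PlaceSystem D h p) {n : Op D.E p} {N N' : ℕ} (hl : LevelAt h p N N' n)
  {A W B : List (Ideal (𝓞 D.M))}
  (hV : ∀ w ∈ A ++ W ++ B, w.IsPrime ∧ (((p : ℕ) : 𝓞 D.M) ∈ w → n = 1))
  (hAB : ∀ w ∈ A ++ B, D.DegreeOne w)
  (hcount : ∀ w ∈ W, D.DegreeThree w → W.count w ≤ 1)

/-- An image of letters in the coordinates. -/
theorem locDesc_eq_prod {ws : List (Ideal (𝓞 D.M))}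
    (hws : ∀ w ∈ ws, w.IsPrime ∧ (((p : ℕ) : 𝓞 D.M) ∈ w → n = 1)) (x x' : LocPt D.E N p) :
    locDesc N p ws x x' =
      prodKer (fun i => listKer (fun w => PS.stepD n w i) ws) (PS.coE hl) x x' := by
  rw [locDesc_eq_listKer]
  exact (PS.isRestricted_coE hl).listKer_prod
    (fun w hw i => PS.finRows_stepD n (hws w hw).2 i)
    (fun w hw x x' => PS.descStepKer_eq_prod hl (hws w hw).1 (hws w hw).2 x x') x x'

theorem finRows_stepM {w : Ideal (𝓞 D.M)} (hn : ((p : ℕ) : 𝓞 D.M) ∈ w → n = 1)
    (hw : w.IsPrime) (i : PS.ι) : SplitPlace.FinRows (PS.stepM n w i) := by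
  classical
  by_cases hu : D.under w = PS.v i
  · have h1 := hn (PS.mem_of_under hu)
    subst h1
    rw [stepM, if_pos hu]
    rcases PS.type i with ⟨w₀, hwc, -, -, honly, -⟩ | ⟨η, ws, hall, hdeg, -, hgen⟩
    · obtain rfl := honly w hw hu
      obtain ⟨o, π, -, -, ho, U, -⟩ := exists_place_unif hwc
      have hj : ((PS.setting i).jO (cmk (PS.e i) 1)) = 1 := by
        show (PS.setting i).jO 1 = 1
        exact map_one _
      intro x
      have key : ∀ n' : Cnr ((h.localCubic (p : ℕ)).jO (PS.e i)), n' = 1 →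
          SplitPlace.FinRows (nbrKer (PS.setting i).φM n'
            (cnrIdeal ((h.localCubic (p : ℕ)).jO (PS.e i)) w)) := by
        rintro _ rfl
        rw [cnrIdeal_eq_span ho]
        exact (IsUnifRing.nbrKer_eq (φ := (PS.setting i).φM) U).symm ▸ (U.tree).finRows_adjKer
      exact key _ hj x
    · obtain ⟨hη, hcoord⟩ := hgen (PS.cnr i).idem
      obtain ⟨l₀, rfl⟩ := hall w hw hu
      obtain ⟨o, -, -, -, ho, -, -⟩ := exists_place_unif (PS.cnr i)
      rw [hcoord l₀]
      show SplitPlace.FinRows (nbrKer (PS.setting i).φM ((PS.setting i).jO (cmk (PS.e i) 1)) _)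
      rw [hη.nbrKer_coordIdeal (isUnit_one.map (cmk (PS.e i))) (cnrIdeal_eq_span ho).symm l₀]
      refine finRows_coordKer _ fun l => ?_
      rcases eq_or_ne l l₀ with rfl | hl
      · rw [Function.update_self]; exact PS.finRows_kE 1 rfl i
      · rw [Function.update_of_ne hl]; exact finRows_idKer
  · rw [stepM, if_neg hu]; exact finRows_idKer

/-- A word over `M` in the coordinates. -/
theorem locWord_eq_prodM {ws : List (Ideal (𝓞 D.M))}
    (hws : ∀ w ∈ ws, w.IsPrime ∧ (((p : ℕ) : 𝓞 D.M) ∈ w → n = 1)) (x x' : LocPt D.M N' p) :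
    locWord N' p ws x x' =
      prodKer (fun i => listKer (fun w => PS.stepM n w i) ws) (PS.coM hl) x x' := by
  rw [locWord_eq_listKer]
  exact (PS.isRestricted_coM hl).listKer_prod
    (fun w hw i => PS.finRows_stepM (hws w hw).2 (hws w hw).1 i)
    (fun w hw x x' => PS.stepKer_eq_prodM hl (hws w hw).1 (hws w hw).2 x x') x x'

/-- Letters of degree one act like the primes under them. -/
theorem locWord_under {ws : List (Ideal (𝓞 D.M))} (hws : ∀ w ∈ ws, D.DegreeOne w) :
    locWord N p (ws.map D.under) = locDesc (D := D) N p ws := by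
  classical
  rw [locWord_eq_listKer, listKer_map, locDesc_eq_listKer]
  refine listKer_congr fun w hw => ?_
  by_cases hp : ((p : ℕ) : 𝓞 D.M) ∈ w
  · rw [descStepKer, if_pos hp]
    funext x y
    rw [locComb, Datum.descPrime, if_pos (hws w hw), List.map_singleton, List.sum_singleton,
      one_mul, locWord, locWord, comp_idKer_right]
  · rw [descStepKer, if_neg hp, stepKer, if_neg fun e => hp ((natCast_mem_under D).mp e)]

include hV hAB hcount in
/-- One term of the correction. -/
theorem corrTerm_eq [DecidableEq PS.ι] {w : Ideal (𝓞 D.M)} (hwW : w ∈ W) (hw3 : D.DegreeThree w)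
    {q : PS.ι} (hwq : D.under w = PS.v q) (x y : LocPt D.E N p) :
    SplitPlace.comp (SplitPlace.comp (locWord N p (A.map D.under))
        (SplitPlace.comp (stepKer N p (D.under w)) (locDesc N p (W.erase w))))
        (locWord N p (B.map D.under)) x y =
      iterKer (PS.kE n q) 1 (PS.coE hl q x) (PS.coE hl q y) *
        ∏ i ∈ Finset.univ.erase q, listKer (fun w => PS.stepD n w i) (A ++ W ++ B)
          (PS.coE hl i x) (PS.coE hl i y) := by
  classical
  have hA : ∀ a ∈ A, a.IsPrime ∧ (((p : ℕ) : 𝓞 D.M) ∈ a → n = 1) := fun a ha =>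
    hV a (by simp [ha])
  have hB : ∀ a ∈ B, a.IsPrime ∧ (((p : ℕ) : 𝓞 D.M) ∈ a → n = 1) := fun a ha =>
    hV a (by simp [ha])
  have hW : ∀ a ∈ W, a.IsPrime ∧ (((p : ℕ) : 𝓞 D.M) ∈ a → n = 1) := fun a ha =>
    hV a (by simp [ha])
  have hWe : ∀ a ∈ W.erase w, a.IsPrime ∧ (((p : ℕ) : 𝓞 D.M) ∈ a → n = 1) := fun a ha =>
    hW a (List.mem_of_mem_erase ha)
  have hn : ((p : ℕ) : 𝓞 D.E) ∈ D.under w → n = 1 := fun e =>
    (hW w hwW).2 ((natCast_mem_under D).mp e)
  have hfD : ∀ (ws : List (Ideal (𝓞 D.M))), (∀ a ∈ ws, a.IsPrime ∧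
      (((p : ℕ) : 𝓞 D.M) ∈ a → n = 1)) → ∀ i,
      SplitPlace.FinRows (listKer (fun w => PS.stepD n w i) ws) := fun ws hws i =>
    finRows_listKer fun a ha => PS.finRows_stepD n (hws a ha).2 i
  have hX := PS.isRestricted_coE hl
  have h1 : ∀ x x', SplitPlace.comp (stepKer N p (D.under w)) (locDesc N p (W.erase w)) x x' =
      prodKer (fun i => SplitPlace.comp (PS.stepE n (D.under w) i)
        (listKer (fun w => PS.stepD n w i) (W.erase w))) (PS.coE hl) x x' :=
    hX.comp_prod (fun i => PS.finRows_stepE n hn i)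
      (PS.stepKer_eq_prodE hl ((hW w hwW).1.comap _) hn) (PS.locDesc_eq_prod hl hWe)
  have h2 := hX.comp_prod (f := locWord N p (A.map D.under))
    (fC := fun i => listKer (fun w => PS.stepD n w i) A) (hfD A hA)
    (fun x x' => by
      rw [locWord_under fun a ha => hAB a (by simp [ha]), PS.locDesc_eq_prod hl hA x x']) h1
  rw [hX.comp_prod (gC := fun i => listKer (fun w => PS.stepD n w i) B)
      (fun i => (hfD A hA i).comp ((PS.finRows_stepE n hn i).comp (hfD _ hWe i))) h2
      (fun x x' => by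
        rw [locWord_under fun a ha => hAB a (by simp [ha]), PS.locDesc_eq_prod hl hB x x']) x y,
    prodKer_slot _ _ q]
  have hkey : ∀ a ∈ A ++ W ++ B, D.under a = PS.v q → a = w := fun a ha hu =>
    PS.eq_of_degreeThree hw3 hwq (hV a ha).1 hu
  have hid : ∀ ws : List (Ideal (𝓞 D.M)), (∀ a ∈ ws, a ∈ A ++ W ++ B ∧ a ≠ w) →
      listKer (fun w => PS.stepD n w q) ws = idKer := fun ws hws =>
    listKer_eq_idKer fun a ha => by
      rw [stepD, if_neg fun e => (hws a ha).2 (hkey a (hws a ha).1 e)]
  have hneA : ∀ a ∈ A ++ B, a ≠ w := fun a ha e =>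
    not_degreeThree (hAB a ha) (e ▸ hw3)
  rw [hid A fun a ha => ⟨by simp [ha], hneA a (by simp [ha])⟩,
    hid B fun a ha => ⟨by simp [ha], hneA a (by simp [ha])⟩,
    hid (W.erase w) fun a ha => ⟨by simp [List.mem_of_mem_erase ha], fun e => by
      have h2 := List.count_pos_iff.mpr (e ▸ ha)
      rw [List.count_erase_self] at h2
      have := hcount w hwW hw3
      omega⟩,
    stepE, if_pos hwq, comp_idKer_left, comp_idKer_right]
  refine congrArg (_ * ·) (Finset.prod_congr rfl fun i hi => ?_)
  have hwi : D.under w ≠ PS.v i := fun e =>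
    Finset.ne_of_mem_erase hi (PS.injective (e.symm.trans hwq))
  have hWeq : listKer (fun w => PS.stepD n w i) (W.erase w) =
      listKer (fun w => PS.stepD n w i) W := by
    have hstep : ∀ a, ¬ a ≠ w → PS.stepD n a i = idKer := fun a ha => by
      rw [not_not.mp ha, stepD, if_neg hwi]
    rw [listKer_filter (P := fun a => a ≠ w) fun a _ ha => hstep a ha,
      listKer_filter (P := fun a => a ≠ w) (ws := W) fun a _ ha => hstep a ha,
      ← List.erase_filter, List.erase_of_not_mem (by simp)]
  rw [stepE, if_neg hwi, comp_idKer_left, hWeq,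
    listKer_append (A := A ++ W) B (fun a ha => PS.finRows_stepD n (hV a (by
      simp only [List.mem_append] at ha ⊢; exact Or.inl ha)).2 i),
    listKer_append (A := A) W (fun a ha => PS.finRows_stepD n (hA a ha).2 i)]

include hV hAB hcount in
/-- The correction in the coordinates. -/
theorem corrKer_eq_sum [DecidableEq PS.ι] (x y : LocPt D.E N p) :
    corrKer (D := D) N p A W B x y = ∑ q, prodKer (fun i => if i = q then PS.k2At n W i
      else listKer (fun w => PS.stepD n w i) (A ++ W ++ B)) (PS.coE hl) x y := by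
  classical
  have hRHS : ∀ q, prodKer (fun i => if i = q then PS.k2At n W i
      else listKer (fun w => PS.stepD n w i) (A ++ W ++ B)) (PS.coE hl) x y =
      ∑ w ∈ W.toFinset.filter (fun w => D.DegreeThree w ∧ ((p : ℕ) : 𝓞 D.M) ∈ w),
        if D.under w = PS.v q then (kappa w : ℂ) *
          (iterKer (PS.kE n q) 1 (PS.coE hl q x) (PS.coE hl q y) *
            ∏ i ∈ Finset.univ.erase q, listKer (fun w => PS.stepD n w i) (A ++ W ++ B)
              (PS.coE hl i x) (PS.coE hl i y)) else 0 := fun q => by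
    rw [prodKer_slot _ _ q, if_pos rfl, ← Finset.sum_filter, Finset.filter_filter,
      Finset.prod_congr rfl fun i hi => by rw [if_neg (Finset.ne_of_mem_erase hi)], k2At,
      Finset.sum_mul]
    refine Finset.sum_congr (Finset.filter_congr fun w _ => ⟨fun hw => ⟨⟨hw.1,
      PS.mem_of_under hw.2⟩, hw.2⟩, fun hw => ⟨hw.1.1, hw.2⟩⟩) fun w _ => ?_
    rw [mul_assoc]
  rw [Finset.sum_congr rfl fun q _ => hRHS q, Finset.sum_comm, corrKer]
  refine Finset.sum_congr rfl fun w hw => ?_
  rw [Finset.mem_filter, List.mem_toFinset] at hw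
  obtain ⟨hwW, hw3, hp⟩ := hw
  obtain ⟨q, hq⟩ := PS.exists_index hw3.1 hp
  rw [Finset.sum_eq_single q (fun j _ hj => if_neg fun e => hj (PS.injective (e.symm.trans hq)))
    fun h' => absurd (Finset.mem_univ q) h', if_pos hq, PS.corrTerm_eq hl hV hAB hcount hwW hw3 hq]

include hl hV hAB hcount in
/-- **The comparison at a prime, from its places.** -/
theorem nonempty_primeData (PS : PlaceSystem D h p) (P : ExtPlaces D) {R : Finset Nat.Primes}
    {N₀ N₁ : ℕ} {c : Nat.Primes → ℝ} (hp : p ∉ R) (hni : ¬ IsIdle D R N' (A ++ W ++ B) p)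
    (hd : HasDualSystem
      ((autOp σ.toRingEquiv : Op D.M p ≃+* Op D.M p) : Op D.M p →+* Op D.M p))
    (hcase : n = 1 ∨ ∀ i, ∃ η w, IsSplitPlace D h p (PS.v i) (PS.e i) η w)
    {γ : GL (Fin 2) D.E} (hγ : IsRegularMat D γ) :
    Nonempty (PrimeData D h R N₀ N₁ N N' c A W B γ p) := by
  classical
  set S := h.localCubic (p : ℕ)
  have H := isHeightPair_locHeight h (finrank_incl P) p
  have CD : ∀ i, Nonempty ((PS.setting i).CornerData (cmk (PS.e i) n)
      (cgl (S.φE (PS.e i)) (gammaAt D p γ)) (IsDiagMat γ)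
      (placeHE h p (PS.cnr i).idem) (placeHM h p (PS.cnr i).idem)
      (listKer (fun w => PS.stepD n w i) (A ++ W ++ B)) (PS.k2At n W i)
      (listKer (fun w => PS.stepM n w i) (A ++ W ++ B))) := fun i =>
    PS.nonempty_cornerData hV hAB hcount P hd hcase (fun hd' => primeTriv_isDiag2 hd' p)
      (isUnit_disc_gammaAt p hγ) i
  let C : FinComponents PS.ι (fun i => PS.PtE n i) (fun i => PS.PtM n i) (IsDiagMat γ) :=
    { g := fun i u => cgl (S.φE (PS.e i)) (gammaAt D p γ) • u
      pe := fun i => listKer (fun w => PS.stepD n w i) (A ++ W ++ B)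
      k2 := fun i => PS.k2At n W i
      km := fun i => listKer (fun w => PS.stepM n w i) (A ++ W ++ B)
      comm := fun i => (PS.setting i).commPairs (cmk (PS.e i) n)
        ((PS.setting i).jO (cmk (PS.e i) n)) (cgl (S.φE (PS.e i)) (gammaAt D p γ))
      isNorm := fun i => (PS.setting i).IsNormAt (cgl (S.φE (PS.e i)) (gammaAt D p γ))
      hE := fun i u => placeHE h p (PS.cnr i).idem u.out
      hM := fun i v => placeHM h p (PS.cnr i).idem v.out
      Q := fun i => (CD i).some.Q
      base := fun i => ((1 : PS.GrpE i) : PS.PtE n i)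
      base' := fun i =>
        ((1 : GL (Fin 2) (Cnr (S.φM (S.jO (PS.e i))))) : PS.PtM n i)
      hE_base := fun i => (LocalCubic.IsHeightPair.outE (PS.setting i)
        (isHeightPair_place h P p (PS.cnr i).idem) (n := cmk (PS.e i) n) 1).trans
        (isHeightPair_place h P p (PS.cnr i).idem).oneE
      hM_base := fun i => (LocalCubic.IsHeightPair.outM (PS.setting i)
        (isHeightPair_place h P p (PS.cnr i).idem)
        (n' := (PS.setting i).jO (cmk (PS.e i) n)) 1).trans
        (isHeightPair_place h P p (PS.cnr i).idem).oneM }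
  have hhE : ∀ u : LocPt D.E N p, locHeight p u.out = ∑ i, C.hE i (PS.coE hl i u) := fun u => by
    induction u using QuotientGroup.induction_on with
    | H g =>
      rw [locHeight_out, H.sumE PS.complete g]
      exact Finset.sum_congr rfl fun i _ =>
        (LocalCubic.IsHeightPair.outE (PS.setting i)
          (isHeightPair_place h P p (PS.cnr i).idem) _).symm
  have hhM : ∀ v : LocPt D.M N' p, locHeight p v.out = ∑ i, C.hM i (PS.coM hl i v) := fun v => by
    induction v using QuotientGroup.induction_on with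
    | H g =>
      rw [locHeight_out, H.sumM PS.complete g]
      exact Finset.sum_congr rfl fun i _ =>
        (LocalCubic.IsHeightPair.outM (PS.setting i)
          (isHeightPair_place h P p (PS.cnr i).idem) _).symm
  obtain ⟨Q, hproj, hQ⟩ : ∃ Q : PlainLocal (primeC R c p)
      (fun x : LocPt D.E N p => gammaAt D p γ • x) (locDesc N p (A ++ W ++ B))
      (corrKer N p A W B) (S.commPairs (N : Op D.E p) (N' : Op D.M p) (gammaAt D p γ))
      (IsDiagMat γ) (S.IsNormAt (gammaAt D p γ)) (fun x => locHeight p x.out),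
      (∀ x i, PS.coE hl i (Q.proj x) = (C.Q i).proj (PS.coE hl i x)) ∧
      ∀ (f : LocPt D.M N' p → LocPt D.M N' p) (fi : ∀ i, PS.PtM n i → PS.PtM n i)
        (km : LocPt D.M N' p → LocPt D.M N' p → ℂ) (hM : LocPt D.M N' p → ℝ),
        (∀ i v, PS.coM hl i (f v) = fi i (PS.coM hl i v)) →
        (∀ v v', km v v' = prodKer C.km (PS.coM hl) v v') →
        (∀ v, hM v = ∑ i, C.hM i (PS.coM hl i v)) →
        (∀ i, Nonempty (TwistLocal (C.Q i) (fi i) (C.km i) (C.hM i))) →
        Nonempty (TwistLocal Q f km hM) := by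
    rw [show primeC R c p = 1 from if_neg hp]
    exact C.exists_product (X := LocPt D.E N p) (X' := LocPt D.M N' p)
        (co := PS.coE hl) (co' := PS.coM hl) (PS.isRestricted_coE hl) (PS.isRestricted_coM hl)
        (g := fun x => gammaAt D p γ • x) (pe := locDesc N p (A ++ W ++ B))
        (k2 := corrKer N p A W B)
        (comm := S.commPairs (N : Op D.E p) (N' : Op D.M p) (gammaAt D p γ))
        (isNorm := S.IsNormAt (gammaAt D p γ)) (hE := fun x => locHeight p x.out)
        (fun i u => cnrCoord_smul _ _ _ _ u i) (PS.locDesc_eq_prod hl hV)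
        (fun x y => PS.corrKer_eq_sum hl hV hAB hcount x y)
        (fun t ht i => S.cnrCoord_commPairs PS.complete (levelK_eq_of_congr hl.congrE)
          (levelK_eq_of_congr hl.congrM) ht i)
        hhE (S.isNormAt_iff_corner PS.complete (gammaAt D p γ)).symm
  refine ⟨⟨Q, fun hi => absurd hi hni,
    fun ws hws z => ?_, fun δ hδ => ?_⟩⟩
  · have hws' : ∀ v ∈ ws, v.IsPrime ∧ (((p : ℕ) : 𝓞 D.E) ∈ v → n = 1) := fun v hv => by
      obtain ⟨w, hw, rfl⟩ := hws v hv
      exact ⟨(hV w hw).1.comap _, fun e => (hV w hw).2 ((natCast_mem_under D).mp e)⟩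
    have hfin : ∀ i, {u : PS.PtE n i | (C.Q i).proj u = PS.coE hl i z ∧
        listKer (fun v => PS.stepE n v i) ws u (cgl (S.φE (PS.e i)) (gammaAt D p γ) • u) ≠
          0}.Finite :=
      fun i => (CD i).some.finite_inv _
        (fun g x y => listKer_smul (fun v _ g x y => PS.stepE_smul n v i g x y) g x y)
        (finRows_listKer fun v hv => PS.finRows_stepE n (hws' v hv).2 i) _
    refine ((Set.Finite.pi' hfin).preimage
      (f := fun (x : LocPt D.E N p) i => PS.coE hl i x)
      (fun a _ b _ e => (PS.isRestricted_coE hl).ext (congrFun e))).subset ?_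
    rintro x ⟨hx, hne⟩ i
    refine ⟨?_, ?_⟩
    · rw [← hx, ← hproj]
    · rw [PS.locWord_eq_prodE hl hws', prodKer, finprod_eq_prod_of_fintype,
        Finset.prod_ne_zero_iff] at hne
      have := hne i (Finset.mem_univ i)
      rwa [show PS.coE hl i (gammaAt D p γ • x) = _ from cnrCoord_smul _ _ _ _ x i] at this
  · obtain ⟨z, hz⟩ := primeTriv_tnorm h p hδ
    have hadj := primeTriv_mem_adjoin h p hγ hδ
    have hT : ∀ i, Nonempty (TwistLocal (C.Q i)
        ((PS.setting i).twMap ((PS.setting i).jO (cmk (PS.e i) n))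
          (cgl (S.φM (S.jO (PS.e i))) (deltaAt D p δ))) (C.km i) (C.hM i)) := fun i => by
      refine (CD i).some.twist _ (Units.map (cmk (S.φE (PS.e i))).toMonoidHom z) ?_ ?_
      · rw [← S.cgl_ι (PS.cnr i).idem]
        exact generalLinearGroup_map_mem_adjoin (cmk (S.φM (S.jO (PS.e i)))) hadj
      · rw [← S.cgl_tnorm (PS.cnr i).idem, hz, S.cgl_ι (PS.cnr i).idem, map_mul]
        exact congrArg (fun s => (PS.setting i).ι (s * cgl (S.φE (PS.e i)) (gammaAt D p γ)))
          (GeneralLinearGroup.map_scalar _ _)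
    have hW' : twistedLocKer h R N₀ N₁ N' (A ++ W ++ B) p = locWord N' p (A ++ W ++ B) :=
      if_neg hp
    obtain ⟨T⟩ := hQ (S.twMap (N' : Op D.M p) (deltaAt D p δ)) _
      (twistedLocKer h R N₀ N₁ N' (A ++ W ++ B) p) (fun v => locHeight p v.out)
      (fun i v => S.cnrCoord_twMap PS.complete (levelK_eq_of_congr hl.congrM) (map_natCast _ _)
        (S.σO_jO n) (deltaAt D p δ) v i)
      (fun v v' => by rw [hW']; exact PS.locWord_eq_prodM hl hV v v') hhM hT
    exact ⟨T, fun hi => absurd hi hni⟩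

end PlaceSystem

end FLTAgent.LanglandsTunnell.Local
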