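import Fermat.Agent.LanglandsTunnell.Local.PrimeKernels
import Fermat.Agent.LanglandsTunnell.Words

/-!
# The comparison at each place over a rational prime, for the given letters

The image of a letter at one place, and the data of each place for the given letters
(`nonempty_cornerData`).
-/

set_option autoImplicit false

noncomputable section

namespace FLTAgent.LanglandsTunnell.Local

open scoped TensorProduct
open FLTAgent.LanglandsTunnell NumberField Matrix

theorem listKer_indicator {L X : Type*} [DecidableEq L] {step : L → X → X → ℂ}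
    {k : X → X → ℂ} {a : L} :
    ∀ {ws : List L}, (∀ w ∈ ws, step w = if w = a then k else idKer) →
      listKer step ws = iterKer k (ws.count a)
  | [], _ => rfl
  | w :: ws, h => by
    have ih := listKer_indicator fun x hx => h x (List.mem_cons_of_mem _ hx)
    rw [listKer, h w List.mem_cons_self, ih, List.count_cons]
    by_cases hw : w = a
    · rw [if_pos hw, if_pos (beq_iff_eq.mpr hw)]; rfl
    · rw [if_neg hw, if_neg (mt beq_iff_eq.mp hw), comp_idKer_left, Nat.add_zero]

variable {D : Datum} {σ : D.M ≃ₐ[ℚ] D.M} {h : CubicData D.incl σ.toRingEquiv} {p : Nat.Primes}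

namespace PlaceSystem

variable (PS : PlaceSystem D h p) (n : Op D.E p)

theorem stepD_of_degreeOne {w : Ideal (𝓞 D.M)} (hw : D.DegreeOne w) (i : PS.ι) :
    PS.stepD n w i = PS.stepE n (D.under w) i := by
  classical
  by_cases hu : D.under w = PS.v i
  · rw [stepD, if_pos hu, stepE, if_pos hu]
    funext x y
    rw [Datum.descPrime, if_pos hw, List.map_singleton, List.sum_singleton, one_mul,
      List.length_singleton]
    exact congrFun (congrFun (comp_idKer_right _) x) y
  · rw [stepD, if_neg hu, stepE, if_neg hu]

theorem finRows_stepD {w : Ideal (𝓞 D.M)} (hn : ((p : ℕ) : 𝓞 D.M) ∈ w → n = 1) (i : PS.ι) :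
    SplitPlace.FinRows (PS.stepD n w i) := by
  classical
  by_cases hu : D.under w = PS.v i
  · have hk : SplitPlace.FinRows (PS.kE n i) := PS.finRows_kE n (hn (PS.mem_of_under hu)) i
    rw [stepD, if_pos hu]
    intro x
    suffices ∀ L : List (ℂ × List (Ideal (𝓞 D.E))), (Function.support fun y =>
        (L.map fun a => a.1 * iterKer (PS.kE n i) a.2.length x y).sum).Finite from this _
    intro L
    induction L with
    | nil => simp [Function.support]
    | cons a L ih =>
      refine ((finRows_iterKer hk a.2.length x).union ih).subset fun y hy => ?_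
      by_contra hc
      simp only [Set.mem_union, Function.mem_support, not_or, not_not] at hc
      refine hy ?_
      show (List.map _ (a :: L)).sum = 0
      rw [List.map_cons, List.sum_cons, hc.1, hc.2, mul_zero, add_zero]
  · rw [stepD, if_neg hu]; exact finRows_idKer

/-- Only the prime of degree three lies over its place. -/
theorem eq_of_degreeThree {q : PS.ι} {w x : Ideal (𝓞 D.M)} (hw : D.DegreeThree w)
    (hwq : D.under w = PS.v q) (hx : x.IsPrime) (hxq : D.under x = PS.v q) : x = w := by
  rcases PS.type q with ⟨w₀, -, -, -, honly, -⟩ | ⟨η, ws, hall, hdeg, -, -⟩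
  · exact (honly x hx hxq).trans (honly w hw.1 hwq).symm
  · obtain ⟨l, rfl⟩ := hall w hw.1 hwq
    exact absurd hw (not_degreeThree (hdeg l).1)

variable {n} {A W B : List (Ideal (𝓞 D.M))}
  (hV : ∀ w ∈ A ++ W ++ B, w.IsPrime ∧ (((p : ℕ) : 𝓞 D.M) ∈ w → n = 1))
  (hAB : ∀ w ∈ A ++ B, D.DegreeOne w)
  (hcount : ∀ w ∈ W, D.DegreeThree w → W.count w ≤ 1)

include hV hAB hcount in
/-- **The data at one place.** -/
theorem nonempty_cornerData (P : ExtPlaces D)
    (hd : HasDualSystem
      ((autOp σ.toRingEquiv : Op D.M p ≃+* Op D.M p) : Op D.M p →+* Op D.M p))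
    (hcase : n = 1 ∨ ∀ i, ∃ η w, IsSplitPlace D h p (PS.v i) (PS.e i) η w)
    {g : GL (Fin 2) (Lp D.E p)} {isDiag : Prop} (hdiag : isDiag → IsDiag2 g)
    (hreg : IsUnit (g.1.trace ^ 2 - 4 * g.1.det)) (i : PS.ι) :
    Nonempty ((PS.setting i).CornerData (cmk (PS.e i) n)
      (cgl ((h.localCubic (p : ℕ)).φE (PS.e i)) g) isDiag
      (placeHE h p (PS.cnr i).idem) (placeHM h p (PS.cnr i).idem)
      (listKer (fun w => PS.stepD n w i) (A ++ W ++ B)) (PS.k2At n W i)
      (listKer (fun w => PS.stepM n w i) (A ++ W ++ B))) := by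
  classical
  set f : Lp D.E p →+* Cnr ((h.localCubic (p : ℕ)).φE (PS.e i)) :=
    cmk ((h.localCubic (p : ℕ)).φE (PS.e i))
  have hdiag' : isDiag → IsDiag2 (cgl ((h.localCubic (p : ℕ)).φE (PS.e i)) g) := fun hd' =>
    ⟨(congrArg f (hdiag hd').1).trans (map_zero f), (congrArg f (hdiag hd').2).trans (map_zero f)⟩
  have hreg' : IsUnit ((cgl ((h.localCubic (p : ℕ)).φE (PS.e i)) g).1.trace ^ 2 -
      4 * (cgl ((h.localCubic (p : ℕ)).φE (PS.e i)) g).1.det) := by
    have := hreg.map f
    rw [show (cgl ((h.localCubic (p : ℕ)).φE (PS.e i)) g).1 = g.1.map f from rfl]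
    simpa [Matrix.trace_fin_two, Matrix.det_fin_two, map_ofNat] using this
  set V := A ++ W ++ B with hVdef
  set L := V.filter (fun w => decide (D.under w = PS.v i)) with hLdef
  have hL : ∀ x ∈ L, x ∈ V ∧ D.under x = PS.v i := fun x hx => by
    simpa [hLdef] using List.mem_filter.mp hx
  have hD : listKer (fun w => PS.stepD n w i) V = listKer (fun w => PS.stepD n w i) L :=
    listKer_filter (P := fun w => D.under w = PS.v i) fun w _ hw => by rw [stepD, if_neg hw]
  have hM : listKer (fun w => PS.stepM n w i) V = listKer (fun w => PS.stepM n w i) L :=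
    listKer_filter (P := fun w => D.under w = PS.v i) fun w _ hw => by rw [stepM, if_neg hw]
  have hn1 : L ≠ [] → n = 1 := fun hne => by
    obtain ⟨x, hx⟩ := List.exists_mem_of_ne_nil L hne
    exact (hV x (hL x hx).1).2 (PS.mem_of_under (hL x hx).2)
  have hH := isHeightPair_place h P p (PS.cnr i).idem
  rw [hD, hM]
  rcases PS.type i with ⟨w, hw⟩ | ⟨η, ws, hall, hdeg, hinj, hgen⟩
  · obtain ⟨hwc, hwu, hwd, honly, -⟩ := id hw
    have hn : n = 1 := hcase.resolve_right fun hs => by
      obtain ⟨η, ws, hall, hdeg, -, -⟩ := hs i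
      obtain ⟨l, rfl⟩ := hall w hwc.prime hwu
      exact not_degreeThree (hdeg l).1 hwd
    subst hn
    have hone : ∀ x ∈ L, x = w := fun x hx => honly x (hV x (hL x hx).1).1 (hL x hx).2
    obtain ⟨hzero, hsingle⟩ := nonempty_inertPlaceData h P hd (PS.cnr i) hw hdiag' hreg'
    have hLW : L = List.replicate (W.count w) w := by
      have hnil : ∀ l : List (Ideal (𝓞 D.M)), (∀ x ∈ l, x ∈ A ++ B ∧ x ∈ V) →
          l.filter (fun x => decide (D.under x = PS.v i)) = [] := fun l hl => by
        refine List.filter_eq_nil_iff.mpr fun x hx hu => ?_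
        obtain ⟨hxAB, hxV⟩ := hl x hx
        obtain rfl := honly x (hV x hxV).1 (of_decide_eq_true hu)
        exact not_degreeThree (hAB x hxAB) hwd
      rw [hLdef, hVdef, List.filter_append, List.filter_append,
        hnil A fun x hx => by simp [hVdef, hx],
        hnil B fun x hx => by simp [hVdef, hx], List.nil_append, List.append_nil,
        ← List.filter_beq]
      refine List.filter_congr fun x hx => ?_
      by_cases hxw : x = w
      · simp [hxw, hwu]
      · have : D.under x ≠ PS.v i := fun hu =>
          hxw (honly x (hV x (by simp [hVdef, hx])).1 hu)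
        simp [hxw, this]
    by_cases hmem : w ∈ W
    · have hc1 : W.count w = 1 := by
        have := List.count_pos_iff.mpr hmem
        have := hcount w hmem hwd
        omega
      have hk2 : PS.k2At 1 W i = fun x y => (kappa w : ℂ) * iterKer (PS.kE 1 i) 1 x y := by
        funext x y
        rw [k2At, Finset.sum_eq_single w]
        · intro x' hx' hne'
          rw [Finset.mem_filter] at hx'
          exact absurd (honly x' hx'.2.1.1 hx'.2.2) hne'
        · intro hn'
          exact absurd (Finset.mem_filter.mpr ⟨List.mem_toFinset.mpr hmem, hwd, hwu⟩) hn'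
      have hpe : listKer (fun w => PS.stepD 1 w i) (List.replicate 1 w) =
          (PS.setting i).inertDesc (Ideal.absNorm (PS.v i))
            (nbrKer (PS.setting i).φE 1 (cnrIdeal (PS.e i) (PS.v i))) := by
        show SplitPlace.comp (PS.stepD 1 w i) idKer = _
        rw [comp_idKer_right, stepD, if_pos hwu]
        funext x y
        rw [Datum.descPrime, if_neg fun h1 => not_degreeThree h1 hwd]
        simp only [List.map_cons, List.map_nil, List.sum_cons, List.sum_nil, List.length_cons,
          List.length_nil, one_mul, add_zero, hwu]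
        rw [LocalCubic.inertDesc]
        simp only [Nat.zero_add, Nat.reduceAdd, neg_mul]
        rfl
      have hkm : listKer (fun w => PS.stepM 1 w i) (List.replicate 1 w) =
          iterKer (nbrKer (PS.setting i).φM ((PS.setting i).jO 1)
            (cnrIdeal ((h.localCubic (p : ℕ)).jO (PS.e i)) w)) 1 := by
        show SplitPlace.comp (PS.stepM 1 w i) idKer = _
        rw [stepM, if_pos hwu]
        rfl
      rw [hLW, hc1, hk2, hpe, hkm, kappa, hwu]
      exact hsingle
    · have hk2 : PS.k2At 1 W i = 0 := by
        funext x y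
        refine Finset.sum_eq_zero fun x' hx' => ?_
        rw [Finset.mem_filter, List.mem_toFinset] at hx'
        exact absurd (honly x' hx'.2.1.1 hx'.2.2 ▸ hx'.1) hmem
      rw [hLW, List.count_eq_zero_of_not_mem hmem, hk2]
      exact hzero
  · obtain ⟨hη, hcoord⟩ := hgen (PS.cnr i).idem
    have hk2 : PS.k2At n W i = 0 := by
      funext x y
      refine Finset.sum_eq_zero fun x' hx' => ?_
      rw [Finset.mem_filter] at hx'
      obtain ⟨l, rfl⟩ := hall x' hx'.2.1.1 hx'.2.2
      exact absurd hx'.2.1 (not_degreeThree (hdeg l).1)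
    rw [hk2]
    by_cases hne : L = []
    · have hfin : SplitPlace.FinRows
          (nbrKer (PS.setting i).φE (cmk (PS.e i) n) (⊥ : Ideal (Cnr (PS.e i)))) := by
        rcases subsingleton_or_nontrivial (Cnr ((h.localCubic (p : ℕ)).φE (PS.e i))) with hs | hs
        · have := hs
          intro x
          have : Subsingleton (GL (Fin 2) (Cnr ((h.localCubic (p : ℕ)).φE (PS.e i)))) :=
            ⟨fun a b => Units.ext (Subsingleton.elim _ _)⟩
          have : Subsingleton (QPt (PS.setting i).φE (cmk (PS.e i) n)) :=
            QuotientGroup.mk_surjective.subsingleton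
          exact Set.toFinite _
        · have := hs
          intro x
          refine Set.finite_empty.subset fun y hy => ?_
          obtain ⟨a, k, π, o, -, -, hπ, ho, -⟩ := Set.mem_of_indicator_ne_zero hy
          refine absurd hπ ?_
          rw [Ideal.span_singleton_eq_bot.mp ho, map_zero]
          exact π.ne_zero.symm
      refine ⟨?_⟩
      have hc := LocalCubic.IsSplitIdem.cornerData (PS.setting i) hη
        (γ := cgl ((h.localCubic (p : ℕ)).φE (PS.e i)) g) (isDiag := isDiag) hH
        (n := cmk (PS.e i) n) hfin (fun _ => 0) hdiag'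
      have hkm : hη.km (cmk (PS.e i) n) ⊥ (fun _ => 0) = idKer :=
        (idKer_eq_coordKer (hη.pts (cmk (PS.e i) n))).symm
      rw [hkm] at hc
      rw [hne]
      exact hc
    · have hn := hn1 hne
      subst hn
      obtain ⟨o, -, -, -, ho, -, -⟩ := exists_place_unif (PS.cnr i)
      have hk : SplitPlace.FinRows (PS.kE 1 i) := PS.finRows_kE 1 rfl i
      have hLw : ∀ x ∈ L, ∃ l, ws l = x := fun x hx => hall x (hV x (hL x hx).1).1 (hL x hx).2
      set m : Fin 3 → ℕ := fun l => L.count (ws l)
      have hpe : listKer (fun w => PS.stepD 1 w i) L =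
          iterKer (PS.kE 1 i) (m 0 + m 1 + m 2) := by
        refine (listKer_const fun x hx => ?_).trans
          (congrArg (iterKer (PS.kE 1 i)) (length_eq_count hinj hLw))
        obtain ⟨l, rfl⟩ := hLw x hx
        rw [stepD_of_degreeOne PS 1 (hdeg l).1, stepE, if_pos (hdeg l).2]
      have hfr : ∀ (x : Ideal (𝓞 D.M)) (l : Fin 3),
          SplitPlace.FinRows (if x = ws l then PS.kE 1 i else idKer) := fun x l => by
        split_ifs
        · exact hk
        · exact finRows_idKer
      have hkm : listKer (fun w => PS.stepM 1 w i) L =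
          hη.km (cmk (PS.e i) 1) (cnrIdeal (PS.e i) (PS.v i)) m := by
        refine ((listKer_congr fun x hx => ?_).trans
          (listKer_coordKer (hη.pts (cmk (PS.e i) 1))
            (f := fun x l => if x = ws l then PS.kE 1 i else idKer) fun x _ l => hfr x l)).trans ?_
        · obtain ⟨l₀, rfl⟩ := hLw x hx
          rw [stepM, if_pos (hdeg l₀).2, hcoord l₀]
          refine (hη.nbrKer_coordIdeal (isUnit_one.map (cmk (PS.e i)))
            (cnrIdeal_eq_span ho).symm l₀).trans (congrArg (coordKer _) (funext fun l => ?_))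
          rcases eq_or_ne l l₀ with rfl | hl
          · rw [Function.update_self, if_pos rfl]; rfl
          · rw [Function.update_of_ne hl, if_neg (hinj.ne hl.symm)]
        · refine congrArg (coordKer _) (funext fun l => ?_)
          exact listKer_indicator fun x _ => rfl
      rw [hpe, hkm]
      exact ⟨hη.cornerData (PS.setting i) hH hk m hdiag'⟩

end PlaceSystem

end FLTAgent.LanglandsTunnell.Local
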