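import Fermat.Agent.LanglandsTunnell.Local.DescWords
import Fermat.Agent.LanglandsTunnell.Local.LocalHeights

/-!
# The comparison at one rational prime: statement

The pieces from which the global comparison is put together: at every rational prime a plain and a
twisted comparison for the kernels of `DescWords`, trivial at the primes where nothing happens.
`PrimeTransferSpec` is proved as `primeTransfer` in `PrimeTransfer`.
-/

set_option autoImplicit false

noncomputable section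

namespace FLTAgent.LanglandsTunnell.Local

open scoped TensorProduct
open FLTAgent.LanglandsTunnell NumberField Matrix

variable {D : Datum}

/-- The scalar of the correction at an inert letter. -/
def kappa (w : Ideal (𝓞 D.M)) : ℝ :=
  -(3 * ((Ideal.absNorm (D.under w) : ℝ) - 1) * (2 * Real.log (Ideal.absNorm (D.under w))))

open scoped Classical in
/-- The correction kernel at one prime for `A ++ W ++ B`. -/
def corrKer (N : ℕ) (p : Nat.Primes) (A W B : List (Ideal (𝓞 D.M))) (x y : LocPt D.E N p) : ℂ :=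
  ∑ w ∈ W.toFinset.filter (fun w => D.DegreeThree w ∧ ((p : ℕ) : 𝓞 D.M) ∈ w),
    (kappa w : ℂ) * SplitPlace.comp
      (SplitPlace.comp (locWord N p (A.map D.under))
        (SplitPlace.comp (stepKer N p (D.under w)) (locDesc N p (W.erase w))))
      (locWord N p (B.map D.under)) x y

open scoped Classical in
/-- The constant at one prime. -/
def primeC (R : Finset Nat.Primes) (c : Nat.Primes → ℝ) (p : Nat.Primes) : ℝ :=
  if p ∈ R then c p else 1

variable (D)

/-- The component of a class over `E`. -/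
abbrev gammaAt (p : Nat.Primes) (γ : GL (Fin 2) D.E) : GL (Fin 2) (Lp D.E p) :=
  compGL p (glE D γ)

/-- The component of a class over `M`. -/
abbrev deltaAt (p : Nat.Primes) (δ : GL (Fin 2) D.M) : GL (Fin 2) (Lp D.M p) :=
  compGL p (Matrix.GeneralLinearGroup.map (toAF D.M) δ)

/-- Integrality of a pair of classes, and of the discriminant, at `p`. -/
def IsGoodAt (p : Nat.Primes) (γ : GL (Fin 2) D.E) (δ : GL (Fin 2) D.M) : Prop :=
  gammaAt D p γ ∈ congrGroup (φp D.E p) 1 ∧ deltaAt D p δ ∈ congrGroup (φp D.M p) 1 ∧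
    ∃ o : (Op D.E p)ˣ, φp D.E p o = (gammaAt D p γ).1.trace ^ 2 - 4 * (gammaAt D p γ).1.det

/-- Nothing happens at `p`. -/
def IsIdle (R : Finset Nat.Primes) (N' : ℕ) (V : List (Ideal (𝓞 D.M))) (p : Nat.Primes) : Prop :=
  p ∉ R ∧ ¬ (p : ℕ) ∣ N' ∧ ∀ w ∈ V, ((p : ℕ) : 𝓞 D.M) ∉ w

variable {σ : D.M ≃ₐ[ℚ] D.M}

/-- The comparison at one prime. -/
structure PrimeData (h : CubicData D.incl σ.toRingEquiv) (R : Finset Nat.Primes)
    (N₀ N₁ N N' : ℕ) (c : Nat.Primes → ℝ) (A W B : List (Ideal (𝓞 D.M))) (γ : GL (Fin 2) D.E)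
    (p : Nat.Primes) : Type where
  Q : PlainLocal (primeC R c p) (fun x : LocPt D.E N p => gammaAt D p γ • x)
    (locDesc N p (A ++ W ++ B)) (corrKer N p A W B)
    ((h.localCubic (p : ℕ)).commPairs (N : Op D.E p) (N' : Op D.M p) (gammaAt D p γ))
    (IsDiagMat γ) ((h.localCubic (p : ℕ)).IsNormAt (gammaAt D p γ))
    (fun x => locHeight p x.out)
  idle : IsIdle D R N' (A ++ W ++ B) p → (∀ x, Q.proj x = x) ∧ ∀ x, Q.dE x = 0
  finite_word : ∀ ws : List (Ideal (𝓞 D.E)), (∀ v ∈ ws, ∃ w ∈ A ++ W ++ B, v = D.under w) →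
    ∀ z, {x | Q.proj x = z ∧ locWord N p ws x (gammaAt D p γ • x) ≠ 0}.Finite
  twist : ∀ δ, IsNormOf D σ γ δ →
    ∃ T : TwistLocal Q
      ((h.localCubic (p : ℕ)).twMap (N' : Op D.M p) (deltaAt D p δ))
      (twistedLocKer h R N₀ N₁ N' (A ++ W ++ B) p) (fun v => locHeight p v.out),
      IsIdle D R N' (A ++ W ++ B) p → (∀ v, T.dM v = 0) ∧ (IsGoodAt D p γ δ → ∀ i,
        T.q i ((1 : GL (Fin 2) (Lp D.M p)) : LocPt D.M N' p) =
          ((1 : GL (Fin 2) (Lp D.E p)) : LocPt D.E N p))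

/-- What the levels provide and the primes need. -/
structure LevelFacts (h : CubicData D.incl σ.toRingEquiv) (R : Finset Nat.Primes)
    (N₀ N₁ N N' : ℕ) (c : Nat.Primes → ℝ) : Prop where
  ne_zero : N' ≠ 0
  dvd : N ∣ N'
  dvd₀ : N₀ ∣ N'
  mem : ∀ p ∈ R, (p : ℕ) ∣ N'
  ram : ∀ p ∈ R, IsRamifiedPlace h p N₀ N₁ N N' (c p)
  inertia : ∀ p ∉ R, ∀ w : Ideal (𝓞 D.M), w.IsPrime → ((p : ℕ) : 𝓞 D.M) ∈ w →
    (∃ a : 𝓞 D.M, a - RingOfIntegers.mapRingHom σ.toRingEquiv.toRingHom a ∉ w) ∧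
    ∃ a : 𝓞 D.M, a - RingOfIntegers.mapRingHom σ.toRingEquiv.toRingHom
      (RingOfIntegers.mapRingHom σ.toRingEquiv.toRingHom a) ∉ w
  split : ∀ p ∉ R, (p : ℕ) ∣ N' → N = N' ∧ ∀ w : Ideal (𝓞 D.M), w.IsPrime →
    ((p : ℕ) : 𝓞 D.M) ∈ w →
      w.map (RingOfIntegers.mapRingHom σ.toRingEquiv.toRingHom) ≠ w ∧
        Ideal.absNorm w = Ideal.absNorm (D.under w)

/-- The comparison at every prime. -/
def PrimeTransferSpec : Prop :=
  ∀ (D : Datum) (_ : ExtPlaces D) (σ : D.M ≃ₐ[ℚ] D.M) (h : CubicData D.incl σ.toRingEquiv)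
    (R : Finset Nat.Primes) (N₀ N₁ N N' : ℕ) (c : Nat.Primes → ℝ),
    σ ≠ AlgEquiv.refl → (∀ x, σ (D.incl x) = D.incl x) →
    LevelFacts D h R N₀ N₁ N N' c →
    ∀ A W B : List (Ideal (𝓞 D.M)), (∀ w ∈ A ++ W ++ B, D.TestOK N' w) →
      (∀ w ∈ A ++ B, D.DegreeOne w) → (∀ w ∈ W, D.DegreeThree w → W.count w ≤ 1) →
      ∀ γ : GL (Fin 2) D.E, IsRegularMat D γ → ∀ p : Nat.Primes,
        Nonempty (PrimeData D h R N₀ N₁ N N' c A W B γ p)

end FLTAgent.LanglandsTunnell.Local
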