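import Fermat.Agent.LanglandsTunnell.Local.CornerLift

/-!
# The three coordinates of a split cubic setting

At a split idempotent (`IsSplitIdem`) the extension is three copies of the ground: the coordinates
`coord`, `gl`, `pts` identify points with triples, and heights add up (`height_sum`).
-/

set_option autoImplicit false
set_option linter.unusedSectionVars false

noncomputable section

namespace FLTAgent.LanglandsTunnell.Local

open Matrix

/-- An idempotent whose three translates are complete and orthogonal. -/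
structure LocalCubic.IsSplitIdem {OE LE OM LM : Type} [CommRing OE] [CommRing LE] [CommRing OM]
    [CommRing LM] (S : LocalCubic OE LE OM LM) (η : OM) : Prop where
  complete : CompleteOrthogonalIdempotents ![η, S.σO η, S.σO (S.σO η)]

namespace LocalCubic

variable {OE LE OM LM : Type} [CommRing OE] [CommRing LE] [CommRing OM] [CommRing LM]
  (S : LocalCubic OE LE OM LM)

/-- The idempotent of the coordinate `i`: `σ` moves `i + 1` to `i`. -/
def eta (η : OM) : Fin 3 → OM := ![η, S.σO (S.σO η), S.σO η]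

theorem σO_eta (η : OM) (i : Fin 3) : S.σO (S.eta η (i + 1)) = S.eta η i := by
  fin_cases i <;> simp [eta, S.σO_three, show (0 : Fin 3) + 1 = 1 from rfl,
    show (1 : Fin 3) + 1 = 2 from rfl, show (2 : Fin 3) + 1 = 0 from rfl]

variable {S} {η : OM} (hη : S.IsSplitIdem η)
include hη

theorem IsSplitIdem.eta_complete : CompleteOrthogonalIdempotents (S.eta η) := by
  have h := CompleteOrthogonalIdempotents.equiv (Equiv.swap (1 : Fin 3) 2) |>.mpr hη.complete
  convert h using 1
  funext i
  fin_cases i <;> simp [eta, Equiv.swap_apply_def]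

theorem IsSplitIdem.etaL_complete : CompleteOrthogonalIdempotents fun i => S.φM (S.eta η i) :=
  hη.eta_complete.map S.φM

/-- The trace of the `i`-th part. -/
theorem IsSplitIdem.exists_coord (i : Fin 3) (x : LM) :
    ∃ a, S.j a = S.φM (S.eta η i) * x + S.σ (S.φM (S.eta η i) * x) +
      S.σ (S.σ (S.φM (S.eta η i) * x)) :=
  S.fixed _ (by rw [map_add, map_add, S.σ_three]; ring)

theorem IsSplitIdem.exists_coordO (i : Fin 3) (x : OM) :
    ∃ a, S.jO a = S.eta η i * x + S.σO (S.eta η i * x) + S.σO (S.σO (S.eta η i * x)) :=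
  S.fixedO _ (by rw [map_add, map_add, S.σO_three]; ring)

theorem IsSplitIdem.σ_etaL (i : Fin 3) : S.σ (S.φM (S.eta η (i + 1))) = S.φM (S.eta η i) := by
  rw [← S.comm_σ, S.σO_eta]

/-- The `i`-th coordinate, as a function. -/
def IsSplitIdem.coordFn (i : Fin 3) (x : LM) : LE := (hη.exists_coord i x).choose

theorem IsSplitIdem.coordFn_spec (i : Fin 3) (x : LM) :
    S.φM (S.eta η i) * S.j (hη.coordFn i x) = S.φM (S.eta η i) * x := by
  rw [coordFn, (hη.exists_coord i x).choose_spec]
  have h := hη.etaL_complete.toOrthogonalIdempotents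
  have hs : S.σ (S.φM (S.eta η i)) = S.φM (S.eta η (i + 2)) := by
    have := hη.σ_etaL (i + 2)
    rwa [add_assoc, show (2 : Fin 3) + 1 = 0 from rfl, add_zero] at this
  have hs2 : S.σ (S.σ (S.φM (S.eta η i))) = S.φM (S.eta η (i + 1)) := by
    conv_lhs => rw [← hη.σ_etaL i]
    rw [S.σ_three]
  have o1 : S.φM (S.eta η i) * S.φM (S.eta η (i + 2)) = 0 := h.ortho (by fin_cases i <;> decide)
  have o2 : S.φM (S.eta η i) * S.φM (S.eta η (i + 1)) = 0 := h.ortho (by fin_cases i <;> decide)
  rw [map_mul, map_mul, hs2, hs]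
  linear_combination x * (h.idem i).eq + S.σ x * o1 + S.σ (S.σ x) * o2

theorem IsSplitIdem.σ_sum_eta (i : Fin 3) :
    S.φM (S.eta η i) + S.σ (S.φM (S.eta η i)) + S.σ (S.σ (S.φM (S.eta η i))) = 1 := by
  have h2 : S.σ (S.φM (S.eta η i)) = S.φM (S.eta η (i + 2)) := by
    have := hη.σ_etaL (i + 2)
    rwa [add_assoc, show (2 : Fin 3) + 1 = 0 from rfl, add_zero] at this
  have h1 : S.σ (S.σ (S.φM (S.eta η i))) = S.φM (S.eta η (i + 1)) := by
    conv_lhs => rw [← hη.σ_etaL i]
    rw [S.σ_three]
  rw [h1, h2, ← hη.etaL_complete.complete, Fin.sum_univ_three]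
  fin_cases i <;> simp [show (0 : Fin 3) + 1 = 1 from rfl, show (1 : Fin 3) + 1 = 2 from rfl,
    show (2 : Fin 3) + 1 = 0 from rfl, show (0 : Fin 3) + 2 = 2 from rfl,
    show (1 : Fin 3) + 2 = 0 from rfl, show (2 : Fin 3) + 2 = 1 from rfl] <;> ring

theorem IsSplitIdem.coord_unique (i : Fin 3) {a : LE} {x : LM}
    (h : S.φM (S.eta η i) * S.j a = S.φM (S.eta η i) * x) : hη.coordFn i x = a := by
  refine S.j_inj ?_
  set e := S.φM (S.eta η i)
  set b := S.j (hη.coordFn i x)
  set c := S.j a
  have h' : e * b = e * c := (hη.coordFn_spec i x).trans h.symm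
  have h1 := congrArg S.σ h'
  have h2 := congrArg S.σ h1
  simp only [map_mul, b, c, S.σ_j] at h1 h2
  linear_combination h' + h1 + h2 - (b - c) * hη.σ_sum_eta i

/-- The `i`-th coordinate. -/
def IsSplitIdem.coord (i : Fin 3) : LM →+* LE where
  toFun := hη.coordFn i
  map_one' := hη.coord_unique i (by rw [map_one])
  map_mul' x y := hη.coord_unique i (by
    rw [map_mul, ← mul_assoc, hη.coordFn_spec, mul_right_comm, hη.coordFn_spec]; ring)
  map_zero' := hη.coord_unique i (by rw [map_zero])
  map_add' x y := hη.coord_unique i (by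
    rw [map_add, mul_add, mul_add, hη.coordFn_spec, hη.coordFn_spec])

theorem IsSplitIdem.eta_mul_coord (i : Fin 3) (x : LM) :
    S.φM (S.eta η i) * S.j (hη.coord i x) = S.φM (S.eta η i) * x := hη.coordFn_spec i x

theorem IsSplitIdem.coord_j (i : Fin 3) (a : LE) : hη.coord i (S.j a) = a :=
  hη.coord_unique i rfl

theorem IsSplitIdem.coord_σ (i : Fin 3) (x : LM) :
    hη.coord i (S.σ x) = hη.coord (i + 1) x := by
  refine hη.coord_unique i ?_
  have := congrArg S.σ (hη.eta_mul_coord (i + 1) x)
  rwa [map_mul, map_mul, hη.σ_etaL, S.σ_j] at this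

theorem IsSplitIdem.coord_eta (i l : Fin 3) :
    hη.coord i (S.φM (S.eta η l)) = if i = l then 1 else 0 := by
  refine hη.coord_unique i ?_
  by_cases h : i = l
  · subst h; rw [if_pos rfl, map_one, mul_one, (hη.etaL_complete.idem i).eq]
  · rw [if_neg h, map_zero, mul_zero, hη.etaL_complete.ortho h]

/-- Elements with the same coordinates agree. -/
theorem IsSplitIdem.coord_ext {x y : LM} (h : ∀ i, hη.coord i x = hη.coord i y) : x = y := by
  have key : ∀ x : LM, x = ∑ i, S.φM (S.eta η i) * S.j (hη.coord i x) := fun x => by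
    simp only [hη.eta_mul_coord, ← Finset.sum_mul, hη.etaL_complete.complete, one_mul]
  rw [key x, key y]
  exact Finset.sum_congr rfl fun i _ => by rw [h]

theorem IsSplitIdem.coord_sum (a : Fin 3 → LE) (i : Fin 3) :
    hη.coord i (∑ l, S.φM (S.eta η l) * S.j (a l)) = a i := by
  simp [map_sum, map_mul, hη.coord_eta, hη.coord_j]

theorem IsSplitIdem.exists_coord_φ (i : Fin 3) (x : OM) :
    ∃ a, S.φE a = hη.coord i (S.φM x) := by
  obtain ⟨a, ha⟩ := hη.exists_coordO i x
  refine ⟨a, (hη.coord_unique i ?_).symm⟩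
  rw [← S.comm_j, ha, map_add, map_add, S.comm_σ, S.comm_σ, S.comm_σ, map_mul]
  have h := hη.coordFn_spec i (S.φM x)
  rw [coordFn, (hη.exists_coord i (S.φM x)).choose_spec] at h
  exact h

/-- The integral coordinate. -/
def IsSplitIdem.coordO (i : Fin 3) : OM →+* OE where
  toFun x := (hη.exists_coord_φ i x).choose
  map_one' := S.φE_inj (by rw [(hη.exists_coord_φ i 1).choose_spec, map_one, map_one, map_one])
  map_mul' x y := S.φE_inj (by
    rw [(hη.exists_coord_φ i _).choose_spec, map_mul, map_mul, map_mul,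
      (hη.exists_coord_φ i _).choose_spec, (hη.exists_coord_φ i _).choose_spec])
  map_zero' := S.φE_inj (by rw [(hη.exists_coord_φ i 0).choose_spec, map_zero, map_zero, map_zero])
  map_add' x y := S.φE_inj (by
    rw [(hη.exists_coord_φ i _).choose_spec, map_add, map_add, map_add,
      (hη.exists_coord_φ i _).choose_spec, (hη.exists_coord_φ i _).choose_spec])

theorem IsSplitIdem.φE_coordO (i : Fin 3) (x : OM) :
    S.φE (hη.coordO i x) = hη.coord i (S.φM x) := (hη.exists_coord_φ i x).choose_spec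

theorem IsSplitIdem.coordO_jO (i : Fin 3) (a : OE) : hη.coordO i (S.jO a) = a :=
  S.φE_inj (by rw [hη.φE_coordO, S.comm_j, hη.coord_j])

theorem IsSplitIdem.coordO_eta (i l : Fin 3) :
    hη.coordO i (S.eta η l) = if i = l then 1 else 0 :=
  S.φE_inj (by rw [hη.φE_coordO, hη.coord_eta, apply_ite S.φE, map_one, map_zero])

theorem IsSplitIdem.coordO_sum (a : Fin 3 → OE) (i : Fin 3) :
    hη.coordO i (∑ l, S.eta η l * S.jO (a l)) = a i := by
  simp [map_sum, map_mul, hη.coordO_eta, hη.coordO_jO]

/-! ### Matrices and points -/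

/-- The `i`-th coordinate of an invertible matrix. -/
def IsSplitIdem.gl (i : Fin 3) : GL (Fin 2) LM →* GL (Fin 2) LE :=
  GeneralLinearGroup.map (hη.coord i)

theorem IsSplitIdem.gl_ι (i : Fin 3) (g : GL (Fin 2) LE) : hη.gl i (S.ι g) = g :=
  Units.ext (Matrix.ext fun _ _ => hη.coord_j i _)

theorem IsSplitIdem.gl_θ (i : Fin 3) (g : GL (Fin 2) LM) : hη.gl i (S.θ g) = hη.gl (i + 1) g :=
  Units.ext (Matrix.ext fun _ _ => hη.coord_σ i _)

theorem IsSplitIdem.gl_ext {g h : GL (Fin 2) LM} (he : ∀ i, hη.gl i g = hη.gl i h) : g = h :=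
  Units.ext (Matrix.ext fun r c => hη.coord_ext fun i =>
    congrArg (fun m : GL (Fin 2) LE => m.1 r c) (he i))

/-- A matrix with given coordinates. -/
theorem IsSplitIdem.gl_exists (x : Fin 3 → GL (Fin 2) LE) : ∃ g, ∀ i, hη.gl i g = x i := by
  let mat : (Fin 3 → Matrix (Fin 2) (Fin 2) LE) → Matrix (Fin 2) (Fin 2) LM := fun X =>
    Matrix.of fun r c => ∑ l, S.φM (S.eta η l) * S.j (X l r c)
  have hm : ∀ X i, (mat X).map (hη.coord i) = X i := fun X i =>
    Matrix.ext fun r c => hη.coord_sum (fun l => X l r c) i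
  have h1 : ∀ X Y : Fin 3 → Matrix (Fin 2) (Fin 2) LE, (∀ i, X i * Y i = 1) → mat X * mat Y = 1 :=
    fun X Y h => Matrix.ext fun r c => hη.coord_ext fun i => by
      have := congrFun (congrFun (Matrix.map_mul (L := mat X) (M := mat Y) (f := hη.coord i)) r) c
      rw [Matrix.map_apply, hm, hm, h] at this
      rw [this]
      simp [Matrix.one_apply, apply_ite (hη.coord i)]
  refine ⟨⟨mat fun i => (x i).1, mat fun i => ((x i)⁻¹).1, h1 _ _ fun i => (x i).mul_inv,
    h1 _ _ fun i => (x i).inv_mul⟩, fun i => Units.ext (hm (fun l => (x l).1) i)⟩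

theorem IsSplitIdem.gl_scalar (i : Fin 3) (u : LMˣ) :
    hη.gl i (GeneralLinearGroup.scalar (Fin 2) u) =
      GeneralLinearGroup.scalar (Fin 2) (Units.map (hη.coord i).toMonoidHom u) :=
  GeneralLinearGroup.map_scalar _ _

theorem IsSplitIdem.gl_mem_congrGroup {n : OE} {g : GL (Fin 2) LM}
    (hg : g ∈ congrGroup S.φM (S.jO n)) (i : Fin 3) : hη.gl i g ∈ congrGroup S.φE n := by
  have key : ∀ g : GL (Fin 2) LM, InCongr S.φM (S.jO n) g.1 → InCongr S.φE n (hη.gl i g).1 :=
    fun g hg => by
      obtain ⟨Y, ⟨X, rfl⟩, h⟩ := hg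
      refine ⟨1 + n • X.map (hη.coordO i), ⟨_, rfl⟩, Matrix.ext fun r c => ?_⟩
      show S.φE _ = hη.coord i (g.1 r c)
      rw [← h, Matrix.map_apply, ← hη.φE_coordO]
      simp [Matrix.one_apply, apply_ite (hη.coordO i), hη.coordO_jO]
  exact ⟨key g hg.1, by rw [← map_inv]; exact key _ hg.2⟩

theorem IsSplitIdem.mem_congrGroup {n : OE} {g : GL (Fin 2) LM}
    (hg : ∀ i, hη.gl i g ∈ congrGroup S.φE n) : g ∈ congrGroup S.φM (S.jO n) := by
  have key : ∀ g : GL (Fin 2) LM, (∀ i, InCongr S.φE n (hη.gl i g).1) →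
      InCongr S.φM (S.jO n) g.1 := fun g hg => by
    choose Y hY h using hg
    choose X hX using hY
    refine ⟨1 + S.jO n • Matrix.of fun r c => ∑ l, S.eta η l * S.jO (X l r c), ⟨_, rfl⟩,
      Matrix.ext fun r c => hη.coord_ext fun i => ?_⟩
    rw [Matrix.map_apply, ← hη.φE_coordO]
    refine Eq.trans (congrArg S.φE ?_) (congrFun (congrFun (h i) r) c)
    rw [hX i]
    simp [Matrix.one_apply, apply_ite (hη.coordO i), hη.coordO_jO, hη.coordO_sum]
  exact ⟨key g fun i => (hg i).1, key g⁻¹ fun i => by rw [map_inv]; exact (hg i).2⟩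

theorem IsSplitIdem.mem_levelK_iff {n : OE} {g : GL (Fin 2) LM} :
    g ∈ levelK S.φM (S.jO n) ↔ ∀ i, hη.gl i g ∈ levelK S.φE n := by
  constructor
  · intro hg i
    obtain ⟨u, k, hk, rfl⟩ := mem_levelK.mp hg
    rw [map_mul, hη.gl_scalar]
    exact mem_levelK.mpr ⟨_, _, hη.gl_mem_congrGroup hk i, rfl⟩
  · intro hg
    choose u k hk hgk using fun i => mem_levelK.mp (hg i)
    obtain ⟨z, hz⟩ := hη.gl_exists fun i => GeneralLinearGroup.scalar (Fin 2) (u i)
    have hzc : z ∈ Subgroup.center (GL (Fin 2) LM) := Subgroup.mem_center_iff.mpr fun b =>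
      hη.gl_ext fun i => by
        rw [map_mul, map_mul, hz]
        exact Subgroup.mem_center_iff.mp (scalar_mem_center _) _
    rw [show g = z * (z⁻¹ * g) by group]
    refine mul_mem (le_sup_right (a := congrGroup S.φM (S.jO n)) hzc)
      (le_sup_left (b := Subgroup.center _) (hη.mem_congrGroup fun i => ?_))
    rw [map_mul, map_inv, hz, hgk, inv_mul_cancel_left]
    exact hk i

/-- A point is its three coordinates. -/
def IsSplitIdem.pts (n : OE) : QPt S.φM (S.jO n) ≃ (Fin 3 → QPt S.φE n) :=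
  Equiv.ofBijective (fun v i => Quotient.map' (hη.gl i) (fun g h hgh => by
      rw [QuotientGroup.leftRel_apply] at hgh ⊢
      rw [← map_inv, ← map_mul]
      exact hη.mem_levelK_iff.mp hgh i) v)
    ⟨fun v v' h => by
      induction v using QuotientGroup.induction_on with
      | H g =>
        induction v' using QuotientGroup.induction_on with
        | H g' =>
          refine QuotientGroup.eq.mpr (hη.mem_levelK_iff.mpr fun i => ?_)
          rw [map_mul, map_inv]
          exact QuotientGroup.eq.mp (congrFun h i),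
    fun x => by
      choose g hg using fun i => QuotientGroup.mk_surjective (x i)
      obtain ⟨G, hG⟩ := hη.gl_exists g
      exact ⟨G, funext fun i => (congrArg QuotientGroup.mk (hG i)).trans (hg i)⟩⟩

theorem IsSplitIdem.pts_mk (n : OE) (g : GL (Fin 2) LM) (i : Fin 3) :
    hη.pts n (g : QPt S.φM (S.jO n)) i = (hη.gl i g : QPt S.φE n) := rfl

theorem IsSplitIdem.pts_ι_smul (n : OE) (c : GL (Fin 2) LE) (v : QPt S.φM (S.jO n)) (i : Fin 3) :
    hη.pts n (S.ι c • v) i = c • hη.pts n v i := by
  induction v using QuotientGroup.induction_on with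
  | H g =>
    rw [MulAction.Quotient.smul_coe, hη.pts_mk, hη.pts_mk, MulAction.Quotient.smul_coe,
      smul_eq_mul, smul_eq_mul, map_mul, hη.gl_ι]

theorem IsSplitIdem.pts_twMap (n : OE) (δ : GL (Fin 2) LM) (v : QPt S.φM (S.jO n)) (i : Fin 3) :
    hη.pts n (S.twMap (S.jO n) δ v) i = hη.gl i δ • hη.pts n v (i + 1) := by
  induction v using QuotientGroup.induction_on with
  | H g =>
    rw [S.twMap_mk (S.σO_jO n), hη.pts_mk, hη.pts_mk, MulAction.Quotient.smul_coe, smul_eq_mul,
      map_mul, hη.gl_θ]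

/-- The height of an extension point is the sum over the coordinates. -/
theorem IsSplitIdem.height_sum {hE : GL (Fin 2) LE → ℝ} {hM : GL (Fin 2) LM → ℝ}
    (H : S.IsHeightPair hE hM) (g : GL (Fin 2) LM) : hM g = ∑ i, hE (hη.gl i g) := by
  have hsum := height_eq_sum S.φM hM H.oneM H.exchange hη.eta_complete
  choose single hsingle using fun (i : Fin 3) (x : GL (Fin 2) LE) =>
    hη.gl_exists (Function.update (fun _ => 1) i x)
  have hcs : ∀ (i : Fin 3) (g : GL (Fin 2) LM),
      clift ((hη.eta_complete.idem i).map S.φM) (cgl (S.φM (S.eta η i)) g) =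
        single i (hη.gl i g) := by
    intro i g
    refine hη.gl_ext fun l => ?_
    rw [hsingle]
    refine Units.ext (Matrix.ext fun r c => ?_)
    have e1 := congrArg (hη.coord l)
      (mul_clift ((hη.eta_complete.idem i).map S.φM) (cgl (S.φM (S.eta η i)) g) r c
        (a := g.1 r c) rfl)
    have e2 := congrArg (hη.coord l)
      (clift_rest ((hη.eta_complete.idem i).map S.φM) (cgl (S.φM (S.eta η i)) g) r c)
    simp only [map_mul, map_sub, map_one, hη.coord_eta] at e1 e2
    by_cases hli : l = i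
    · subst hli
      rw [Function.update_self]
      simpa [gl] using e1
    · rw [Function.update_of_ne hli]
      simpa [gl, hli, Matrix.one_apply, apply_ite (hη.coord l)] using e2
  have hshift : ∀ (i : Fin 3) (x : GL (Fin 2) LE), hM (single (i + 1) x) = hM (single i x) := by
    intro i x
    rw [← H.twist (single (i + 1) x)]
    refine congrArg hM (hη.gl_ext fun l => ?_)
    rw [hη.gl_θ, hsingle, hsingle]
    simp [Function.update_apply]
  have hall : ∀ (i : Fin 3) (x : GL (Fin 2) LE), hM (single i x) = hM (single 0 x) := by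
    intro i x
    have h0 := hshift 0 x
    have h1 := hshift 1 x
    rw [show (0 : Fin 3) + 1 = 1 from rfl] at h0
    rw [show (1 : Fin 3) + 1 = 2 from rfl] at h1
    fin_cases i
    · rfl
    · exact h0
    · exact h1.trans h0
  have hid : ∀ x, hM (single 0 x) = hE x := fun x => by
    have h3 := hsum (S.ι x)
    rw [H.incl] at h3
    simp only [cornerHeight, hcs, hη.gl_ι, hall, Finset.sum_const, Finset.card_univ,
      Fintype.card_fin, nsmul_eq_mul, Nat.cast_ofNat] at h3
    linarith
  rw [hsum g]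
  exact Finset.sum_congr rfl fun i _ => by rw [cornerHeight, hcs, hall, hid]

end LocalCubic

end FLTAgent.LanglandsTunnell.Local
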